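/-
Programme MP (row 38 via S44), chapter HECKE (helper5): **the interface of steps (A), (B), (D)**.

Levels: `p = P.p` the Frey prime (`p ≥ 5`), `N` a conductor level with `p ∣ N`, `M' = N / p`,
`M'' = lcm(M', 4)`, `r` an auxiliary prime, `M₀ = M'' * r` (`4 ∣ M₀`, `p ∤ M₀`) and the level
`M₀ * p` of the ORD datum `MainDatum6.datum`.

* `alphaPull`, `betaPull : JZero M₀ →+ JZero (M₀ * q)` : the two degeneracy pull-backs `α_q^*`,
  `β_q^*` (`Pic⁰`-pull-back along the Prelude's `heckeAlphaBar`, `heckeBetaBar`; twins of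
  `PushO12.alphaPush`, `betaPush`);
* `Old q M₀ : AddSubgroup (JZero (M₀ * q))` : the `q`-old subgroup `α_q^* J₀(M₀) + β_q^* J₀(M₀)`
  (ALL `ℚ̄`-points, not only torsion);
* `HeckeOut P M₀ K Wf` : the package consumed by `MP/FINAL/Iface6.false_of_tau_inputs` at level
  `M₀ * p` (`K` = kernel of reduction, `Wf` = the Fricke operator on `JZero (M₀ * p)`):
  a copy `V ⊂ J₀(M₀ p)[p]` of the `p`-torsion of the Frey curve (Galois equivariant isomorphism
  `e`), fixed by `Wf`, and an operator `Ξ` which is a unit scalar on `V`, maps the `p`-old subgroup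
  into `K` and preserves `K`.
* `HeckeMain` : the statement of the chapter.
-/
import Mathlib
import Fermat.Prelude.Def_FLTPrelim_ModularRep
import Fermat.Prelude.Def_FreyPackage_IsConductorLevel
import Fermat.Agent.ES.N35.PushO12
import Fermat.Agent.ES.HECKE.InputsMain19
import Fermat.Agent.ES.HECKE.LevelPullback12
import Fermat.Agent.MP.PEU.Iface4

set_option autoImplicit false
set_option linter.unusedSectionVars false
set_option linter.style.longLine false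

namespace Fermat.Agent.MP.HECKE.Iface5

open AlgebraicCurve ModularCurve
open Fermat.Agent.ES.HECKE Fermat.Agent.ES.HECKE.LevelPullback12
open Fermat.Agent.FF.BASE.Place2 Fermat.Agent.TW.FLAT.FlatModule6
open Fermat.Agent.MP.PEU.Iface4

noncomputable section

section Level

variable {M₀ q : ℕ} [NeZero M₀] [NeZero q]

/-- `α_q^* : J₀(M₀) → J₀(M₀ q)` (`α` = the inclusion `Fbar M₀ ⊆ Fbar (M₀ q)`). -/
def alphaPull (hq : q.Prime) (hqM : ¬ q ∣ M₀) : JZero M₀ →+ JZero (M₀ * q) :=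
  haveI := InputsMain19.hasPrincipalDivisors_level M₀ q
  pic0PullbackAlong (heckeAlphaBar Qb M₀ q)
    (AlongDegree25.heckeAlphaBarIntegral Qb M₀ q hq hqM)
    (InputsMain19.fundamentalIdentityAlong_alpha M₀ q hq hqM)

/-- `β_q^* : J₀(M₀) → J₀(M₀ q)` (`β` = `𝐪 ↦ 𝐪^q`, `Fbar M₀ → Fbar (M₀ q)`). -/
def betaPull (hq : q.Prime) (hqM : ¬ q ∣ M₀) : JZero M₀ →+ JZero (M₀ * q) :=
  haveI := InputsMain19.hasPrincipalDivisors_level M₀ q
  pic0PullbackAlong (heckeBetaBar Qb M₀ q)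
    (AlongDegree25.heckeBetaBarIntegral Qb M₀ q hq hqM)
    (InputsMain19.fundamentalIdentityAlong_beta M₀ q hq hqM)

/-- the `q`-old subgroup of `J₀(M₀ q)(ℚ̄)`. -/
def Old (hq : q.Prime) (hqM : ¬ q ∣ M₀) : AddSubgroup (JZero (M₀ * q)) :=
  (alphaPull hq hqM).range ⊔ (betaPull hq hqM).range

theorem alphaPull_mem_old (hq : q.Prime) (hqM : ¬ q ∣ M₀) (u : JZero M₀) :
    alphaPull hq hqM u ∈ Old hq hqM :=
  AddSubgroup.mem_sup_left ⟨u, rfl⟩

theorem betaPull_mem_old (hq : q.Prime) (hqM : ¬ q ∣ M₀) (u : JZero M₀) :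
    betaPull hq hqM u ∈ Old hq hqM :=
  AddSubgroup.mem_sup_right ⟨u, rfl⟩

theorem mem_old_iff (hq : q.Prime) (hqM : ¬ q ∣ M₀) (a : JZero (M₀ * q)) :
    a ∈ Old hq hqM ↔ ∃ u w : JZero M₀, a = alphaPull hq hqM u + betaPull hq hqM w := by
  constructor
  · intro h
    obtain ⟨x, ⟨u, rfl⟩, y, ⟨w, rfl⟩, rfl⟩ := AddSubgroup.mem_sup.mp h
    exact ⟨u, w, rfl⟩
  · rintro ⟨u, w, rfl⟩
    exact (Old hq hqM).add_mem (alphaPull_mem_old hq hqM u) (betaPull_mem_old hq hqM w)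

end Level

/-- **The output of chapter HECKE** at the level `M₀ * p` (`p = P.p`), relative to a subgroup `K`
(the kernel of reduction of the ORD datum) and an operator `Wf` (the Fricke involution on
`J₀(M₀ p)`). -/
def HeckeOut (P : FreyPackage) (M₀ : ℕ) [NeZero M₀] [NeZero P.p] (hpM : ¬ P.p ∣ M₀)
    (K : AddSubgroup (JZero (M₀ * P.p))) (Wf : JZero (M₀ * P.p) → JZero (M₀ * P.p)) : Prop :=
  ∃ (V : AddSubgroup (JZero (M₀ * P.p))) (e : Tors P ≃+ V)
    (Ξ : JZero (M₀ * P.p) →+ JZero (M₀ * P.p)) (u : ℤ),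
    -- (B) `V ≅ E[p]`, Galois equivariantly
    (∀ (σ : GQ) (x : Tors P), ((e (σ • x) : V) : JZero (M₀ * P.p)) = σ • ((e x : V) : JZero (M₀ * P.p))) ∧
    -- (A), (D) the operator `Ξ`
    IsCoprime u (P.p : ℤ) ∧ (∀ y ∈ V, Ξ y = u • y) ∧
    (∀ a ∈ Old P.pp hpM, Ξ a ∈ K) ∧ (∀ c ∈ K, Ξ c ∈ K) ∧
    -- the `W`-eigen choice
    (∀ y ∈ V, Wf y = y)

end

end Fermat.Agent.MP.HECKE.Iface5
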