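/-
Programme MP (row 38 via S44), chapter HECKE (helper5): **the vocabulary of maps on `J₀`** used by
the identities (PicId) and by the assembly (Xi5/Main5).

For ANY finite `ℚ̄`-embedding `φ : Fbar N₁ →ₐ[ℚ̄] Fbar N₂` (`hfin : FiniteAlong ℚ̄ φ`; all other
inputs — integrality, fundamental identity, norm formula — are derived):
* `pullOf φ hfin : JZero N₁ →+ JZero N₂`   (`Pic⁰`-pull-back, `LevelPullback12.pic0PullbackAlong`);
* `pushOf φ hfin : JZero N₂ →+ JZero N₁`   (`Pic⁰`-push-forward, `PushO12.pic0PushAlong`);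
* `pullOf_mk`, `pushOf_mk` : the formulas on classes of degree-zero divisors;
* `pullOf_smul`, `pushOf_smul` : `G_ℚ`-equivariance when `φ` commutes with the coefficientwise Galois
  action (true for every `IsAlpha`/`IsBeta d` map, `galComm_of_isAlpha`, `galComm_of_isBeta`);
* `Iface5.alphaPull = pullOf (heckeAlphaBar …)`, `PushO12.alphaPush = pushOf (heckeAlphaBar …)` etc.
-/
import Mathlib
import Fermat.Agent.MP.HECKE.Iface5
import Fermat.Agent.MP.FUNC.FrickeDeg1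
import Fermat.Agent.ES.HECKE.HeckeGalois12
import Fermat.Agent.ES.RED.PullbackInj12
import Fermat.Agent.ES.HECKE.NormFormula15
import Fermat.Agent.ES.HECKE.FundId12

set_option autoImplicit false
set_option linter.unusedSectionVars false
set_option linter.style.longLine false
set_option synthInstance.maxHeartbeats 400000

namespace Fermat.Agent.MP.HECKE.Maps5

open AlgebraicCurve ModularCurve
open Fermat.Agent.X0 Fermat.Agent.RED.TOP
open Fermat.Agent.ES.HECKE Fermat.Agent.ES.HECKE.LevelPullback12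
open Fermat.Agent.MP.FUNC.FrickeDeg1

noncomputable section

variable {N₁ N₂ : ℕ} [NeZero N₁] [NeZero N₂]

theorem isIntegral_of_fin (φ : FF N₁ →ₐ[Kbar] FF N₂) (hfin : FiniteAlong Kbar φ) :
    φ.toRingHom.IsIntegral :=
  AlongDegree25.isIntegral_of_finiteAlong φ hfin

theorem fundId_of_fin (φ : FF N₁ →ₐ[Kbar] FF N₂) (hfin : FiniteAlong Kbar φ) :
    haveI := FbarFacts20.hasPrincipalDivisors_bar N₂
    FundamentalIdentityAlong Kbar φ (isIntegral_of_fin φ hfin) :=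
  haveI := FbarFacts20.hasPrincipalDivisors_bar N₂
  FundId12.fundamentalIdentityAlong φ (isIntegral_of_fin φ hfin) hfin (FbarFacts20.isGen_j N₁)

theorem normFormula_of_fin (φ : FF N₁ →ₐ[Kbar] FF N₂) (hfin : FiniteAlong Kbar φ) :
    NormFormulaAlong Kbar φ hfin :=
  NormFormula15.normFormulaAlong_of_isGen φ hfin (FbarFacts20.isGen_j N₂)

/-- **pull-back** `φ^* : J₀(N₁) → J₀(N₂)` along a finite embedding. -/
def pullOf (φ : FF N₁ →ₐ[Kbar] FF N₂) (hfin : FiniteAlong Kbar φ) : JZero N₁ →+ JZero N₂ :=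
  haveI := FbarFacts20.hasPrincipalDivisors_bar N₂
  pic0PullbackAlong φ (isIntegral_of_fin φ hfin) (fundId_of_fin φ hfin)

/-- **push-forward** `φ_* : J₀(N₂) → J₀(N₁)` along a finite embedding. -/
def pushOf (φ : FF N₁ →ₐ[Kbar] FF N₂) (hfin : FiniteAlong Kbar φ) : JZero N₂ →+ JZero N₁ :=
  Fermat.Agent.ES.N35.PushO12.pic0PushAlong φ (isIntegral_of_fin φ hfin) hfin
    (normFormula_of_fin φ hfin)

theorem pullOf_mk (φ : FF N₁ →ₐ[Kbar] FF N₂) (hfin : FiniteAlong Kbar φ)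
    (D : Divisor.degZero (K := Kbar) (F := FF N₁)) :
    haveI := FbarFacts20.hasPrincipalDivisors_bar N₂
    pullOf φ hfin (Pic0.mk D) =
      Pic0.mk ⟨Divisor.pullbackAlong φ (isIntegral_of_fin φ hfin) (D : Divisor Kbar (FF N₁)),
        Divisor.pullbackAlong_mem_degZero φ (isIntegral_of_fin φ hfin) (fundId_of_fin φ hfin) D.2⟩ :=
  rfl

theorem pushOf_mk (φ : FF N₁ →ₐ[Kbar] FF N₂) (hfin : FiniteAlong Kbar φ)
    (D : Divisor.degZero (K := Kbar) (F := FF N₂)) :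
    pushOf φ hfin (Pic0.mk D) =
      Pic0.mk (Fermat.Agent.ES.N35.PushO12.degZeroPushAlong φ (isIntegral_of_fin φ hfin) D) :=
  rfl

/-- the maps are independent of the proof of finiteness. -/
theorem pullOf_congr {φ ψ : FF N₁ →ₐ[Kbar] FF N₂} (h : φ = ψ) (hφ : FiniteAlong Kbar φ)
    (hψ : FiniteAlong Kbar ψ) : pullOf φ hφ = pullOf ψ hψ := by
  subst h
  rfl

theorem pushOf_congr {φ ψ : FF N₁ →ₐ[Kbar] FF N₂} (h : φ = ψ) (hφ : FiniteAlong Kbar φ)
    (hψ : FiniteAlong Kbar ψ) : pushOf φ hφ = pushOf ψ hψ := by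
  subst h
  rfl

/-! ### Galois equivariance -/

/-- `φ` commutes with the coefficientwise action of `G_ℚ`. -/
def GalComm (φ : FF N₁ →ₐ[Kbar] FF N₂) : Prop :=
  ∀ (σ : Kbar ≃ₐ[ℚ] Kbar) (f : FF N₁),
    φ (arithmeticGalois (modularFunctionFieldFull N₁) σ • f) =
      arithmeticGalois (modularFunctionFieldFull N₂) σ • φ f

theorem galComm_of_isAlpha {φ : FF N₁ →ₐ[Kbar] FF N₂} (h : IsAlpha φ) : GalComm φ := by
  intro σ f
  apply Subtype.ext
  rw [h, coe_arithmeticGalois_smul, coe_arithmeticGalois_smul, h]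

theorem galComm_of_isBeta {d : ℕ} [NeZero d] {φ : FF N₁ →ₐ[Kbar] FF N₂} (h : IsBeta d φ) :
    GalComm φ := by
  intro σ f
  apply Subtype.ext
  rw [h, coe_arithmeticGalois_smul, coe_arithmeticGalois_smul, h,
    Fermat.Agent.X0.CuspGood.coeffMap_qExpand]

theorem pullOf_smul {φ : FF N₁ →ₐ[Kbar] FF N₂} (hfin : FiniteAlong Kbar φ) (hc : GalComm φ)
    (σ : Kbar ≃ₐ[ℚ] Kbar) (x : JZero N₁) : pullOf φ hfin (σ • x) = σ • pullOf φ hfin x := by
  haveI := FbarFacts20.hasPrincipalDivisors_bar N₂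
  rw [galois_smul_pic0_def, galois_smul_pic0_def]
  exact Fermat.Agent.ES.RED.PullbackInj12.pic0PullbackAlong_smul φ (isIntegral_of_fin φ hfin) _ _
    (fundId_of_fin φ hfin) (hc σ) x

theorem pushOf_smul {φ : FF N₁ →ₐ[Kbar] FF N₂} (hfin : FiniteAlong Kbar φ) (hc : GalComm φ)
    (σ : Kbar ≃ₐ[ℚ] Kbar) (x : JZero N₂) : pushOf φ hfin (σ • x) = σ • pushOf φ hfin x := by
  haveI := FbarFacts20.hasPrincipalDivisors_bar N₂
  haveI := FbarFacts20.hasPrincipalDivisors_bar N₁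
  rw [galois_smul_pic0_def, galois_smul_pic0_def]
  obtain ⟨D, rfl⟩ := Pic0.mk_surjective x
  rw [SemilinearAut.pic0_smul_mk, pushOf_mk, pushOf_mk, SemilinearAut.pic0_smul_mk]
  refine congrArg Pic0.mk (Subtype.ext ?_)
  rw [Fermat.Agent.ES.N35.PushO12.coe_degZeroPushAlong, SemilinearAut.coe_degZeroSMulHom,
    SemilinearAut.coe_degZeroSMulHom, Fermat.Agent.ES.N35.PushO12.coe_degZeroPushAlong]
  exact HeckeGalois12.pushforwardAlong_smul φ (isIntegral_of_fin φ hfin) _ _ (hc σ)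
    (fun w => FundId12.inertiaDegAlong_eq_one φ (isIntegral_of_fin φ hfin) hfin
      (FbarFacts20.isGen_j N₁) w) (D : Divisor Kbar (FF N₂))

/-! ### The named degeneracy maps -/

theorem alphaPull_eq {M₀ q : ℕ} [NeZero M₀] [NeZero q] (hq : q.Prime) (hqM : ¬ q ∣ M₀) :
    Iface5.alphaPull hq hqM =
      pullOf (heckeAlphaBar Kbar M₀ q) (AlongDegree25.finiteAlong_alpha Kbar M₀ q hq hqM) := rfl

theorem betaPull_eq {M₀ q : ℕ} [NeZero M₀] [NeZero q] (hq : q.Prime) (hqM : ¬ q ∣ M₀) :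
    Iface5.betaPull hq hqM =
      pullOf (heckeBetaBar Kbar M₀ q) (AlongDegree25.finiteAlong_beta Kbar M₀ q hq hqM) := rfl

theorem alphaPush_eq {M₀ q : ℕ} [NeZero M₀] [NeZero q] (hq : q.Prime) (hqM : ¬ q ∣ M₀) :
    Fermat.Agent.ES.N35.PushO12.alphaPush hq hqM =
      pushOf (heckeAlphaBar Kbar M₀ q) (AlongDegree25.finiteAlong_alpha Kbar M₀ q hq hqM) := rfl

theorem betaPush_eq {M₀ q : ℕ} [NeZero M₀] [NeZero q] (hq : q.Prime) (hqM : ¬ q ∣ M₀) :
    Fermat.Agent.ES.N35.PushO12.betaPush hq hqM =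
      pushOf (heckeBetaBar Kbar M₀ q) (AlongDegree25.finiteAlong_beta Kbar M₀ q hq hqM) := rfl

end

end Fermat.Agent.MP.HECKE.Maps5
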