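/-
Programme MP (row 38 via S44), chapter HECKE (helper5): **the operators `W`, `s₁` and `𝒲` on `J₀(N)`**.

* `finiteAlong_of_surjective` : a surjective embedding is finite;
* `wOp N := pullOf (frickeBar N)` : the Fricke operator on `J₀(N)(ℚ̄)`;
* `s1Op N h4 := pullOf (Twist4.s1Hom N h4)` : the operator of `s₁ : q ↦ −q` (`4 ∣ N`);
* `cWOp N h4 := s₁ W s₁ W s₁ W` : the operator `𝒲` of the chapter (central involution of `⟨s₁, W⟩`
  when `4 ∥ N`);
* all three commute with `G_ℚ` (`wOp_smul`, `s1Op_smul`, `cWOp_smul`).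
-/
import Mathlib
import Fermat.Agent.MP.HECKE.Maps5
import Fermat.Agent.MP.FUNC.Twist4
import Fermat.Agent.ORD.IFACEN.FrickeGal9

set_option autoImplicit false
set_option linter.unusedSectionVars false
set_option linter.style.longLine false
set_option synthInstance.maxHeartbeats 400000

namespace Fermat.Agent.MP.HECKE.Aut5

open AlgebraicCurve ModularCurve
open Fermat.Agent.X0 Fermat.Agent.RED.TOP
open Fermat.Agent.ES.N34.FrickeFK8
open Fermat.Agent.MP.HECKE.Maps5 Fermat.Agent.MP.FUNC.Twist4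

noncomputable section

theorem finiteAlong_of_surjective {N₁ N₂ : ℕ} [NeZero N₁] [NeZero N₂] (g : FF N₁ →ₐ[Kbar] FF N₂)
    (hg : Function.Surjective g) : FiniteAlong Kbar g := by
  unfold FiniteAlong
  letI := algebraAlong g
  exact Module.Finite.of_surjective (Algebra.linearMap (FF N₁) (FF N₂)) hg

variable (N : ℕ) [NeZero N]

theorem finiteAlong_frickeBar : FiniteAlong Kbar (frickeBar N) :=
  finiteAlong_of_surjective _ (frickeBarEquiv N).surjective

theorem finiteAlong_s1Hom (h4 : 4 ∣ N) : FiniteAlong Kbar (s1Hom N h4) :=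
  finiteAlong_of_surjective _ (s1 N h4).surjective

/-- **the Fricke operator** on `J₀(N)(ℚ̄)`. -/
def wOp : JZero N →+ JZero N := pullOf (frickeBar N) (finiteAlong_frickeBar N)

/-- **the operator of `s₁ : q ↦ −q`** on `J₀(N)(ℚ̄)`, `4 ∣ N`. -/
def s1Op (h4 : 4 ∣ N) : JZero N →+ JZero N := pullOf (s1Hom N h4) (finiteAlong_s1Hom N h4)

/-- **the operator `𝒲 = s₁ W s₁ W s₁ W`**. -/
def cWOp (h4 : 4 ∣ N) : JZero N →+ JZero N :=
  (s1Op N h4).comp ((wOp N).comp ((s1Op N h4).comp ((wOp N).comp ((s1Op N h4).comp (wOp N)))))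

theorem cWOp_apply (h4 : 4 ∣ N) (x : JZero N) :
    cWOp N h4 x = s1Op N h4 (wOp N (s1Op N h4 (wOp N (s1Op N h4 (wOp N x))))) := rfl

theorem galComm_frickeBar : GalComm (frickeBar N) :=
  fun σ f => Fermat.Agent.ORD.IFACEN.FrickeGal9.frickeBar_smul N σ f

theorem galComm_s1Hom (h4 : 4 ∣ N) : GalComm (s1Hom N h4) := by
  intro σ f
  apply Subtype.ext
  rw [coe_s1Hom, coe_arithmeticGalois_smul, coe_arithmeticGalois_smul, coe_s1Hom, coeffMap_tw]

theorem wOp_smul (σ : Kbar ≃ₐ[ℚ] Kbar) (x : JZero N) : wOp N (σ • x) = σ • wOp N x :=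
  pullOf_smul _ (galComm_frickeBar N) σ x

theorem s1Op_smul (h4 : 4 ∣ N) (σ : Kbar ≃ₐ[ℚ] Kbar) (x : JZero N) :
    s1Op N h4 (σ • x) = σ • s1Op N h4 x :=
  pullOf_smul _ (galComm_s1Hom N h4) σ x

theorem cWOp_smul (h4 : 4 ∣ N) (σ : Kbar ≃ₐ[ℚ] Kbar) (x : JZero N) :
    cWOp N h4 (σ • x) = σ • cWOp N h4 x := by
  simp only [cWOp_apply, wOp_smul, s1Op_smul]

end

end Fermat.Agent.MP.HECKE.Aut5
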