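/-
Programme MP (row 38 via S44), chapter HECKE (helper6, brick PicId for helper5): **a uniform vocabulary
for the maps between the `J₀(N)(ℚ̄)`** induced by finite `ℚ̄`-embeddings `φ : Fbar N → Fbar N'`.

* `finInt`, `finFI`, `finNF` : a finite `φ` is integral, satisfies the fundamental identity and the norm
  formula (no further hypothesis : `FundIdentity19`, `NormFormula15`, `FbarFacts20.isGen_j`);
* **`pullL φ hfin : JZero N →+ JZero N'`**, **`pushL φ hfin : JZero N' →+ JZero N`** (= `pic0PullbackAlong`,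
  `pic0PushAlong` with these proofs); `alphaPull_eq`, `betaPull_eq`, `alphaPush_eq`, `betaPush_eq` :
  `Iface5.alphaPull/betaPull`, `PushO12.alphaPush/betaPush` are instances;
* `finiteAlong_comp`, `finiteAlong_of_bijective`;
* **`pullL_comp`, `pushL_comp`, `pullL_pullL_of_comm`, `pushL_pushL_of_comm`, `pullL_pushL_of_square`,
  `pushL_pullL` (`= finrankAlong •`), `pullL_pullL_of_comp_eq_id`, `pushL_eq_pullL_of_inverse`**;
* `pullL_congr`, `pushL_congr`.
-/
import Mathlib
import Fermat.Agent.MP.HECKE.PicFun6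
import Fermat.Agent.ES.HECKE.NormFormula15

set_option autoImplicit false
set_option linter.unusedSectionVars false
set_option linter.style.longLine false
set_option linter.style.haveILetI false

namespace Fermat.Agent.MP.HECKE.LvlMap6

open AlgebraicCurve ModularCurve
open Fermat.Agent.ES.HECKE Fermat.Agent.ES.HECKE.LevelPullback12 Fermat.Agent.ES.N35.PushO12
open Fermat.Agent.ES.HECKE.BaseChange19 Fermat.Agent.MP.HECKE.PushPull6
open Fermat.Agent.MP.HECKE.PicFun6 Fermat.Agent.MP.HECKE.Iface5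
open Fermat.Agent.TW.FLAT.FlatModule6 Fermat.Agent.RED.TOP

noncomputable section

variable {N N' N'' N₃ : ℕ} [NeZero N] [NeZero N'] [NeZero N''] [NeZero N₃]

/-! ### the three automatic properties of a finite embedding -/

theorem finInt (φ : modularFunctionFieldBar N →ₐ[Qb] modularFunctionFieldBar N')
    (hfin : FiniteAlong Qb φ) : φ.toRingHom.IsIntegral :=
  AlongDegree25.isIntegral_of_finiteAlong φ hfin

theorem finFI (φ : modularFunctionFieldBar N →ₐ[Qb] modularFunctionFieldBar N')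
    (hfin : FiniteAlong Qb φ) :
    haveI := FbarFacts20.hasPrincipalDivisors_bar N'
    FundamentalIdentityAlong Qb φ (finInt φ hfin) :=
  haveI := FbarFacts20.hasPrincipalDivisors_bar N'
  FundIdentity19.fundamentalIdentityAlong φ (finInt φ hfin) hfin (FbarFacts20.isGen_j N)
    (FbarFacts20.isGen_j N')

theorem finNF (φ : modularFunctionFieldBar N →ₐ[Qb] modularFunctionFieldBar N')
    (hfin : FiniteAlong Qb φ) : NormFormulaAlong Qb φ hfin :=
  NormFormula15.normFormulaAlong_of_isGen φ hfin (FbarFacts20.isGen_j N')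

/-! ### the maps -/

/-- **pull-back `φ^* : J₀(N) → J₀(N')`** along a finite embedding `φ : Fbar N → Fbar N'`. -/
def pullL (φ : modularFunctionFieldBar N →ₐ[Qb] modularFunctionFieldBar N')
    (hfin : FiniteAlong Qb φ) : JZero N →+ JZero N' :=
  haveI := FbarFacts20.hasPrincipalDivisors_bar N'
  pic0PullbackAlong φ (finInt φ hfin) (finFI φ hfin)

/-- **push-forward `φ_* : J₀(N') → J₀(N)`** along a finite embedding `φ : Fbar N → Fbar N'`. -/
def pushL (φ : modularFunctionFieldBar N →ₐ[Qb] modularFunctionFieldBar N')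
    (hfin : FiniteAlong Qb φ) : JZero N' →+ JZero N :=
  pic0PushAlong φ (finInt φ hfin) hfin (finNF φ hfin)

theorem pullL_eq [HasPrincipalDivisors Qb (modularFunctionFieldBar N')]
    (φ : modularFunctionFieldBar N →ₐ[Qb] modularFunctionFieldBar N')
    (hfin : FiniteAlong Qb φ) (hφ : φ.toRingHom.IsIntegral)
    (hFI : FundamentalIdentityAlong Qb φ hφ) (y : JZero N) :
    pic0PullbackAlong φ hφ hFI y = pullL φ hfin y := rfl

theorem pushL_eq (φ : modularFunctionFieldBar N →ₐ[Qb] modularFunctionFieldBar N')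
    (hfin : FiniteAlong Qb φ) (hφ : φ.toRingHom.IsIntegral)
    (hN : NormFormulaAlong Qb φ hfin) (y : JZero N') :
    pic0PushAlong φ hφ hfin hN y = pushL φ hfin y := rfl

theorem pullL_congr {φ φ' : modularFunctionFieldBar N →ₐ[Qb] modularFunctionFieldBar N'}
    (h : φ = φ') (hfin : FiniteAlong Qb φ) (hfin' : FiniteAlong Qb φ') (y : JZero N) :
    pullL φ hfin y = pullL φ' hfin' y := by
  subst h
  rfl

theorem pushL_congr {φ φ' : modularFunctionFieldBar N →ₐ[Qb] modularFunctionFieldBar N'}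
    (h : φ = φ') (hfin : FiniteAlong Qb φ) (hfin' : FiniteAlong Qb φ') (y : JZero N') :
    pushL φ hfin y = pushL φ' hfin' y := by
  subst h
  rfl

section Instances

variable {M₀ q : ℕ} [NeZero M₀] [NeZero q]

theorem alphaPull_eq (hq : q.Prime) (hqM : ¬ q ∣ M₀) (y : JZero M₀) :
    alphaPull hq hqM y =
      pullL (heckeAlphaBar Qb M₀ q) (AlongDegree25.finiteAlong_alpha Qb M₀ q hq hqM) y := rfl

theorem betaPull_eq (hq : q.Prime) (hqM : ¬ q ∣ M₀) (y : JZero M₀) :
    betaPull hq hqM y =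
      pullL (heckeBetaBar Qb M₀ q) (AlongDegree25.finiteAlong_beta Qb M₀ q hq hqM) y := rfl

theorem alphaPush_eq (hq : q.Prime) (hqM : ¬ q ∣ M₀) (y : JZero (M₀ * q)) :
    alphaPush hq hqM y =
      pushL (heckeAlphaBar Qb M₀ q) (AlongDegree25.finiteAlong_alpha Qb M₀ q hq hqM) y := rfl

theorem betaPush_eq (hq : q.Prime) (hqM : ¬ q ∣ M₀) (y : JZero (M₀ * q)) :
    betaPush hq hqM y =
      pushL (heckeBetaBar Qb M₀ q) (AlongDegree25.finiteAlong_beta Qb M₀ q hq hqM) y := rfl

end Instances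

/-! ### finiteness -/

theorem finiteAlong_comp {K F F₁ G₁ : Type*} [Field K] [Field F] [Field F₁] [Field G₁]
    [Algebra K F] [Algebra K F₁] [Algebra K G₁] (φ : F →ₐ[K] F₁) (ψ : F₁ →ₐ[K] G₁)
    (hφ : FiniteAlong K φ) (hψ : FiniteAlong K ψ) : FiniteAlong K (ψ.comp φ) := by
  letI := algebraAlong φ
  letI := algebraAlong ψ
  letI := algebraAlong (ψ.comp φ)
  haveI : IsScalarTower F F₁ G₁ := IsScalarTower.of_algebraMap_eq (fun _ => rfl)
  haveI : Module.Finite F F₁ := hφ
  haveI : Module.Finite F₁ G₁ := hψ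
  exact Module.Finite.trans (R := F) F₁ G₁

theorem finiteAlong_of_bijective {K F F₁ : Type*} [Field K] [Field F] [Field F₁]
    [Algebra K F] [Algebra K F₁] (φ : F →ₐ[K] F₁) (hφ : Function.Bijective φ) :
    FiniteAlong K φ :=
  AlongDegree25.finiteAlong_of_finrankAlong_pos φ
    (by rw [finrankAlong_of_bijective φ hφ]; exact Nat.one_pos)

theorem deg_ne_zero (v : Place Qb (modularFunctionFieldBar N)) : v.deg ≠ 0 := by
  rw [FbarFacts20.deg_eq_one_bar N v]
  exact one_ne_zero

/-! ### the identities -/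

/-- **`(ψ ∘ φ)^* = ψ^* ∘ φ^*`.** -/
theorem pullL_comp (φ : modularFunctionFieldBar N →ₐ[Qb] modularFunctionFieldBar N')
    (ψ : modularFunctionFieldBar N' →ₐ[Qb] modularFunctionFieldBar N'')
    (hφ : FiniteAlong Qb φ) (hψ : FiniteAlong Qb ψ) (hψφ : FiniteAlong Qb (ψ.comp φ))
    (y : JZero N) : pullL (ψ.comp φ) hψφ y = pullL ψ hψ (pullL φ hφ y) :=
  haveI := FbarFacts20.hasPrincipalDivisors_bar N'
  haveI := FbarFacts20.hasPrincipalDivisors_bar N''
  pic0PullbackAlong_comp φ ψ _ _ _ _ _ _ y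

/-- **`(ψ ∘ φ)_* = φ_* ∘ ψ_*`.** -/
theorem pushL_comp (φ : modularFunctionFieldBar N →ₐ[Qb] modularFunctionFieldBar N')
    (ψ : modularFunctionFieldBar N' →ₐ[Qb] modularFunctionFieldBar N'')
    (hφ : FiniteAlong Qb φ) (hψ : FiniteAlong Qb ψ) (hψφ : FiniteAlong Qb (ψ.comp φ))
    (y : JZero N'') : pushL (ψ.comp φ) hψφ y = pushL φ hφ (pushL ψ hψ y) :=
  pic0PushAlong_comp φ ψ _ _ _ _ _ _ _ _ _ deg_ne_zero y

/-- **pull–pull** for a commutative square `ψ' ∘ φ = φ' ∘ ψ`. -/
theorem pullL_pullL_of_comm (φ : modularFunctionFieldBar N →ₐ[Qb] modularFunctionFieldBar N')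
    (ψ : modularFunctionFieldBar N →ₐ[Qb] modularFunctionFieldBar N'')
    (ψ' : modularFunctionFieldBar N' →ₐ[Qb] modularFunctionFieldBar N₃)
    (φ' : modularFunctionFieldBar N'' →ₐ[Qb] modularFunctionFieldBar N₃)
    (hcomm : ψ'.comp φ = φ'.comp ψ)
    (hφ : FiniteAlong Qb φ) (hψ : FiniteAlong Qb ψ) (hψ' : FiniteAlong Qb ψ')
    (hφ' : FiniteAlong Qb φ') (y : JZero N) :
    pullL ψ' hψ' (pullL φ hφ y) = pullL φ' hφ' (pullL ψ hψ y) :=
  haveI := FbarFacts20.hasPrincipalDivisors_bar N'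
  haveI := FbarFacts20.hasPrincipalDivisors_bar N''
  haveI := FbarFacts20.hasPrincipalDivisors_bar N₃
  pic0Pull_pull_of_comm φ ψ ψ' φ' hcomm _ _ _ _ _ _ _ _ y

/-- **push–push** for a commutative square `ψ' ∘ φ = φ' ∘ ψ`. -/
theorem pushL_pushL_of_comm (φ : modularFunctionFieldBar N →ₐ[Qb] modularFunctionFieldBar N')
    (ψ : modularFunctionFieldBar N →ₐ[Qb] modularFunctionFieldBar N'')
    (ψ' : modularFunctionFieldBar N' →ₐ[Qb] modularFunctionFieldBar N₃)
    (φ' : modularFunctionFieldBar N'' →ₐ[Qb] modularFunctionFieldBar N₃)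
    (hcomm : ψ'.comp φ = φ'.comp ψ)
    (hφ : FiniteAlong Qb φ) (hψ : FiniteAlong Qb ψ) (hψ' : FiniteAlong Qb ψ')
    (hφ' : FiniteAlong Qb φ') (y : JZero N₃) :
    pushL φ hφ (pushL ψ' hψ' y) = pushL ψ hψ (pushL φ' hφ' y) :=
  pic0Push_push_of_comm φ ψ ψ' φ' hcomm _ _ _ _ _ _ _ _ _ _ _ _ deg_ne_zero y

/-- **pull–push (base change)** for a commutative square `a' ∘ p = p' ∘ a` with compatible norms. -/
theorem pullL_pushL_of_square (a : modularFunctionFieldBar N →ₐ[Qb] modularFunctionFieldBar N')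
    (p : modularFunctionFieldBar N →ₐ[Qb] modularFunctionFieldBar N'')
    (a' : modularFunctionFieldBar N'' →ₐ[Qb] modularFunctionFieldBar N₃)
    (p' : modularFunctionFieldBar N' →ₐ[Qb] modularFunctionFieldBar N₃)
    (hcomm : a'.comp p = p'.comp a)
    (ha : FiniteAlong Qb a) (hp : FiniteAlong Qb p) (ha' : FiniteAlong Qb a')
    (hp' : FiniteAlong Qb p')
    (hnorm : ∀ f : modularFunctionFieldBar N', normAlong a' (p' f) = p (normAlong a f))
    (y : JZero N') :
    pullL p hp (pushL a ha y) = pushL a' ha' (pullL p' hp' y) :=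
  haveI := FbarFacts20.hasPrincipalDivisors_bar N'
  haveI := FbarFacts20.hasPrincipalDivisors_bar N''
  haveI := FbarFacts20.hasPrincipalDivisors_bar N₃
  pic0Pull_push_of_square a p a' p' hcomm _ _ _ _ ha ha' _ _ _ _ hnorm y

/-- **`φ_* φ^* = deg φ`.** -/
theorem pushL_pullL (φ : modularFunctionFieldBar N →ₐ[Qb] modularFunctionFieldBar N')
    (hφ : FiniteAlong Qb φ) (y : JZero N) :
    pushL φ hφ (pullL φ hφ y) = finrankAlong Qb φ • y :=
  haveI := FbarFacts20.hasPrincipalDivisors_bar N'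
  pic0PushAlong_pullbackAlong φ _ hφ _ _ deg_ne_zero y

/-- mutually inverse maps have mutually inverse pull-backs. -/
theorem pullL_pullL_of_comp_eq_id
    (φ : modularFunctionFieldBar N →ₐ[Qb] modularFunctionFieldBar N')
    (ψ : modularFunctionFieldBar N' →ₐ[Qb] modularFunctionFieldBar N)
    (hcomp : ψ.comp φ = AlgHom.id Qb (modularFunctionFieldBar N))
    (hφ : FiniteAlong Qb φ) (hψ : FiniteAlong Qb ψ) (y : JZero N) :
    pullL ψ hψ (pullL φ hφ y) = y :=
  haveI := FbarFacts20.hasPrincipalDivisors_bar N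
  haveI := FbarFacts20.hasPrincipalDivisors_bar N'
  pic0Pull_pull_of_comp_eq_id φ ψ hcomp _ _ _ _ y

/-- **`g_* = (g⁻¹)^*`.** -/
theorem pushL_eq_pullL_of_inverse
    (φ : modularFunctionFieldBar N →ₐ[Qb] modularFunctionFieldBar N')
    (ψ : modularFunctionFieldBar N' →ₐ[Qb] modularFunctionFieldBar N)
    (hcomp : φ.comp ψ = AlgHom.id Qb (modularFunctionFieldBar N'))
    (hbij : Function.Bijective φ)
    (hφ : FiniteAlong Qb φ) (hψ : FiniteAlong Qb ψ) (y : JZero N') :
    pushL φ hφ y = pullL ψ hψ y :=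
  haveI := FbarFacts20.hasPrincipalDivisors_bar N
  haveI := FbarFacts20.hasPrincipalDivisors_bar N'
  pic0Push_eq_pull_of_inverse φ ψ hcomp hbij (finInt φ hφ) (finInt ψ hψ) hφ (finNF φ hφ)
    (finFI φ hφ) (finFI ψ hψ) deg_ne_zero y

end

end Fermat.Agent.MP.HECKE.LvlMap6
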