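/-
Programme MP (row 38 via S44), chapter HECKE (helper6, brick PicId for helper5): **the Hecke
correspondence, its transpose and the Fricke involution on `J₀(N)(ℚ̄)`.**

* `pic0_correspondence_eq` : a correspondence on `Pic⁰` is push ∘ pull;
* **`alphaPush_betaPull`** : `α_{q*} β_q^* = T_q` (the Prelude's `heckeOperatorBar`);
* `frickeJ N : JZero N →+ JZero N` : **the Fricke operator** `W_N^*` (pull-back along
  `FrickeFK8.frickeBar N`); `frickeJ_frickeJ` (involution), `pushL_fricke` (`W_* = W^*`);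
* **`frickeJ_alphaPull`, `frickeJ_betaPull`** : `W_{Mq}^* α_q^* = β_q^* W_M^*`, `W_{Mq}^* β_q^* = α_q^* W_M^*`;
* **`alphaPush_frickeJ`, `betaPush_frickeJ`** : `α_{q*} W_{Mq}^* = W_M^* β_{q*}`, `β_{q*} W_{Mq}^* = W_M^* α_{q*}`;
* **`betaPush_alphaPull`** : the transpose `β_{q*} α_q^* = W_M T_q W_M`.
-/
import Mathlib
import Fermat.Agent.MP.HECKE.LvlMap6
import Fermat.Agent.MP.FUNC.FrickeDeg1

set_option autoImplicit false
set_option linter.unusedSectionVars false
set_option linter.style.longLine false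
set_option linter.style.haveILetI false

namespace Fermat.Agent.MP.HECKE.CorrId6

open AlgebraicCurve ModularCurve
open Fermat.Agent.ES.HECKE Fermat.Agent.ES.HECKE.LevelPullback12 Fermat.Agent.ES.N35.PushO12
open Fermat.Agent.MP.HECKE.Iface5 Fermat.Agent.TW.FLAT.FlatModule6
open Fermat.Agent.MP.HECKE.LvlMap6 Fermat.Agent.ES.N34.FrickeFK8 Fermat.Agent.MP.FUNC.FrickeDeg1

noncomputable section

section Generic

variable {K F F' : Type*} [Field K] [Field F] [Field F'] [Algebra K F] [Algebra K F']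
  [HasPrincipalDivisors K F']

/-- **a correspondence on `Pic⁰` is push ∘ pull.** -/
theorem pic0_correspondence_eq (φ ψ : F →ₐ[K] F') (hφ : φ.toRingHom.IsIntegral)
    (hψ : ψ.toRingHom.IsIntegral) (hFI : FundamentalIdentityAlong K φ hφ)
    (hfin : FiniteAlong K ψ) (hN : NormFormulaAlong K ψ hfin) (y : Pic0 K F) :
    Pic0.correspondence φ ψ hφ hψ hFI hfin hN y =
      pic0PushAlong ψ hψ hfin hN (pic0PullbackAlong φ hφ hFI y) := by
  obtain ⟨D, rfl⟩ := Pic0.mk_surjective y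
  rfl

end Generic

/-! ### the Fricke operator -/

section Fricke

variable (N : ℕ) [NeZero N]

theorem frickeBar_bijective : Function.Bijective (frickeBar N) :=
  (frickeBarEquiv N).bijective

theorem finiteAlong_fricke : FiniteAlong Qb (frickeBar N) :=
  finiteAlong_of_bijective (frickeBar N) (frickeBar_bijective N)

/-- **the Fricke operator `W_N^*` on `J₀(N)(ℚ̄)`.** -/
def frickeJ : JZero N →+ JZero N := pullL (frickeBar N) (finiteAlong_fricke N)

/-- `W_N` is an involution on `J₀(N)`. -/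
theorem frickeJ_frickeJ (y : JZero N) : frickeJ N (frickeJ N y) = y :=
  pullL_pullL_of_comp_eq_id (frickeBar N) (frickeBar N) (frickeBar_comp_frickeBar N) _ _ y

/-- `W_* = W^*`. -/
theorem pushL_fricke (y : JZero N) : pushL (frickeBar N) (finiteAlong_fricke N) y = frickeJ N y :=
  pushL_eq_pullL_of_inverse (frickeBar N) (frickeBar N) (frickeBar_comp_frickeBar N)
    (frickeBar_bijective N) _ _ y

end Fricke

section Level

variable {M₀ q : ℕ} [NeZero M₀] [NeZero q]

/-- **`α_{q*} β_q^* = T_q`** (the Prelude's `heckeOperatorBar`). -/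
theorem alphaPush_betaPull (hq : q.Prime) (hqM : ¬ q ∣ M₀) (y : JZero M₀) :
    alphaPush hq hqM (betaPull hq hqM y) = heckeOperatorBar M₀ (⟨q, hq⟩ : Nat.Primes) y := by
  haveI := InputsMain19.hasPrincipalDivisors_level M₀ q
  have h := heckeOperatorAlong_eq (L := Qb) (N := M₀) (ℓ := q)
    (AlongDegree25.heckeAlphaBarIntegral Qb M₀ q hq hqM)
    (AlongDegree25.heckeBetaBarIntegral Qb M₀ q hq hqM)
    (InputsMain19.fundamentalIdentityAlong_beta M₀ q hq hqM)
    (AlongDegree25.finiteAlong_alpha Qb M₀ q hq hqM)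
    (InputsFinal15.normFormulaAlong_alpha M₀ q hq hqM)
  show _ = heckeOperatorAlong Qb M₀ q y
  rw [h]
  exact (pic0_correspondence_eq _ _ _ _ _ _ _ y).symm

theorem fricke_comp_alpha :
    (frickeBar (M₀ * q)).comp (heckeAlphaBar Qb M₀ q) =
      (heckeBetaBar Qb M₀ q).comp (frickeBar M₀) :=
  AlgHom.ext fun x => frickeBar_heckeAlphaBar M₀ q x

theorem fricke_comp_beta :
    (frickeBar (M₀ * q)).comp (heckeBetaBar Qb M₀ q) =
      (heckeAlphaBar Qb M₀ q).comp (frickeBar M₀) :=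
  AlgHom.ext fun x => frickeBar_heckeBetaBar M₀ q x

/-- **`W_{Mq}^* α_q^* = β_q^* W_M^*`.** -/
theorem frickeJ_alphaPull (hq : q.Prime) (hqM : ¬ q ∣ M₀) (y : JZero M₀) :
    frickeJ (M₀ * q) (alphaPull hq hqM y) = betaPull hq hqM (frickeJ M₀ y) :=
  pullL_pullL_of_comm (heckeAlphaBar Qb M₀ q) (frickeBar M₀) (frickeBar (M₀ * q))
    (heckeBetaBar Qb M₀ q) fricke_comp_alpha
    (AlongDegree25.finiteAlong_alpha Qb M₀ q hq hqM) (finiteAlong_fricke M₀)
    (finiteAlong_fricke (M₀ * q)) (AlongDegree25.finiteAlong_beta Qb M₀ q hq hqM) y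

/-- **`W_{Mq}^* β_q^* = α_q^* W_M^*`.** -/
theorem frickeJ_betaPull (hq : q.Prime) (hqM : ¬ q ∣ M₀) (y : JZero M₀) :
    frickeJ (M₀ * q) (betaPull hq hqM y) = alphaPull hq hqM (frickeJ M₀ y) :=
  pullL_pullL_of_comm (heckeBetaBar Qb M₀ q) (frickeBar M₀) (frickeBar (M₀ * q))
    (heckeAlphaBar Qb M₀ q) fricke_comp_beta
    (AlongDegree25.finiteAlong_beta Qb M₀ q hq hqM) (finiteAlong_fricke M₀)
    (finiteAlong_fricke (M₀ * q)) (AlongDegree25.finiteAlong_alpha Qb M₀ q hq hqM) y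

/-- **`α_{q*} W_{Mq}^* = W_M^* β_{q*}`.** -/
theorem alphaPush_frickeJ (hq : q.Prime) (hqM : ¬ q ∣ M₀) (x : JZero (M₀ * q)) :
    alphaPush hq hqM (frickeJ (M₀ * q) x) = frickeJ M₀ (betaPush hq hqM x) := by
  have h := pushL_pushL_of_comm (heckeAlphaBar Qb M₀ q) (frickeBar M₀) (frickeBar (M₀ * q))
    (heckeBetaBar Qb M₀ q) fricke_comp_alpha
    (AlongDegree25.finiteAlong_alpha Qb M₀ q hq hqM) (finiteAlong_fricke M₀)
    (finiteAlong_fricke (M₀ * q)) (AlongDegree25.finiteAlong_beta Qb M₀ q hq hqM) x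
  rw [pushL_fricke, pushL_fricke] at h
  exact h

/-- **`β_{q*} W_{Mq}^* = W_M^* α_{q*}`.** -/
theorem betaPush_frickeJ (hq : q.Prime) (hqM : ¬ q ∣ M₀) (x : JZero (M₀ * q)) :
    betaPush hq hqM (frickeJ (M₀ * q) x) = frickeJ M₀ (alphaPush hq hqM x) := by
  have h := pushL_pushL_of_comm (heckeBetaBar Qb M₀ q) (frickeBar M₀) (frickeBar (M₀ * q))
    (heckeAlphaBar Qb M₀ q) fricke_comp_beta
    (AlongDegree25.finiteAlong_beta Qb M₀ q hq hqM) (finiteAlong_fricke M₀)
    (finiteAlong_fricke (M₀ * q)) (AlongDegree25.finiteAlong_alpha Qb M₀ q hq hqM) x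
  rw [pushL_fricke, pushL_fricke] at h
  exact h

/-- **the transpose correspondence** : `β_{q*} α_q^* = W_M T_q W_M`. -/
theorem betaPush_alphaPull (hq : q.Prime) (hqM : ¬ q ∣ M₀) (y : JZero M₀) :
    betaPush hq hqM (alphaPull hq hqM y) =
      frickeJ M₀ (heckeOperatorBar M₀ (⟨q, hq⟩ : Nat.Primes) (frickeJ M₀ y)) := by
  rw [← alphaPush_betaPull hq hqM, ← betaPush_frickeJ hq hqM, frickeJ_betaPull hq hqM,
    frickeJ_frickeJ]

end Level

end

end Fermat.Agent.MP.HECKE.CorrId6
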