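/-
PROGRAMME MP, chapter HECKE, brick (PicId)/(P2) (helper3).  `GalBridge3` = **pull-back along an
automorphism is the `SemilinearAut` action**:  for `g : F' ≃ₐ[K] F'`

  `Divisor.pullbackAlong g D = ofAlgAut g • D`,   `pic0PullbackAlong g x = ofAlgAut g • x`,

and, at the levels, `LvlMap6.pullL (g : Fbar N →ₐ Fbar N) _ x = ofAlgAut g • x`.

* `restrictAlong_algEquiv`, `ramificationIndexAlong_algEquiv`, `pullbackAlong_algEquiv`,
  `pic0PullbackAlong_algEquiv`, `pullL_algEquiv`;
* `autOp N : (Fbar N ≃ₐ[ℚ̄] Fbar N) →* AddMonoid.End (JZero N)`, `autOp_apply`,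
  `autOp_eq_pullL`.
-/
import Mathlib
import Fermat.Agent.MP.HECKE.LvlMap6

set_option autoImplicit false
set_option linter.unusedSectionVars false
set_option linter.style.longLine false
set_option linter.style.haveILetI false

open AlgebraicCurve ModularCurve

noncomputable section

namespace Fermat.Agent.MP.HECKE.GalBridge3

open Fermat.Agent.ES.HECKE Fermat.Agent.ES.HECKE.LevelPullback12
open Fermat.Agent.MP.HECKE.LvlMap6 Fermat.Agent.TW.FLAT.FlatModule6 Fermat.Agent.RED.TOP
open scoped Pointwise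

section Generic

variable {K F' : Type*} [Field K] [Field F'] [Algebra K F']

theorem isIntegral_algEquiv (g : F' ≃ₐ[K] F') : (g : F' →ₐ[K] F').toRingHom.IsIntegral := by
  intro x
  refine ⟨Polynomial.X - Polynomial.C (g.symm x), Polynomial.monic_X_sub_C _, ?_⟩
  rw [Polynomial.eval₂_sub, Polynomial.eval₂_X, Polynomial.eval₂_C]
  show x - g (g.symm x) = 0
  rw [AlgEquiv.apply_symm_apply, sub_self]

/-- the restriction of a place along an automorphism is its translate by the inverse. -/
theorem restrictAlong_algEquiv (g : F' ≃ₐ[K] F') (hg : (g : F' →ₐ[K] F').toRingHom.IsIntegral)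
    (w : Place K F') :
    w.restrictAlong (g : F' →ₐ[K] F') hg = (SemilinearAut.ofAlgAut g)⁻¹ • w := by
  apply Place.ext
  ext x
  rw [SemilinearAut.smul_toValuationSubring,
    ValuationSubring.mem_pointwise_smul_iff_inv_smul_mem, inv_inv]
  rfl

theorem ord_inv_smul_place (g : F' ≃ₐ[K] F') (w : Place K F') (f : F') :
    ((SemilinearAut.ofAlgAut g)⁻¹ • w).ord f = w.ord (g f) := by
  have h := SemilinearAut.ord_smul (SemilinearAut.ofAlgAut g)
    ((SemilinearAut.ofAlgAut g)⁻¹ • w) f
  rw [smul_inv_smul] at h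
  exact h.symm

/-- automorphisms are unramified. -/
theorem ramificationIndexAlong_algEquiv (g : F' ≃ₐ[K] F') (w : Place K F') :
    Place.ramificationIndexAlong (g : F' →ₐ[K] F') w = 1 := by
  have hg := isIntegral_algEquiv g
  obtain ⟨π, hπ⟩ := IsDiscreteValuationRing.exists_irreducible
    (w.restrictAlong (g : F' →ₐ[K] F') hg).toValuationSubring
  have h := Place.ord_restrictAlong (g : F' →ₐ[K] F') hg w (π : F')
  rw [(w.restrictAlong (g : F' →ₐ[K] F') hg).ord_coe_irreducible hπ, mul_one] at h
  have h2 : w.ord (g (π : F')) = 1 := by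
    rw [← ord_inv_smul_place, ← restrictAlong_algEquiv g hg w]
    exact (w.restrictAlong (g : F' →ₐ[K] F') hg).ord_coe_irreducible hπ
  have h3 : w.ord ((g : F' →ₐ[K] F') (π : F')) = w.ord (g (π : F')) := rfl
  rw [h3, h2] at h
  exact_mod_cast h.symm

variable [HasPrincipalDivisors K F']

/-- **`g^* D = g • D`** on divisors. -/
theorem pullbackAlong_algEquiv (g : F' ≃ₐ[K] F') (hg : (g : F' →ₐ[K] F').toRingHom.IsIntegral)
    (D : Divisor K F') :
    Divisor.pullbackAlong (g : F' →ₐ[K] F') hg D = SemilinearAut.ofAlgAut g • D := by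
  ext w
  rw [Divisor.pullbackAlong_apply, ramificationIndexAlong_algEquiv, restrictAlong_algEquiv,
    SemilinearAut.divisor_smul_apply, Nat.cast_one, one_mul]

/-- **`g^* x = g • x`** on `Pic⁰`. -/
theorem pic0PullbackAlong_algEquiv (g : F' ≃ₐ[K] F')
    (hg : (g : F' →ₐ[K] F').toRingHom.IsIntegral)
    (hFI : FundamentalIdentityAlong K (g : F' →ₐ[K] F') hg) (x : Pic0 K F') :
    pic0PullbackAlong (g : F' →ₐ[K] F') hg hFI x = SemilinearAut.ofAlgAut g • x := by
  obtain ⟨D, rfl⟩ := Pic0.mk_surjective x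
  rw [pic0PullbackAlong_mk, SemilinearAut.pic0_smul_mk]
  refine congrArg Pic0.mk (Subtype.ext ?_)
  rw [SemilinearAut.coe_degZeroSMulHom]
  exact pullbackAlong_algEquiv g hg (D : Divisor K F')

end Generic

section Level

variable (N : ℕ) [NeZero N]

theorem finiteAlong_algEquiv (g : modularFunctionFieldBar N ≃ₐ[Qb] modularFunctionFieldBar N) :
    FiniteAlong Qb (g : modularFunctionFieldBar N →ₐ[Qb] modularFunctionFieldBar N) :=
  finiteAlong_of_bijective _ g.bijective

/-- **`pullL g = g • ·`** for an automorphism `g` of `Fbar N`. -/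
theorem pullL_algEquiv (g : modularFunctionFieldBar N ≃ₐ[Qb] modularFunctionFieldBar N)
    (hfin : FiniteAlong Qb (g : modularFunctionFieldBar N →ₐ[Qb] modularFunctionFieldBar N))
    (x : JZero N) :
    pullL (g : modularFunctionFieldBar N →ₐ[Qb] modularFunctionFieldBar N) hfin x =
      SemilinearAut.ofAlgAut g • x :=
  haveI := FbarFacts20.hasPrincipalDivisors_bar N
  pic0PullbackAlong_algEquiv g _ _ x

/-- `pullL φ = g • ·` for an algebra endomorphism `φ` equal to the automorphism `g`. -/
theorem pullL_eq_smul_of_eq (g : modularFunctionFieldBar N ≃ₐ[Qb] modularFunctionFieldBar N)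
    (φ : modularFunctionFieldBar N →ₐ[Qb] modularFunctionFieldBar N)
    (h : φ = (g : modularFunctionFieldBar N →ₐ[Qb] modularFunctionFieldBar N))
    (hfin : FiniteAlong Qb φ) (x : JZero N) :
    pullL φ hfin x = SemilinearAut.ofAlgAut g • x := by
  rw [pullL_congr h hfin (finiteAlong_algEquiv N g) x, pullL_algEquiv]

end Level

end Fermat.Agent.MP.HECKE.GalBridge3
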