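/-
PROGRAMME MP, chapter HECKE, brick (PicId)/(P2) (helper3).  `GalGroup3` = small Galois groups from
involutions (pure Mathlib).

* `card_aut_dvd_finrank` : `#Gal(E/F) ∣ [E : F]` for a finite extension (Artin);
* `three_le_card`, `two_dvd_card`;
* `card_eq_two_of_dvd` : `H` a finite subgroup with `#H ∣ 2`, `s ∈ H`, `s ≠ 1` ⇒ `#H = 2`,
  `closure {s} = H`;
* `card_eq_six_of_dvd` : `#H ∣ 6`, `s, t ∈ H`, `s ≠ 1`, `s² = 1`, `t ∉ {1, s}` ⇒ `#H = 6`,
  `closure {s, t} = H`;
* `smul_eq_of_mem_closure` : a point fixed by a generating set is fixed by the closure;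
* `smul_mem_of_mem_closure` : an additive subgroup stable under the generators and their inverses is
  stable under the closure.
-/
import Mathlib

set_option autoImplicit false
set_option linter.unusedSectionVars false

namespace Fermat.Agent.MP.HECKE.GalGroup3

open Module

section Artin

variable {F E : Type*} [Field F] [Field E] [Algebra F E] [FiniteDimensional F E]

/-- **Artin**: the order of the automorphism group divides the degree. -/
theorem card_aut_dvd_finrank : Nat.card (E ≃ₐ[F] E) ∣ finrank F E := by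
  have h1 := IntermediateField.finrank_fixedField_eq_card (F := F) (E := E)
    (⊤ : Subgroup (E ≃ₐ[F] E))
  have h2 := finrank_mul_finrank F (IntermediateField.fixedField (⊤ : Subgroup (E ≃ₐ[F] E))) E
  rw [h1, Subgroup.card_top] at h2
  exact Dvd.intro_left _ h2

end Artin

section Group

variable {G : Type*} [Group G]

/-- a finite subgroup containing three distinct elements has at least three elements. -/
theorem three_le_card (C : Subgroup G) [Finite C] {a b c : G}
    (ha : a ∈ C) (hb : b ∈ C) (hc : c ∈ C) (hab : a ≠ b) (hac : a ≠ c) (hbc : b ≠ c) :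
    3 ≤ Nat.card C := by
  classical
  have : Fintype C := Fintype.ofFinite C
  rw [Nat.card_eq_fintype_card]
  have h3 : ({⟨a, ha⟩, ⟨b, hb⟩, ⟨c, hc⟩} : Finset C).card = 3 := by
    rw [Finset.card_insert_of_notMem, Finset.card_insert_of_notMem, Finset.card_singleton]
    · rw [Finset.mem_singleton]
      exact fun h => hbc (congrArg Subtype.val h)
    · simp only [Finset.mem_insert, Finset.mem_singleton, not_or]
      exact ⟨fun h => hab (congrArg Subtype.val h), fun h => hac (congrArg Subtype.val h)⟩
  rw [← h3]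
  exact Finset.card_le_univ _

/-- a finite subgroup containing an involution has even order. -/
theorem two_dvd_card (C : Subgroup G) [Finite C] {a : G} (ha : a ∈ C)
    (h1 : a ≠ 1) (h2 : a * a = 1) : 2 ∣ Nat.card C := by
  have ho : orderOf (⟨a, ha⟩ : C) = 2 := by
    refine orderOf_eq_prime ?_ ?_
    · apply Subtype.ext
      rw [pow_two]
      exact h2
    · intro h
      exact h1 (congrArg Subtype.val h)
  rw [← ho]
  exact orderOf_dvd_natCard _

/-- **order dividing 2.** -/
theorem card_eq_two_of_dvd (H : Subgroup G) [Finite H] (hdvd : Nat.card H ∣ 2) {s : G}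
    (hs : s ∈ H) (hs1 : s ≠ 1) : Nat.card H = 2 ∧ Subgroup.closure {s} = H := by
  have hle : Nat.card H ≤ 2 := Nat.le_of_dvd (by norm_num) hdvd
  have hCH : Subgroup.closure {s} ≤ H := by
    rw [Subgroup.closure_le]
    intro x hx
    rw [Set.mem_singleton_iff] at hx
    rw [hx]
    exact hs
  have : Finite (Subgroup.closure {s} : Subgroup G) :=
    Finite.of_injective (Subgroup.inclusion hCH) (Subgroup.inclusion_injective hCH)
  have hC : 2 ≤ Nat.card (Subgroup.closure {s} : Subgroup G) := by
    have hne : (Subgroup.closure {s} : Subgroup G) ≠ ⊥ := by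
      intro h
      have : s ∈ (⊥ : Subgroup G) := h ▸ Subgroup.subset_closure rfl
      exact hs1 (Subgroup.mem_bot.mp this)
    have h1 : Nat.card (Subgroup.closure {s} : Subgroup G) ≠ 1 := fun h =>
      hne (Subgroup.card_eq_one.mp h)
    have h0 : 0 < Nat.card (Subgroup.closure {s} : Subgroup G) := Nat.card_pos
    omega
  have hCle : Nat.card (Subgroup.closure {s} : Subgroup G) ≤ Nat.card H :=
    Nat.le_of_dvd Nat.card_pos (Subgroup.card_dvd_of_le hCH)
  have hcard : Nat.card H = 2 := by omega
  exact ⟨hcard, Subgroup.eq_of_le_of_card_ge hCH (by omega)⟩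

/-- **order dividing 6, two distinct involutions.** -/
theorem card_eq_six_of_dvd (H : Subgroup G) [Finite H] (hdvd : Nat.card H ∣ 6) {s t : G}
    (hs : s ∈ H) (ht : t ∈ H) (hs1 : s ≠ 1) (hs2 : s * s = 1) (ht1 : t ≠ 1) (hst : s ≠ t) :
    Nat.card H = 6 ∧ Subgroup.closure {s, t} = H := by
  set C : Subgroup G := Subgroup.closure {s, t} with hC
  have hCH : C ≤ H := by
    rw [hC, Subgroup.closure_le]
    intro x hx
    rcases hx with rfl | hx
    · exact hs
    · rw [Set.mem_singleton_iff] at hx
      rw [hx]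
      exact ht
  have : Finite C := Finite.of_injective (Subgroup.inclusion hCH) (Subgroup.inclusion_injective hCH)
  have hsC : s ∈ C := Subgroup.subset_closure (by simp)
  have htC : t ∈ C := Subgroup.subset_closure (by simp)
  have h3 : 3 ≤ Nat.card C := three_le_card C (one_mem C) hsC htC (Ne.symm hs1) (Ne.symm ht1) hst
  have h2 : 2 ∣ Nat.card C := two_dvd_card C hsC hs1 hs2
  have hCdvd : Nat.card C ∣ Nat.card H := Subgroup.card_dvd_of_le hCH
  have hC6 : Nat.card C ∣ 6 := dvd_trans hCdvd hdvd
  have hCle : Nat.card C ≤ 6 := Nat.le_of_dvd (by norm_num) hC6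
  have hCeq : Nat.card C = 6 := by
    obtain ⟨k, hk⟩ := h2
    have hk' : k ≤ 3 := by omega
    interval_cases k
    · omega
    · omega
    · rw [hk] at hC6; norm_num at hC6
    · omega
  have hHle : Nat.card H ≤ 6 := Nat.le_of_dvd (by norm_num) hdvd
  have hCleH : Nat.card C ≤ Nat.card H := Nat.le_of_dvd Nat.card_pos hCdvd
  have hH : Nat.card H = 6 := by omega
  exact ⟨hH, Subgroup.eq_of_le_of_card_ge hCH (by omega)⟩

/-- a point fixed by a generating set is fixed by its closure. -/
theorem smul_eq_of_mem_closure {α : Type*} [MulAction G α] (S : Set G) (x : α)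
    (hS : ∀ s ∈ S, s • x = x) {g : G} (hg : g ∈ Subgroup.closure S) : g • x = x := by
  have hle : Subgroup.closure S ≤ MulAction.stabilizer G x := by
    rw [Subgroup.closure_le]
    intro s hs
    exact MulAction.mem_stabilizer_iff.mpr (hS s hs)
  exact MulAction.mem_stabilizer_iff.mp (hle hg)

/-- a subset stable under the generators and their inverses is stable under the closure. -/
theorem smul_mem_of_mem_closure {α : Type*} [MulAction G α] (S : Set G) (A : Set α)
    (hS : ∀ s ∈ S, ∀ x ∈ A, s • x ∈ A) (hS' : ∀ s ∈ S, ∀ x ∈ A, s⁻¹ • x ∈ A) {g : G}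
    (hg : g ∈ Subgroup.closure S) : ∀ x ∈ A, g • x ∈ A := by
  let T : Subgroup G :=
    { carrier := {g | (∀ x ∈ A, g • x ∈ A) ∧ (∀ x ∈ A, g⁻¹ • x ∈ A)}
      one_mem' := ⟨fun x hx => by rwa [one_smul], fun x hx => by rwa [inv_one, one_smul]⟩
      mul_mem' := fun {a b} ha hb =>
        ⟨fun x hx => by rw [mul_smul]; exact ha.1 _ (hb.1 x hx),
          fun x hx => by rw [mul_inv_rev, mul_smul]; exact hb.2 _ (ha.2 x hx)⟩
      inv_mem' := fun {a} ha => ⟨ha.2, fun x hx => by rw [inv_inv]; exact ha.1 x hx⟩ }
  have hle : Subgroup.closure S ≤ T := by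
    rw [Subgroup.closure_le]
    intro s hs
    exact ⟨hS s hs, hS' s hs⟩
  exact (hle hg).1

end Group

end Fermat.Agent.MP.HECKE.GalGroup3
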