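/-
PROGRAMME MP, chapter HECKE, brick (PicId)/(P2) (helper3).  `GalSum3` = **pull ∘ push = Σ_{σ ∈ Gal} σ**.

`F ⊆ F'` a finite GALOIS extension of function fields over `K` with the norm formula
(`Divisor.PushforwardNormFormula K F F'`).  Every `σ : F' ≃ₐ[F] F'` is a `K`-automorphism of `F'`,
hence acts on places, divisors and `Pic⁰` of `F'` (`galAut σ : SemilinearAut K F'`).

* `restrict_galAut_smul` : `(σ • w)|_F = w|_F`;
* `addHom_eq_of_local` : LOCAL PRINCIPLE (the technique of `BaseChange19.lhsHom_eq_rhsHom`): two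
  additive maps `Div F₁ → Div G` which are local over the places of a common subfield `F` and agree on
  principal divisors are equal;
* `pullback_pushforward_eq_sum : pullback F' (pushforward F D) = ∑ σ : F' ≃ₐ[F] F', galAut σ • D`
  (both sides are local over `F`; on `div f` both give `div (N f)`, `N f = ∏ σ f`);
* `pullbackHom_pushforwardHom_eq_sum` : the same on `Pic⁰`.
-/
import Mathlib
import Fermat.Prelude.Def_AlgebraicCurve_Correspondence
import Fermat.Agent.ES.HECKE.BaseChange19

set_option autoImplicit false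
set_option linter.unusedSectionVars false
set_option linter.style.haveILetI false

open AlgebraicCurve

noncomputable section

namespace Fermat.Agent.MP.HECKE.GalSum3

open Fermat.Agent.ES.HECKE Fermat.Agent.ES.HECKE.BaseChange19

/-! ### the local principle -/

section Local

variable {K F F₁ G : Type*} [Field K] [Field F] [Field F₁] [Field G]
  [Algebra K F] [Algebra K F₁] [Algebra K G] [Algebra F F₁] [Algebra F G]
  [IsScalarTower K F F₁] [IsScalarTower K F G]
  [Algebra.IsIntegral F F₁] [Algebra.IsIntegral F G]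
  [HasPrincipalDivisors K F₁]

/-- **Local principle.**  Two additive maps `Div F₁ → Div G`, both local over the places of `F`, which
agree on principal divisors, are equal. -/
theorem addHom_eq_of_local (Φ₁ Φ₂ : Divisor K F₁ →+ Divisor K G)
    (h₁ : ∀ (Q : Place K F₁) (n : ℤ) (P' : Place K G), P'.restrict F ≠ Q.restrict F →
      Φ₁ (Finsupp.single Q n) P' = 0)
    (h₂ : ∀ (Q : Place K F₁) (n : ℤ) (P' : Place K G), P'.restrict F ≠ Q.restrict F →
      Φ₂ (Finsupp.single Q n) P' = 0)
    (hprin : ∀ (f : F₁), f ≠ 0 → ∀ D : Divisor K F₁, (∀ w, D w = w.ord f) → Φ₁ D = Φ₂ D) :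
    Φ₁ = Φ₂ := by
  classical
  have key : ∀ Q : Place K F₁, Φ₁ (Finsupp.single Q 1) = Φ₂ (Finsupp.single Q 1) := by
    intro Q
    set P := Q.restrict F with hP
    obtain ⟨f, hf0, hfQ, hfS⟩ := WeakApprox25.exists_ord_eq_one_of_mem (P.fiber F₁)
      (Place.mem_fiber.mpr rfl : Q ∈ P.fiber F₁)
    obtain ⟨D, hD, -⟩ := HasPrincipalDivisors.exists_divisor (K := K) f hf0
    have hprin' := hprin f hf0 D hD
    set D' : Divisor K F₁ := D - Finsupp.single Q 1 with hD'
    have hDsplit : D = Finsupp.single Q 1 + D' := by rw [hD']; abel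
    have hD'S : ∀ w : Place K F₁, w.restrict F = P → D' w = 0 := by
      intro w hw
      rw [hD', Finsupp.sub_apply, hD]
      by_cases hwQ : w = Q
      · rw [hwQ, hfQ, Finsupp.single_eq_same, sub_self]
      · rw [hfS w (Place.mem_fiber.mpr hw) hwQ, Finsupp.single_eq_of_ne hwQ, sub_self]
    ext P'
    by_cases hP' : P'.restrict F = P
    · have h1 : Φ₁ D' P' = 0 := by
        refine addHom_eq_zero_of_support ((Finsupp.applyAddHom P').comp Φ₁) D' ?_
        intro w hw n
        refine h₁ w n P' ?_
        intro h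
        rw [Finsupp.mem_support_iff] at hw
        exact hw (hD'S w (by rw [← h, hP']))
      have h2 : Φ₂ D' P' = 0 := by
        refine addHom_eq_zero_of_support ((Finsupp.applyAddHom P').comp Φ₂) D' ?_
        intro w hw n
        refine h₂ w n P' ?_
        intro h
        rw [Finsupp.mem_support_iff] at hw
        exact hw (hD'S w (by rw [← h, hP']))
      have h3 := congrArg (fun E : Divisor K G => E P') hprin'
      simp only [hDsplit, map_add, Finsupp.add_apply, h1, h2, add_zero] at h3
      exact h3
    · rw [h₁ Q 1 P' hP', h₂ Q 1 P' hP']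
  apply Finsupp.addHom_ext
  intro Q n
  have hn : (Finsupp.single Q n : Divisor K F₁) = n • Finsupp.single Q 1 := by
    rw [Finsupp.smul_single, smul_eq_mul, mul_one]
  rw [hn, map_zsmul, map_zsmul, key Q]

end Local

/-! ### the Galois group acts on the places of `F'` -/

section Galois

variable {K F F' : Type*} [Field K] [Field F] [Field F']
  [Algebra K F] [Algebra K F'] [Algebra F F'] [IsScalarTower K F F']

/-- an `F`-automorphism of `F'` as a semilinear (in fact `K`-linear) automorphism of `F' / K`. -/
def galAut (σ : F' ≃ₐ[F] F') : SemilinearAut K F' :=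
  SemilinearAut.ofAlgAut (σ.restrictScalars K)

@[simp] theorem galAut_smul (σ : F' ≃ₐ[F] F') (x : F') : galAut (K := K) σ • x = σ x := rfl

theorem galAut_mul (σ τ : F' ≃ₐ[F] F') :
    galAut (K := K) (σ * τ) = galAut σ * galAut τ := by
  apply Subtype.ext
  rfl

theorem galAut_one : galAut (K := K) (1 : F' ≃ₐ[F] F') = 1 := by
  apply Subtype.ext
  rfl

theorem galAut_inv (σ : F' ≃ₐ[F] F') : galAut (K := K) σ⁻¹ = (galAut σ)⁻¹ := by
  rw [eq_inv_iff_mul_eq_one, ← galAut_mul, inv_mul_cancel, galAut_one]

theorem galAut_smul_algebraMap (σ : F' ≃ₐ[F] F') (x : F) :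
    galAut (K := K) σ • algebraMap F F' x = algebraMap F F' x := σ.commutes x

variable [Algebra.IsIntegral F F']

/-- **`(σ • w)|_F = w|_F`.** -/
theorem restrict_galAut_smul (σ : F' ≃ₐ[F] F') (w : Place K F') :
    (galAut (K := K) σ • w).restrict F = w.restrict F := by
  apply Place.ext
  ext x
  rw [Place.mem_restrict_iff, Place.mem_restrict_iff, SemilinearAut.smul_toValuationSubring,
    ValuationSubring.mem_pointwise_smul_iff_inv_smul_mem, ← galAut_inv, galAut_smul_algebraMap]

theorem ord_finset_prod (w : Place K F') {ι : Type*} (s : Finset ι) (f : ι → F')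
    (hf : ∀ i ∈ s, f i ≠ 0) : w.ord (∏ i ∈ s, f i) = ∑ i ∈ s, w.ord (f i) := by
  classical
  induction s using Finset.induction_on with
  | empty => simp [Place.ord_one]
  | insert a s ha ih =>
    have hfa := hf a (Finset.mem_insert_self a s)
    have hfs : ∀ i ∈ s, f i ≠ 0 := fun i hi => hf i (Finset.mem_insert_of_mem hi)
    rw [Finset.prod_insert ha, Finset.sum_insert ha,
      w.ord_mul hfa (Finset.prod_ne_zero_iff.mpr hfs), ih hfs]

variable [HasPrincipalDivisors K F'] [FiniteDimensional F F'] [IsGalois F F']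

/-- the sum of the Galois conjugates, as an additive endomorphism of `Div F'`. -/
def galSumHom : Divisor K F' →+ Divisor K F' :=
  ∑ σ : F' ≃ₐ[F] F', DistribSMul.toAddMonoidHom (Divisor K F') (galAut (K := K) σ)

theorem galSumHom_apply (D : Divisor K F') :
    galSumHom (K := K) (F := F) D = ∑ σ : F' ≃ₐ[F] F', galAut (K := K) σ • D := by
  rw [galSumHom, AddMonoidHom.finsetSum_apply]
  rfl

/-- **pull ∘ push = Σ_σ σ** on divisors. -/
theorem lhsHom_eq_galSumHom (H : Divisor.PushforwardNormFormula K F F') :
    lhsHom (K := K) (F := F) (F₁ := F') (G := F') = galSumHom (K := K) (F := F) := by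
  refine addHom_eq_of_local (F := F) _ _ (fun Q n P' h => lhsHom_single_apply_of_ne Q n P' h)
    ?_ ?_
  · intro Q n P' h
    rw [galSumHom_apply, Finset.sum_apply']
    refine Finset.sum_eq_zero fun σ _ => ?_
    rw [SemilinearAut.smul_single]
    apply Finsupp.single_eq_of_ne
    intro hP'
    apply h
    rw [hP', restrict_galAut_smul]
  · intro f hf D hD
    ext P'
    have hE : ∀ v : Place K F, Divisor.pushforward F D v = v.ord (Algebra.norm F f) :=
      fun v => H f hf D hD v
    rw [lhsHom_apply, Divisor.pullback_apply_eq_ord hE, Algebra.norm_eq_prod_automorphisms,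
      galSumHom_apply, Finset.sum_apply',
      ord_finset_prod P' Finset.univ (fun σ : F' ≃ₐ[F] F' => σ f)
        (fun σ _ => (map_ne_zero σ).mpr hf)]
    refine (Finset.sum_congr rfl fun σ _ => ?_).symm
    rw [SemilinearAut.divisor_smul_apply, hD]
    have h1 := SemilinearAut.ord_smul (galAut (K := K) σ) ((galAut (K := K) σ)⁻¹ • P') f
    rw [smul_inv_smul] at h1
    exact h1.symm

theorem pullback_pushforward_eq_sum (H : Divisor.PushforwardNormFormula K F F')
    (D : Divisor K F') :
    Divisor.pullback F' (Divisor.pushforward F D) = ∑ σ : F' ≃ₐ[F] F', galAut (K := K) σ • D := by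
  rw [← galSumHom_apply, ← lhsHom_eq_galSumHom H]
  rfl

/-- **pull ∘ push = Σ_σ σ** on `Pic⁰`. -/
theorem pullbackHom_pushforwardHom_eq_sum [FundamentalIdentity K F F']
    (H : Divisor.PushforwardNormFormula K F F') (x : Pic0 K F') :
    Pic0.pullbackHom F' (Pic0.pushforwardHom K F F' H x) =
      ∑ σ : F' ≃ₐ[F] F', galAut (K := K) σ • x := by
  obtain ⟨D, rfl⟩ := Pic0.mk_surjective x
  rw [Pic0.pushforwardHom_mk, Pic0.pullbackHom_mk]
  have hsum : ∀ (s : Finset (F' ≃ₐ[F] F')),
      ∑ σ ∈ s, galAut (K := K) σ • Pic0.mk D =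
        Pic0.mk (∑ σ ∈ s, SemilinearAut.degZeroSMulHom (galAut (K := K) σ) D) := by
    intro s
    classical
    induction s using Finset.induction_on with
    | empty => simp
    | insert a s ha ih =>
      rw [Finset.sum_insert ha, Finset.sum_insert ha, Pic0.mk_add, ih,
        SemilinearAut.pic0_smul_mk]
  rw [hsum]
  refine congrArg Pic0.mk (Subtype.ext ?_)
  rw [Pic0.coe_pullbackDegZeroHom, Pic0.coe_pushforwardDegZeroHom,
    pullback_pushforward_eq_sum H]
  have hcoe : ∀ (s : Finset (F' ≃ₐ[F] F')),
      ((∑ σ ∈ s, SemilinearAut.degZeroSMulHom (galAut (K := K) σ) D :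
        Divisor.degZero (K := K) (F := F')) : Divisor K F') =
        ∑ σ ∈ s, galAut (K := K) σ • (D : Divisor K F') := by
    intro s
    classical
    induction s using Finset.induction_on with
    | empty => simp
    | insert a s ha ih =>
      rw [Finset.sum_insert ha, Finset.sum_insert ha, AddSubgroup.coe_add, ih,
        SemilinearAut.coe_degZeroSMulHom]
  exact (hcoe Finset.univ).symm

end Galois

end Fermat.Agent.MP.HECKE.GalSum3
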