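/-
PROGRAMME MP, chapter HECKE, brick (PicId)/(P2) (helper3).  `GalSumAlong3` = the `Along` form of
`GalSum3`: for an embedding `φ : F →ₐ[K] F'` of function fields (integral, finite, norm formula) and a
FINITE SET `G` of `K`-automorphisms of `F'` with `g ∘ φ = φ` and `#G = [F' : φ F]`:

  `F' / φ F` is Galois with group `G`, and
  `φ^* φ_* = ∑_{g ∈ G} g`  on `Div F'` and on `Pic⁰ F'`
  (`g` acting through `SemilinearAut.ofAlgAut g`, i.e. `(g • D)(w) = D(g⁻¹ • w)`).

* `toGal φ g hg : F' ≃ₐ[F] F'` (for `algebraAlong φ`);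
* `toGal_bijective`, `isGalois_along`;
* `pullbackAlong_pushforwardAlong_eq_sum`, `pic0PullbackAlong_pic0PushAlong_eq_sum`.
-/
import Mathlib
import Fermat.Agent.MP.HECKE.GalSum3
import Fermat.Agent.ES.HECKE.LevelPullback12
import Fermat.Agent.ES.N35.PushO12

set_option autoImplicit false
set_option linter.unusedSectionVars false
set_option linter.style.haveILetI false

open AlgebraicCurve

noncomputable section

namespace Fermat.Agent.MP.HECKE.GalSumAlong3

open Fermat.Agent.MP.HECKE.GalSum3
open Fermat.Agent.ES.HECKE.LevelPullback12 Fermat.Agent.ES.N35.PushO12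

variable {K F F' : Type*} [Field K] [Field F] [Field F'] [Algebra K F] [Algebra K F']

/-- a `K`-automorphism of `F'` commuting with `φ`, as an automorphism of `F'` over `F`
(for the algebra structure `algebraAlong φ`). -/
def toGal (φ : F →ₐ[K] F') (g : F' ≃ₐ[K] F') (hg : (g : F' →ₐ[K] F').comp φ = φ) :
    letI := algebraAlong φ
    F' ≃ₐ[F] F' :=
  letI := algebraAlong φ
  { g.toRingEquiv with
    commutes' := fun x => AlgHom.congr_fun hg x }

theorem toGal_apply (φ : F →ₐ[K] F') (g : F' ≃ₐ[K] F') (hg : (g : F' →ₐ[K] F').comp φ = φ)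
    (x : F') : (letI := algebraAlong φ; toGal φ g hg x) = g x := rfl

/-- `galAut (toGal g) = ofAlgAut g`. -/
theorem galAut_toGal (φ : F →ₐ[K] F') (g : F' ≃ₐ[K] F') (hg : (g : F' →ₐ[K] F').comp φ = φ) :
    (letI := algebraAlong φ
     haveI := isScalarTower_along φ
     galAut (K := K) (toGal φ g hg)) = SemilinearAut.ofAlgAut g := by
  apply Subtype.ext
  rfl

section Main

variable (φ : F →ₐ[K] F') (hfin : FiniteAlong K φ)
  (G : Finset (F' ≃ₐ[K] F')) (hG : ∀ g ∈ G, ((g : F' ≃ₐ[K] F') : F' →ₐ[K] F').comp φ = φ)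
  (hcard : G.card = finrankAlong K φ)

include hfin hcard in
/-- `g ↦ toGal g` is a bijection from `G` onto `Aut(F' / φ F)`. -/
theorem toGal_bijective :
    (letI := algebraAlong φ
     Function.Bijective fun g : {g // g ∈ G} => toGal φ g.1 (hG g.1 g.2)) := by
  letI := algebraAlong φ
  haveI : FiniteDimensional F F' := hfin
  have hinj : Function.Injective fun g : {g // g ∈ G} => toGal φ g.1 (hG g.1 g.2) := by
    intro g g' h
    apply Subtype.ext
    apply AlgEquiv.ext
    intro x
    exact congrArg (fun σ : F' ≃ₐ[F] F' => σ x) h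
  refine (Fintype.bijective_iff_injective_and_card _).mpr ⟨hinj, ?_⟩
  apply le_antisymm (Fintype.card_le_of_injective _ hinj)
  have h1 : Fintype.card (F' ≃ₐ[F] F') ≤ Module.finrank F F' := AlgEquiv.card_le
  have h2 : Fintype.card {g // g ∈ G} = G.card := Fintype.card_coe G
  have h3 : Module.finrank F F' = finrankAlong K φ := rfl
  omega

include hfin hcard hG in
/-- `F' / φ F` is Galois. -/
theorem isGalois_along : (letI := algebraAlong φ; IsGalois F F') := by
  letI := algebraAlong φ
  haveI : FiniteDimensional F F' := hfin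
  have hbij := toGal_bijective φ hfin G hG hcard
  apply IsGalois.of_card_aut_eq_finrank
  rw [Nat.card_eq_fintype_card, ← Fintype.card_of_bijective hbij, Fintype.card_coe, hcard]
  rfl

variable [HasPrincipalDivisors K F'] (hφ : φ.toRingHom.IsIntegral) (hN : NormFormulaAlong K φ hfin)

include hfin hN hG hcard in
/-- **`φ^* φ_* = ∑_{g ∈ G} g`** on divisors. -/
theorem pullbackAlong_pushforwardAlong_eq_sum (D : Divisor K F') :
    Divisor.pullbackAlong φ hφ (Divisor.pushforwardAlong φ hφ D) =
      ∑ g ∈ G, SemilinearAut.ofAlgAut g • D := by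
  letI := algebraAlong φ
  haveI := isScalarTower_along φ
  haveI := isIntegral_along φ hφ
  haveI : FiniteDimensional F F' := hfin
  haveI : IsGalois F F' := isGalois_along φ hfin G hG hcard
  have hbij := toGal_bijective φ hfin G hG hcard
  have h1 : Divisor.pullbackAlong φ hφ (Divisor.pushforwardAlong φ hφ D) =
      ∑ σ : F' ≃ₐ[F] F', galAut (K := K) σ • D := pullback_pushforward_eq_sum hN D
  rw [h1, ← Finset.sum_coe_sort G]
  refine (Fintype.sum_bijective _ hbij _ _ fun g => ?_).symm
  rw [galAut_toGal]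

include hfin hN hG hcard in
/-- **`φ^* φ_* = ∑_{g ∈ G} g`** on `Pic⁰`. -/
theorem pic0PullbackAlong_pic0PushAlong_eq_sum (hFI : FundamentalIdentityAlong K φ hφ)
    (x : Pic0 K F') :
    pic0PullbackAlong φ hφ hFI (pic0PushAlong φ hφ hfin hN x) =
      ∑ g ∈ G, SemilinearAut.ofAlgAut g • x := by
  obtain ⟨D, rfl⟩ := Pic0.mk_surjective x
  rw [pic0PushAlong_mk, pic0PullbackAlong_mk]
  have hsum : ∀ (s : Finset (F' ≃ₐ[K] F')),
      ∑ g ∈ s, SemilinearAut.ofAlgAut g • Pic0.mk D =
        Pic0.mk (∑ g ∈ s, SemilinearAut.degZeroSMulHom (SemilinearAut.ofAlgAut g) D) := by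
    intro s
    classical
    induction s using Finset.induction_on with
    | empty => simp
    | insert a s ha ih =>
      rw [Finset.sum_insert ha, Finset.sum_insert ha, Pic0.mk_add, ih,
        SemilinearAut.pic0_smul_mk]
  rw [hsum]
  refine congrArg Pic0.mk (Subtype.ext ?_)
  have hcoe : ∀ (s : Finset (F' ≃ₐ[K] F')),
      ((∑ g ∈ s, SemilinearAut.degZeroSMulHom (SemilinearAut.ofAlgAut g) D :
        Divisor.degZero (K := K) (F := F')) : Divisor K F') =
        ∑ g ∈ s, SemilinearAut.ofAlgAut g • (D : Divisor K F') := by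
    intro s
    classical
    induction s using Finset.induction_on with
    | empty => simp
    | insert a s ha ih =>
      rw [Finset.sum_insert ha, Finset.sum_insert ha, AddSubgroup.coe_add, ih,
        SemilinearAut.coe_degZeroSMulHom]
  rw [hcoe]
  show Divisor.pullbackAlong φ hφ (Divisor.pushforwardAlong φ hφ (D : Divisor K F')) = _
  exact pullbackAlong_pushforwardAlong_eq_sum φ hfin G hG hcard hφ hN _

end Main

end Fermat.Agent.MP.HECKE.GalSumAlong3
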