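/-
PROGRAMME MP, chapter HECKE, brick (PicId)/(P2) (helper3).  `GalFixer3` = the group of `K`-automorphisms
of `F'` COMMUTING WITH an embedding `φ : F →ₐ[K] F'`, and `φ^* φ_*` as the sum over it.

* `fixer φ : Subgroup (F' ≃ₐ[K] F')`  (`g ∘ φ = φ`);  `fixerEquiv φ : fixer φ ≃* Gal(F' / φ F)`;
* `card_fixer_dvd` : `#fixer φ ∣ [F' : φ F]`;  `finite_fixer`;
* `pull_push_eq_sum` : if `#fixer φ = [F' : φ F]` then
  `φ^* φ_* x = ∑ g ∈ fixerFinset φ, ofAlgAut g • x` on `Pic⁰`;
* `pull_push_eq_smul` : … `= [F' : φ F] • x` if `x` is fixed by a generating set of `fixer φ`;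
* `pull_push_mem` : an additive subgroup of `Pic⁰ F'` stable under a generating set (and inverses) is
  stable under `φ^* φ_*`;
* `fixer_two`, `fixer_six` : the two cases (degree 2 with one involution; degree 6 with two).
-/
import Mathlib
import Fermat.Agent.MP.HECKE.GalSumAlong3
import Fermat.Agent.MP.HECKE.GalGroup3

set_option autoImplicit false
set_option linter.unusedSectionVars false
set_option linter.style.haveILetI false

open AlgebraicCurve

noncomputable section

namespace Fermat.Agent.MP.HECKE.GalFixer3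

open Fermat.Agent.MP.HECKE.GalSum3 Fermat.Agent.MP.HECKE.GalSumAlong3
open Fermat.Agent.MP.HECKE.GalGroup3
open Fermat.Agent.ES.HECKE.LevelPullback12 Fermat.Agent.ES.N35.PushO12

variable {K F F' : Type*} [Field K] [Field F] [Field F'] [Algebra K F] [Algebra K F']

/-- the `K`-automorphisms of `F'` commuting with `φ`. -/
def fixer (φ : F →ₐ[K] F') : Subgroup (F' ≃ₐ[K] F') where
  carrier := {g | ∀ x : F, g (φ x) = φ x}
  one_mem' := fun _ => rfl
  mul_mem' := fun {a b} ha hb x => by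
    show a (b (φ x)) = φ x
    rw [hb x, ha x]
  inv_mem' := fun {a} ha x => by
    show a.symm (φ x) = φ x
    rw [AlgEquiv.symm_apply_eq, ha x]

theorem mem_fixer {φ : F →ₐ[K] F'} {g : F' ≃ₐ[K] F'} : g ∈ fixer φ ↔ ∀ x : F, g (φ x) = φ x :=
  Iff.rfl

theorem comp_eq_of_mem_fixer {φ : F →ₐ[K] F'} {g : F' ≃ₐ[K] F'} (hg : g ∈ fixer φ) :
    (g : F' →ₐ[K] F').comp φ = φ :=
  AlgHom.ext fun x => hg x

/-- `fixer φ ≃* Gal(F' / φ F)`. -/
def fixerEquiv (φ : F →ₐ[K] F') :
    letI := algebraAlong φ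
    fixer φ ≃* (F' ≃ₐ[F] F') :=
  letI := algebraAlong φ
  haveI := isScalarTower_along φ
  { toFun := fun g => toGal φ g.1 (comp_eq_of_mem_fixer g.2)
    invFun := fun σ => ⟨σ.restrictScalars K, fun x => σ.commutes x⟩
    left_inv := fun g => by
      apply Subtype.ext
      apply AlgEquiv.ext
      intro x
      rfl
    right_inv := fun σ => by
      apply AlgEquiv.ext
      intro x
      rfl
    map_mul' := fun g h => by
      apply AlgEquiv.ext
      intro x
      rfl }

variable (φ : F →ₐ[K] F') (hfin : FiniteAlong K φ)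

include hfin in
theorem finite_fixer : Finite (fixer φ) := by
  letI := algebraAlong φ
  haveI : FiniteDimensional F F' := hfin
  have : Fintype (F' ≃ₐ[F] F') := inferInstance
  exact Finite.of_equiv _ (fixerEquiv φ).toEquiv.symm

include hfin in
/-- **`#fixer φ ∣ [F' : φ F]`.** -/
theorem card_fixer_dvd : Nat.card (fixer φ) ∣ finrankAlong K φ := by
  letI := algebraAlong φ
  haveI : FiniteDimensional F F' := hfin
  rw [Nat.card_congr (fixerEquiv φ).toEquiv]
  exact card_aut_dvd_finrank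

/-- the elements of `fixer φ` as a finset. -/
def fixerFinset : Finset (F' ≃ₐ[K] F') :=
  haveI := finite_fixer φ hfin
  (Set.toFinite (fixer φ : Set (F' ≃ₐ[K] F'))).toFinset

theorem mem_fixerFinset {g : F' ≃ₐ[K] F'} : g ∈ fixerFinset φ hfin ↔ g ∈ fixer φ := by
  haveI := finite_fixer φ hfin
  rw [fixerFinset, Set.Finite.mem_toFinset]
  rfl

theorem card_fixerFinset : (fixerFinset φ hfin).card = Nat.card (fixer φ) := by
  haveI := finite_fixer φ hfin
  rw [fixerFinset, ← Set.ncard_eq_toFinset_card _, ← Nat.card_coe_set_eq]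
  rfl

variable [HasPrincipalDivisors K F'] (hφ : φ.toRingHom.IsIntegral)
  (hN : NormFormulaAlong K φ hfin) (hFI : FundamentalIdentityAlong K φ hφ)

/-- **`φ^* φ_* = ∑_{g ∈ fixer φ} g`** on `Pic⁰` when `#fixer φ = [F' : φ F]`. -/
theorem pull_push_eq_sum (hcard : Nat.card (fixer φ) = finrankAlong K φ) (x : Pic0 K F') :
    pic0PullbackAlong φ hφ hFI (pic0PushAlong φ hφ hfin hN x) =
      ∑ g ∈ fixerFinset φ hfin, SemilinearAut.ofAlgAut g • x :=
  pic0PullbackAlong_pic0PushAlong_eq_sum φ hfin (fixerFinset φ hfin)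
    (fun g hg => comp_eq_of_mem_fixer ((mem_fixerFinset φ hfin).mp hg))
    ((card_fixerFinset φ hfin).trans hcard) hφ hN hFI x

/-- … `= [F' : φ F] • x` if `x` is fixed by a generating set of `fixer φ`. -/
theorem pull_push_eq_smul (hcard : Nat.card (fixer φ) = finrankAlong K φ)
    (S : Set (F' ≃ₐ[K] F')) (hS : Subgroup.closure S = fixer φ) (x : Pic0 K F')
    (hx : ∀ s ∈ S, SemilinearAut.ofAlgAut s • x = x) :
    pic0PullbackAlong φ hφ hFI (pic0PushAlong φ hφ hfin hN x) = finrankAlong K φ • x := by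
  rw [pull_push_eq_sum φ hfin hφ hN hFI hcard x]
  have hfix : ∀ g ∈ fixerFinset φ hfin, SemilinearAut.ofAlgAut g • x = x := by
    intro g hg
    have hg' : g ∈ Subgroup.closure S := by
      rw [hS]
      exact (mem_fixerFinset φ hfin).mp hg
    -- the action of `F' ≃ₐ[K] F'` on `Pic⁰` through `ofAlgAut`
    letI : MulAction (F' ≃ₐ[K] F') (Pic0 K F') :=
      MulAction.compHom (Pic0 K F') (SemilinearAut.ofAlgAut (K := K) (F := F'))
    exact smul_eq_of_mem_closure S x (fun s hs => hx s hs) hg'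
  rw [Finset.sum_congr rfl hfix, Finset.sum_const, card_fixerFinset, hcard]

/-- an additive subgroup of `Pic⁰ F'` stable under a generating set of `fixer φ` (and the inverses) is
stable under `φ^* φ_*`. -/
theorem pull_push_mem (hcard : Nat.card (fixer φ) = finrankAlong K φ)
    (S : Set (F' ≃ₐ[K] F')) (hS : Subgroup.closure S = fixer φ) (A : AddSubgroup (Pic0 K F'))
    (hA : ∀ s ∈ S, ∀ x ∈ A, SemilinearAut.ofAlgAut s • x ∈ A)
    (hA' : ∀ s ∈ S, ∀ x ∈ A, SemilinearAut.ofAlgAut s⁻¹ • x ∈ A) {x : Pic0 K F'} (hx : x ∈ A) :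
    pic0PullbackAlong φ hφ hFI (pic0PushAlong φ hφ hfin hN x) ∈ A := by
  rw [pull_push_eq_sum φ hfin hφ hN hFI hcard x]
  refine A.sum_mem fun g hg => ?_
  have hg' : g ∈ Subgroup.closure S := by
    rw [hS]
    exact (mem_fixerFinset φ hfin).mp hg
  letI : MulAction (F' ≃ₐ[K] F') (Pic0 K F') :=
    MulAction.compHom (Pic0 K F') (SemilinearAut.ofAlgAut (K := K) (F := F'))
  exact smul_mem_of_mem_closure S (A : Set (Pic0 K F')) (fun s hs y hy => hA s hs y hy)
    (fun s hs y hy => hA' s hs y hy) hg' x hx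

omit [HasPrincipalDivisors K F'] in
include hfin in
/-- **degree 2, one nontrivial automorphism.** -/
theorem fixer_two (hdeg : finrankAlong K φ = 2) {s : F' ≃ₐ[K] F'} (hs : s ∈ fixer φ)
    (hs1 : s ≠ 1) :
    Nat.card (fixer φ) = finrankAlong K φ ∧ Subgroup.closure {s} = fixer φ := by
  haveI := finite_fixer φ hfin
  have hdvd := card_fixer_dvd φ hfin
  rw [hdeg] at hdvd ⊢
  exact card_eq_two_of_dvd (fixer φ) hdvd hs hs1

omit [HasPrincipalDivisors K F'] in
include hfin in
/-- **degree 6, two distinct involutions.** -/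
theorem fixer_six (hdeg : finrankAlong K φ = 6) {s t : F' ≃ₐ[K] F'} (hs : s ∈ fixer φ)
    (ht : t ∈ fixer φ) (hs1 : s ≠ 1) (hs2 : s * s = 1) (ht1 : t ≠ 1) (hst : s ≠ t) :
    Nat.card (fixer φ) = finrankAlong K φ ∧ Subgroup.closure {s, t} = fixer φ := by
  haveI := finite_fixer φ hfin
  have hdvd := card_fixer_dvd φ hfin
  rw [hdeg] at hdvd ⊢
  exact card_eq_six_of_dvd (fixer φ) hdvd hs ht hs1 hs2 ht1 hst

end Fermat.Agent.MP.HECKE.GalFixer3
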