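/-
PROGRAMME MP, chapter HECKE, brick (PicId)/(P2) (helper3).  `S3Group3` = a group of order `6` generated
by two distinct involutions `a`, `b` is `S₃` (pure Mathlib):

* `mul_ne_mul_comm` : `a * b ≠ b * a`;
* `mul_pow_three` : `(a * b) ^ 3 = 1`;  `bab_eq_aba`;
* `mem_list` : every element is one of `1, a, b, ab, ba, aba`;
* `sum_eq` : `∑_{g ∈ H} f g = f 1 + f a + f b + f (ab) + f (ba) + f (aba)`;
* `card_two_sum_eq` : the analogue for order `2`.
-/
import Mathlib
import Fermat.Agent.MP.HECKE.GalGroup3

set_option autoImplicit false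
set_option linter.unusedSectionVars false

namespace Fermat.Agent.MP.HECKE.S3Group3

open Fermat.Agent.MP.HECKE.GalGroup3

variable {G : Type*} [Group G]

section Six

variable (H : Subgroup G) [Finite H] (hcard : Nat.card H = 6) {a b : G} (ha : a ∈ H) (hb : b ∈ H)
  (ha1 : a ≠ 1) (hb1 : b ≠ 1) (ha2 : a * a = 1) (hb2 : b * b = 1) (hab : a ≠ b)

include hcard ha hb ha1 hb1 ha2 hb2 hab in
/-- two distinct involutions of a group of order `6` do not commute. -/
theorem mul_ne_mul_comm : a * b ≠ b * a := by
  intro hcomm
  set V : Subgroup G := Subgroup.closure {a, b} with hV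
  have hVH : V ≤ H := by
    rw [hV, Subgroup.closure_le]
    intro x hx
    rcases hx with rfl | hx
    · exact ha
    · rw [Set.mem_singleton_iff] at hx
      rw [hx]
      exact hb
  have : Finite V := Finite.of_injective (Subgroup.inclusion hVH) (Subgroup.inclusion_injective hVH)
  have haV : a ∈ V := Subgroup.subset_closure (by simp)
  have hbV : b ∈ V := Subgroup.subset_closure (by simp)
  -- `V` is commutative
  have hcommS : ∀ x ∈ ({a, b} : Set G), ∀ y ∈ ({a, b} : Set G), x * y = y * x := by
    intro x hx y hy
    rcases hx with rfl | hx <;> rcases hy with rfl | hy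
    · rfl
    · rw [Set.mem_singleton_iff] at hy; rw [hy]; exact hcomm
    · rw [Set.mem_singleton_iff] at hx; rw [hx]; exact hcomm.symm
    · rw [Set.mem_singleton_iff] at hx hy; rw [hx, hy]
  letI : CommGroup V := Subgroup.closureCommGroupOfComm hcommS
  -- every element of `V` is an involution
  have hinv : ∀ x ∈ V, x * x = 1 := by
    intro x hx
    induction hx using Subgroup.closure_induction with
    | mem y hy =>
      rcases hy with rfl | hy
      · exact ha2
      · rw [Set.mem_singleton_iff] at hy; rw [hy]; exact hb2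
    | one => rw [one_mul]
    | mul x y hx hy ihx ihy =>
      have hxy : x * y = y * x := by
        have := mul_comm (⟨x, hx⟩ : V) ⟨y, hy⟩
        exact congrArg Subtype.val this
      calc x * y * (x * y) = x * (y * x) * y := by group
        _ = x * (x * y) * y := by rw [hxy]
        _ = (x * x) * (y * y) := by group
        _ = 1 := by rw [ihx, ihy, one_mul]
    | inv x hx ihx =>
      have : x⁻¹ = x := inv_eq_of_mul_eq_one_left ihx
      rw [this, ihx]
  have hp : IsPGroup 2 V := by
    intro g
    refine ⟨1, ?_⟩
    apply Subtype.ext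
    rw [pow_one, pow_two]
    exact hinv g.1 g.2
  haveI : Fact (Nat.Prime 2) := ⟨Nat.prime_two⟩
  obtain ⟨n, hn⟩ := (IsPGroup.iff_card (p := 2) (G := V)).mp hp
  have h3 : 3 ≤ Nat.card V := three_le_card V (one_mem V) haV hbV (Ne.symm ha1) (Ne.symm hb1) hab
  have hdvd : Nat.card V ∣ 6 := hcard ▸ Subgroup.card_dvd_of_le hVH
  rw [hn] at h3 hdvd
  have hn2 : 2 ≤ n := by
    by_contra hlt
    have : n ≤ 1 := by omega
    interval_cases n <;> omega
  have h4 : 4 ∣ 2 ^ n := by
    obtain ⟨k, rfl⟩ : ∃ k, n = 2 + k := ⟨n - 2, by omega⟩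
    exact ⟨2 ^ k, by rw [pow_add]; norm_num⟩
  have : 4 ∣ 6 := dvd_trans h4 hdvd
  omega

include hcard ha hb ha1 hb1 ha2 hb2 hab in
/-- **`(a b)³ = 1`.** -/
theorem mul_pow_three : (a * b) ^ 3 = 1 := by
  have hnc := mul_ne_mul_comm H hcard ha hb ha1 hb1 ha2 hb2 hab
  have hbinv : b⁻¹ = b := inv_eq_of_mul_eq_one_left hb2
  have hainv : a⁻¹ = a := inv_eq_of_mul_eq_one_left ha2
  set c : H := ⟨a * b, H.mul_mem ha hb⟩ with hc
  have h6 : orderOf c ∣ 6 := hcard ▸ orderOf_dvd_natCard c
  have hpos : 0 < orderOf c := orderOf_pos c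
  have hle : orderOf c ≤ 6 := Nat.le_of_dvd (by norm_num) h6
  have hcases : orderOf c = 1 ∨ orderOf c = 2 ∨ orderOf c = 3 ∨ orderOf c = 6 := by
    interval_cases h : orderOf c
    · left; rfl
    · right; left; rfl
    · right; right; left; rfl
    · norm_num at h6
    · norm_num at h6
    · right; right; right; rfl
  rcases hcases with h | h | h | h
  · -- `a b = 1`
    exfalso
    have hc1 : c = 1 := orderOf_eq_one_iff.mp h
    have hab1 : a * b = 1 := congrArg Subtype.val hc1
    apply hab
    calc a = a * (b * b) := by rw [hb2, mul_one]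
      _ = (a * b) * b := by group
      _ = b := by rw [hab1, one_mul]
  · -- `(a b)² = 1` forces commutation
    exfalso
    have hc2 : c ^ 2 = 1 := h ▸ pow_orderOf_eq_one c
    have hab2 : (a * b) * (a * b) = 1 := by
      have := congrArg Subtype.val hc2
      rw [pow_two] at this
      exact this
    apply hnc
    calc a * b = (a * b)⁻¹ := (inv_eq_of_mul_eq_one_left hab2).symm
      _ = b⁻¹ * a⁻¹ := mul_inv_rev a b
      _ = b * a := by rw [hbinv, hainv]
  · have hc3 : c ^ 3 = 1 := h ▸ pow_orderOf_eq_one c
    exact congrArg Subtype.val hc3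
  · -- cyclic, hence commutative
    exfalso
    have hcyc : IsCyclic H := isCyclic_of_orderOf_eq_card c (by rw [h, hcard])
    letI : CommGroup H := hcyc.commGroup
    apply hnc
    have := mul_comm (⟨a, ha⟩ : H) ⟨b, hb⟩
    exact congrArg Subtype.val this

include hcard ha hb ha1 hb1 ha2 hb2 hab in
/-- the braid relation `b a b = a b a`. -/
theorem bab_eq_aba : b * a * b = a * b * a := by
  have h3 := mul_pow_three H hcard ha hb ha1 hb1 ha2 hb2 hab
  have hbinv : b⁻¹ = b := inv_eq_of_mul_eq_one_left hb2
  have hainv : a⁻¹ = a := inv_eq_of_mul_eq_one_left ha2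
  have h : (a * b) * (a * b) * (a * b) = 1 := by
    rw [← h3, pow_succ, pow_two]
  -- `b a b = a (a b a b a b) ... `: multiply `h` on the left by `a` and on the right by `b a`
  have h1 : b * a * b * a * b = a := by
    calc b * a * b * a * b = (a * a) * (b * a * b * a * b) := by rw [ha2, one_mul]
      _ = a * ((a * b) * (a * b) * (a * b)) := by simp only [mul_assoc]
      _ = a := by rw [h, mul_one]
  have h2 : b * a * b * a = a * b := by
    calc b * a * b * a = b * a * b * a * (b * b) := by rw [hb2, mul_one]
      _ = (b * a * b * a * b) * b := by simp only [mul_assoc]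
      _ = a * b := by rw [h1]
  calc b * a * b = b * a * b * (a * a) := by rw [ha2, mul_one]
    _ = (b * a * b * a) * a := by simp only [mul_assoc]
    _ = a * b * a := by rw [h2]

include hcard ha hb ha1 hb1 ha2 hb2 hab in
/-- every element of `closure {a, b}` is one of `1, a, b, ab, ba, aba`. -/
theorem mem_list {g : G} (hg : g ∈ Subgroup.closure {a, b}) :
    g ∈ [1, a, b, a * b, b * a, a * b * a] := by
  have hbab := bab_eq_aba H hcard ha hb ha1 hb1 ha2 hb2 hab
  have hbinv : b⁻¹ = b := inv_eq_of_mul_eq_one_left hb2
  have hainv : a⁻¹ = a := inv_eq_of_mul_eq_one_left ha2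
  -- left multiplication by `a` and `b` preserves the list
  have hA : ∀ y ∈ [1, a, b, a * b, b * a, a * b * a], a * y ∈ [1, a, b, a * b, b * a, a * b * a] := by
    intro y hy
    simp only [List.mem_cons, List.mem_nil_iff, or_false] at hy ⊢
    rcases hy with rfl | rfl | rfl | rfl | rfl | rfl
    · right; left; rw [mul_one]
    · left; exact ha2
    · right; right; right; left; rfl
    · right; right; left; rw [← mul_assoc, ha2, one_mul]
    · right; right; right; right; right; rw [mul_assoc]
    · right; right; right; right; left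
      calc a * (a * b * a) = (a * a) * (b * a) := by simp only [mul_assoc]
        _ = b * a := by rw [ha2, one_mul]
  have hB : ∀ y ∈ [1, a, b, a * b, b * a, a * b * a], b * y ∈ [1, a, b, a * b, b * a, a * b * a] := by
    intro y hy
    simp only [List.mem_cons, List.mem_nil_iff, or_false] at hy ⊢
    rcases hy with rfl | rfl | rfl | rfl | rfl | rfl
    · right; right; left; rw [mul_one]
    · right; right; right; right; left; rfl
    · left; exact hb2
    · right; right; right; right; right; rw [← mul_assoc, hbab]
    · right; left; rw [← mul_assoc, hb2, one_mul]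
    · right; right; right; left
      calc b * (a * b * a) = (b * a * b) * a := by group
        _ = a * b * a * a := by rw [hbab]
        _ = a * b * (a * a) := by group
        _ = a * b := by rw [ha2, mul_one]
  induction hg using Subgroup.closure_induction_left with
  | one => simp
  | mul_left x hx y _ ih =>
    rcases hx with rfl | hx
    · exact hA y ih
    · rw [Set.mem_singleton_iff] at hx
      rw [hx]
      exact hB y ih
  | inv_mul_cancel x hx y _ ih =>
    rcases hx with rfl | hx
    · rw [hainv]
      exact hA y ih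
    · rw [Set.mem_singleton_iff] at hx
      rw [hx, hbinv]
      exact hB y ih

include hcard ha hb ha1 hb1 ha2 hb2 hab in
/-- **the sum over a group of order `6` generated by two involutions.** -/
theorem sum_eq [DecidableEq G] (hgen : Subgroup.closure {a, b} = H) {M : Type*} [AddCommMonoid M]
    (f : G → M) (S : Finset G) (hS : ∀ g, g ∈ S ↔ g ∈ H) :
    ∑ g ∈ S, f g = f 1 + f a + f b + f (a * b) + f (b * a) + f (a * b * a) := by
  set L : List G := [1, a, b, a * b, b * a, a * b * a] with hL
  have hsub : S ⊆ L.toFinset := by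
    intro g hg
    rw [List.mem_toFinset]
    exact mem_list H hcard ha hb ha1 hb1 ha2 hb2 hab (hgen ▸ (hS g).mp hg)
  have hSc : S.card = 6 := by
    rw [← hcard, ← Nat.card_eq_finsetCard]
    exact Nat.card_congr (Equiv.subtypeEquivRight hS)
  have hLc : L.toFinset.card ≤ 6 := List.toFinset_card_le L
  have hcardL : L.toFinset.card = 6 := le_antisymm hLc (hSc ▸ Finset.card_le_card hsub)
  have hSL : S = L.toFinset := Finset.eq_of_subset_of_card_le hsub (by rw [hcardL, hSc])
  have hnd : L.Nodup := by
    have hlen : L.length = 6 := by simp [hL]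
    have h := (Multiset.toFinset_card_eq_card_iff_nodup (m := (L : Multiset G))).mp
      (show (L : Multiset G).toFinset.card = Multiset.card (L : Multiset G) from
        hcardL.trans hlen.symm)
    exact Multiset.coe_nodup.mp h
  rw [hSL, List.sum_toFinset f hnd]
  simp only [hL, List.map_cons, List.map_nil, List.sum_cons, List.sum_nil, add_zero, add_assoc]

end Six

/-- **the sum over a group of order `2`.** -/
theorem card_two_sum_eq [DecidableEq G] (H : Subgroup G) [Finite H] (hcard : Nat.card H = 2)
    {a : G} (ha : a ∈ H) (ha1 : a ≠ 1) {M : Type*} [AddCommMonoid M] (f : G → M) (S : Finset G)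
    (hS : ∀ g, g ∈ S ↔ g ∈ H) : ∑ g ∈ S, f g = f 1 + f a := by
  have hSc : S.card = 2 := by
    rw [← hcard, ← Nat.card_eq_finsetCard]
    exact Nat.card_congr (Equiv.subtypeEquivRight hS)
  have hsub : ({1, a} : Finset G) ⊆ S := by
    intro g hg
    rw [Finset.mem_insert, Finset.mem_singleton] at hg
    rcases hg with rfl | rfl
    · exact (hS 1).mpr (one_mem H)
    · exact (hS _).mpr ha
  have hc : ({1, a} : Finset G).card = 2 := Finset.card_pair (Ne.symm ha1)
  have hSeq : ({1, a} : Finset G) = S := Finset.eq_of_subset_of_card_le hsub (by rw [hc, hSc])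
  rw [← hSeq, Finset.sum_pair (Ne.symm ha1)]

end Fermat.Agent.MP.HECKE.S3Group3
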