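/-
PROGRAMME MP, chapter HECKE, brick (PicId)/(P2) (helper3).  `GalLevel3` = **the Galois groups of the
`β₂`-type maps into level `N = 4M`** and the resulting identities on `J₀(N)(ℚ̄)`:

* `finrankAlong_comp`;
* `s1Op_eq_smul`, `frickeJ_eq_smul`, `wOp_eq_frickeJ` : the operators `s₁`, `W` are the actions of the
  automorphisms `Twist4.s1`, `frickeBarEquiv`;
* `IsBeta.fricke_sq` : `W_{N d²} ∘ β_d = β_d ∘ W_N` for a `β_d`-type map `FF N → FF (N d²)`;
* `s1_mem_fixer`, `s1_ne_one`, `conj_mem_fixer`, `s1_ne_conj`;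
* **(H3-2)** `finrankAlong_isBeta_two_of_even`, `pull_push_even`;
* **(H3-3)** `finrankAlong_isBeta_two_of_odd`, `pull_push_odd`;
* **(H3-1)** `cWOp_cWOp`, `cWOp_s1Op`, `cWOp_frickeJ`.
-/
import Mathlib
import Fermat.Agent.MP.HECKE.GalBridge3
import Fermat.Agent.MP.HECKE.GalFixer3
import Fermat.Agent.MP.HECKE.S3Group3
import Fermat.Agent.MP.HECKE.Aut5
import Fermat.Agent.MP.HECKE.CorrId6
import Fermat.Agent.ES.P36.HeckeDeg19

set_option autoImplicit false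
set_option linter.unusedSectionVars false
set_option linter.style.longLine false
set_option linter.style.haveILetI false
set_option synthInstance.maxHeartbeats 400000

namespace Fermat.Agent.MP.HECKE.GalLevel3

open AlgebraicCurve ModularCurve
open Fermat.Agent.X0 Fermat.Agent.RED.TOP
open Fermat.Agent.ES.HECKE Fermat.Agent.ES.HECKE.LevelPullback12
open Fermat.Agent.ES.N34.FrickeFK8
open Fermat.Agent.MP.FUNC.FrickeDeg1 Fermat.Agent.MP.FUNC.Twist4
open Fermat.Agent.MP.HECKE.LvlMap6 Fermat.Agent.MP.HECKE.CorrId6 Fermat.Agent.MP.HECKE.Aut5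
open Fermat.Agent.MP.HECKE.GalFixer3 Fermat.Agent.MP.HECKE.GalBridge3

noncomputable section

/-! ### generic: multiplicativity of the degree -/

theorem finrankAlong_comp {K F F₁ G₁ : Type*} [Field K] [Field F] [Field F₁] [Field G₁]
    [Algebra K F] [Algebra K F₁] [Algebra K G₁] (φ : F →ₐ[K] F₁) (ψ : F₁ →ₐ[K] G₁) :
    finrankAlong K (ψ.comp φ) = finrankAlong K φ * finrankAlong K ψ := by
  unfold finrankAlong
  letI := algebraAlong φ
  letI := algebraAlong ψ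
  letI := algebraAlong (ψ.comp φ)
  haveI : IsScalarTower F F₁ G₁ := IsScalarTower.of_algebraMap_eq (fun _ => rfl)
  exact (Module.finrank_mul_finrank F F₁ G₁).symm

/-! ### the operators as actions of automorphisms -/

section Ops

variable (N : ℕ) [NeZero N]

theorem coe_s1_eq (h4 : 4 ∣ N) : ((s1 N h4 : FF N ≃ₐ[Kbar] FF N) : FF N →ₐ[Kbar] FF N) = s1Hom N h4 :=
  AlgHom.ext fun _ => rfl

theorem coe_frickeBarEquiv_eq :
    ((frickeBarEquiv N : FF N ≃ₐ[Kbar] FF N) : FF N →ₐ[Kbar] FF N) = frickeBar N :=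
  AlgHom.ext fun _ => rfl

/-- `s₁` on `J₀(N)` is the action of the automorphism `Twist4.s1`. -/
theorem s1Op_eq_smul (h4 : 4 ∣ N) (x : JZero N) :
    s1Op N h4 x = SemilinearAut.ofAlgAut (s1 N h4) • x :=
  pullL_eq_smul_of_eq N (s1 N h4) (s1Hom N h4) (coe_s1_eq N h4).symm (finiteAlong_s1Hom N h4) x

/-- `W` on `J₀(N)` is the action of the automorphism `frickeBarEquiv`. -/
theorem frickeJ_eq_smul (x : JZero N) :
    frickeJ N x = SemilinearAut.ofAlgAut (frickeBarEquiv N) • x :=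
  pullL_eq_smul_of_eq N (frickeBarEquiv N) (frickeBar N) (coe_frickeBarEquiv_eq N).symm
    (finiteAlong_fricke N) x

theorem wOp_eq_frickeJ (x : JZero N) : wOp N x = frickeJ N x := rfl

end Ops

/-! ### Fricke and `β_d` for `N₂ = N₁ d²` -/

section FrickeSq

variable {N₁ N₂ d : ℕ} [NeZero N₁] [NeZero N₂] [NeZero d] {ψ : FF N₁ →ₐ[Kbar] FF N₂}

/-- **`W_{N d²} ∘ β_d = β_d ∘ W_N`** for a `β_d`-type map `FF N → FF (N d²)`. -/
theorem fricke_sq (h : N₁ * (d * d) = N₂) (hψ : IsBeta d ψ) (x : FF N₁) :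
    frickeBar N₂ (ψ x) = ψ (frickeBar N₁ x) := by
  have key : (frickeBar N₂).comp ψ = ψ.comp (frickeBar N₁) := by
    apply algHom_ext_gen
    intro e _ he
    obtain ⟨e', hee'⟩ := he
    have he'0 : e' ≠ 0 := by
      rintro rfl
      exact NeZero.ne N₁ (by rw [hee', mul_zero])
    have : NeZero e' := ⟨he'0⟩
    have : NeZero (d * e) := ⟨Nat.mul_ne_zero (NeZero.ne d) (NeZero.ne e)⟩
    have : NeZero (d * e') := ⟨Nat.mul_ne_zero (NeZero.ne d) he'0⟩
    have h1 : (d * e) * (d * e') = N₂ := by rw [← h, hee']; ring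
    rw [AlgHom.comp_apply, AlgHom.comp_apply,
      hψ.jdF e ⟨e', hee'⟩ (Dvd.intro _ h1), frickeBar_jdF N₂ (d * e) (d * e') h1,
      frickeBar_jdF N₁ e e' hee'.symm, hψ.jdF e' (Dvd.intro_left _ hee'.symm)
        (Dvd.intro_left _ h1)]
  exact DFunLike.congr_fun key x

end FrickeSq

/-! ### the twist on the generators -/

section TwistGen

variable (N : ℕ) [NeZero N] (h4 : 4 ∣ N)

theorem tw_jqK_ne : tw jqK ≠ jqK := by
  intro h
  have h1 := congrArg (fun f : LaurentSeries Kbar => f.coeff (-1)) h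
  simp only [tw_coeff] at h1
  rw [jqK_eq_jqModC, coeff_jqModC_neg_one, sgn_odd ⟨-1, by norm_num⟩] at h1
  norm_num at h1

/-- `s₁` moves `j(q^d)` for `d` odd. -/
theorem s1_jdF_ne (d : ℕ) [NeZero d] (hd : d ∣ N) (hodd : Odd d) :
    s1 N h4 (jdF N d hd) ≠ jdF N d hd := by
  intro h
  have h1 := congrArg (fun f : FF N => (f : LaurentSeries Kbar)) h
  simp only [coe_s1] at h1
  rw [coe_jdF_eq_qExpand, tw_qExpand_of_odd hodd] at h1
  exact tw_jqK_ne (qExpand_injective d h1)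

/-- `s₁` fixes `j(q^d)` for `d` even. -/
theorem s1_jdF_even (d : ℕ) [NeZero d] (hd : d ∣ N) (hev : Even d) :
    s1 N h4 (jdF N d hd) = jdF N d hd := by
  apply Subtype.ext
  rw [coe_s1, coe_jdF_eq_qExpand, tw_qExpand_of_even hev]

theorem s1_ne_one : s1 N h4 ≠ 1 := by
  intro h
  apply s1_jdF_ne N h4 1 (one_dvd N) odd_one
  rw [h]
  rfl

theorem s1_mul_s1 : s1 N h4 * s1 N h4 = 1 := by
  apply AlgEquiv.ext
  intro x
  exact s1_s1 N h4 x

theorem fricke_mul_fricke : frickeBarEquiv N * frickeBarEquiv N = 1 := by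
  apply AlgEquiv.ext
  intro x
  exact DFunLike.congr_fun (frickeBar_comp_frickeBar N) x

end TwistGen

/-! ### the elements of the fixer -/

section Fixer

variable {N₁ N₂ : ℕ} [NeZero N₁] [NeZero N₂] {π : FF N₁ →ₐ[Kbar] FF N₂}

/-- `s₁` fixes the image of a `β_d`-type map, `d` even. -/
theorem s1_mem_fixer {d : ℕ} [NeZero d] (hd : Even d) (h4 : 4 ∣ N₂) (hπ : IsBeta d π) :
    s1 N₂ h4 ∈ fixer π := by
  intro x
  apply Subtype.ext
  rw [coe_s1, hπ x, tw_qExpand_of_even hd]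

/-- `W s₁ W` fixes the image of a `β_d`-type map `FF N → FF (N d²)`, `d` even. -/
theorem conj_mem_fixer {d : ℕ} [NeZero d] (hd : Even d) (h4 : 4 ∣ N₂) (h : N₁ * (d * d) = N₂)
    (hπ : IsBeta d π) : frickeBarEquiv N₂ * s1 N₂ h4 * frickeBarEquiv N₂ ∈ fixer π := by
  intro x
  show frickeBarEquiv N₂ (s1 N₂ h4 (frickeBarEquiv N₂ (π x))) = π x
  simp only [frickeBarEquiv_apply]
  rw [fricke_sq h hπ, s1_mem_fixer hd h4 hπ, fricke_sq h hπ]
  congr 1
  exact DFunLike.congr_fun (frickeBar_comp_frickeBar N₁) x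

theorem conj_ne_one (h4 : 4 ∣ N₂) :
    frickeBarEquiv N₂ * s1 N₂ h4 * frickeBarEquiv N₂ ≠ 1 := by
  intro h
  apply s1_ne_one N₂ h4
  have hw := fricke_mul_fricke N₂
  calc s1 N₂ h4 = (frickeBarEquiv N₂ * frickeBarEquiv N₂) * s1 N₂ h4 *
        (frickeBarEquiv N₂ * frickeBarEquiv N₂) := by rw [hw, one_mul, mul_one]
    _ = frickeBarEquiv N₂ * (frickeBarEquiv N₂ * s1 N₂ h4 * frickeBarEquiv N₂) *
        frickeBarEquiv N₂ := by simp only [mul_assoc]
    _ = 1 := by rw [h, mul_one, hw]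

theorem conj_mul_conj (h4 : 4 ∣ N₂) :
    (frickeBarEquiv N₂ * s1 N₂ h4 * frickeBarEquiv N₂) *
      (frickeBarEquiv N₂ * s1 N₂ h4 * frickeBarEquiv N₂) = 1 := by
  have hw := fricke_mul_fricke N₂
  have ha := s1_mul_s1 N₂ h4
  calc (frickeBarEquiv N₂ * s1 N₂ h4 * frickeBarEquiv N₂) *
      (frickeBarEquiv N₂ * s1 N₂ h4 * frickeBarEquiv N₂)
      = frickeBarEquiv N₂ * (s1 N₂ h4 * ((frickeBarEquiv N₂ * frickeBarEquiv N₂) * s1 N₂ h4)) *
        frickeBarEquiv N₂ := by simp only [mul_assoc]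
    _ = 1 := by rw [hw, one_mul, ha, mul_one, hw]

/-- `s₁ ≠ W s₁ W` at level `4M`, `M` odd. -/
theorem s1_ne_conj (h : N₁ * 4 = N₂) (hodd : Odd N₁) (h4 : 4 ∣ N₂) :
    s1 N₂ h4 ≠ frickeBarEquiv N₂ * s1 N₂ h4 * frickeBarEquiv N₂ := by
  intro heq
  have h4M : 4 * N₁ = N₂ := by omega
  have e1 : s1 N₂ h4 (jdF N₂ 4 (Dvd.intro _ h4M)) = jdF N₂ 4 (Dvd.intro _ h4M) :=
    s1_jdF_even N₂ h4 4 _ (by decide)
  have e2 : (frickeBarEquiv N₂ * s1 N₂ h4 * frickeBarEquiv N₂) (jdF N₂ 4 (Dvd.intro _ h4M)) =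
      frickeBarEquiv N₂ (s1 N₂ h4 (jdF N₂ N₁ (Dvd.intro_left _ h4M))) := by
    show frickeBarEquiv N₂ (s1 N₂ h4 (frickeBarEquiv N₂ (jdF N₂ 4 (Dvd.intro _ h4M)))) = _
    rw [frickeBarEquiv_apply (N := N₂) (jdF N₂ 4 _), frickeBar_jdF N₂ 4 N₁ h4M]
  rw [← heq, e1] at e2
  -- `j₄ = W (s₁ j_M)`, hence `W j₄ = s₁ j_M`
  have e3 := congrArg (frickeBarEquiv N₂) e2
  rw [frickeBarEquiv_apply (N := N₂) (jdF N₂ 4 _), frickeBar_jdF N₂ 4 N₁ h4M] at e3
  have e4 : frickeBarEquiv N₂ (frickeBarEquiv N₂ (s1 N₂ h4 (jdF N₂ N₁ (Dvd.intro_left _ h4M)))) =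
      s1 N₂ h4 (jdF N₂ N₁ (Dvd.intro_left _ h4M)) :=
    DFunLike.congr_fun (frickeBar_comp_frickeBar N₂) _
  rw [e4] at e3
  exact s1_jdF_ne N₂ h4 N₁ _ hodd e3.symm

end Fixer

/-! ### the degrees -/

section Degree

variable {N₁ N₂ : ℕ} [NeZero N₁] [NeZero N₂] {π : FF N₁ →ₐ[Kbar] FF N₂}

/-- **(H3-2), degree** : a `β₂`-type map `FF N → FF (2N)`, `N` even, has degree `2`. -/
theorem finrankAlong_isBeta_two_of_even (h : N₁ * 2 = N₂) (h2 : 2 ∣ N₁) (hπ : IsBeta 2 π) :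
    finrankAlong Kbar π = 2 := by
  subst h
  rw [hπ.unique (isBeta_heckeBetaBar N₁ 2)]
  exact Fermat.Agent.ES.P36.HeckeDeg19.finrankAlong_beta_of_dvd Kbar N₁ 2 Nat.prime_two h2

/-- **(H3-3), degree** : a `β₂`-type map `FF M → FF (4M)`, `M` odd, has degree `6`. -/
theorem finrankAlong_isBeta_two_of_odd (h : N₁ * 4 = N₂) (hodd : Odd N₁) (hπ : IsBeta 2 π) :
    finrankAlong Kbar π = 6 := by
  subst h
  have hdvd : N₁ * 2 ∣ N₁ * 4 := ⟨2, by ring⟩
  have h2M : ¬ 2 ∣ N₁ := by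
    rw [← even_iff_two_dvd]
    exact Nat.not_even_iff_odd.mpr hodd
  have hcomp : IsBeta 2 ((levelIncl hdvd).comp (heckeBetaBar Kbar N₁ 2)) := by
    intro x
    rw [AlgHom.comp_apply, coe_levelIncl, coe_heckeBetaBar]
  rw [hπ.unique hcomp, finrankAlong_comp,
    AlongDegree25.finrankAlong_beta Kbar N₁ 2 Nat.prime_two h2M, finrankAlong_levelIncl]
  have h1 := Fermat.Agent.RED.LVL.LevelDegree10.relfinrank_fbar_mul hdvd
  have hcop2 : Nat.Coprime N₁ 2 := (Nat.coprime_two_right).mpr hodd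
  have hcop4 : Nat.Coprime N₁ 4 := by
    have : Nat.Coprime N₁ (2 ^ 2) := Nat.Coprime.pow_right 2 hcop2
    simpa using this
  rw [Fermat.Agent.X0.GNPsi.gnp_dedekindPsi_mul hcop2, Fermat.Agent.X0.GNPsi.gnp_dedekindPsi_mul hcop4,
    Fermat.Agent.X0.GNTable.gnt_psi_two, Fermat.Agent.X0.GNTable.gnt_psi_four] at h1
  have hpos : 0 < dedekindPsi N₁ :=
    Fermat.Agent.RED.LVL.LevelDegree10.dedekindPsi_pos (Nat.pos_of_ne_zero (NeZero.ne N₁))
  obtain ⟨r, hr⟩ : ∃ r, r = (Fermat.Agent.RED.Interface4.Fbar (N₁ * 2)).relfinrank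
      (Fermat.Agent.RED.Interface4.Fbar (N₁ * 4)) := ⟨_, rfl⟩
  rw [← hr] at h1
  show (2 + 1) * (Fermat.Agent.RED.Interface4.Fbar (N₁ * 2)).relfinrank
      (Fermat.Agent.RED.Interface4.Fbar (N₁ * 4)) = 6
  rw [← hr]
  have h3 : dedekindPsi N₁ * (3 * r) = dedekindPsi N₁ * 6 := by
    rw [← h1]; ring
  have h4 := Nat.eq_of_mul_eq_mul_left hpos h3
  omega

theorem finiteAlong_of_finrankAlong_eq {n : ℕ} (hn : 0 < n) (h : finrankAlong Kbar π = n) :
    FiniteAlong Kbar π :=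
  AlongDegree25.finiteAlong_of_finrankAlong_pos π (by rw [h]; exact hn)

end Degree

/-! ### (H3-2), (H3-3) : `π^* π_*` as a sum over the Galois group -/

section PullPush

variable {N₁ N₂ : ℕ} [NeZero N₁] [NeZero N₂] {π : FF N₁ →ₐ[Kbar] FF N₂}

/-- **(H3-2)** : for a `β₂`-type map `π : FF N → FF (2N)`, `N` even : `π^* π_* = 1 + s₁`. -/
theorem pull_push_even (h : N₁ * 2 = N₂) (h2 : 2 ∣ N₁) (h4 : 4 ∣ N₂) (hπ : IsBeta 2 π)
    (hfin : FiniteAlong Kbar π) (y : JZero N₂) :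
    pullL π hfin (pushL π hfin y) = y + s1Op N₂ h4 y := by
  classical
  haveI := FbarFacts20.hasPrincipalDivisors_bar N₂
  have hdeg := finrankAlong_isBeta_two_of_even h h2 hπ
  have hs := s1_mem_fixer even_two h4 hπ
  obtain ⟨hcard, -⟩ := fixer_two π hfin hdeg hs (s1_ne_one N₂ h4)
  have hsum := pull_push_eq_sum π hfin (finInt π hfin) (finNF π hfin) (finFI π hfin) hcard y
  haveI := finite_fixer π hfin
  rw [S3Group3.card_two_sum_eq (fixer π) (hcard.trans hdeg) hs (s1_ne_one N₂ h4)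
    (fun g => SemilinearAut.ofAlgAut g • y) (fixerFinset π hfin)
    (fun g => mem_fixerFinset π hfin)] at hsum
  rw [s1Op_eq_smul]
  simp only [map_one, one_smul] at hsum
  exact hsum

/-- **(H3-3)** : for a `β₂`-type map `π : FF M → FF (4M)`, `M` odd :
`π^* π_* = 1 + a + b + ab + ba + aba`, `a = s₁`, `b = W s₁ W`. -/
theorem pull_push_odd (h : N₁ * 4 = N₂) (hodd : Odd N₁) (h4 : 4 ∣ N₂) (hπ : IsBeta 2 π)
    (hfin : FiniteAlong Kbar π) (y : JZero N₂) :
    pullL π hfin (pushL π hfin y) =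
      y + s1Op N₂ h4 y + frickeJ N₂ (s1Op N₂ h4 (frickeJ N₂ y)) +
        s1Op N₂ h4 (frickeJ N₂ (s1Op N₂ h4 (frickeJ N₂ y))) +
        frickeJ N₂ (s1Op N₂ h4 (frickeJ N₂ (s1Op N₂ h4 y))) +
        s1Op N₂ h4 (frickeJ N₂ (s1Op N₂ h4 (frickeJ N₂ (s1Op N₂ h4 y)))) := by
  classical
  haveI := FbarFacts20.hasPrincipalDivisors_bar N₂
  have hdeg := finrankAlong_isBeta_two_of_odd h hodd hπ
  have h22 : N₁ * (2 * 2) = N₂ := by omega
  have hs := s1_mem_fixer even_two h4 hπ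
  have ht := conj_mem_fixer even_two h4 h22 hπ
  obtain ⟨hcard, hgen⟩ := fixer_six π hfin hdeg hs ht (s1_ne_one N₂ h4) (s1_mul_s1 N₂ h4)
    (conj_ne_one h4) (s1_ne_conj h hodd h4)
  have hsum := pull_push_eq_sum π hfin (finInt π hfin) (finNF π hfin) (finFI π hfin) hcard y
  haveI := finite_fixer π hfin
  rw [S3Group3.sum_eq (fixer π) (hcard.trans hdeg) hs ht (s1_ne_one N₂ h4) (conj_ne_one h4)
    (s1_mul_s1 N₂ h4) (conj_mul_conj h4) (s1_ne_conj h hodd h4) hgen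
    (fun g => SemilinearAut.ofAlgAut g • y) (fixerFinset π hfin)
    (fun g => mem_fixerFinset π hfin)] at hsum
  simp only [map_one, one_smul, map_mul, mul_smul] at hsum
  simp only [s1Op_eq_smul, frickeJ_eq_smul]
  exact hsum

end PullPush

/-! ### (H3-1) : the central involution `𝒲 = (s₁ W)³` -/

section Dihedral

/-- in a group, two involutions `a`, `w` with `(a · w a w)³ = 1` : `c = (a w)³` is a central
involution of `⟨a, w⟩`. -/
theorem dihedral_aux {G : Type*} [Group G] {a w : G} (ha : a * a = 1) (hw : w * w = 1)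
    (h : (a * (w * a * w)) ^ 3 = 1) :
    (a * w * a * w * a * w) * (a * w * a * w * a * w) = 1 ∧
      (a * w * a * w * a * w) * a = a * (a * w * a * w * a * w) ∧
      (a * w * a * w * a * w) * w = w * (a * w * a * w * a * w) := by
  have haa : ∀ x : G, a * (a * x) = x := fun x => by rw [← mul_assoc, ha, one_mul]
  have hww : ∀ x : G, w * (w * x) = x := fun x => by rw [← mul_assoc, hw, one_mul]
  have hcc : (a * w * a * w * a * w) * (a * w * a * w * a * w) = 1 := by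
    rw [← h]
    simp only [pow_succ, pow_zero, one_mul, mul_assoc]
  have hcc' : (a * w * a * w * a * w) * (w * a * w * a * w * a) = 1 := by
    simp only [mul_assoc, haa, hww, ha, hw, mul_one]
  have heq : w * a * w * a * w * a = a * w * a * w * a * w :=
    mul_left_cancel (hcc'.trans hcc.symm)
  refine ⟨hcc, ?_, ?_⟩
  · calc (a * w * a * w * a * w) * a = (w * a * w * a * w * a) * a := by rw [heq]
      _ = a * (a * w * a * w * a * w) := by simp only [mul_assoc, haa, ha, mul_one]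
  · calc (a * w * a * w * a * w) * w = w * (w * a * w * a * w * a) := by
          simp only [mul_assoc, hww, hw, mul_one]
      _ = w * (a * w * a * w * a * w) := by rw [heq]

end Dihedral

section Central

variable (N : ℕ) [NeZero N] (h4 : 4 ∣ N)

/-- `𝒲` is the action of `(s₁ W)³`. -/
theorem cWOp_eq_smul (x : JZero N) :
    cWOp N h4 x = SemilinearAut.ofAlgAut (s1 N h4 * frickeBarEquiv N * s1 N h4 * frickeBarEquiv N *
      s1 N h4 * frickeBarEquiv N) • x := by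
  rw [cWOp_apply]
  simp only [wOp_eq_frickeJ, s1Op_eq_smul, frickeJ_eq_smul, map_mul, mul_smul]

/-- existence of a `β₂`-type map `FF M → FF (4M)`. -/
theorem exists_isBeta_two {M : ℕ} [NeZero M] (h : M * 4 = N) :
    ∃ π : FF M →ₐ[Kbar] FF N, IsBeta 2 π := by
  have hdvd : M * 2 ∣ N := ⟨2, by omega⟩
  refine ⟨(levelIncl hdvd).comp (heckeBetaBar Kbar M 2), ?_⟩
  intro x
  rw [AlgHom.comp_apply, coe_levelIncl, coe_heckeBetaBar]

include h4 in
/-- the relation `(s₁ · W s₁ W)³ = 1` in `Aut(FF N)`, `4 ∥ N`. -/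
theorem s1_conj_pow_three (h8 : ¬ 8 ∣ N) :
    (s1 N h4 * (frickeBarEquiv N * s1 N h4 * frickeBarEquiv N)) ^ 3 = 1 := by
  obtain ⟨M, hM⟩ := h4
  have hM0 : M ≠ 0 := by
    rintro rfl
    exact NeZero.ne N (by rw [hM, mul_zero])
  haveI : NeZero M := ⟨hM0⟩
  have hMN : M * 4 = N := by omega
  have hodd : Odd M := by
    rw [← Nat.not_even_iff_odd]
    rintro ⟨k, hk⟩
    exact h8 ⟨k, by omega⟩
  have h4' : 4 ∣ N := ⟨M, hM⟩
  obtain ⟨π, hπ⟩ := exists_isBeta_two N hMN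
  have hdeg := finrankAlong_isBeta_two_of_odd hMN hodd hπ
  have hfin : FiniteAlong Kbar π := finiteAlong_of_finrankAlong_eq (by norm_num) hdeg
  have h22 : M * (2 * 2) = N := by omega
  have hs := s1_mem_fixer even_two h4' hπ
  have ht := conj_mem_fixer even_two h4' h22 hπ
  obtain ⟨hcard, -⟩ := fixer_six π hfin hdeg hs ht (s1_ne_one N h4') (s1_mul_s1 N h4')
    (conj_ne_one h4') (s1_ne_conj hMN hodd h4')
  haveI := finite_fixer π hfin
  exact S3Group3.mul_pow_three (fixer π) (hcard.trans hdeg) hs ht (s1_ne_one N h4') (conj_ne_one h4')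
    (s1_mul_s1 N h4') (conj_mul_conj h4') (s1_ne_conj hMN hodd h4')

/-- **(H3-1a)** `𝒲² = 1`. -/
theorem cWOp_cWOp (h8 : ¬ 8 ∣ N) (x : JZero N) : cWOp N h4 (cWOp N h4 x) = x := by
  obtain ⟨h1, -, -⟩ := dihedral_aux (s1_mul_s1 N h4) (fricke_mul_fricke N)
    (s1_conj_pow_three N h4 h8)
  rw [cWOp_eq_smul, cWOp_eq_smul, ← mul_smul, ← map_mul, h1, map_one, one_smul]

/-- **(H3-1b)** `𝒲` commutes with `s₁`. -/
theorem cWOp_s1Op (h8 : ¬ 8 ∣ N) (x : JZero N) :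
    cWOp N h4 (s1Op N h4 x) = s1Op N h4 (cWOp N h4 x) := by
  obtain ⟨-, h2, -⟩ := dihedral_aux (s1_mul_s1 N h4) (fricke_mul_fricke N)
    (s1_conj_pow_three N h4 h8)
  rw [cWOp_eq_smul, cWOp_eq_smul, s1Op_eq_smul, s1Op_eq_smul, ← mul_smul, ← mul_smul, ← map_mul,
    ← map_mul, h2]

/-- **(H3-1c)** `𝒲` commutes with `W`. -/
theorem cWOp_frickeJ (h8 : ¬ 8 ∣ N) (x : JZero N) :
    cWOp N h4 (frickeJ N x) = frickeJ N (cWOp N h4 x) := by
  obtain ⟨-, -, h3⟩ := dihedral_aux (s1_mul_s1 N h4) (fricke_mul_fricke N)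
    (s1_conj_pow_three N h4 h8)
  rw [cWOp_eq_smul, cWOp_eq_smul, frickeJ_eq_smul, frickeJ_eq_smul, ← mul_smul, ← mul_smul,
    ← map_mul, ← map_mul, h3]

end Central

end

end Fermat.Agent.MP.HECKE.GalLevel3
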