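/-
Programme MP (row 38 via S44), chapter HECKE (helper6, brick PicId for helper5): **primitive elements of
`Fbar (M ℓ)` over `α(Fbar M)`** (`ℓ` prime, `ℓ ∤ M`), generalising `LevelTop20.adjoin_jl_eq_top`:

* `le_natDegree_minpoly_jdF`, **`adjoin_jdF_eq_top`** : every `j(q^d)`, `d e = M ℓ`, `ℓ ∤ e`, generates
  `Fbar (M ℓ)` over `α(Fbar M)` [at the cusp `0` the subfield `Fbar M` lands in `ℚ̄((q^ℓ))` while
  `T_S (j(q^d)) = j(q^e)` has order `-e` prime to `ℓ`].
  In particular `j(q^{ℓ p})` for `p ∣ M` : the primitive element needed for the base-change square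
  `(α_ℓ, β_p)`.
-/
import Mathlib
import Fermat.Agent.ES.HECKE.LevelTop20

set_option autoImplicit false
set_option linter.unusedSectionVars false
set_option linter.style.longLine false
set_option linter.style.haveILetI false

open ModularCurve AlgebraicCurve IntermediateField
open scoped MatrixGroups

noncomputable section

namespace Fermat.Agent.MP.HECKE.PrimElt6

open Fermat.Agent.X0 Fermat.Agent.RED.BASE.Interface12 Fermat.Agent.RED.LVL.FrickeExp19
open Fermat.Agent.ES.HECKE Fermat.Agent.ES.HECKE.LevelPullback12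
open Fermat.Agent.ES.HECKE.LevelCompatPic12 Fermat.Agent.ES.HECKE.LevelTop20

local notation "Qb" => AlgebraicClosure ℚ

variable {M ℓ : ℕ} [NeZero M] [NeZero ℓ]

/-- the degree of `j(q^d)` over `α(Fbar M)` is at least `ℓ` when `(M ℓ)/d` is prime to `ℓ`. -/
theorem le_natDegree_minpoly_jdF (hℓ : ℓ.Prime) (hℓM : ¬ ℓ ∣ M) (d e : ℕ) [NeZero d] [NeZero e]
    (hde : M * ℓ = d * e) (he : ¬ ℓ ∣ e) :
    letI := algebraAlong (heckeAlphaBar Qb M ℓ)
    ℓ ≤ (minpoly (modularFunctionFieldBar M) (jdF (M * ℓ) d ⟨e, hde⟩)).natDegree := by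
  letI := algebraAlong (heckeAlphaBar Qb M ℓ)
  haveI : FiniteDimensional (modularFunctionFieldBar M) (modularFunctionFieldBar (M * ℓ)) :=
    AlongDegree25.finiteAlong_alpha Qb M ℓ hℓ hℓM
  set y : modularFunctionFieldBar (M * ℓ) := jdF (M * ℓ) d ⟨e, hde⟩ with hy
  set τ : modularFunctionFieldBar (M * ℓ) →+* LaurentSeries Kbar :=
    (cuspData (M * ℓ)).T ModularGroup.S with hτ
  letI : Algebra (modularFunctionFieldBar M) (LaurentSeries Kbar) :=
    (τ.comp (algebraMap (modularFunctionFieldBar M) (modularFunctionFieldBar (M * ℓ)))).toAlgebra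
  let φ : modularFunctionFieldBar (M * ℓ) →ₐ[modularFunctionFieldBar M] LaurentSeries Kbar :=
    { τ with commutes' := fun _ => rfl }
  have hφ : Function.Injective φ := τ.injective
  have hmin : minpoly (modularFunctionFieldBar M) (φ y) =
      minpoly (modularFunctionFieldBar M) y := minpoly.algHom_eq φ hφ y
  rw [← hmin]
  have hval : φ y = qExpand Kbar e jqK := T_S_jdF (M * ℓ) d e hde
  have hord : (φ y).order = -(e : ℤ) := by rw [hval]; exact order_qExpand_jqK e
  have hy0 : φ y ≠ 0 := by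
    intro h0
    rw [h0, HahnSeries.order_zero] at hord
    have : (e : ℤ) = 0 := by omega
    exact NeZero.ne e (by exact_mod_cast this)
  have hcop : IsCoprime (φ y).order (ℓ : ℤ) := by
    rw [hord]
    have h1 : Nat.Coprime e ℓ := ((Nat.Prime.coprime_iff_not_dvd hℓ).mpr he).symm
    exact (Nat.isCoprime_iff_coprime.mpr h1).neg_left
  have hF : ∀ a : modularFunctionFieldBar M,
      algebraMap (modularFunctionFieldBar M) (LaurentSeries Kbar) a ∈
        Set.range (qExpand Kbar ℓ) := fun a => T_S_mem_range M (M * ℓ) ℓ rfl a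
  have hint : IsIntegral (modularFunctionFieldBar M) (φ y) :=
    (isIntegral_algHom_iff φ hφ).mpr
      (Algebra.IsIntegral.isIntegral (R := modularFunctionFieldBar M) y)
  exact Fermat.Agent.IG.PR.RamDeg25.le_natDegree_minpoly hy0 hcop hF hint

/-- **`Fbar (M ℓ) = α(Fbar M)(j(q^d))`** for every `d` with `(M ℓ)/d` prime to `ℓ`. -/
theorem adjoin_jdF_eq_top (hℓ : ℓ.Prime) (hℓM : ¬ ℓ ∣ M) (d e : ℕ) [NeZero d] [NeZero e]
    (hde : M * ℓ = d * e) (he : ¬ ℓ ∣ e) :
    letI := algebraAlong (heckeAlphaBar Qb M ℓ)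
    IntermediateField.adjoin (modularFunctionFieldBar M) {jdF (M * ℓ) d ⟨e, hde⟩} = ⊤ := by
  letI := algebraAlong (heckeAlphaBar Qb M ℓ)
  haveI : FiniteDimensional (modularFunctionFieldBar M) (modularFunctionFieldBar (M * ℓ)) :=
    AlongDegree25.finiteAlong_alpha Qb M ℓ hℓ hℓM
  have hfr : Module.finrank (modularFunctionFieldBar M) (modularFunctionFieldBar (M * ℓ)) = ℓ + 1 :=
    AlongDegree25.finrankAlong_alpha Qb M ℓ hℓ hℓM
  rw [Field.primitive_element_iff_minpoly_natDegree_eq, hfr]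
  have hdvd : (minpoly (modularFunctionFieldBar M) (jdF (M * ℓ) d ⟨e, hde⟩)).natDegree ∣ ℓ + 1 := by
    rw [← hfr]
    exact minpoly.degree_dvd (Algebra.IsIntegral.isIntegral _)
  exact eq_succ_of_dvd_of_le hℓ.two_le hdvd (le_natDegree_minpoly_jdF hℓ hℓM d e hde he)

end Fermat.Agent.MP.HECKE.PrimElt6
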