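/-
Programme MP (row 38 via S44), chapter HECKE (helper6, brick PicId for helper5): **the base-change
squares between degeneracy maps**, for ARBITRARY `ℚ̄`-algebra maps characterised by their `q`-expansions
(`FrickeDeg1.IsAlpha φ` : `φ x = x`, `FrickeDeg1.IsBeta d ψ` : `ψ x = x(q^d)`), so that no cast between
levels such as `(N r) p` and `(N p) r` is ever needed.

* **`finiteAlong_any`** : EVERY `ℚ̄`-algebra map `Fbar N₁ → Fbar N₂` is finite (transcendence degree one);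
  `finiteAlong_of_isAlpha`, `finiteAlong_of_isBeta`;
* `isBeta_one_iff` : `IsAlpha = IsBeta 1`; `algHom_ext_coe`, `comp_alpha_alpha`, `comp_alpha_beta`,
  `comp_beta_beta` : all squares of such maps commute;
* `isAlpha_levelIncl`, `betaIncl d h`, `isBeta_betaIncl` : existence of the maps for `N₁ ∣ N₂`, `N₁ d ∣ N₂`;
* `finrankAlong_of_isAlpha`, `finrankAlong_of_isBeta` (prime index `r ∤ N₁` : `r + 1`);
* **`normAlong_square`, `pullL_pushL_square`** : for `ℓ` prime, `ℓ ∤ N₂`, `a₁ : N₁ → N₁ℓ`, `a₂ : N₂ → N₂ℓ` of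
  type `α` and `p : N₁ → N₂`, `p' : N₁ℓ → N₂ℓ` of type `β_d` (`N₁ d ∣ N₂`; `d = 1` : type `α`) :
  `p^* a_{1*} = a_{2*} p'^*`; `pullL_pushL_square_alpha` the form with `p`, `p'` of type `α`.
-/
import Mathlib
import Fermat.Agent.MP.HECKE.CorrId6
import Fermat.Agent.MP.HECKE.PrimElt6
import Fermat.Agent.ES.HECKE.NormCompat12

set_option autoImplicit false
set_option linter.unusedSectionVars false
set_option linter.style.longLine false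
set_option linter.style.haveILetI false

namespace Fermat.Agent.MP.HECKE.Squares6

open AlgebraicCurve ModularCurve
open Fermat.Agent.X0
open Fermat.Agent.ES.HECKE Fermat.Agent.ES.HECKE.LevelPullback12 Fermat.Agent.ES.N35.PushO12
open Fermat.Agent.ES.HECKE.BaseChange19
open Fermat.Agent.MP.HECKE.Iface5 Fermat.Agent.TW.FLAT.FlatModule6
open Fermat.Agent.MP.HECKE.LvlMap6 Fermat.Agent.ES.N34.FrickeFK8 Fermat.Agent.MP.FUNC.FrickeDeg1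
open Fermat.Agent.MP.HECKE.CorrId6 Fermat.Agent.MP.HECKE.PrimElt6
open Fermat.Agent.RED.TOP

noncomputable section

/-! ### every map is finite -/

/-- generic: a `K`-embedding of a field containing a transcendental element into a field with a
transcendental generator is finite. -/
theorem finiteAlong_of_isGen {K F F' : Type*} [Field K] [Field F] [Field F'] [Algebra K F]
    [Algebra K F'] (φ : F →ₐ[K] F') {x : F} (hx : Transcendental K x) {x' : F'}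
    (hx' : FF.IsGen K x') : FiniteAlong K φ := by
  unfold FiniteAlong
  letI := algebraAlong φ
  have htr : Transcendental K (φ x) := by
    intro h
    exact hx ((isAlgebraic_algHom_iff φ φ.injective).mp h)
  have hgen : FF.IsGen K (φ x) := hx'.of_transcendental htr
  obtain ⟨s, hs⟩ := (Module.finite_def.mp
    (hgen.finite : Module.Finite (IntermediateField.adjoin K {φ x}) F'))
  refine Module.finite_def.mpr ⟨s, ?_⟩
  rw [eq_top_iff]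
  intro y hytop
  clear hytop
  have hy : y ∈ Submodule.span (IntermediateField.adjoin K {φ x}) (s : Set F') := by
    rw [hs]; trivial
  have hle : IntermediateField.adjoin K {φ x} ≤ φ.fieldRange := by
    rw [IntermediateField.adjoin_le_iff]
    rintro z rfl
    exact ⟨x, rfl⟩
  induction hy using Submodule.span_induction with
  | mem z hz => exact Submodule.subset_span hz
  | zero => exact Submodule.zero_mem _
  | add u v _ _ hu hv => exact Submodule.add_mem _ hu hv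
  | smul c u _ hu =>
      obtain ⟨c', hc'⟩ := hle c.2
      have : c • u = c' • u := by
        rw [Algebra.smul_def, Algebra.smul_def]
        congr 1
        exact hc'.symm
      rw [this]
      exact Submodule.smul_mem _ _ hu

section Any

variable {N₁ N₂ : ℕ} [NeZero N₁] [NeZero N₂]

/-- **every `ℚ̄`-algebra map `Fbar N₁ → Fbar N₂` is finite.** -/
theorem finiteAlong_any (φ : FF N₁ →ₐ[Kbar] FF N₂) : FiniteAlong Qb φ :=
  finiteAlong_of_isGen φ (FbarFacts20.isGen_j N₁).transcendental (FbarFacts20.isGen_j N₂)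

theorem finiteAlong_of_isAlpha {φ : FF N₁ →ₐ[Kbar] FF N₂} (_h : IsAlpha φ) : FiniteAlong Qb φ :=
  finiteAlong_any φ

theorem finiteAlong_of_isBeta {d : ℕ} [NeZero d] {ψ : FF N₁ →ₐ[Kbar] FF N₂} (_h : IsBeta d ψ) :
    FiniteAlong Qb ψ :=
  finiteAlong_any ψ

theorem isBeta_one_iff {φ : FF N₁ →ₐ[Kbar] FF N₂} : IsBeta 1 φ ↔ IsAlpha φ := by
  unfold IsBeta IsAlpha
  simp only [ModularCurve.qExpand_one_apply]

end Any

/-! ### commutation of maps given by `q`-expansions -/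

section Comm

variable {N₁ N₂ N₃ N₄ : ℕ} [NeZero N₁] [NeZero N₂] [NeZero N₃] [NeZero N₄]

theorem algHom_ext_coe {φ ψ : FF N₁ →ₐ[Kbar] FF N₂}
    (h : ∀ x : FF N₁, ((φ x : FF N₂) : LaurentSeries Kbar) = ((ψ x : FF N₂) : LaurentSeries Kbar)) :
    φ = ψ :=
  AlgHom.ext fun x => Subtype.ext (h x)

theorem comp_alpha_alpha {φ : FF N₁ →ₐ[Kbar] FF N₂} {ψ : FF N₁ →ₐ[Kbar] FF N₃}
    {ψ' : FF N₂ →ₐ[Kbar] FF N₄} {φ' : FF N₃ →ₐ[Kbar] FF N₄}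
    (hφ : IsAlpha φ) (hψ : IsAlpha ψ) (hψ' : IsAlpha ψ') (hφ' : IsAlpha φ') :
    ψ'.comp φ = φ'.comp ψ :=
  algHom_ext_coe fun x => by
    rw [AlgHom.comp_apply, AlgHom.comp_apply, hψ', hφ, hφ', hψ]

theorem comp_alpha_beta {d : ℕ} [NeZero d] {φ : FF N₁ →ₐ[Kbar] FF N₂} {ψ : FF N₁ →ₐ[Kbar] FF N₃}
    {ψ' : FF N₂ →ₐ[Kbar] FF N₄} {φ' : FF N₃ →ₐ[Kbar] FF N₄}
    (hφ : IsAlpha φ) (hψ : IsBeta d ψ) (hψ' : IsBeta d ψ') (hφ' : IsAlpha φ') :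
    ψ'.comp φ = φ'.comp ψ :=
  algHom_ext_coe fun x => by
    rw [AlgHom.comp_apply, AlgHom.comp_apply, hψ', hφ, hφ', hψ]

theorem comp_beta_beta {d e : ℕ} [NeZero d] [NeZero e] {φ : FF N₁ →ₐ[Kbar] FF N₂}
    {ψ : FF N₁ →ₐ[Kbar] FF N₃} {ψ' : FF N₂ →ₐ[Kbar] FF N₄} {φ' : FF N₃ →ₐ[Kbar] FF N₄}
    (hφ : IsBeta e φ) (hψ : IsBeta d ψ) (hψ' : IsBeta d ψ') (hφ' : IsBeta e φ') :
    ψ'.comp φ = φ'.comp ψ :=
  algHom_ext_coe fun x => by
    haveI : NeZero (d * e) := ⟨Nat.mul_ne_zero (NeZero.ne d) (NeZero.ne e)⟩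
    haveI : NeZero (e * d) := ⟨Nat.mul_ne_zero (NeZero.ne e) (NeZero.ne d)⟩
    rw [AlgHom.comp_apply, AlgHom.comp_apply, hψ', hφ, hφ', hψ, qExpand_qExpand, qExpand_qExpand]
    exact qExpand_congr (mul_comm d e) _

end Comm

/-! ### existence, degrees -/

section Deg

variable {N₁ N₂ : ℕ} [NeZero N₁] [NeZero N₂]

theorem isAlpha_levelIncl (h : N₁ ∣ N₂) : IsAlpha (N₁ := N₁) (N₂ := N₂) (levelIncl h) :=
  fun x => coe_levelIncl h x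

theorem isAlpha_eq_levelIncl {φ : FF N₁ →ₐ[Kbar] FF N₂} (hφ : IsAlpha φ) (h : N₁ ∣ N₂) :
    φ = levelIncl h :=
  hφ.unique (isAlpha_levelIncl h)

/-- the map `x ↦ x(q^d)` from level `N₁` to any level `N₂` divisible by `N₁ d`. -/
def betaIncl (d : ℕ) [NeZero d] (h : N₁ * d ∣ N₂) : FF N₁ →ₐ[Kbar] FF N₂ :=
  haveI : NeZero (N₁ * d) := ⟨Nat.mul_ne_zero (NeZero.ne N₁) (NeZero.ne d)⟩
  (levelIncl h).comp (heckeBetaBar Kbar N₁ d)

theorem isBeta_betaIncl (d : ℕ) [NeZero d] (h : N₁ * d ∣ N₂) :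
    IsBeta (N₁ := N₁) (N₂ := N₂) d (betaIncl d h) := by
  haveI : NeZero (N₁ * d) := ⟨Nat.mul_ne_zero (NeZero.ne N₁) (NeZero.ne d)⟩
  intro x
  show ((levelIncl h (heckeBetaBar Kbar N₁ d x) : FF N₂) : LaurentSeries Kbar) = _
  rw [coe_levelIncl]
  exact coe_heckeBetaBar N₁ d x

theorem finrankAlong_of_isAlpha {r : ℕ} [NeZero r] {φ : FF N₁ →ₐ[Kbar] FF N₂} (hφ : IsAlpha φ)
    (hr : r.Prime) (hrN : ¬ r ∣ N₁) (h : N₁ * r = N₂) : finrankAlong Qb φ = r + 1 := by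
  subst h
  rw [hφ.unique (isAlpha_heckeAlphaBar N₁ r)]
  exact AlongDegree25.finrankAlong_alpha Qb N₁ r hr hrN

theorem finrankAlong_of_isBeta {r : ℕ} [NeZero r] {ψ : FF N₁ →ₐ[Kbar] FF N₂} (hψ : IsBeta r ψ)
    (hr : r.Prime) (hrN : ¬ r ∣ N₁) (h : N₁ * r = N₂) : finrankAlong Qb ψ = r + 1 := by
  subst h
  rw [hψ.unique (isBeta_heckeBetaBar N₁ r)]
  exact AlongDegree25.finrankAlong_beta Qb N₁ r hr hrN

end Deg

/-! ### the base-change square `(α_ℓ, β_d)` -/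

section Square

variable {N₁ N₂ L₁ L₂ ℓ d : ℕ} [NeZero N₁] [NeZero N₂] [NeZero L₁] [NeZero L₂] [NeZero ℓ] [NeZero d]

/-- **norm compatibility** for the square `a₂ ∘ p = p' ∘ a₁` (`a_i` of type `α_ℓ`, `p`, `p'` of type
`β_d`). -/
theorem normAlong_square (hℓ : ℓ.Prime) (hℓN : ¬ ℓ ∣ N₂) (h1 : N₁ * ℓ = L₁) (h2 : N₂ * ℓ = L₂)
    (hd : N₁ * d ∣ N₂)
    {a₁ : FF N₁ →ₐ[Kbar] FF L₁} {a₂ : FF N₂ →ₐ[Kbar] FF L₂} {p : FF N₁ →ₐ[Kbar] FF N₂}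
    {p' : FF L₁ →ₐ[Kbar] FF L₂} (ha₁ : IsAlpha a₁) (ha₂ : IsAlpha a₂) (hp : IsBeta d p)
    (hp' : IsBeta d p') (f : FF L₁) : normAlong a₂ (p' f) = p (normAlong a₁ f) := by
  subst h1 h2
  obtain ⟨k, hk⟩ := hd
  have hk0 : k ≠ 0 := by
    rintro rfl
    exact NeZero.ne N₂ (by rw [hk, mul_zero])
  haveI : NeZero k := ⟨hk0⟩
  haveI : NeZero (N₁ * k) := ⟨Nat.mul_ne_zero (NeZero.ne N₁) hk0⟩
  haveI : NeZero (d * ℓ) := ⟨Nat.mul_ne_zero (NeZero.ne d) (NeZero.ne ℓ)⟩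
  have hℓN₁ : ¬ ℓ ∣ N₁ := fun h => hℓN (by rw [hk]; exact (h.mul_right d).mul_right k)
  have hℓe : ¬ ℓ ∣ N₁ * k := fun h => hℓN (by
    rw [hk, show N₁ * d * k = N₁ * k * d by ring]; exact h.mul_right d)
  have hde : N₂ * ℓ = d * ℓ * (N₁ * k) := by rw [hk]; ring
  have e₁ : a₁ = heckeAlphaBar Kbar N₁ ℓ := ha₁.unique (isAlpha_heckeAlphaBar N₁ ℓ)
  have e₂ : a₂ = heckeAlphaBar Kbar N₂ ℓ := ha₂.unique (isAlpha_heckeAlphaBar N₂ ℓ)
  have hcomm : a₂.comp p = p'.comp a₁ := (comp_alpha_beta ha₁ hp hp' ha₂).symm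
  have hx : p' (jdF (N₁ * ℓ) ℓ ⟨N₁, mul_comm _ _⟩) = jdF (N₂ * ℓ) (d * ℓ) ⟨N₁ * k, hde⟩ :=
    hp'.jdF ℓ ⟨N₁, mul_comm _ _⟩ ⟨N₁ * k, hde⟩
  refine NormCompat12.normAlong_compat_of_adjoin a₁ p a₂ p' hcomm (finiteAlong_any a₁)
    (finiteAlong_any a₂) ?_ (jdF (N₁ * ℓ) ℓ ⟨N₁, mul_comm _ _⟩) ?_ f
  · rw [e₁, e₂, AlongDegree25.finrankAlong_alpha Qb N₁ ℓ hℓ hℓN₁,
      AlongDegree25.finrankAlong_alpha Qb N₂ ℓ hℓ hℓN]
  · rw [hx]
    subst e₂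
    exact adjoin_jdF_eq_top hℓ hℓN (d * ℓ) (N₁ * k) hde hℓe

/-- **the base-change square** `p^* a_{1*} = a_{2*} p'^*` (`a_i` of type `α_ℓ`, `ℓ ∤ N₂`; `p`, `p'` of type
`β_d`, `N₁ d ∣ N₂`). -/
theorem pullL_pushL_square (hℓ : ℓ.Prime) (hℓN : ¬ ℓ ∣ N₂) (h1 : N₁ * ℓ = L₁) (h2 : N₂ * ℓ = L₂)
    (hd : N₁ * d ∣ N₂)
    {a₁ : FF N₁ →ₐ[Kbar] FF L₁} {a₂ : FF N₂ →ₐ[Kbar] FF L₂} {p : FF N₁ →ₐ[Kbar] FF N₂}
    {p' : FF L₁ →ₐ[Kbar] FF L₂} (ha₁ : IsAlpha a₁) (ha₂ : IsAlpha a₂) (hp : IsBeta d p)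
    (hp' : IsBeta d p') (fa₁ : FiniteAlong Qb a₁) (fa₂ : FiniteAlong Qb a₂) (fp : FiniteAlong Qb p)
    (fp' : FiniteAlong Qb p') (y : JZero L₁) :
    pullL p fp (pushL a₁ fa₁ y) = pushL a₂ fa₂ (pullL p' fp' y) :=
  pullL_pushL_of_square a₁ p a₂ p' (comp_alpha_beta ha₁ hp hp' ha₂).symm fa₁ fp fa₂ fp'
    (normAlong_square hℓ hℓN h1 h2 hd ha₁ ha₂ hp hp') y

/-- the same with `p`, `p'` of type `α` (`N₁ ∣ N₂`). -/
theorem pullL_pushL_square_alpha (hℓ : ℓ.Prime) (hℓN : ¬ ℓ ∣ N₂) (h1 : N₁ * ℓ = L₁)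
    (h2 : N₂ * ℓ = L₂) (h12 : N₁ ∣ N₂)
    {a₁ : FF N₁ →ₐ[Kbar] FF L₁} {a₂ : FF N₂ →ₐ[Kbar] FF L₂} {p : FF N₁ →ₐ[Kbar] FF N₂}
    {p' : FF L₁ →ₐ[Kbar] FF L₂} (ha₁ : IsAlpha a₁) (ha₂ : IsAlpha a₂) (hp : IsAlpha p)
    (hp' : IsAlpha p') (fa₁ : FiniteAlong Qb a₁) (fa₂ : FiniteAlong Qb a₂) (fp : FiniteAlong Qb p)
    (fp' : FiniteAlong Qb p') (y : JZero L₁) :
    pullL p fp (pushL a₁ fa₁ y) = pushL a₂ fa₂ (pullL p' fp' y) :=
  pullL_pushL_square (d := 1) hℓ hℓN h1 h2 (by rwa [mul_one]) ha₁ ha₂ (isBeta_one_iff.mpr hp)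
    (isBeta_one_iff.mpr hp') fa₁ fa₂ fp fp' y

end Square

end

end Fermat.Agent.MP.HECKE.Squares6
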