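/-
Programme MP (row 38 via S44), chapter HECKE (helper6, brick PicId for helper5): **generic forms of the
Fricke / correspondence identities and the four push–pull squares**, for ARBITRARY maps characterised
by `FrickeDeg1.IsAlpha` / `IsBeta d` (all finiteness proofs are explicit arguments and arbitrary —
`Squares6.finiteAlong_any` supplies one for every map).

* `fricke_comp_isAlpha`, `fricke_comp_isBeta`; **`frickeJ_pullL_alpha`, `frickeJ_pullL_beta`,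
  `pushL_alpha_frickeJ`, `pushL_beta_frickeJ`** (`N₁ d = N₂`, any `d`) : `W₂ φ^* = ψ^* W₁`, `W₂ ψ^* = φ^* W₁`,
  `φ_* W₂ = W₁ ψ_*`, `ψ_* W₂ = W₁ φ_*`; `pushL_beta_eq`, `pushL_alpha_eq` : `ψ_* = W₁ φ_* W₂`, `φ_* = W₁ ψ_* W₂`;
* **`pushL_alpha_pullL_beta`** `= T_r`, **`pushL_beta_pullL_alpha`** `= W T_r W`, `pushL_alpha_pullL_alpha`,
  `pushL_beta_pullL_beta` `= (r + 1) •` (`N₁ r = N₂`, `r` prime, `r ∤ N₁`);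
* **the four squares** (`r` prime, `r ∤ M₁ₚ`, `M₁ r = M₂`, `M₁ p = M₁ₚ`, `M₂ p = M₂ₚ`, `M₁ₚ r = M₂ₚ`; `p` ANY
  positive integer) : `sq_alpha_alpha`, `sq_alpha_beta`, `sq_beta_alpha`, `sq_beta_beta` :
  `c_* z₂^* = z₁^* c'_*` for `c, c'` of type `α` / `β_r` and `z₁, z₂` of type `α` / `β_p`;
* **`hecke_pullL_beta`, `hecke_pullL_alpha`** : `T_ℓ φ^* = φ^* T_ℓ` for `φ : N₁ → N₂` of type `β_d` (`N₁ d ∣ N₂`)
  or `α` (`N₁ ∣ N₂`), `ℓ ∤ N₂`;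
* `hecke_pushL_alpha`, `hecke_pushL_beta` : `T_ℓ c_* = c_* T_ℓ` for `c : N₁ → N₂ = N₁ r` of type `α` / `β_r`
  (`r` prime, `r ∤ N₁ ℓ`, `ℓ` prime, `ℓ ∤ N₂`).
-/
import Mathlib
import Fermat.Agent.MP.HECKE.Squares6

set_option autoImplicit false
set_option linter.unusedSectionVars false
set_option linter.style.longLine false
set_option linter.style.haveILetI false

namespace Fermat.Agent.MP.HECKE.HeckeSq6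

open AlgebraicCurve ModularCurve
open Fermat.Agent.X0
open Fermat.Agent.ES.HECKE Fermat.Agent.ES.HECKE.LevelPullback12 Fermat.Agent.ES.N35.PushO12
open Fermat.Agent.ES.HECKE.BaseChange19
open Fermat.Agent.MP.HECKE.Iface5 Fermat.Agent.TW.FLAT.FlatModule6
open Fermat.Agent.MP.HECKE.LvlMap6 Fermat.Agent.ES.N34.FrickeFK8 Fermat.Agent.MP.FUNC.FrickeDeg1
open Fermat.Agent.MP.HECKE.CorrId6 Fermat.Agent.MP.HECKE.Squares6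
open Fermat.Agent.RED.TOP

noncomputable section

/-! ### the Fricke relations, generic form -/

section FrickeGen

variable {N₁ N₂ d : ℕ} [NeZero N₁] [NeZero N₂] [NeZero d] {φ ψ : FF N₁ →ₐ[Kbar] FF N₂}

theorem fricke_comp_isAlpha (h : N₁ * d = N₂) (hφ : IsAlpha φ) (hψ : IsBeta d ψ) :
    (frickeBar N₂).comp φ = ψ.comp (frickeBar N₁) :=
  AlgHom.ext fun x => fricke_alpha h hφ hψ x

theorem fricke_comp_isBeta (h : N₁ * d = N₂) (hφ : IsAlpha φ) (hψ : IsBeta d ψ) :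
    (frickeBar N₂).comp ψ = φ.comp (frickeBar N₁) :=
  AlgHom.ext fun x => fricke_beta h hφ hψ x

/-- **`W_{N₂} φ^* = ψ^* W_{N₁}`** (`φ` of type `α`, `ψ` of type `β_d`, `N₁ d = N₂`). -/
theorem frickeJ_pullL_alpha (h : N₁ * d = N₂) (hφ : IsAlpha φ) (hψ : IsBeta d ψ)
    (fφ : FiniteAlong Qb φ) (fψ : FiniteAlong Qb ψ) (x : JZero N₁) :
    frickeJ N₂ (pullL φ fφ x) = pullL ψ fψ (frickeJ N₁ x) :=
  pullL_pullL_of_comm φ (frickeBar N₁) (frickeBar N₂) ψ (fricke_comp_isAlpha h hφ hψ) fφ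
    (finiteAlong_fricke N₁) (finiteAlong_fricke N₂) fψ x

/-- **`W_{N₂} ψ^* = φ^* W_{N₁}`.** -/
theorem frickeJ_pullL_beta (h : N₁ * d = N₂) (hφ : IsAlpha φ) (hψ : IsBeta d ψ)
    (fφ : FiniteAlong Qb φ) (fψ : FiniteAlong Qb ψ) (x : JZero N₁) :
    frickeJ N₂ (pullL ψ fψ x) = pullL φ fφ (frickeJ N₁ x) :=
  pullL_pullL_of_comm ψ (frickeBar N₁) (frickeBar N₂) φ (fricke_comp_isBeta h hφ hψ) fψ
    (finiteAlong_fricke N₁) (finiteAlong_fricke N₂) fφ x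

/-- **`φ_* W_{N₂} = W_{N₁} ψ_*`.** -/
theorem pushL_alpha_frickeJ (h : N₁ * d = N₂) (hφ : IsAlpha φ) (hψ : IsBeta d ψ)
    (fφ : FiniteAlong Qb φ) (fψ : FiniteAlong Qb ψ) (y : JZero N₂) :
    pushL φ fφ (frickeJ N₂ y) = frickeJ N₁ (pushL ψ fψ y) := by
  have h' := pushL_pushL_of_comm φ (frickeBar N₁) (frickeBar N₂) ψ (fricke_comp_isAlpha h hφ hψ) fφ
    (finiteAlong_fricke N₁) (finiteAlong_fricke N₂) fψ y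
  rw [pushL_fricke, pushL_fricke] at h'
  exact h'

/-- **`ψ_* W_{N₂} = W_{N₁} φ_*`.** -/
theorem pushL_beta_frickeJ (h : N₁ * d = N₂) (hφ : IsAlpha φ) (hψ : IsBeta d ψ)
    (fφ : FiniteAlong Qb φ) (fψ : FiniteAlong Qb ψ) (y : JZero N₂) :
    pushL ψ fψ (frickeJ N₂ y) = frickeJ N₁ (pushL φ fφ y) := by
  have h' := pushL_pushL_of_comm ψ (frickeBar N₁) (frickeBar N₂) φ (fricke_comp_isBeta h hφ hψ) fψ
    (finiteAlong_fricke N₁) (finiteAlong_fricke N₂) fφ y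
  rw [pushL_fricke, pushL_fricke] at h'
  exact h'

/-- `ψ_* = W_{N₁} φ_* W_{N₂}`. -/
theorem pushL_beta_eq (h : N₁ * d = N₂) (hφ : IsAlpha φ) (hψ : IsBeta d ψ)
    (fφ : FiniteAlong Qb φ) (fψ : FiniteAlong Qb ψ) (y : JZero N₂) :
    pushL ψ fψ y = frickeJ N₁ (pushL φ fφ (frickeJ N₂ y)) := by
  rw [← pushL_beta_frickeJ h hφ hψ fφ fψ, frickeJ_frickeJ]

/-- `φ_* = W_{N₁} ψ_* W_{N₂}`. -/
theorem pushL_alpha_eq (h : N₁ * d = N₂) (hφ : IsAlpha φ) (hψ : IsBeta d ψ)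
    (fφ : FiniteAlong Qb φ) (fψ : FiniteAlong Qb ψ) (y : JZero N₂) :
    pushL φ fφ y = frickeJ N₁ (pushL ψ fψ (frickeJ N₂ y)) := by
  rw [← pushL_alpha_frickeJ h hφ hψ fφ fψ, frickeJ_frickeJ]

end FrickeGen

/-! ### the correspondence identities, generic form -/

section CorrGen

variable {N₁ N₂ r : ℕ} [NeZero N₁] [NeZero N₂] [NeZero r] {φ ψ : FF N₁ →ₐ[Kbar] FF N₂}

/-- **`φ_* ψ^* = T_r`.** -/
theorem pushL_alpha_pullL_beta (hr : r.Prime) (hrN : ¬ r ∣ N₁) (h : N₁ * r = N₂) (hφ : IsAlpha φ)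
    (hψ : IsBeta r ψ) (fφ : FiniteAlong Qb φ) (fψ : FiniteAlong Qb ψ) (x : JZero N₁) :
    pushL φ fφ (pullL ψ fψ x) = heckeOperatorBar N₁ (⟨r, hr⟩ : Nat.Primes) x := by
  subst h
  obtain rfl := hφ.unique (isAlpha_heckeAlphaBar N₁ r)
  obtain rfl := hψ.unique (isBeta_heckeBetaBar N₁ r)
  exact alphaPush_betaPull hr hrN x

/-- **`ψ_* φ^* = W T_r W`.** -/
theorem pushL_beta_pullL_alpha (hr : r.Prime) (hrN : ¬ r ∣ N₁) (h : N₁ * r = N₂) (hφ : IsAlpha φ)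
    (hψ : IsBeta r ψ) (fφ : FiniteAlong Qb φ) (fψ : FiniteAlong Qb ψ) (x : JZero N₁) :
    pushL ψ fψ (pullL φ fφ x) =
      frickeJ N₁ (heckeOperatorBar N₁ (⟨r, hr⟩ : Nat.Primes) (frickeJ N₁ x)) := by
  subst h
  obtain rfl := hφ.unique (isAlpha_heckeAlphaBar N₁ r)
  obtain rfl := hψ.unique (isBeta_heckeBetaBar N₁ r)
  exact betaPush_alphaPull hr hrN x

/-- **`φ_* φ^* = r + 1`.** -/
theorem pushL_alpha_pullL_alpha (hr : r.Prime) (hrN : ¬ r ∣ N₁) (h : N₁ * r = N₂) (hφ : IsAlpha φ)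
    (fφ : FiniteAlong Qb φ) (x : JZero N₁) : pushL φ fφ (pullL φ fφ x) = (r + 1) • x := by
  rw [pushL_pullL, finrankAlong_of_isAlpha hφ hr hrN h]

/-- **`ψ_* ψ^* = r + 1`.** -/
theorem pushL_beta_pullL_beta (hr : r.Prime) (hrN : ¬ r ∣ N₁) (h : N₁ * r = N₂) (hψ : IsBeta r ψ)
    (fψ : FiniteAlong Qb ψ) (x : JZero N₁) : pushL ψ fψ (pullL ψ fψ x) = (r + 1) • x := by
  rw [pushL_pullL, finrankAlong_of_isBeta hψ hr hrN h]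

end CorrGen

/-! ### the four squares -/

section Four

variable {M₁ M₂ M₁ₚ M₂ₚ r p : ℕ} [NeZero M₁] [NeZero M₂] [NeZero M₁ₚ] [NeZero M₂ₚ] [NeZero r] [NeZero p]

/-- `a_* x₂^* = x₁^* a'_*`. -/
theorem sq_alpha_alpha (hr : r.Prime) (hrN : ¬ r ∣ M₁ₚ) (h12 : M₁ * r = M₂) (h1p : M₁ * p = M₁ₚ)
    (h1pr : M₁ₚ * r = M₂ₚ)
    {a' : FF M₁ →ₐ[Kbar] FF M₂} {a : FF M₁ₚ →ₐ[Kbar] FF M₂ₚ} {x₁ : FF M₁ →ₐ[Kbar] FF M₁ₚ}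
    {x₂ : FF M₂ →ₐ[Kbar] FF M₂ₚ} (ha' : IsAlpha a') (ha : IsAlpha a) (hx₁ : IsAlpha x₁)
    (hx₂ : IsAlpha x₂) (fa' : FiniteAlong Qb a') (fa : FiniteAlong Qb a) (fx₁ : FiniteAlong Qb x₁)
    (fx₂ : FiniteAlong Qb x₂) (u : JZero M₂) :
    pushL a fa (pullL x₂ fx₂ u) = pullL x₁ fx₁ (pushL a' fa' u) :=
  (pullL_pushL_square_alpha hr hrN h12 h1pr (Dvd.intro _ h1p) ha' ha hx₁ hx₂ fa' fa fx₁ fx₂ u).symm

/-- `a_* y₂^* = y₁^* a'_*`. -/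
theorem sq_alpha_beta (hr : r.Prime) (hrN : ¬ r ∣ M₁ₚ) (h12 : M₁ * r = M₂) (h1p : M₁ * p = M₁ₚ)
    (h1pr : M₁ₚ * r = M₂ₚ)
    {a' : FF M₁ →ₐ[Kbar] FF M₂} {a : FF M₁ₚ →ₐ[Kbar] FF M₂ₚ} {y₁ : FF M₁ →ₐ[Kbar] FF M₁ₚ}
    {y₂ : FF M₂ →ₐ[Kbar] FF M₂ₚ} (ha' : IsAlpha a') (ha : IsAlpha a) (hy₁ : IsBeta p y₁)
    (hy₂ : IsBeta p y₂) (fa' : FiniteAlong Qb a') (fa : FiniteAlong Qb a) (fy₁ : FiniteAlong Qb y₁)
    (fy₂ : FiniteAlong Qb y₂) (u : JZero M₂) :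
    pushL a fa (pullL y₂ fy₂ u) = pullL y₁ fy₁ (pushL a' fa' u) :=
  (pullL_pushL_square hr hrN h12 h1pr (dvd_of_eq h1p) ha' ha hy₁ hy₂ fa' fa fy₁ fy₂ u).symm

/-- `b_* x₂^* = x₁^* b'_*`. -/
theorem sq_beta_alpha (hr : r.Prime) (hrN : ¬ r ∣ M₁ₚ) (h12 : M₁ * r = M₂) (h1p : M₁ * p = M₁ₚ)
    (h2p : M₂ * p = M₂ₚ) (h1pr : M₁ₚ * r = M₂ₚ)
    {b' : FF M₁ →ₐ[Kbar] FF M₂} {b : FF M₁ₚ →ₐ[Kbar] FF M₂ₚ} {x₁ : FF M₁ →ₐ[Kbar] FF M₁ₚ}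
    {x₂ : FF M₂ →ₐ[Kbar] FF M₂ₚ} (hb' : IsBeta r b') (hb : IsBeta r b) (hx₁ : IsAlpha x₁)
    (hx₂ : IsAlpha x₂) (fb' : FiniteAlong Qb b') (fb : FiniteAlong Qb b) (fx₁ : FiniteAlong Qb x₁)
    (fx₂ : FiniteAlong Qb x₂) (u : JZero M₂) :
    pushL b fb (pullL x₂ fx₂ u) = pullL x₁ fx₁ (pushL b' fb' u) := by
  have d12 : M₁ ∣ M₂ := Dvd.intro _ h12
  have d1p : M₁ₚ ∣ M₂ₚ := Dvd.intro _ h1pr
  have ha' := isAlpha_levelIncl d12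
  have ha := isAlpha_levelIncl d1p
  have hy₁ := isBeta_betaIncl p (dvd_of_eq h1p)
  have hy₂ := isBeta_betaIncl p (dvd_of_eq h2p)
  rw [pushL_beta_eq h1pr ha hb (finiteAlong_any _) fb,
    frickeJ_pullL_alpha h2p hx₂ hy₂ fx₂ (finiteAlong_any _),
    sq_alpha_beta hr hrN h12 h1p h1pr ha' ha hy₁ hy₂ (finiteAlong_any _) (finiteAlong_any _)
      (finiteAlong_any _) (finiteAlong_any _),
    frickeJ_pullL_beta h1p hx₁ hy₁ fx₁ (finiteAlong_any _),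
    ← pushL_beta_eq h12 ha' hb' (finiteAlong_any _) fb']

/-- `b_* y₂^* = y₁^* b'_*`. -/
theorem sq_beta_beta (hr : r.Prime) (hrN : ¬ r ∣ M₁ₚ) (h12 : M₁ * r = M₂) (h1p : M₁ * p = M₁ₚ)
    (h2p : M₂ * p = M₂ₚ) (h1pr : M₁ₚ * r = M₂ₚ)
    {b' : FF M₁ →ₐ[Kbar] FF M₂} {b : FF M₁ₚ →ₐ[Kbar] FF M₂ₚ} {y₁ : FF M₁ →ₐ[Kbar] FF M₁ₚ}
    {y₂ : FF M₂ →ₐ[Kbar] FF M₂ₚ} (hb' : IsBeta r b') (hb : IsBeta r b) (hy₁ : IsBeta p y₁)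
    (hy₂ : IsBeta p y₂) (fb' : FiniteAlong Qb b') (fb : FiniteAlong Qb b) (fy₁ : FiniteAlong Qb y₁)
    (fy₂ : FiniteAlong Qb y₂) (u : JZero M₂) :
    pushL b fb (pullL y₂ fy₂ u) = pullL y₁ fy₁ (pushL b' fb' u) := by
  have d12 : M₁ ∣ M₂ := Dvd.intro _ h12
  have d1p : M₁ₚ ∣ M₂ₚ := Dvd.intro _ h1pr
  have d1 : M₁ ∣ M₁ₚ := Dvd.intro _ h1p
  have d2 : M₂ ∣ M₂ₚ := Dvd.intro _ h2p
  have ha' := isAlpha_levelIncl d12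
  have ha := isAlpha_levelIncl d1p
  have hx₁ := isAlpha_levelIncl d1
  have hx₂ := isAlpha_levelIncl d2
  rw [pushL_beta_eq h1pr ha hb (finiteAlong_any _) fb,
    frickeJ_pullL_beta h2p hx₂ hy₂ (finiteAlong_any _) fy₂,
    sq_alpha_alpha hr hrN h12 h1p h1pr ha' ha hx₁ hx₂ (finiteAlong_any _) (finiteAlong_any _)
      (finiteAlong_any _) (finiteAlong_any _),
    frickeJ_pullL_alpha h1p hx₁ hy₁ (finiteAlong_any _) fy₁,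
    ← pushL_beta_eq h12 ha' hb' (finiteAlong_any _) fb']

end Four

/-! ### `T_ℓ` commutes with pull-backs -/

section HeckePull

variable {N₁ N₂ ℓ d : ℕ} [NeZero N₁] [NeZero N₂] [NeZero ℓ] [NeZero d]

/-- **`T_ℓ φ^* = φ^* T_ℓ`** for `φ` of type `β_d`, `N₁ d ∣ N₂`, `ℓ ∤ N₂`. -/
theorem hecke_pullL_beta (hℓ : ℓ.Prime) (hℓN : ¬ ℓ ∣ N₂) (hd : N₁ * d ∣ N₂)
    {φ : FF N₁ →ₐ[Kbar] FF N₂} (hφ : IsBeta d φ) (fφ : FiniteAlong Qb φ) (x : JZero N₁) :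
    heckeOperatorBar N₂ (⟨ℓ, hℓ⟩ : Nat.Primes) (pullL φ fφ x) =
      pullL φ fφ (heckeOperatorBar N₁ (⟨ℓ, hℓ⟩ : Nat.Primes) x) := by
  have hℓN₁ : ¬ ℓ ∣ N₁ := fun h => hℓN ((h.mul_right d).trans hd)
  have hd' : N₁ * ℓ * d ∣ N₂ * ℓ := by
    rw [show N₁ * ℓ * d = N₁ * d * ℓ by ring]
    exact Nat.mul_dvd_mul_right hd ℓ
  have hφ' := isBeta_betaIncl (N₁ := N₁ * ℓ) (N₂ := N₂ * ℓ) d hd'
  rw [← alphaPush_betaPull hℓ hℓN, ← alphaPush_betaPull hℓ hℓN₁, betaPull_eq, betaPull_eq,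
    alphaPush_eq, alphaPush_eq,
    pullL_pullL_of_comm φ (heckeBetaBar Qb N₁ ℓ) (heckeBetaBar Qb N₂ ℓ) (betaIncl d hd')
      (comp_beta_beta hφ (isBeta_heckeBetaBar N₁ ℓ) (isBeta_heckeBetaBar N₂ ℓ) hφ') fφ _ _
      (finiteAlong_any _),
    pullL_pushL_square hℓ hℓN rfl rfl hd (isAlpha_heckeAlphaBar N₁ ℓ) (isAlpha_heckeAlphaBar N₂ ℓ)
      hφ hφ' _ _ fφ (finiteAlong_any _)]

/-- **`T_ℓ φ^* = φ^* T_ℓ`** for `φ` of type `α`, `N₁ ∣ N₂`, `ℓ ∤ N₂`. -/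
theorem hecke_pullL_alpha (hℓ : ℓ.Prime) (hℓN : ¬ ℓ ∣ N₂) (h12 : N₁ ∣ N₂)
    {φ : FF N₁ →ₐ[Kbar] FF N₂} (hφ : IsAlpha φ) (fφ : FiniteAlong Qb φ) (x : JZero N₁) :
    heckeOperatorBar N₂ (⟨ℓ, hℓ⟩ : Nat.Primes) (pullL φ fφ x) =
      pullL φ fφ (heckeOperatorBar N₁ (⟨ℓ, hℓ⟩ : Nat.Primes) x) :=
  hecke_pullL_beta (d := 1) hℓ hℓN (by rwa [mul_one]) (isBeta_one_iff.mpr hφ) fφ x

end HeckePull

/-! ### `T_ℓ` commutes with push-forwards -/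

section HeckePush

variable {N₁ N₂ ℓ r : ℕ} [NeZero N₁] [NeZero N₂] [NeZero ℓ] [NeZero r]

/-- **`T_ℓ c_* = c_* T_ℓ`** for `c` of type `α`, `N₁ r = N₂`, `r` prime, `r ∤ N₁ ℓ`, `ℓ ∤ N₂`. -/
theorem hecke_pushL_alpha (hℓ : ℓ.Prime) (hℓN : ¬ ℓ ∣ N₂) (hr : r.Prime) (hrN : ¬ r ∣ N₁ * ℓ)
    (h : N₁ * r = N₂) {c : FF N₁ →ₐ[Kbar] FF N₂} (hc : IsAlpha c) (fc : FiniteAlong Qb c)
    (y : JZero N₂) :
    heckeOperatorBar N₁ (⟨ℓ, hℓ⟩ : Nat.Primes) (pushL c fc y) =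
      pushL c fc (heckeOperatorBar N₂ (⟨ℓ, hℓ⟩ : Nat.Primes) y) := by
  have hℓN₁ : ¬ ℓ ∣ N₁ := fun h' => hℓN (by rw [← h]; exact h'.mul_right r)
  have h' : N₁ * ℓ * r = N₂ * ℓ := by rw [← h]; ring
  have hc' := isAlpha_levelIncl (N₁ := N₁ * ℓ) (N₂ := N₂ * ℓ) (Dvd.intro _ h')
  rw [← alphaPush_betaPull hℓ hℓN, ← alphaPush_betaPull hℓ hℓN₁, betaPull_eq, betaPull_eq,
    alphaPush_eq, alphaPush_eq,
    ← sq_alpha_beta hr hrN h rfl h' hc hc' (isBeta_heckeBetaBar N₁ ℓ) (isBeta_heckeBetaBar N₂ ℓ) fc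
      (finiteAlong_any _) _ _ y]
  exact (pushL_pushL_of_comm c (heckeAlphaBar Qb N₁ ℓ) (heckeAlphaBar Qb N₂ ℓ) _
    (comp_alpha_alpha hc (isAlpha_heckeAlphaBar N₁ ℓ) (isAlpha_heckeAlphaBar N₂ ℓ) hc') fc _ _ _
    _).symm

/-- **`T_ℓ c_* = c_* T_ℓ`** for `c` of type `β_r`, `N₁ r = N₂`, `r` prime, `r ∤ N₁ ℓ`, `ℓ ∤ N₂`. -/
theorem hecke_pushL_beta (hℓ : ℓ.Prime) (hℓN : ¬ ℓ ∣ N₂) (hr : r.Prime) (hrN : ¬ r ∣ N₁ * ℓ)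
    (h : N₁ * r = N₂) {c : FF N₁ →ₐ[Kbar] FF N₂} (hc : IsBeta r c) (fc : FiniteAlong Qb c)
    (y : JZero N₂) :
    heckeOperatorBar N₁ (⟨ℓ, hℓ⟩ : Nat.Primes) (pushL c fc y) =
      pushL c fc (heckeOperatorBar N₂ (⟨ℓ, hℓ⟩ : Nat.Primes) y) := by
  have hℓN₁ : ¬ ℓ ∣ N₁ := fun h' => hℓN (by rw [← h]; exact h'.mul_right r)
  have h' : N₁ * ℓ * r = N₂ * ℓ := by rw [← h]; ring
  have hc' := isBeta_betaIncl (N₁ := N₁ * ℓ) (N₂ := N₂ * ℓ) r (dvd_of_eq h')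
  rw [← alphaPush_betaPull hℓ hℓN, ← alphaPush_betaPull hℓ hℓN₁, betaPull_eq, betaPull_eq,
    alphaPush_eq, alphaPush_eq,
    ← sq_beta_beta hr hrN h rfl rfl h' hc hc' (isBeta_heckeBetaBar N₁ ℓ) (isBeta_heckeBetaBar N₂ ℓ)
      fc (finiteAlong_any _) _ _ y]
  exact (pushL_pushL_of_comm c (heckeAlphaBar Qb N₁ ℓ) (heckeAlphaBar Qb N₂ ℓ) _
    (comp_alpha_beta (isAlpha_heckeAlphaBar N₁ ℓ) hc hc' (isAlpha_heckeAlphaBar N₂ ℓ)).symm fc _ _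
    _ _).symm

end HeckePush

end

end Fermat.Agent.MP.HECKE.HeckeSq6
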