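/-
Programme MP (row 38 via S44), chapter HECKE (helper6, brick PicId for helper5): **the relations between
`s₁ : q ↦ −q` (`Aut5.s1Op`) and the degeneracy maps.**

* `wOp_eq_frickeJ` : `Aut5.wOp N = CorrId6.frickeJ N`; `pullOf_eq_pullL`, `pushOf_eq_pushL` (all `rfl`);
* `s1Hom_comp_s1Hom`, **`s1Op_s1Op`** : `s₁` is an involution on `J₀(N)`; `pushL_s1Hom` : `s_{1*} = s₁^*`;
* `s1Hom_comp_of_odd` : `s₁ ∘ φ = φ ∘ s₁` for `φ` of type `β_d`, `d` ODD (or of type `α`);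
  **`s1Op_pullL_of_odd`, `pushL_s1Op_of_odd`, `s1Op_pullL_alpha`, `pushL_s1Op_alpha`** :
  `s₁ φ^* = φ^* s₁`, `φ_* s₁ = s₁ φ_*`;
* `s1Hom_comp_of_even`, **`s1Op_pullL_of_even`** : `s₁ ψ^* = ψ^*` for `ψ` of type `β_d`, `d` EVEN;
  `pushL_s1Op_of_even` : `ψ_* s₁ = ψ_*`.
-/
import Mathlib
import Fermat.Agent.MP.HECKE.HeckeSq6
import Fermat.Agent.MP.HECKE.Aut5

set_option autoImplicit false
set_option linter.unusedSectionVars false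
set_option linter.style.longLine false
set_option linter.style.haveILetI false
set_option synthInstance.maxHeartbeats 400000

namespace Fermat.Agent.MP.HECKE.S1Rel6

open AlgebraicCurve ModularCurve
open Fermat.Agent.X0
open Fermat.Agent.ES.HECKE Fermat.Agent.ES.HECKE.LevelPullback12 Fermat.Agent.ES.N35.PushO12
open Fermat.Agent.MP.HECKE.Iface5 Fermat.Agent.TW.FLAT.FlatModule6
open Fermat.Agent.MP.HECKE.LvlMap6 Fermat.Agent.ES.N34.FrickeFK8 Fermat.Agent.MP.FUNC.FrickeDeg1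
open Fermat.Agent.MP.HECKE.CorrId6 Fermat.Agent.MP.HECKE.Squares6
open Fermat.Agent.MP.HECKE.Maps5 Fermat.Agent.MP.HECKE.Aut5 Fermat.Agent.MP.FUNC.Twist4
open Fermat.Agent.RED.TOP

noncomputable section

/-! ### dictionary with `Maps5`/`Aut5` -/

section Dict

variable {N₁ N₂ : ℕ} [NeZero N₁] [NeZero N₂]

theorem pullOf_eq_pullL (φ : FF N₁ →ₐ[Kbar] FF N₂) (hfin : FiniteAlong Kbar φ) :
    pullOf φ hfin = pullL φ hfin := rfl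

theorem pushOf_eq_pushL (φ : FF N₁ →ₐ[Kbar] FF N₂) (hfin : FiniteAlong Kbar φ) :
    pushOf φ hfin = pushL φ hfin := rfl

theorem wOp_eq_frickeJ (N : ℕ) [NeZero N] : wOp N = frickeJ N := rfl

theorem s1Op_eq (N : ℕ) [NeZero N] (h4 : 4 ∣ N) :
    s1Op N h4 = pullL (s1Hom N h4) (finiteAlong_s1Hom N h4) := rfl

end Dict

/-! ### `s₁` is an involution -/

section Invol

variable (N : ℕ) [NeZero N] (h4 : 4 ∣ N)

theorem s1Hom_comp_s1Hom : (s1Hom N h4).comp (s1Hom N h4) = AlgHom.id Kbar (FF N) :=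
  AlgHom.ext fun _ => Subtype.ext (tw_tw _)

theorem s1Hom_bijective : Function.Bijective (s1Hom N h4) := (s1 N h4).bijective

/-- **`s₁ s₁ = 1`** on `J₀(N)`. -/
theorem s1Op_s1Op (x : JZero N) : s1Op N h4 (s1Op N h4 x) = x :=
  pullL_pullL_of_comp_eq_id (s1Hom N h4) (s1Hom N h4) (s1Hom_comp_s1Hom N h4)
    (finiteAlong_s1Hom N h4) (finiteAlong_s1Hom N h4) x

/-- `s_{1*} = s₁^*`. -/
theorem pushL_s1Hom (fs : FiniteAlong Qb (s1Hom N h4)) (y : JZero N) :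
    pushL (s1Hom N h4) fs y = s1Op N h4 y :=
  pushL_eq_pullL_of_inverse (s1Hom N h4) (s1Hom N h4) (s1Hom_comp_s1Hom N h4)
    (s1Hom_bijective N h4) fs (finiteAlong_s1Hom N h4) y

end Invol

/-! ### odd index -/

section Odd

variable {N₁ N₂ d : ℕ} [NeZero N₁] [NeZero N₂] [NeZero d] {φ : FF N₁ →ₐ[Kbar] FF N₂}

theorem s1Hom_comp_of_odd (h4₁ : 4 ∣ N₁) (h4₂ : 4 ∣ N₂) (hd : Odd d) (hφ : IsBeta d φ) :
    (s1Hom N₂ h4₂).comp φ = φ.comp (s1Hom N₁ h4₁) :=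
  algHom_ext_coe fun x => by
    rw [AlgHom.comp_apply, AlgHom.comp_apply, coe_s1Hom, hφ, hφ, coe_s1Hom, tw_qExpand_of_odd hd]

/-- **`s₁ φ^* = φ^* s₁`** for `φ` of type `β_d`, `d` odd. -/
theorem s1Op_pullL_of_odd (h4₁ : 4 ∣ N₁) (h4₂ : 4 ∣ N₂) (hd : Odd d) (hφ : IsBeta d φ)
    (fφ : FiniteAlong Qb φ) (x : JZero N₁) :
    s1Op N₂ h4₂ (pullL φ fφ x) = pullL φ fφ (s1Op N₁ h4₁ x) :=
  pullL_pullL_of_comm φ (s1Hom N₁ h4₁) (s1Hom N₂ h4₂) φ (s1Hom_comp_of_odd h4₁ h4₂ hd hφ) fφ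
    (finiteAlong_s1Hom N₁ h4₁) (finiteAlong_s1Hom N₂ h4₂) fφ x

/-- **`φ_* s₁ = s₁ φ_*`** for `φ` of type `β_d`, `d` odd. -/
theorem pushL_s1Op_of_odd (h4₁ : 4 ∣ N₁) (h4₂ : 4 ∣ N₂) (hd : Odd d) (hφ : IsBeta d φ)
    (fφ : FiniteAlong Qb φ) (y : JZero N₂) :
    pushL φ fφ (s1Op N₂ h4₂ y) = s1Op N₁ h4₁ (pushL φ fφ y) := by
  have h := pushL_pushL_of_comm φ (s1Hom N₁ h4₁) (s1Hom N₂ h4₂) φ
    (s1Hom_comp_of_odd h4₁ h4₂ hd hφ) fφ (finiteAlong_s1Hom N₁ h4₁) (finiteAlong_s1Hom N₂ h4₂) fφ y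
  rw [pushL_s1Hom, pushL_s1Hom] at h
  exact h

/-- **`s₁ φ^* = φ^* s₁`** for `φ` of type `α`. -/
theorem s1Op_pullL_alpha (h4₁ : 4 ∣ N₁) (h4₂ : 4 ∣ N₂) (hφ : IsAlpha φ)
    (fφ : FiniteAlong Qb φ) (x : JZero N₁) :
    s1Op N₂ h4₂ (pullL φ fφ x) = pullL φ fφ (s1Op N₁ h4₁ x) :=
  s1Op_pullL_of_odd (d := 1) h4₁ h4₂ odd_one (isBeta_one_iff.mpr hφ) fφ x

/-- **`φ_* s₁ = s₁ φ_*`** for `φ` of type `α`. -/
theorem pushL_s1Op_alpha (h4₁ : 4 ∣ N₁) (h4₂ : 4 ∣ N₂) (hφ : IsAlpha φ)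
    (fφ : FiniteAlong Qb φ) (y : JZero N₂) :
    pushL φ fφ (s1Op N₂ h4₂ y) = s1Op N₁ h4₁ (pushL φ fφ y) :=
  pushL_s1Op_of_odd (d := 1) h4₁ h4₂ odd_one (isBeta_one_iff.mpr hφ) fφ y

end Odd

/-! ### even index -/

section Even

variable {N₁ N₂ d : ℕ} [NeZero N₁] [NeZero N₂] [NeZero d] {ψ : FF N₁ →ₐ[Kbar] FF N₂}

theorem s1Hom_comp_of_even (h4₂ : 4 ∣ N₂) (hd : Even d) (hψ : IsBeta d ψ) :
    (s1Hom N₂ h4₂).comp ψ = ψ :=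
  algHom_ext_coe fun x => by
    rw [AlgHom.comp_apply, coe_s1Hom, hψ, tw_qExpand_of_even hd]

/-- **`s₁ ψ^* = ψ^*`** for `ψ` of type `β_d`, `d` even. -/
theorem s1Op_pullL_of_even (h4₂ : 4 ∣ N₂) (hd : Even d) (hψ : IsBeta d ψ)
    (fψ : FiniteAlong Qb ψ) (x : JZero N₁) :
    s1Op N₂ h4₂ (pullL ψ fψ x) = pullL ψ fψ x := by
  have h := pullL_comp ψ (s1Hom N₂ h4₂) fψ (finiteAlong_s1Hom N₂ h4₂) (finiteAlong_any _) x
  rw [s1Op_eq, ← h]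
  exact pullL_congr (s1Hom_comp_of_even h4₂ hd hψ) _ _ x

/-- **`ψ_* s₁ = ψ_*`** for `ψ` of type `β_d`, `d` even. -/
theorem pushL_s1Op_of_even (h4₂ : 4 ∣ N₂) (hd : Even d) (hψ : IsBeta d ψ)
    (fψ : FiniteAlong Qb ψ) (y : JZero N₂) :
    pushL ψ fψ (s1Op N₂ h4₂ y) = pushL ψ fψ y := by
  have h := pushL_comp ψ (s1Hom N₂ h4₂) fψ (finiteAlong_s1Hom N₂ h4₂) (finiteAlong_any _) y
  rw [pushL_s1Hom] at h
  rw [← h]
  exact pushL_congr (s1Hom_comp_of_even h4₂ hd hψ) _ _ y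

end Even

end

end Fermat.Agent.MP.HECKE.S1Rel6
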