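/-
Programme MP (row 38 via S44), chapter HECKE (helper5): **the operator `e' = Σ_{g ∈ Gal} g`** on
`J₀(N)(ℚ̄)`, `4 ∣ N`, where `Gal = ⟨s₁⟩` (`odd = false`) or `Gal = ⟨s₁, W s₁ W⟩ ≅ S₃` (`odd = true`) is
the Galois group of `Fbar N` over `q²(Fbar (N/2))` resp. `q²(Fbar (N/4))`.

* `bOp N h4 = W s₁ W`, `eSum N h4 odd`;
* `pull_push_eq_eSum` : `π^* π_* = eSum` for a `β₂`-type map `π` (`GalLevel3.pull_push_even/odd`);
  `finrank_eq` : its degree is `2` resp. `6`;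
* `eSum_cWOp` : `eSum` commutes with `𝒲`;
* `eSum_pullL_alpha`, `eSum_pullL_beta` : `eSum` commutes with the pull-backs along `α`, `β_d` (`d` odd);
* `eSum_mem` : stable subgroups; `eSum_smul` : `G_ℚ`-equivariance.
-/
import Mathlib
import Fermat.Agent.MP.HECKE.GalLevel3
import Fermat.Agent.MP.HECKE.HeckeSq6
import Fermat.Agent.MP.HECKE.S1Rel6

set_option autoImplicit false
set_option linter.unusedSectionVars false
set_option linter.unusedVariables false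
set_option linter.style.longLine false
set_option linter.style.haveILetI false
set_option synthInstance.maxHeartbeats 400000

namespace Fermat.Agent.MP.HECKE.ESum5

open AlgebraicCurve ModularCurve
open Fermat.Agent.X0 Fermat.Agent.RED.TOP
open Fermat.Agent.MP.FUNC.FrickeDeg1
open Fermat.Agent.MP.HECKE.LvlMap6 Fermat.Agent.MP.HECKE.CorrId6 Fermat.Agent.MP.HECKE.Aut5
open Fermat.Agent.MP.HECKE.HeckeSq6 Fermat.Agent.MP.HECKE.S1Rel6 Fermat.Agent.MP.HECKE.GalLevel3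

noncomputable section

section Def

variable (N : ℕ) [NeZero N] (h4 : 4 ∣ N)

/-- `b = W s₁ W`. -/
def bOp : JZero N →+ JZero N := (frickeJ N).comp ((s1Op N h4).comp (frickeJ N))

theorem bOp_apply (x : JZero N) : bOp N h4 x = frickeJ N (s1Op N h4 (frickeJ N x)) := rfl

/-- **the sum over the Galois group.** -/
def eSum (odd : Bool) : JZero N →+ JZero N :=
  if odd then
    AddMonoidHom.id _ + s1Op N h4 + bOp N h4 + (s1Op N h4).comp (bOp N h4) +
      (bOp N h4).comp (s1Op N h4) + (s1Op N h4).comp ((bOp N h4).comp (s1Op N h4))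
  else AddMonoidHom.id _ + s1Op N h4

theorem eSum_true (x : JZero N) :
    eSum N h4 true x = x + s1Op N h4 x + bOp N h4 x + s1Op N h4 (bOp N h4 x) +
      bOp N h4 (s1Op N h4 x) + s1Op N h4 (bOp N h4 (s1Op N h4 x)) := rfl

theorem eSum_false (x : JZero N) : eSum N h4 false x = x + s1Op N h4 x := rfl

/-- the two operators determine everything. -/
theorem eSum_rel {N' : ℕ} [NeZero N'] (h4' : 4 ∣ N') (odd : Bool) (R : JZero N → JZero N' → Prop)
    (hadd : ∀ x x' y y', R x x' → R y y' → R (x + y) (x' + y'))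
    (ha : ∀ x x', R x x' → R (s1Op N h4 x) (s1Op N' h4' x'))
    (hb : ∀ x x', R x x' → R (bOp N h4 x) (bOp N' h4' x')) (x : JZero N) (x' : JZero N')
    (h : R x x') : R (eSum N h4 odd x) (eSum N' h4' odd x') := by
  cases odd
  · rw [eSum_false, eSum_false]
    exact hadd _ _ _ _ h (ha _ _ h)
  · rw [eSum_true, eSum_true]
    exact hadd _ _ _ _ (hadd _ _ _ _ (hadd _ _ _ _ (hadd _ _ _ _ (hadd _ _ _ _ h (ha _ _ h))
      (hb _ _ h)) (ha _ _ (hb _ _ h))) (hb _ _ (ha _ _ h))) (ha _ _ (hb _ _ (ha _ _ h)))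

/-- stable subgroups. -/
theorem eSum_mem (odd : Bool) (K : AddSubgroup (JZero N)) (ha : ∀ x ∈ K, s1Op N h4 x ∈ K)
    (hw : ∀ x ∈ K, frickeJ N x ∈ K) (x : JZero N) (hx : x ∈ K) : eSum N h4 odd x ∈ K :=
  (eSum_rel N h4 h4 odd (fun x _ => x ∈ K) (fun _ _ _ _ h1 h2 => K.add_mem h1 h2)
    (fun x _ h => ha x h) (fun x _ h => hw _ (ha _ (hw x h))) x x hx)

/-- `eSum` commutes with every additive map commuting with `s₁` and `W s₁ W`. -/
theorem eSum_comm' {N' : ℕ} [NeZero N'] (h4' : 4 ∣ N') (odd : Bool) (F : JZero N →+ JZero N')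
    (ha : ∀ x, F (s1Op N h4 x) = s1Op N' h4' (F x)) (hb : ∀ x, F (bOp N h4 x) = bOp N' h4' (F x))
    (x : JZero N) : F (eSum N h4 odd x) = eSum N' h4' odd (F x) :=
  eSum_rel N h4 h4' odd (fun x x' => F x = x')
    (fun x x' y y' h1 h2 => by rw [map_add, h1, h2])
    (fun x x' h => by rw [ha, h]) (fun x x' h => by rw [hb, h]) x (F x) rfl

/-- `eSum` commutes with every additive map commuting with `s₁` and `W`. -/
theorem eSum_comm {N' : ℕ} [NeZero N'] (h4' : 4 ∣ N') (odd : Bool) (F : JZero N →+ JZero N')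
    (ha : ∀ x, F (s1Op N h4 x) = s1Op N' h4' (F x)) (hw : ∀ x, F (frickeJ N x) = frickeJ N' (F x))
    (x : JZero N) : F (eSum N h4 odd x) = eSum N' h4' odd (F x) :=
  eSum_comm' N h4 h4' odd F ha (fun x => by rw [bOp_apply, bOp_apply, hw, ha, hw]) x

/-- `G_ℚ`-equivariance. -/
theorem eSum_smul (odd : Bool) (σ : Kbar ≃ₐ[ℚ] Kbar) (x : JZero N) :
    eSum N h4 odd (σ • x) = σ • eSum N h4 odd x :=
  (eSum_comm N h4 h4 odd (DistribSMul.toAddMonoidHom (JZero N) σ)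
    (fun x => (s1Op_smul N h4 σ x).symm) (fun x => (wOp_smul N σ x).symm) x).symm

/-- **`eSum` commutes with `𝒲`** (`4 ∥ N`). -/
theorem eSum_cWOp (h8 : ¬ 8 ∣ N) (odd : Bool) (x : JZero N) :
    eSum N h4 odd (cWOp N h4 x) = cWOp N h4 (eSum N h4 odd x) :=
  (eSum_comm N h4 h4 odd (cWOp N h4) (fun x => cWOp_s1Op N h4 h8 x)
    (fun x => cWOp_frickeJ N h4 h8 x) x).symm

end Def

section Pull

variable {N₁ N₂ d : ℕ} [NeZero N₁] [NeZero N₂] [NeZero d] {φ ψ : FF N₁ →ₐ[Kbar] FF N₂}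

/-- **`eSum φ^* = φ^* eSum`** for `φ` of type `α` (`N₁ d = N₂`, `d` odd). -/
theorem eSum_pullL_alpha (h : N₁ * d = N₂) (hd : Odd d) (h4₁ : 4 ∣ N₁) (h4₂ : 4 ∣ N₂)
    (hφ : IsAlpha φ) (hψ : IsBeta d ψ) (fφ : FiniteAlong Kbar φ) (fψ : FiniteAlong Kbar ψ)
    (odd : Bool) (w : JZero N₁) :
    eSum N₂ h4₂ odd (pullL φ fφ w) = pullL φ fφ (eSum N₁ h4₁ odd w) :=
  (eSum_comm' N₁ h4₁ h4₂ odd (pullL φ fφ)
    (fun x => (s1Op_pullL_alpha h4₁ h4₂ hφ fφ x).symm)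
    (fun x => by
      rw [bOp_apply, bOp_apply, frickeJ_pullL_alpha h hφ hψ fφ fψ,
        s1Op_pullL_of_odd h4₁ h4₂ hd hψ fψ, frickeJ_pullL_beta h hφ hψ fφ fψ]) w).symm

/-- **`eSum ψ^* = ψ^* eSum`** for `ψ` of type `β_d` (`N₁ d = N₂`, `d` odd). -/
theorem eSum_pullL_beta (h : N₁ * d = N₂) (hd : Odd d) (h4₁ : 4 ∣ N₁) (h4₂ : 4 ∣ N₂)
    (hφ : IsAlpha φ) (hψ : IsBeta d ψ) (fφ : FiniteAlong Kbar φ) (fψ : FiniteAlong Kbar ψ)
    (odd : Bool) (w : JZero N₁) :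
    eSum N₂ h4₂ odd (pullL ψ fψ w) = pullL ψ fψ (eSum N₁ h4₁ odd w) :=
  (eSum_comm' N₁ h4₁ h4₂ odd (pullL ψ fψ)
    (fun x => (s1Op_pullL_of_odd h4₁ h4₂ hd hψ fψ x).symm)
    (fun x => by
      rw [bOp_apply, bOp_apply, frickeJ_pullL_beta h hφ hψ fφ fψ,
        s1Op_pullL_alpha h4₁ h4₂ hφ fφ, frickeJ_pullL_alpha h hφ hψ fφ fψ]) w).symm

end Pull

section PullPush

variable {N₁ N₂ : ℕ} [NeZero N₁] [NeZero N₂] {π : FF N₁ →ₐ[Kbar] FF N₂}

/-- the level ratio. -/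
def ratio (odd : Bool) : ℕ := if odd then 4 else 2

/-- **`π^* π_* = eSum`** for a `β₂`-type map `π : FF N₁ → FF (N₁ · ratio)`. -/
theorem pull_push_eq_eSum (odd : Bool) (h : N₁ * ratio odd = N₂)
    (hpar : if odd then Odd N₁ else 2 ∣ N₁) (h4 : 4 ∣ N₂) (hπ : IsBeta 2 π)
    (hfin : FiniteAlong Kbar π) (y : JZero N₂) :
    pullL π hfin (pushL π hfin y) = eSum N₂ h4 odd y := by
  cases odd
  · rw [eSum_false]
    exact pull_push_even h hpar h4 hπ hfin y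
  · rw [eSum_true]
    exact pull_push_odd h hpar h4 hπ hfin y

/-- the degree of `π`. -/
theorem finrank_eq (odd : Bool) (h : N₁ * ratio odd = N₂)
    (hpar : if odd then Odd N₁ else 2 ∣ N₁) (hπ : IsBeta 2 π) :
    finrankAlong Kbar π = if odd then 6 else 2 := by
  cases odd
  · exact finrankAlong_isBeta_two_of_even h hpar hπ
  · exact finrankAlong_isBeta_two_of_odd h hpar hπ

end PullPush


end

end Fermat.Agent.MP.HECKE.ESum5
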