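/-
Programme MP (row 38 via S44), chapter HECKE (helper5): **the Eichler–Shimura trick.**

On `J₀(N)[m]`, `ℓ ∤ N m`, the Hecke operator `T_ℓ` is `σ + ℓ σ⁻¹` for a Frobenius element `σ` at `ℓ`
(`TorsionGalois12.frobenius_relation`).  Hence every `G_ℚ`-equivariant additive map
`A : J₀(N₁)(ℚ̄) → J₀(N₂)(ℚ̄)` commutes with `T_ℓ` on torsion prime to `ℓ`, `ℓ ∤ N₁ N₂`.
-/
import Mathlib
import Fermat.Agent.ES.TOP.TorsionGalois12
import Fermat.Agent.ES.FROB.FrobFacts12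
import Fermat.Agent.FF.BASE.Place2

set_option autoImplicit false
set_option linter.unusedSectionVars false
set_option linter.style.longLine false
set_option synthInstance.maxHeartbeats 400000

noncomputable section

open AlgebraicCurve ModularCurve

namespace Fermat.Agent.MP.HECKE.EsComm5

local notation "Qb" => AlgebraicClosure ℚ
local notation "GQ" => (AlgebraicClosure ℚ ≃ₐ[ℚ] AlgebraicClosure ℚ)

open Fermat.Agent.ES.TOP.TorsionGalois12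

/-! ### the Galois action is additive (explicit forms; `smul_zero` etc. do not unify on `JZero N`) -/

section GalAdd

variable {N : ℕ} [NeZero N]

theorem gal_smul_zero (σ : GQ) : σ • (0 : JZero N) = 0 :=
  map_zero (DistribSMul.toAddMonoidHom (JZero N) σ)

theorem gal_smul_add (σ : GQ) (x y : JZero N) : σ • (x + y) = σ • x + σ • y :=
  map_add (DistribSMul.toAddMonoidHom (JZero N) σ) x y

theorem gal_smul_neg (σ : GQ) (x : JZero N) : σ • (-x) = -(σ • x) :=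
  map_neg (DistribSMul.toAddMonoidHom (JZero N) σ) x

theorem gal_smul_sub (σ : GQ) (x y : JZero N) : σ • (x - y) = σ • x - σ • y :=
  map_sub (DistribSMul.toAddMonoidHom (JZero N) σ) x y

theorem gal_smul_nsmul (σ : GQ) (m : ℕ) (x : JZero N) : σ • (m • x) = m • (σ • x) :=
  map_nsmul (DistribSMul.toAddMonoidHom (JZero N) σ) m x

theorem gal_smul_zsmul (σ : GQ) (m : ℤ) (x : JZero N) : σ • (m • x) = m • (σ • x) :=
  map_zsmul (DistribSMul.toAddMonoidHom (JZero N) σ) m x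

theorem gal_inv_smul_smul (σ : GQ) (x : JZero N) : σ⁻¹ • σ • x = x := by
  rw [← mul_smul, inv_mul_cancel, one_smul]

theorem gal_smul_inv_smul (σ : GQ) (x : JZero N) : σ • σ⁻¹ • x = x := by
  rw [← mul_smul, mul_inv_cancel, one_smul]

end GalAdd

/-- `T_ℓ = σ + ℓ σ⁻¹` on `J₀(N)[m]`. -/
theorem hecke_eq_frob {N ℓ : ℕ} [NeZero N] (hℓ : ℓ.Prime) (hℓN : ¬ ℓ ∣ N) {A : ValuationSubring Qb}
    (hA : A.LiesOverPrime ℓ) {m : ℕ} (hm : ¬ ℓ ∣ m) {x : JZero N} (hx : m • x = 0)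
    {σ : GQ} (hσ : A.IsFrobeniusAt σ ℓ) :
    heckeOperatorBar N ⟨ℓ, hℓ⟩ x = σ • x + ℓ • (σ⁻¹ • x) := by
  have hx' : m • (σ⁻¹ • x) = 0 := by rw [← gal_smul_nsmul, hx, gal_smul_zero]
  have h := frobenius_relation hℓ hℓN hA hm hx' hσ
  rw [gal_smul_inv_smul] at h
  have h2 : heckeOperatorBar N ⟨ℓ, hℓ⟩ x = σ • x + ℓ • (σ⁻¹ • x) - 0 := by
    rw [← h]
    abel
  rw [h2, sub_zero]

/-- **the Eichler–Shimura trick** : a `G_ℚ`-equivariant additive map commutes with `T_ℓ` on the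
torsion prime to `ℓ`, `ℓ ∤ N₁ N₂`. -/
theorem comm_hecke {N₁ N₂ ℓ : ℕ} [NeZero N₁] [NeZero N₂] (hℓ : ℓ.Prime) (hℓ1 : ¬ ℓ ∣ N₁)
    (hℓ2 : ¬ ℓ ∣ N₂) (F : JZero N₁ →+ JZero N₂) (hF : ∀ (σ : GQ) x, F (σ • x) = σ • F x)
    {m : ℕ} (hm : ¬ ℓ ∣ m) {x : JZero N₁} (hx : m • x = 0) :
    F (heckeOperatorBar N₁ ⟨ℓ, hℓ⟩ x) = heckeOperatorBar N₂ ⟨ℓ, hℓ⟩ (F x) := by
  have : Fact ℓ.Prime := ⟨hℓ⟩
  have hA := Fermat.Agent.FF.BASE.Place2.liesOverPrime (ℓ := ℓ)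
  obtain ⟨σ, hσ⟩ := Fermat.Agent.ES.FROB.FrobFacts12.exists_isFrobeniusAt_of ℓ hℓ _ hA
  have hFx : m • F x = 0 := by rw [← map_nsmul, hx, map_zero]
  rw [hecke_eq_frob hℓ hℓ1 hA hm hx hσ, hecke_eq_frob hℓ hℓ2 hA hm hFx hσ, map_add, map_nsmul, hF,
    hF]

end Fermat.Agent.MP.HECKE.EsComm5
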