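/-
Programme MP (row 38 via S44), chapter HECKE (helper5): **non-commutative polynomials in the Hecke
operators acting on an additive group** (the operators `T_ℓ` on `J₀(N)(ℚ̄)` are not known to commute,
so `t = ŝ(T_ℓ)` is the evaluation of an element `ŝ` of the free algebra `ℤ⟨ι⟩`).

* `act T ŝ : J →+ J` for `T : ι → (J →+ J)`;
* `act_scalar` : scalars on a subgroup; `act_comm` : intertwiners; `act_mem` : stable subgroups;
  `act_smul` : equivariance; `act_torsion`.
* `exists_eigen` : an eigenspace of an involution.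
-/
import Mathlib

set_option autoImplicit false
set_option linter.unusedSectionVars false
set_option linter.unusedVariables false
set_option linter.style.longLine false

namespace Fermat.Agent.MP.HECKE.FreeLift5

noncomputable section

variable {ι : Type} {J J₁ J₂ : Type} [AddCommGroup J] [AddCommGroup J₁] [AddCommGroup J₂]

/-- the evaluation of the free algebra at a family of additive endomorphisms. -/
def evalEnd (T : ι → (J →+ J)) : FreeAlgebra ℤ ι →ₐ[ℤ] Module.End ℤ J :=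
  FreeAlgebra.lift ℤ (fun i => (T i).toIntLinearMap)

/-- `ŝ(T)` as an additive map. -/
def act (T : ι → (J →+ J)) (s : FreeAlgebra ℤ ι) : J →+ J := (evalEnd T s).toAddMonoidHom

theorem act_apply (T : ι → (J →+ J)) (s : FreeAlgebra ℤ ι) (x : J) : act T s x = evalEnd T s x := rfl

@[simp] theorem act_algebraMap (T : ι → (J →+ J)) (n : ℤ) (x : J) :
    act T (algebraMap ℤ (FreeAlgebra ℤ ι) n) x = n • x := by
  rw [act_apply, AlgHom.commutes, Module.algebraMap_end_apply]

@[simp] theorem act_ι (T : ι → (J →+ J)) (i : ι) (x : J) : act T (FreeAlgebra.ι ℤ i) x = T i x := by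
  rw [act_apply, evalEnd, FreeAlgebra.lift_ι_apply]
  rfl

@[simp] theorem act_mul (T : ι → (J →+ J)) (s t : FreeAlgebra ℤ ι) (x : J) :
    act T (s * t) x = act T s (act T t x) := by
  rw [act_apply, map_mul]
  rfl

@[simp] theorem act_add (T : ι → (J →+ J)) (s t : FreeAlgebra ℤ ι) (x : J) :
    act T (s + t) x = act T s x + act T t x := by
  rw [act_apply, map_add]
  rfl

/-- the scalar evaluation. -/
def evalInt (a : ι → ℤ) : FreeAlgebra ℤ ι →ₐ[ℤ] ℤ := FreeAlgebra.lift ℤ a

/-- if every `T i` is the scalar `a i` on `V`, then `ŝ(T)` is the scalar `ŝ(a)` on `V`. -/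
theorem act_scalar (T : ι → (J →+ J)) (a : ι → ℤ) (V : AddSubgroup J)
    (h : ∀ i, ∀ x ∈ V, T i x = a i • x) (s : FreeAlgebra ℤ ι) :
    ∀ x ∈ V, act T s x = evalInt a s • x := by
  induction s using FreeAlgebra.induction with
  | grade0 n =>
      intro x hx
      rw [act_algebraMap, AlgHom.commutes]
      rfl
  | grade1 i =>
      intro x hx
      rw [act_ι, h i x hx, evalInt, FreeAlgebra.lift_ι_apply]
  | mul s t hs ht =>
      intro x hx
      rw [act_mul, ht x hx, map_zsmul, hs x hx, smul_smul, map_mul, mul_comm]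
  | add s t hs ht =>
      intro x hx
      rw [act_add, hs x hx, ht x hx, map_add, add_smul]

/-- intertwiners. -/
theorem act_comm (T₁ : ι → (J₁ →+ J₁)) (T₂ : ι → (J₂ →+ J₂)) (φ : J₁ →+ J₂)
    (h : ∀ i x, φ (T₁ i x) = T₂ i (φ x)) (s : FreeAlgebra ℤ ι) :
    ∀ x, φ (act T₁ s x) = act T₂ s (φ x) := by
  induction s using FreeAlgebra.induction with
  | grade0 n =>
      intro x
      rw [act_algebraMap, act_algebraMap, map_zsmul]
  | grade1 i =>
      intro x
      rw [act_ι, act_ι, h]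
  | mul s t hs ht =>
      intro x
      rw [act_mul, act_mul, hs, ht]
  | add s t hs ht =>
      intro x
      rw [act_add, act_add, map_add, hs, ht]

/-- stable subgroups. -/
theorem act_mem (T : ι → (J →+ J)) (K : AddSubgroup J) (h : ∀ i, ∀ x ∈ K, T i x ∈ K)
    (s : FreeAlgebra ℤ ι) : ∀ x ∈ K, act T s x ∈ K := by
  induction s using FreeAlgebra.induction with
  | grade0 n =>
      intro x hx
      rw [act_algebraMap]
      exact K.zsmul_mem hx n
  | grade1 i =>
      intro x hx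
      rw [act_ι]
      exact h i x hx
  | mul s t hs ht =>
      intro x hx
      rw [act_mul]
      exact hs _ (ht x hx)
  | add s t hs ht =>
      intro x hx
      rw [act_add]
      exact K.add_mem (hs x hx) (ht x hx)

/-- equivariance. -/
theorem act_smul {Γ : Type} [Monoid Γ] [DistribMulAction Γ J] (T : ι → (J →+ J))
    (h : ∀ i (σ : Γ) x, T i (σ • x) = σ • T i x) (s : FreeAlgebra ℤ ι) (σ : Γ) (x : J) :
    act T s (σ • x) = σ • act T s x :=
  act_comm T T (DistribSMul.toAddMonoidHom J σ) (fun i x => (h i σ x).symm) s x |>.symm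

/-- an eigenspace of an involution. -/
theorem exists_eigen {Γ : Type} [Monoid Γ] [DistribMulAction Γ J] (w : J →+ J)
    (hw2 : ∀ x, w (w x) = x) (hwΓ : ∀ (σ : Γ) x, w (σ • x) = σ • w x)
    (V₀ : AddSubgroup J) (hΓ : ∀ σ : Γ, ∀ x ∈ V₀, σ • x ∈ V₀) (hw : ∀ x ∈ V₀, w x ∈ V₀)
    (hne : V₀ ≠ ⊥) :
    ∃ η : ℤ, (η = 1 ∨ η = -1) ∧ ∃ V : AddSubgroup J, V ≤ V₀ ∧ V ≠ ⊥ ∧
      (∀ σ : Γ, ∀ x ∈ V, σ • x ∈ V) ∧ ∀ x ∈ V, w x = η • x := by
  classical
  obtain ⟨x, hx, hx0⟩ : ∃ x ∈ V₀, x ≠ 0 := by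
    by_contra hcon
    push Not at hcon
    exact hne ((AddSubgroup.eq_bot_iff_forall V₀).mpr hcon)
  -- the eigenspaces
  have key : ∀ η : ℤ, (η = 1 ∨ η = -1) → ∀ z ∈ V₀, z ≠ 0 → w z = η • z →
      ∃ V : AddSubgroup J, V ≤ V₀ ∧ V ≠ ⊥ ∧ (∀ σ : Γ, ∀ x ∈ V, σ • x ∈ V) ∧ ∀ x ∈ V, w x = η • x := by
    intro η hη z hz hz0 hwz
    let U : AddSubgroup J := (w - η • AddMonoidHom.id J).ker
    have hU : ∀ y, y ∈ U ↔ w y = η • y := by
      intro y
      show (w - η • AddMonoidHom.id J) y = 0 ↔ _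
      rw [AddMonoidHom.sub_apply, AddMonoidHom.smul_apply, AddMonoidHom.id_apply, sub_eq_zero]
    refine ⟨V₀ ⊓ U, inf_le_left, ?_, ?_, ?_⟩
    · intro h
      have : z ∈ V₀ ⊓ U := ⟨hz, (hU z).mpr hwz⟩
      rw [h, AddSubgroup.mem_bot] at this
      exact hz0 this
    · rintro σ y ⟨hy1, hy2⟩
      refine ⟨hΓ σ y hy1, (hU _).mpr ?_⟩
      rw [hwΓ, (hU y).mp hy2]
      rcases hη with rfl | rfl
      · rw [one_smul, one_smul]
      · rw [neg_smul, neg_smul, one_smul, one_smul, smul_neg]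
    · rintro y ⟨-, hy2⟩
      exact (hU y).mp hy2
  by_cases h : x + w x = 0
  · refine ⟨-1, Or.inr rfl, key (-1) (Or.inr rfl) x hx hx0 ?_⟩
    rw [neg_smul, one_smul]
    exact (eq_neg_of_add_eq_zero_right h)
  · refine ⟨1, Or.inl rfl, key 1 (Or.inl rfl) (x + w x) (V₀.add_mem hx (hw x hx)) h ?_⟩
    rw [map_add, hw2, one_smul, add_comm]

end

end Fermat.Agent.MP.HECKE.FreeLift5
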