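/-
Programme MP (row 38 via S44), chapter HECKE (helper5), step (B2): **a copy of `E[p]` inside an
eigenspace of `J₀(N)[p]`** (arithmetic instantiation of `BlrAct5.exists_equiv`).

`E / ℚ` an elliptic curve with integral model `W`, `p` an odd prime with `E[p]` irreducible,
`V₀ ≤ J₀(N)(ℚ̄)` a nonzero `G_ℚ`-stable subgroup killed by `p` on which `T_ℓ = a_ℓ(W)` for all
primes `ℓ ∉ S` (`S` finite).  Then some `G_ℚ`-stable `V ≤ V₀` is `G_ℚ`-equivariantly isomorphic to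
`E[p]`; and for `s = ± 1` there is a good prime `r ∉ S`, `r ∤ N p`, with `p ∤ 1 + s a_r(W) + r`.

Inputs: Eichler–Shimura on `J₀(N)[p]` (`TorsionGalois12.frobenius_relation`) and on the torsion of
the generic fibre of `W` (`CharRel4.relQbar`), Chebotarev in generator form (`Cheb2Sided12`), open
stabilisers (`OpenStab12`), finiteness of torsion (`FiniteTorsion15`), the cyclotomic character
(`CycloChar8`), complex conjugation.
-/
import Mathlib
import Fermat.Agent.MP.HECKE.BlrAct5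
import Fermat.Agent.ES.Q58.CharRel4
import Fermat.Agent.ES.Q58.Cheb2Sided12
import Fermat.Agent.ES.TOP.TorsionGalois12
import Fermat.Agent.ES.GAL.OpenStab12
import Fermat.Agent.ES.KUM.FiniteTorsion15
import Fermat.Agent.ES.J.CycloChar8
import Fermat.Agent.DivPoly.CardEq29
import Fermat.Agent.DivPoly.A1Final
import Fermat.Agent.S05.TransportQ
import Fermat.Prelude.Def_GaloisRep_ComplexConjugation
import Fermat.Prelude.Def_FLTPrelim_Modularity
import Fermat.Prelude.Def_FLTPrelim_GaloisRep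
import Fermat.Prelude.Def_EllipticCurve_FrobeniusTrace

set_option autoImplicit false
set_option linter.unusedSectionVars false
set_option linter.style.longLine false
set_option linter.style.haveILetI false
set_option synthInstance.maxHeartbeats 400000

open WeierstrassCurve WeierstrassCurve.Affine WeierstrassCurve.Affine.Point
open AlgebraicCurve ModularCurve

namespace Fermat.Agent.MP.HECKE.GalV5

open Fermat.Agent.ES.J.CycloChar8

local notation "Qb" => AlgebraicClosure ℚ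
local notation "GQ" => (AlgebraicClosure ℚ ≃ₐ[ℚ] AlgebraicClosure ℚ)

noncomputable section

/-! ### The mod `p` cyclotomic character -/

section Eps

variable (p : ℕ) [hp : Fact p.Prime]

/-- the mod `p` cyclotomic character with values in `𝔽_p`. -/
def eps : GQ →* ZMod p :=
  ((PadicInt.toZMod (p := p) : ℤ_[p] →* ZMod p).comp (Units.coeHom ℤ_[p])).comp (cyclo p)

theorem eps_apply (σ : GQ) : eps p σ = PadicInt.toZMod ((cyclo p σ : ℤ_[p])) := rfl

theorem eps_frob {ℓ : ℕ} (hℓ : ℓ.Prime) (hℓp : ℓ ≠ p) (A : ValuationSubring Qb)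
    (hA : A.LiesOverPrime ℓ) {σ : GQ} (hσ : A.IsFrobeniusAt σ ℓ) : eps p σ = (ℓ : ZMod p) := by
  rw [eps_apply, cyclo_of_isFrobeniusAt p hℓ hℓp A hA hσ, map_natCast]

theorem eps_complexConjugation : eps p complexConjugation = -1 := by
  rw [eps_apply, cyclo_complexConjugation, map_neg, map_one]

theorem toZMod_eq_of_toZModPow_one {x y : ℤ_[p]}
    (h : PadicInt.toZModPow 1 x = PadicInt.toZModPow 1 y) :
    PadicInt.toZMod x = PadicInt.toZMod y := by
  have h1 : x - y ∈ RingHom.ker (PadicInt.toZModPow (p := p) 1) := by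
    rw [RingHom.mem_ker, map_sub, h, sub_self]
  rw [PadicInt.ker_toZModPow, pow_one] at h1
  have h2 : x - y ∈ RingHom.ker (PadicInt.toZMod (p := p)) := by
    rw [PadicInt.ker_toZMod, PadicInt.maximalIdeal_eq_span_p]
    exact h1
  rw [RingHom.mem_ker, map_sub, sub_eq_zero] at h2
  exact h2

/-- the character is determined by the action on a primitive `p`-th root of unity. -/
theorem eps_eq_of_apply_eq {ζ : Qb} (hζ : IsPrimitiveRoot ζ p) {σ τ : GQ} (h : σ ζ = τ ζ) :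
    eps p σ = eps p τ := by
  have hζ' : IsPrimitiveRoot ζ (p ^ 1) := by rw [pow_one]; exact hζ
  have h1 := cyclo_spec p τ (n := 1) ζ hζ'.pow_eq_one
  rw [← h] at h1
  have h2 := toZModPow_cyclo p hζ' h1
  rw [ZMod.natCast_zmod_val] at h2
  rw [eps_apply, eps_apply]
  exact toZMod_eq_of_toZModPow_one p h2

end Eps

/-! ### The main statement -/

theorem exists_equiv_torsion (E : WeierstrassCurve ℚ) [E.IsElliptic] {W : WeierstrassCurve ℤ}
    (hW : W.IsIntegralModelOf E) {p : ℕ} [hp : Fact p.Prime] (hp2 : p ≠ 2)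
    (hirr : GaloisRepIsIrreducible (K := Qb) ℚ E p)
    (N : ℕ) [NeZero N] (S : Finset ℕ) (V₀ : AddSubgroup (JZero N))
    (hV₀p : ∀ x ∈ V₀, p • x = 0) (hV₀Γ : ∀ σ : GQ, ∀ x ∈ V₀, σ • x ∈ V₀) (hne : V₀ ≠ ⊥)
    (heig : ∀ (ℓ : ℕ) (hℓ : ℓ.Prime), ℓ ∉ S → ∀ x ∈ V₀,
      heckeOperatorBar N ⟨ℓ, hℓ⟩ x = W.apOfModel ℓ • x) :
    (∃ V : AddSubgroup (JZero N), V ≤ V₀ ∧ (∀ σ : GQ, ∀ x ∈ V, σ • x ∈ V) ∧
      ∃ e : Submodule.torsionBy ℤ (E⁄Qb).Point p ≃+ V,
        ∀ (σ : GQ) (x : Submodule.torsionBy ℤ (E⁄Qb).Point p),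
          ((e (σ • x) : V) : JZero N) = σ • ((e x : V) : JZero N)) ∧
    (∀ s : ℤ, s = 1 ∨ s = -1 → ∃ r : ℕ, r.Prime ∧ r ∉ S ∧ ¬ r ∣ N ∧ r ≠ p ∧ W.IsGoodPrimeFor r ∧
      ¬ (p : ℤ) ∣ 1 + s * W.apOfModel r + r) := by
  classical
  have hpp : p.Prime := hp.out
  have hodd : Odd p := hpp.odd_of_ne_two hp2
  have hN0 : N ≠ 0 := NeZero.ne N
  obtain ⟨C, hC⟩ := hW
  set WQ : WeierstrassCurve ℚ := W.map (Int.castRingHom ℚ) with hWQ
  have hEq : WQ = C • E := hC.symm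
  -- the transport between the model and the curve
  let e : (WQ⁄Qb).Point ≃+ (E⁄Qb).Point := Fermat.Agent.S05.TransportQ.pointEquivBC Qb hEq
  have he : ∀ (σ : GQ) (P : (WQ⁄Qb).Point), e (σ • P) = σ • e P := fun σ P =>
    Fermat.Agent.S05.TransportQ.pointEquivBC_map (S := ℚ) hEq σ.toAlgHom P
  -- discriminants
  have hΔE : (E⁄Qb).Δ ≠ 0 := (E.map (algebraMap ℚ Qb)).isUnit_Δ.ne_zero
  have hWQell : WQ.IsElliptic := by rw [hEq]; infer_instance
  have hΔW : W.Δ ≠ 0 := by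
    intro h0
    have h1 : WQ.Δ = 0 := by rw [hWQ, WeierstrassCurve.map_Δ, h0, _root_.map_zero]
    exact WQ.isUnit_Δ.ne_zero h1
  -- `E[p]`
  have hT2 : Module.finrank (ZMod p) (Submodule.torsionBy ℤ (E⁄Qb).Point p) = 2 :=
    Fermat.Agent.DivPoly.CardEq29.finrank_torsionBy_eq_two hΔE hp2
  have hpF : ((p : ℕ) : Qb) ≠ 0 := Nat.cast_ne_zero.mpr hpp.ne_zero
  have hfinE : {P : (E⁄Qb).Point | p • P = 0}.Finite :=
    (Fermat.Agent.DivPoly.A1Final.torsion_finite_ncard_le (W := (E⁄Qb)) hodd hpF).1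
  have hTirr : ∀ U : AddSubgroup (Submodule.torsionBy ℤ (E⁄Qb).Point p),
      (∀ g : GQ, ∀ x ∈ U, g • x ∈ U) → U = ⊥ ∨ U = ⊤ := by
    intro U hU
    rcases hirr.2 (AddSubgroup.toZModSubmodule p U) (fun σ x hx => hU σ x hx) with h | h
    · left
      exact (map_eq_bot_iff (AddSubgroup.toZModSubmodule p)).mp h
    · right
      exact (map_eq_top_iff (AddSubgroup.toZModSubmodule p)).mp h
  -- `V₀` is finite
  haveI : NeZero p := ⟨hpp.ne_zero⟩
  have hfinV : (V₀ : Set (JZero N)).Finite :=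
    (Fermat.Agent.ES.KUM.FiniteTorsion15.finite_setOf_nsmul_eq_zero N p).subset
      fun x hx => hV₀p x hx
  -- the bad primes
  set T' : Finset ℕ := S ∪ {p} ∪ N.primeFactors ∪ W.Δ.natAbs.primeFactors with hT'
  have hT'S : ∀ r, r ∉ T' → r ∉ S := fun r h hr => h (by simp [hT', hr])
  have hT'p : ∀ r, r ∉ T' → r ≠ p := fun r h hr => h (by simp [hT', hr])
  have hT'N : ∀ r, r.Prime → r ∉ T' → ¬ r ∣ N := fun r hr h hd =>
    h (by simp [hT', Nat.mem_primeFactors, hr, hd, hN0])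
  have hT'g : ∀ r, r.Prime → r ∉ T' → W.IsGoodPrimeFor r := by
    intro r hr h hdvd
    apply h
    have : r ∈ W.Δ.natAbs.primeFactors := by
      rw [Nat.mem_primeFactors]
      exact ⟨hr, Int.natCast_dvd.mp hdvd, Int.natAbs_ne_zero.mpr hΔW⟩
    simp [hT', this]
  -- the Frobenius data
  let Frob : GQ → ℤ → ℤ → Prop := fun φ a ℓ =>
    ∃ r : ℕ, r.Prime ∧ r ∉ T' ∧ ∃ A : ValuationSubring Qb, A.LiesOverPrime r ∧
      A.IsFrobeniusAt φ r ∧ a = W.apOfModel r ∧ ℓ = (r : ℤ)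
  have hcoe : ∀ (σ : GQ) (y : Submodule.torsionBy ℤ (E⁄Qb).Point p),
      ((σ • y : Submodule.torsionBy ℤ (E⁄Qb).Point p) : (E⁄Qb).Point) = σ • (y : (E⁄Qb).Point) :=
    fun _ _ => rfl
  have relT : ∀ φ a ℓ, Frob φ a ℓ → ∀ x : Submodule.torsionBy ℤ (E⁄Qb).Point p,
      φ • φ • x - a • (φ • x) + ℓ • x = 0 := by
    rintro φ _ _ ⟨r, hr, hrT, A, hA, hφ, rfl, rfl⟩ x
    apply Subtype.ext
    have hx : p • (x : (E⁄Qb).Point) = 0 := by
      have := x.2
      rw [Submodule.mem_torsionBy_iff, natCast_zsmul] at this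
      exact this
    have hQ : p • e.symm (x : (E⁄Qb).Point) = 0 := by
      rw [← map_nsmul, hx, _root_.map_zero]
    have hrp : ¬ r ∣ p := fun hd =>
      hT'p r hrT ((Nat.prime_dvd_prime_iff_eq hr hpp).mp hd)
    have h := Fermat.Agent.ES.Q58.CharRel4.relQbar W r hr (hT'g r hr hrT) p hodd hrp A φ hA hφ
      (e.symm (x : (E⁄Qb).Point)) hQ
    have h' := congrArg e h
    rw [map_add, map_sub, map_zsmul, map_nsmul, he, he, AddEquiv.apply_symm_apply,
      _root_.map_zero] at h'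
    rw [Submodule.coe_add, Submodule.coe_sub, Submodule.coe_zero]
    rw [← h']
    congr 1
  have relV : ∀ φ a ℓ, Frob φ a ℓ → ∀ x ∈ V₀, φ • φ • x - a • (φ • x) + ℓ • x = 0 := by
    rintro φ _ _ ⟨r, hr, hrT, A, hA, hφ, rfl, rfl⟩ x hx
    have hrp : ¬ r ∣ p := fun hd =>
      hT'p r hrT ((Nat.prime_dvd_prime_iff_eq hr hpp).mp hd)
    have h := Fermat.Agent.ES.TOP.TorsionGalois12.frobenius_relation hr (hT'N r hr hrT) hA hrp
      (hV₀p x hx) hφ
    rw [heig r hr (hT'S r hrT) _ (hV₀Γ φ x hx)] at h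
    rw [natCast_zsmul]
    exact h
  have heps : ∀ φ a ℓ, Frob φ a ℓ → eps p φ = (ℓ : ZMod p) := by
    rintro φ _ _ ⟨r, hr, hrT, A, hA, hφ, rfl, rfl⟩
    rw [eps_frob p hr (hT'p r hrT) A hA hφ, Int.cast_natCast]
  -- the field for Chebotarev
  obtain ⟨K₁, hK₁fd, hK₁⟩ := Fermat.Agent.ES.Q58.TraceCong20.exists_field
    {P : (E⁄Qb).Point | p • P = 0} hfinE
  obtain ⟨K₂, hK₂fd, hK₂⟩ := Fermat.Agent.ES.GAL.OpenStab12.hasLevel_finite N
    (V₀ : Set (JZero N)) hfinV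
  obtain ⟨ζ, hζ⟩ : ∃ ζ : Qb, IsPrimitiveRoot ζ p := by
    obtain ⟨ζ, hζ⟩ := exists_primitiveRoot p 1
    exact ⟨ζ, by rwa [pow_one] at hζ⟩
  haveI := hK₁fd
  haveI := hK₂fd
  haveI : FiniteDimensional ℚ (IntermediateField.adjoin ℚ {ζ}) :=
    IntermediateField.adjoin.finiteDimensional
      ((Fermat.Agent.Lib.FrobeniusExists.isIntegral_Qbar).isIntegral ζ)
  set L : IntermediateField ℚ Qb := K₁ ⊔ K₂ ⊔ IntermediateField.adjoin ℚ {ζ} with hL
  have hLK₁ : ∀ x ∈ K₁, x ∈ L := fun x hx =>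
    (le_sup_left (a := K₁ ⊔ K₂)) ((le_sup_left (a := K₁)) hx)
  have hLK₂ : ∀ x ∈ K₂, x ∈ L := fun x hx =>
    (le_sup_left (a := K₁ ⊔ K₂)) ((le_sup_right (a := K₁)) hx)
  have hLζ : ζ ∈ L :=
    (le_sup_right (a := K₁ ⊔ K₂)) (IntermediateField.mem_adjoin_simple_self ℚ ζ)
  have cheb : ∀ g : GQ, ∃ φ a ℓ, ∃ i j : ℕ, Frob φ a ℓ ∧
      (∀ x : Submodule.torsionBy ℤ (E⁄Qb).Point p, φ ^ j • x = g • x) ∧
      (∀ x : Submodule.torsionBy ℤ (E⁄Qb).Point p, g ^ i • x = φ • x) ∧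
      (∀ x ∈ V₀, φ ^ j • x = g • x) ∧ eps p φ ^ j = eps p g := by
    intro g
    obtain ⟨r, A, φ, i, j, hr, hrT, hA, hφ, hj, hi⟩ :=
      Fermat.Agent.ES.Q58.Cheb2Sided12.exists_frobenius_pow_eq_on_both L g T'
    refine ⟨φ, W.apOfModel r, (r : ℤ), i, j, ⟨r, hr, hrT, A, hA, hφ, rfl, rfl⟩, ?_, ?_, ?_, ?_⟩
    · intro x
      apply Subtype.ext
      rw [hcoe, hcoe]
      refine hK₁ (φ ^ j) g (fun y hy => hj y (hLK₁ y hy)) _ ?_
      have := x.2
      rw [Submodule.mem_torsionBy_iff, natCast_zsmul] at this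
      exact this
    · intro x
      apply Subtype.ext
      rw [hcoe, hcoe]
      refine hK₁ (g ^ i) φ (fun y hy => hi y (hLK₁ y hy)) _ ?_
      have := x.2
      rw [Submodule.mem_torsionBy_iff, natCast_zsmul] at this
      exact this
    · intro x hx
      have hfix : ∀ a ∈ K₂, (g⁻¹ * φ ^ j) a = a := by
        intro a ha
        rw [AlgEquiv.mul_apply, hj a (hLK₂ a ha)]
        exact g.symm_apply_apply a
      have := hK₂ (g⁻¹ * φ ^ j) hfix x hx
      rw [mul_smul] at this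
      have h2 := congrArg (g • ·) this
      simp only [smul_inv_smul] at h2
      exact h2
    · rw [← map_pow]
      exact eps_eq_of_apply_eq p hζ (hj ζ hLζ)
  have hcT : ∀ x : Submodule.torsionBy ℤ (E⁄Qb).Point p,
      complexConjugation • complexConjugation • x = x := by
    intro x
    rw [← mul_smul, complexConjugation_mul_self, one_smul]
  obtain ⟨h1, h2⟩ := BlrAct5.exists_equiv (Γ := GQ) p hp2 hT2 hTirr V₀ hfinV hV₀p hV₀Γ hne
    (eps p) Frob relT relV heps cheb complexConjugation hcT (eps_complexConjugation p)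
  refine ⟨h1, ?_⟩
  intro s hs
  obtain ⟨φ, _, _, ⟨r, hr, hrT, A, hA, hφ, rfl, rfl⟩, hnd⟩ := h2 s hs
  exact ⟨r, hr, hT'S r hrT, hT'N r hr hrT, hT'p r hrT, hT'g r hr hrT, hnd⟩

end

end Fermat.Agent.MP.HECKE.GalV5
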