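/-
Programme MP (row 38 via S44), chapter HECKE (helper5): **the invariant eigen-subgroup `V₀` of
`J₀(B)[p]`** and the level-`B` part of the construction.

* `V0 W p S E' n` : the points `x ∈ J₀(B)(ℚ̄)` with `p x = 0`, `T_ℓ x = a_ℓ(W) x` (`ℓ ∉ S`), `E' x = n x`;
* `V0_smul` : `G_ℚ`-stable; `V0_map` : stable under every `G_ℚ`-equivariant additive endomorphism
  commuting with `E'` (Eichler–Shimura trick `EsComm5.comm_hecke`);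
* **`exists_V1`** : from an eigenvector `y₀ ∈ J₀(M' p)[p]`, a sign `η`, a copy `V₁ ≅ E[p]` inside the
  `𝒲 = η` part of `V₀ ⊂ J₀(M'' p)[p]` and an auxiliary prime `r`.
-/
import Mathlib
import Fermat.Agent.MP.HECKE.ESum5
import Fermat.Agent.MP.HECKE.EsComm5
import Fermat.Agent.MP.HECKE.GalV5
import Fermat.Agent.MP.HECKE.Squares6
import Fermat.Agent.MP.HECKE.FreeLift5

set_option autoImplicit false
set_option linter.unusedSectionVars false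
set_option linter.unusedVariables false
set_option linter.style.longLine false
set_option linter.style.haveILetI false
set_option synthInstance.maxHeartbeats 400000

open WeierstrassCurve WeierstrassCurve.Affine

namespace Fermat.Agent.MP.HECKE.EigenV5

open AlgebraicCurve ModularCurve
open Fermat.Agent.X0 Fermat.Agent.RED.TOP
open Fermat.Agent.MP.FUNC.FrickeDeg1
open Fermat.Agent.MP.HECKE.LvlMap6 Fermat.Agent.MP.HECKE.CorrId6 Fermat.Agent.MP.HECKE.Aut5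
open Fermat.Agent.MP.HECKE.Squares6 Fermat.Agent.MP.HECKE.ESum5 Fermat.Agent.MP.HECKE.EsComm5
open Fermat.Agent.MP.HECKE.Maps5 Fermat.Agent.MP.HECKE.GalLevel3

local notation "GQ" => (AlgebraicClosure ℚ ≃ₐ[ℚ] AlgebraicClosure ℚ)

noncomputable section

section V0

variable {B : ℕ} [NeZero B]

/-- the invariant eigen-subgroup. -/
def V0 (W : WeierstrassCurve ℤ) (p : ℕ) (S : Finset ℕ) (E' : JZero B →+ JZero B) (n : ℤ) :
    AddSubgroup (JZero B) where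
  carrier := {x | p • x = 0 ∧
    (∀ (ℓ : ℕ) (hℓ : ℓ.Prime), ℓ ∉ S → heckeOperatorBar B ⟨ℓ, hℓ⟩ x = W.apOfModel ℓ • x) ∧
    E' x = n • x}
  zero_mem' := ⟨nsmul_zero _, fun ℓ hℓ _ => by rw [map_zero, zsmul_zero],
    by rw [map_zero, zsmul_zero]⟩
  add_mem' := by
    rintro x y ⟨hx1, hx2, hx3⟩ ⟨hy1, hy2, hy3⟩
    refine ⟨by rw [nsmul_add, hx1, hy1, add_zero], fun ℓ hℓ hS => ?_, ?_⟩
    · rw [map_add, hx2 ℓ hℓ hS, hy2 ℓ hℓ hS, zsmul_add]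
    · rw [map_add, hx3, hy3, zsmul_add]
  neg_mem' := by
    rintro x ⟨hx1, hx2, hx3⟩
    refine ⟨by rw [neg_nsmul, hx1, neg_zero], fun ℓ hℓ hS => ?_, ?_⟩
    · rw [map_neg, hx2 ℓ hℓ hS, zsmul_neg]
    · rw [map_neg, hx3, zsmul_neg]

variable {W : WeierstrassCurve ℤ} {p : ℕ} {S : Finset ℕ} {E' : JZero B →+ JZero B} {n : ℤ}

theorem mem_V0 {x : JZero B} : x ∈ V0 W p S E' n ↔ p • x = 0 ∧
    (∀ (ℓ : ℕ) (hℓ : ℓ.Prime), ℓ ∉ S → heckeOperatorBar B ⟨ℓ, hℓ⟩ x = W.apOfModel ℓ • x) ∧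
    E' x = n • x := Iff.rfl

/-- `V₀` is stable under every equivariant additive endomorphism commuting with `E'`. -/
theorem V0_map (hS : ∀ ℓ : ℕ, ℓ.Prime → ℓ ∉ S → ¬ ℓ ∣ B ∧ ¬ ℓ ∣ p) (F : JZero B →+ JZero B)
    (hF : ∀ (σ : GQ) x, F (σ • x) = σ • F x) (hFE : ∀ x, F (E' x) = E' (F x)) :
    ∀ x ∈ V0 W p S E' n, F x ∈ V0 W p S E' n := by
  rintro x ⟨hx1, hx2, hx3⟩
  refine ⟨by rw [← map_nsmul, hx1, map_zero], fun ℓ hℓ hℓS => ?_, ?_⟩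
  · obtain ⟨h1, h2⟩ := hS ℓ hℓ hℓS
    rw [← comm_hecke hℓ h1 h1 F hF h2 hx1, hx2 ℓ hℓ hℓS, map_zsmul]
  · rw [← hFE, hx3, map_zsmul]

/-- `V₀` is `G_ℚ`-stable. -/
theorem V0_smul (hE' : ∀ (σ : GQ) x, E' (σ • x) = σ • E' x) (σ : GQ) :
    ∀ x ∈ V0 W p S E' n, σ • x ∈ V0 W p S E' n := by
  rintro x ⟨hx1, hx2, hx3⟩
  refine ⟨by rw [← gal_smul_nsmul, hx1, gal_smul_zero], fun ℓ hℓ hℓS => ?_, ?_⟩
  · rw [Fermat.Agent.ES.HECKE.HeckeGalois12.heckeOperatorBar_smul, hx2 ℓ hℓ hℓS, gal_smul_zsmul]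
  · rw [hE', hx3, gal_smul_zsmul]

end V0

section Main

local notation "Qb" => AlgebraicClosure ℚ

variable {p : ℕ} [hp : Fact p.Prime] {M' M'' : ℕ} [NeZero M'] [NeZero M'']

open WeierstrassCurve in
/-- **the level-`B` part of the construction** (`B = M'' p`). -/
theorem exists_V1 (hp5 : 5 ≤ p) (odd : Bool) (hM : M' * ratio odd = M'')
    (hpar : if odd then Odd M' else 2 ∣ M') (h4 : 4 ∣ M'') (h8 : ¬ 8 ∣ M'')
    (E : WeierstrassCurve ℚ) [E.IsElliptic] {W : WeierstrassCurve ℤ} (hW : W.IsIntegralModelOf E)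
    (hirr : Point.GaloisRepIsIrreducible (K := Qb) ℚ E p)
    (y₀ : JZero (M' * p)) (hy₀ : y₀ ≠ 0) (hpy₀ : p • y₀ = 0)
    (heig₀ : ∀ (ℓ : ℕ) (hℓ : ℓ.Prime), ¬ ℓ ∣ M' * p → W.IsGoodPrimeFor ℓ → ℓ ≠ p →
      heckeOperatorBar (M' * p) ⟨ℓ, hℓ⟩ y₀ = W.apOfModel ℓ • y₀) :
    ∃ (η : ℤ) (V₁ : AddSubgroup (JZero (M'' * p)))
      (e₁ : Submodule.torsionBy ℤ (E⁄Qb).Point p ≃+ V₁) (r : ℕ),
      (η = 1 ∨ η = -1) ∧
      (∀ (σ : GQ) (x : Submodule.torsionBy ℤ (E⁄Qb).Point p),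
        ((e₁ (σ • x) : V₁) : JZero (M'' * p)) = σ • ((e₁ x : V₁) : JZero (M'' * p))) ∧
      (∀ y ∈ V₁, p • y = 0) ∧
      (∀ y ∈ V₁, ∀ (ℓ : ℕ) (hℓ : ℓ.Prime), W.IsGoodPrimeFor ℓ → ¬ ℓ ∣ M'' * p →
        heckeOperatorBar (M'' * p) ⟨ℓ, hℓ⟩ y = W.apOfModel ℓ • y) ∧
      (∀ y ∈ V₁, eSum (M'' * p) (Dvd.dvd.mul_right h4 p) odd y =
        ((if odd then 6 else 2 : ℕ) : ℤ) • y) ∧
      (∀ y ∈ V₁, cWOp (M'' * p) (Dvd.dvd.mul_right h4 p) y = η • y) ∧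
      r.Prime ∧ ¬ r ∣ M'' * p ∧ W.IsGoodPrimeFor r ∧
      ¬ (p : ℤ) ∣ 1 + η * W.apOfModel r + r := by
  classical
  have hpp : p.Prime := hp.out
  have hp2 : p ≠ 2 := by omega
  have h4B : 4 ∣ M'' * p := Dvd.dvd.mul_right h4 p
  have h8B : ¬ 8 ∣ M'' * p := by
    intro h
    have hc : Nat.Coprime 8 p := by
      have : Nat.Coprime (2 ^ 3) p :=
        Nat.Coprime.pow_left 3 ((Nat.coprime_primes Nat.prime_two hpp).mpr (Ne.symm hp2))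
      simpa using this
    exact h8 (hc.dvd_of_dvd_mul_right h)
  -- the map `π'`
  have hdvd : M' * p * 2 ∣ M'' * p := by
    rw [← hM]
    cases odd
    · exact ⟨1, by show M' * 2 * p = M' * p * 2 * 1; ring⟩
    · exact ⟨2, by show M' * 4 * p = M' * p * 2 * 2; ring⟩
  let π : FF (M' * p) →ₐ[Kbar] FF (M'' * p) := betaIncl 2 hdvd
  have hπ : IsBeta 2 π := isBeta_betaIncl 2 hdvd
  have fπ : FiniteAlong Kbar π := finiteAlong_any π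
  have hratio : M' * p * ratio odd = M'' * p := by rw [← hM]; ring
  have hparB : if odd then Odd (M' * p) else 2 ∣ M' * p := by
    cases odd
    · exact Dvd.dvd.mul_right hpar p
    · exact Odd.mul hpar (hpp.odd_of_ne_two hp2)
  have hpp_eq := pull_push_eq_eSum odd hratio hparB h4B hπ fπ
  have hdeg := finrank_eq odd hratio hparB hπ
  obtain ⟨n, hn⟩ : ∃ n : ℕ, n = if odd then 6 else 2 := ⟨_, rfl⟩
  rw [← hn] at hdeg
  have hncop : IsCoprime (n : ℤ) (p : ℤ) := by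
    rw [Nat.isCoprime_iff_coprime]
    have h2 : Nat.Coprime 2 p := (Nat.coprime_primes Nat.prime_two hpp).mpr (Ne.symm hp2)
    have h3 : Nat.Coprime 3 p := (Nat.coprime_primes Nat.prime_three hpp).mpr (by omega)
    cases odd
    · simpa [hn] using h2
    · have : Nat.Coprime (2 * 3) p := Nat.Coprime.mul_left h2 h3
      simpa [hn] using this
  -- the discriminant
  have hΔW : W.Δ ≠ 0 := by
    obtain ⟨C, hC⟩ := hW
    intro h0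
    have hell : (W.map (Int.castRingHom ℚ)).IsElliptic := by rw [← hC]; infer_instance
    have h1 : (W.map (Int.castRingHom ℚ)).Δ = 0 := by
      rw [WeierstrassCurve.map_Δ, h0, _root_.map_zero]
    exact (W.map (Int.castRingHom ℚ)).isUnit_Δ.ne_zero h1
  -- the finite set of bad primes
  have hne : M'' * p * W.Δ.natAbs ≠ 0 :=
    Nat.mul_ne_zero (Nat.mul_ne_zero (NeZero.ne M'') hpp.ne_zero) (Int.natAbs_ne_zero.mpr hΔW)
  obtain ⟨S, hS⟩ : ∃ S : Finset ℕ, S = (M'' * p * W.Δ.natAbs).primeFactors := ⟨_, rfl⟩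
  have hSmem : ∀ ℓ : ℕ, ℓ.Prime → (ℓ ∉ S ↔ ¬ ℓ ∣ M'' * p ∧ W.IsGoodPrimeFor ℓ) := by
    intro ℓ hℓ
    rw [hS, Nat.mem_primeFactors_of_ne_zero hne, not_and, hℓ.dvd_mul, not_or]
    unfold WeierstrassCurve.IsGoodPrimeFor
    rw [Int.natCast_dvd]
    exact ⟨fun h => h hℓ, fun h _ => h⟩
  have hSB : ∀ ℓ : ℕ, ℓ.Prime → ℓ ∉ S → ¬ ℓ ∣ M'' * p ∧ ¬ ℓ ∣ p := by
    intro ℓ hℓ hℓS
    obtain ⟨h1, -⟩ := (hSmem ℓ hℓ).mp hℓS
    exact ⟨h1, fun h => h1 (Dvd.dvd.mul_left h M'')⟩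
  -- `V₀`
  obtain ⟨V₀, hV₀⟩ : ∃ V₀ : AddSubgroup (JZero (M'' * p)),
      V₀ = V0 W p S (eSum (M'' * p) h4B odd) (n : ℤ) := ⟨_, rfl⟩
  have hz₀ : pullL π fπ y₀ ∈ V₀ := by
    rw [hV₀]
    refine ⟨by rw [← map_nsmul, hpy₀, map_zero], fun ℓ hℓ hℓS => ?_, ?_⟩
    · obtain ⟨h1, h2⟩ := (hSmem ℓ hℓ).mp hℓS
      obtain ⟨-, hℓp'⟩ := hSB ℓ hℓ hℓS
      have hℓp : ℓ ≠ p := fun h => hℓp' (h ▸ dvd_rfl)
      have hℓN : ¬ ℓ ∣ M' * p := fun h => h1 (h.trans ⟨ratio odd, by rw [← hM]; ring⟩)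
      rw [← comm_hecke hℓ hℓN h1 (pullL π fπ)
        (fun σ x => pullOf_smul fπ (galComm_of_isBeta hπ) σ x) hℓp' hpy₀, heig₀ ℓ hℓ hℓN h2 hℓp,
        map_zsmul]
    · rw [← hpp_eq, pushL_pullL, hdeg, map_nsmul, natCast_zsmul]
  have hV₀ne : V₀ ≠ ⊥ := by
    intro h
    have hz0 : pullL π fπ y₀ = 0 := by
      rw [← AddSubgroup.mem_bot, ← h]
      exact hz₀
    have h1 : pushL π fπ (pullL π fπ y₀) = n • y₀ := by rw [pushL_pullL, hdeg]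
    rw [hz0, map_zero] at h1
    obtain ⟨u, v, huv⟩ := hncop
    have h2 : y₀ = u • ((n : ℤ) • y₀) + v • ((p : ℤ) • y₀) := by
      rw [smul_smul, smul_smul, ← add_zsmul, huv, one_zsmul]
    apply hy₀
    rw [h2, natCast_zsmul, natCast_zsmul, ← h1, hpy₀, zsmul_zero, zsmul_zero, add_zero]
  have hV₀Γ : ∀ σ : GQ, ∀ x ∈ V₀, σ • x ∈ V₀ := by
    intro σ
    rw [hV₀]
    exact V0_smul (fun σ x => eSum_smul (M'' * p) h4B odd σ x) σ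
  have hV₀w : ∀ x ∈ V₀, cWOp (M'' * p) h4B x ∈ V₀ := by
    rw [hV₀]
    exact V0_map hSB (cWOp (M'' * p) h4B) (fun σ x => cWOp_smul (M'' * p) h4B σ x)
      (fun x => (eSum_cWOp (M'' * p) h4B h8B odd x).symm)
  obtain ⟨η, hη, Vη, hVηle, hVηne, hVηΓ, hVηw⟩ :=
    Fermat.Agent.MP.HECKE.FreeLift5.exists_eigen (Γ := GQ) (cWOp (M'' * p) h4B)
      (cWOp_cWOp (M'' * p) h4B h8B) (fun σ x => cWOp_smul (M'' * p) h4B σ x) V₀ hV₀Γ hV₀w hV₀ne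
  have hVη0 : ∀ x ∈ Vη, x ∈ V0 W p S (eSum (M'' * p) h4B odd) (n : ℤ) := by
    intro x hx
    rw [← hV₀]
    exact hVηle hx
  obtain ⟨⟨V₁, hV₁le, hV₁Γ, e₁, he₁⟩, hr⟩ :=
    Fermat.Agent.MP.HECKE.GalV5.exists_equiv_torsion E hW hp2 hirr (M'' * p) S Vη
      (fun x hx => (hVη0 x hx).1) hVηΓ hVηne (fun ℓ hℓ hℓS x hx => (hVη0 x hx).2.1 ℓ hℓ hℓS)
  obtain ⟨r, hrp, hrS, hrB, hrp', hrgood, hrdiv⟩ := hr η hη
  refine ⟨η, V₁, e₁, r, hη, he₁, ?_, ?_, ?_, ?_, hrp, hrB, hrgood, hrdiv⟩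
  · exact fun y hy => (hVη0 y (hV₁le hy)).1
  · intro y hy ℓ hℓ hgood hℓB
    exact (hVη0 y (hV₁le hy)).2.1 ℓ hℓ ((hSmem ℓ hℓ).mpr ⟨hℓB, hgood⟩)
  · intro y hy
    rw [← hn]
    exact (hVη0 y (hV₁le hy)).2.2
  · exact fun y hy => hVηw y (hV₁le hy)

end Main

end

end Fermat.Agent.MP.HECKE.EigenV5
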