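/-
Programme MP (row 38 via S44), chapter HECKE (helper5): **the external inputs of the assembly
`Main5`**, as `Prop`-valued structures.

* `GoodPrime W M p` : the index type of the Hecke operators entering `t` (good primes of the integral
  model `W` not dividing `M p`); `TOp N` : the family `ℓ ↦ T_ℓ` on `J₀(N)(ℚ̄)` indexed by it;
* `LatFacts W M p` (lattice side, helper4) : `2` is a bad prime of `W`, and there is a non-commutative
  polynomial `ŝ` in the `T_ℓ` which kills the torsion of `J₀(M)(ℚ̄)` and whose value at the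
  eigen-system `a_ℓ(W)` is prime to `p`;
* `RedFacts p K Kg` (FUNC, TAU, FIN) : the functoriality of the kernels of reduction
  `K M ≤ J₀(M p)(ℚ̄)` (bad level, `4 ∣ M`, `p ∤ M`) and `Kg M ≤ J₀(M)(ℚ̄)` (good level).
-/
import Mathlib
import Fermat.Agent.MP.HECKE.FreeLift5
import Fermat.Agent.MP.HECKE.Aut5
import Fermat.Agent.MP.HECKE.CorrId6
import Fermat.Prelude.Def_FLTPrelim_Modularity
import Fermat.Prelude.Def_ModularCurve_HeckeModule

set_option autoImplicit false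
set_option linter.unusedSectionVars false
set_option linter.unusedVariables false
set_option linter.style.longLine false
set_option synthInstance.maxHeartbeats 400000

namespace Fermat.Agent.MP.HECKE.Facts5

open AlgebraicCurve ModularCurve
open Fermat.Agent.X0 Fermat.Agent.RED.TOP
open Fermat.Agent.MP.FUNC.FrickeDeg1
open Fermat.Agent.MP.HECKE.LvlMap6 Fermat.Agent.MP.HECKE.CorrId6 Fermat.Agent.MP.HECKE.Aut5
open Fermat.Agent.MP.HECKE.Iface5 Fermat.Agent.MP.HECKE.FreeLift5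

noncomputable section

/-- the good primes of `W` not dividing `M p`. -/
def GoodPrime (W : WeierstrassCurve ℤ) (M p : ℕ) : Type :=
  {ℓ : Nat.Primes // W.IsGoodPrimeFor (ℓ : ℕ) ∧ ¬ (ℓ : ℕ) ∣ M ∧ (ℓ : ℕ) ≠ p}

/-- the Hecke operators `T_ℓ`, `ℓ ∈ GoodPrime W M p`, on `J₀(N)(ℚ̄)`. -/
def TOp (W : WeierstrassCurve ℤ) (M p : ℕ) (N : ℕ) [NeZero N] :
    GoodPrime W M p → (JZero N →+ JZero N) :=
  fun ℓ => (heckeOperatorBar N ℓ.1).toAddMonoidHom

theorem TOp_apply (W : WeierstrassCurve ℤ) (M p : ℕ) (N : ℕ) [NeZero N] (ℓ : GoodPrime W M p)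
    (x : JZero N) : TOp W M p N ℓ x = heckeOperatorBar N ℓ.1 x := rfl

/-- the eigen-system of `W`. -/
def aOf (W : WeierstrassCurve ℤ) (M p : ℕ) : GoodPrime W M p → ℤ := fun ℓ => W.apOfModel (ℓ.1 : ℕ)

/-- **the lattice side** (helper4). -/
structure LatFacts (W : WeierstrassCurve ℤ) (M p : ℕ) [NeZero M] : Prop where
  two_bad : ¬ W.IsGoodPrimeFor 2
  sep : ∃ s : FreeAlgebra ℤ (GoodPrime W M p),
    (∀ (u : JZero M) (m : ℕ), 0 < m → m • u = 0 → act (TOp W M p M) s u = 0) ∧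
      ¬ (p : ℤ) ∣ evalInt (aOf W M p) s

/-- **the reduction side** (FUNC, TAU, FIN) : `K M` is the kernel of reduction of `J₀(M p)` (bad level),
`Kg M` the kernel of reduction of `J₀(M)` (good level), for `4 ∣ M`, `p ∤ M`. -/
structure RedFacts (p : ℕ) [NeZero p] (hp : p.Prime)
    (K : ∀ (M : ℕ) [NeZero M], AddSubgroup (JZero (M * p)))
    (Kg : ∀ (M : ℕ) [NeZero M], AddSubgroup (JZero M)) : Prop where
  /-- the degeneracy maps at a prime `r ∤ M₁ p` between bad levels preserve the kernels. -/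
  deg : ∀ (M₁ M₂ r : ℕ) [NeZero M₁] [NeZero M₂] [NeZero r], 4 ∣ M₁ → ¬ p ∣ M₂ → r.Prime →
    ¬ r ∣ M₁ * p → M₁ * r = M₂ → ∀ (φ ψ : FF (M₁ * p) →ₐ[Kbar] FF (M₂ * p)), IsAlpha φ → IsBeta r ψ →
    ∀ (fφ : FiniteAlong Kbar φ) (fψ : FiniteAlong Kbar ψ),
      (∀ y ∈ K M₁, pullL φ fφ y ∈ K M₂) ∧ (∀ y ∈ K M₁, pullL ψ fψ y ∈ K M₂) ∧
      (∀ x ∈ K M₂, pushL φ fφ x ∈ K M₁) ∧ (∀ x ∈ K M₂, pushL ψ fψ x ∈ K M₁)
  /-- the automorphisms `s₁`, `W` preserve the kernels. -/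
  aut : ∀ (M : ℕ) [NeZero M] (h4 : 4 ∣ M), ¬ p ∣ M →
    (∀ x ∈ K M, s1Op (M * p) (Dvd.dvd.mul_right h4 p) x ∈ K M) ∧ (∀ x ∈ K M, frickeJ (M * p) x ∈ K M)
  /-- (X1) : equivariant endomorphisms killing torsion land in the kernel of reduction (good level). -/
  x1 : ∀ (M : ℕ) [NeZero M], 4 ∣ M → ¬ p ∣ M → ∀ t : JZero M →+ JZero M,
    (∀ (σ : Kbar ≃ₐ[ℚ] Kbar) (u : JZero M), t (σ • u) = σ • t u) →
    (∀ (u : JZero M) (m : ℕ), 0 < m → m • u = 0 → t u = 0) → ∀ u, t u ∈ Kg M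
  /-- `α_p^*`, `β_p^*` map the good kernel into the bad kernel. -/
  pdeg : ∀ (M : ℕ) [NeZero M], 4 ∣ M → ∀ hpM : ¬ p ∣ M, ∀ u ∈ Kg M,
    alphaPull hp hpM u ∈ K M ∧ betaPull hp hpM u ∈ K M

end

end Fermat.Agent.MP.HECKE.Facts5
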