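/-
Programme MP (row 38 via S44), chapter HECKE (helper5): **the abstract assembly of the operator `Ξ`
and of the subgroup `V`** (pure additive group theory; all identities on `Pic⁰` are hypotheses).

Levels (informal): `B = M'' p`, `C = M'' r p`, `M₂ = M''`, `M = M'' r` (good levels).
* `a b : JB →+ JC` (`α_r^*`, `β_r^*`), `a' b' : JC →+ JB` (`α_{r*}`, `β_{r*}`);
* `e' t : JB →+ JB` (the sum over the Galois group of `Fbar B / q²(Fbar N)`, the Hecke polynomial);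
* `wB`, `wC` the central involutions `𝒲`;
* `ag bg ag' bg' eg tg` the same maps at the good levels, `x₁ y₁ : JM2 →+ JB`, `x₂ y₂ : JM →+ JC`
  (`α_p^*`, `β_p^*`);
* `V₁ ≤ JB` a copy of `E[p]` (`e₁`), on which everything acts by scalars.

`ι := a + s b`, `ι^∨ := a' + s b'`, `Ξ := ι ∘ t ∘ e' ∘ ι^∨`, `V := ι(V₁)`.
-/
import Mathlib

set_option autoImplicit false
set_option linter.unusedSectionVars false
set_option linter.unusedVariables false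
set_option linter.style.longLine false

namespace Fermat.Agent.MP.HECKE.XiAbs5

section Abs

variable {Γ T JB JC JM JM2 : Type} [AddCommGroup T] [SMul Γ T]
  [AddCommGroup JB] [AddCommGroup JC] [AddCommGroup JM] [AddCommGroup JM2]
  [SMul Γ JB] [SMul Γ JC]

/-- `ι = a + s b`. -/
def iota (a b : JB →+ JC) (s : ℤ) : JB →+ JC := a + s • b

theorem iota_apply (a b : JB →+ JC) (s : ℤ) (y : JB) : iota a b s y = a y + s • b y := rfl

/-- `Ξ = ι ∘ t ∘ e' ∘ ι^∨`. -/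
def xi (a b : JB →+ JC) (a' b' : JC →+ JB) (e' t : JB →+ JB) (s : ℤ) : JC →+ JC :=
  (iota a b s).comp (t.comp (e'.comp (iota a' b' s)))

theorem xi_apply (a b : JB →+ JC) (a' b' : JC →+ JB) (e' t : JB →+ JB) (s : ℤ) (x : JC) :
    xi a b a' b' e' t s x = iota a b s (t (e' (iota a' b' s x))) := rfl

/-- the hypotheses of the assembly. -/
structure Hyp (Γ T : Type) {JB JC JM JM2 : Type} [AddCommGroup T] [SMul Γ T]
    [AddCommGroup JB] [AddCommGroup JC] [AddCommGroup JM] [AddCommGroup JM2]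
    [SMul Γ JB] [SMul Γ JC] (p : ℕ)
    (a b : JB →+ JC) (a' b' : JC →+ JB) (e' t wB : JB →+ JB) (wC : JC →+ JC)
    (ag bg : JM2 →+ JM) (ag' bg' : JM →+ JM2) (eg tg : JM2 →+ JM2)
    (x₁ y₁ : JM2 →+ JB) (x₂ y₂ : JM →+ JC)
    (KB : AddSubgroup JB) (KC : AddSubgroup JC) (Kg : AddSubgroup JM)
    (V₁ : AddSubgroup JB) (e₁ : T ≃+ V₁) (s r ar n ev : ℤ) : Prop where
  hs : s = 1 ∨ s = -1
  hV₁p : ∀ y ∈ V₁, (p : ℤ) • y = 0
  he₁ : ∀ (σ : Γ) (x : T), ((e₁ (σ • x) : V₁) : JB) = σ • ((e₁ x : V₁) : JB)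
  haa : ∀ y ∈ V₁, a' (a y) = (r + 1) • y
  hbb : ∀ y ∈ V₁, b' (b y) = (r + 1) • y
  hab : ∀ y ∈ V₁, a' (b y) = ar • y
  hba : ∀ y ∈ V₁, b' (a y) = ar • y
  he' : ∀ y ∈ V₁, e' y = n • y
  ht : ∀ y ∈ V₁, t y = ev • y
  hcop : IsCoprime (2 * (r + 1 + s * ar) * n * ev) (p : ℤ)
  hwa : ∀ y, wC (a y) = b (wB y)
  hwb : ∀ y, wC (b y) = a (wB y)
  hwV : ∀ y ∈ V₁, wB y = s • y
  hΓa : ∀ (σ : Γ) (y : JB), a (σ • y) = σ • a y
  hΓb : ∀ (σ : Γ) (y : JB), b (σ • y) = σ • b y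
  hΓadd : ∀ (σ : Γ) (x y : JC), σ • (x + y) = σ • x + σ • y
  hΓneg : ∀ (σ : Γ) (x : JC), σ • (-x) = -(σ • x)
  -- kernels of reduction
  haK : ∀ y ∈ KB, a y ∈ KC
  hbK : ∀ y ∈ KB, b y ∈ KC
  ha'K : ∀ x ∈ KC, a' x ∈ KB
  hb'K : ∀ x ∈ KC, b' x ∈ KB
  he'K : ∀ y ∈ KB, e' y ∈ KB
  htK : ∀ y ∈ KB, t y ∈ KB
  -- the squares with `α_p^*`
  hxa' : ∀ u, a' (x₂ u) = x₁ (ag' u)
  hxb' : ∀ u, b' (x₂ u) = x₁ (bg' u)
  hxe : ∀ w, e' (x₁ w) = x₁ (eg w)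
  hxt : ∀ w, t (x₁ w) = x₁ (tg w)
  hxa : ∀ w, a (x₁ w) = x₂ (ag w)
  hxb : ∀ w, b (x₁ w) = x₂ (bg w)
  -- the squares with `β_p^*`
  hya' : ∀ u, a' (y₂ u) = y₁ (ag' u)
  hyb' : ∀ u, b' (y₂ u) = y₁ (bg' u)
  hye : ∀ w, e' (y₁ w) = y₁ (eg w)
  hyt : ∀ w, t (y₁ w) = y₁ (tg w)
  hya : ∀ w, a (y₁ w) = y₂ (ag w)
  hyb : ∀ w, b (y₁ w) = y₂ (bg w)
  -- the good levels
  hgood : ∀ u, xi ag bg ag' bg' eg tg s u ∈ Kg
  hxK : ∀ u ∈ Kg, x₂ u ∈ KC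
  hyK : ∀ u ∈ Kg, y₂ u ∈ KC

variable {p : ℕ}
  {a b : JB →+ JC} {a' b' : JC →+ JB} {e' t wB : JB →+ JB} {wC : JC →+ JC}
  {ag bg : JM2 →+ JM} {ag' bg' : JM →+ JM2} {eg tg : JM2 →+ JM2}
  {x₁ y₁ : JM2 →+ JB} {x₂ y₂ : JM →+ JC}
  {KB : AddSubgroup JB} {KC : AddSubgroup JC} {Kg : AddSubgroup JM}
  {V₁ : AddSubgroup JB} {e₁ : T ≃+ V₁} {s r ar n ev : ℤ}

theorem ss_eq_one (hs : s = 1 ∨ s = -1) : s * s = 1 := by
  rcases hs with rfl | rfl <;> norm_num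

/-- `ι^∨ ι = 2 (r + 1 + s a_r)` on `V₁`. -/
theorem dual_iota (H : Hyp Γ T p a b a' b' e' t wB wC ag bg ag' bg' eg tg x₁ y₁ x₂ y₂ KB KC Kg V₁ e₁
    s r ar n ev) {y : JB} (hy : y ∈ V₁) :
    iota a' b' s (iota a b s y) = (2 * (r + 1 + s * ar)) • y := by
  rw [iota_apply, iota_apply, map_add, map_add, map_zsmul, map_zsmul, H.haa y hy, H.hab y hy,
    H.hba y hy, H.hbb y hy]
  simp only [smul_smul, ← add_smul]
  congr 1
  have := ss_eq_one H.hs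
  linear_combination (r + 1) * this

/-- `Ξ = 2 (r + 1 + s a_r) n ev` on `ι V₁`. -/
theorem xi_iota (H : Hyp Γ T p a b a' b' e' t wB wC ag bg ag' bg' eg tg x₁ y₁ x₂ y₂ KB KC Kg V₁ e₁
    s r ar n ev) {y : JB} (hy : y ∈ V₁) :
    xi a b a' b' e' t s (iota a b s y) = (2 * (r + 1 + s * ar) * n * ev) • iota a b s y := by
  rw [xi_apply, dual_iota H hy]
  simp only [map_zsmul, H.he' y hy, H.ht y hy, smul_smul]

/-- `ι` is injective on `V₁`. -/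
theorem iota_injOn (H : Hyp Γ T p a b a' b' e' t wB wC ag bg ag' bg' eg tg x₁ y₁ x₂ y₂ KB KC Kg V₁ e₁
    s r ar n ev) {y : JB} (hy : y ∈ V₁) (h0 : iota a b s y = 0) : y = 0 := by
  have h1 : (2 * (r + 1 + s * ar)) • y = 0 := by
    rw [← dual_iota H hy, h0, map_zero]
  have hc : IsCoprime (2 * (r + 1 + s * ar)) (p : ℤ) := by
    have := H.hcop
    rw [mul_assoc] at this
    exact this.of_mul_left_left
  obtain ⟨u, v, huv⟩ := hc
  have : y = u • ((2 * (r + 1 + s * ar)) • y) + v • ((p : ℤ) • y) := by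
    rw [smul_smul, smul_smul, ← add_smul, huv, one_smul]
  rw [this, h1, H.hV₁p y hy, smul_zero, smul_zero, add_zero]

/-- `𝒲_C = 1` on `ι V₁`. -/
theorem w_iota (H : Hyp Γ T p a b a' b' e' t wB wC ag bg ag' bg' eg tg x₁ y₁ x₂ y₂ KB KC Kg V₁ e₁
    s r ar n ev) {y : JB} (hy : y ∈ V₁) : wC (iota a b s y) = iota a b s y := by
  rw [iota_apply, map_add, map_zsmul, H.hwa, H.hwb, H.hwV y hy, map_zsmul, map_zsmul, smul_smul,
    ss_eq_one H.hs, one_smul, add_comm]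

/-- `Ξ ∘ α_p^* = α_p^* ∘ Ξ_good`. -/
theorem xi_x (H : Hyp Γ T p a b a' b' e' t wB wC ag bg ag' bg' eg tg x₁ y₁ x₂ y₂ KB KC Kg V₁ e₁
    s r ar n ev) (u : JM) :
    xi a b a' b' e' t s (x₂ u) = x₂ (xi ag bg ag' bg' eg tg s u) := by
  have h1 : iota a' b' s (x₂ u) = x₁ (iota ag' bg' s u) := by
    rw [iota_apply, iota_apply, H.hxa', H.hxb', map_add, map_zsmul]
  have h2 : ∀ w, iota a b s (x₁ w) = x₂ (iota ag bg s w) := by
    intro w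
    rw [iota_apply, iota_apply, H.hxa, H.hxb, map_add, map_zsmul]
  rw [xi_apply, xi_apply, h1, H.hxe, H.hxt, h2]

theorem xi_y (H : Hyp Γ T p a b a' b' e' t wB wC ag bg ag' bg' eg tg x₁ y₁ x₂ y₂ KB KC Kg V₁ e₁
    s r ar n ev) (u : JM) :
    xi a b a' b' e' t s (y₂ u) = y₂ (xi ag bg ag' bg' eg tg s u) := by
  have h1 : iota a' b' s (y₂ u) = y₁ (iota ag' bg' s u) := by
    rw [iota_apply, iota_apply, H.hya', H.hyb', map_add, map_zsmul]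
  have h2 : ∀ w, iota a b s (y₁ w) = y₂ (iota ag bg s w) := by
    intro w
    rw [iota_apply, iota_apply, H.hya, H.hyb, map_add, map_zsmul]
  rw [xi_apply, xi_apply, h1, H.hye, H.hyt, h2]

/-- `Ξ` preserves the kernel of reduction. -/
theorem xi_mem_K (H : Hyp Γ T p a b a' b' e' t wB wC ag bg ag' bg' eg tg x₁ y₁ x₂ y₂ KB KC Kg V₁ e₁
    s r ar n ev) {c : JC} (hc : c ∈ KC) : xi a b a' b' e' t s c ∈ KC := by
  rw [xi_apply]
  have h1 : iota a' b' s c ∈ KB := by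
    rw [iota_apply]
    exact KB.add_mem (H.ha'K c hc) (KB.zsmul_mem (H.hb'K c hc) s)
  have h2 := H.htK _ (H.he'K _ h1)
  rw [iota_apply]
  exact KC.add_mem (H.haK _ h2) (KC.zsmul_mem (H.hbK _ h2) s)

/-- `ι` is `Γ`-equivariant. -/
theorem iota_smul (H : Hyp Γ T p a b a' b' e' t wB wC ag bg ag' bg' eg tg x₁ y₁ x₂ y₂ KB KC Kg V₁ e₁
    s r ar n ev) (σ : Γ) (y : JB) : iota a b s (σ • y) = σ • iota a b s y := by
  rw [iota_apply, iota_apply, H.hΓa, H.hΓb, H.hΓadd]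
  rcases H.hs with rfl | rfl
  · rw [one_smul, one_smul]
  · rw [neg_smul, neg_smul, one_smul, one_smul, H.hΓneg]

/-- **the assembly.** -/
theorem main (H : Hyp Γ T p a b a' b' e' t wB wC ag bg ag' bg' eg tg x₁ y₁ x₂ y₂ KB KC Kg V₁ e₁
    s r ar n ev) :
    ∃ (V : AddSubgroup JC) (e : T ≃+ V) (Ξ : JC →+ JC) (u : ℤ),
      (∀ (σ : Γ) (x : T), ((e (σ • x) : V) : JC) = σ • ((e x : V) : JC)) ∧
      IsCoprime u (p : ℤ) ∧ (∀ y ∈ V, Ξ y = u • y) ∧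
      (∀ u w, Ξ (x₂ u + y₂ w) ∈ KC) ∧ (∀ c ∈ KC, Ξ c ∈ KC) ∧ (∀ y ∈ V, wC y = y) := by
  classical
  -- the restriction of `ι` to `V₁`
  let f : V₁ →+ JC := (iota a b s).comp V₁.subtype
  have hf : Function.Injective f := by
    rw [injective_iff_map_eq_zero]
    intro y hy
    exact Subtype.ext (iota_injOn H y.2 hy)
  let e₂ : V₁ ≃+ f.range := AddMonoidHom.ofInjective hf
  have hV : ∀ y ∈ f.range, ∃ z ∈ V₁, y = iota a b s z := by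
    rintro y ⟨z, rfl⟩
    exact ⟨z.1, z.2, rfl⟩
  refine ⟨f.range, e₁.trans e₂, xi a b a' b' e' t s, 2 * (r + 1 + s * ar) * n * ev, ?_, H.hcop,
    ?_, ?_, fun c hc => xi_mem_K H hc, ?_⟩
  · intro σ x
    show iota a b s ((e₁ (σ • x) : V₁) : JB) = σ • iota a b s ((e₁ x : V₁) : JB)
    rw [H.he₁, iota_smul H]
  · intro y hy
    obtain ⟨z, hz, rfl⟩ := hV y hy
    exact xi_iota H hz
  · intro u w
    rw [map_add, xi_x H, xi_y H]
    exact KC.add_mem (H.hxK _ (H.hgood u)) (H.hyK _ (H.hgood w))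
  · intro y hy
    obtain ⟨z, hz, rfl⟩ := hV y hy
    exact w_iota H hz

end Abs

end Fermat.Agent.MP.HECKE.XiAbs5
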