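/-
Programme MP (row 38 via S44), chapter HECKE (helper5): **the assembly of `HeckeOut`.**

Levels: `N = M' p` (the level of the modular representation, `p ∤ M'`, `¬ 4 ∣ M'`),
`M'' = M' · ratio` (`ratio = 2` if `M'` is even, `4` if `M'` is odd; `4 ∥ M''`), `B = M'' p`,
`r` an auxiliary prime, `M₀ = M'' r`, `C = M₀ p`.

* `cWOp_pullL_alpha`, `cWOp_pullL_beta` : `𝒲 φ^* = ψ^* 𝒲`, `𝒲 ψ^* = φ^* 𝒲` (`φ` of type `α`, `ψ` of type
  `β_d`, `d` odd);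
* `hecke_mem_K` : `T_ℓ` preserves the kernel of reduction (from `RedFacts.deg`);
* **`core`** : from the output of `EigenV5.exists_V1`, `LatFacts` and `RedFacts` : the data of
  `Iface5.HeckeOut` at level `C = M'' r p`.
-/
import Mathlib
import Fermat.Agent.MP.HECKE.EigenV5
import Fermat.Agent.MP.HECKE.XiAbs5
import Fermat.Agent.MP.HECKE.Facts5
import Fermat.Agent.MP.HECKE.HeckeSq6

set_option autoImplicit false
set_option linter.unusedSectionVars false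
set_option linter.unusedVariables false
set_option linter.style.longLine false
set_option linter.style.haveILetI false
set_option synthInstance.maxHeartbeats 400000
set_option maxHeartbeats 1000000

open WeierstrassCurve WeierstrassCurve.Affine

namespace Fermat.Agent.MP.HECKE.Main5

open AlgebraicCurve ModularCurve
open Fermat.Agent.X0 Fermat.Agent.RED.TOP
open Fermat.Agent.ES.HECKE
open Fermat.Agent.MP.FUNC.FrickeDeg1
open Fermat.Agent.MP.HECKE.LvlMap6 Fermat.Agent.MP.HECKE.CorrId6 Fermat.Agent.MP.HECKE.Aut5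
open Fermat.Agent.MP.HECKE.Squares6 Fermat.Agent.MP.HECKE.HeckeSq6 Fermat.Agent.MP.HECKE.S1Rel6
open Fermat.Agent.MP.HECKE.ESum5 Fermat.Agent.MP.HECKE.EsComm5
open Fermat.Agent.MP.HECKE.Maps5 Fermat.Agent.MP.HECKE.GalLevel3
open Fermat.Agent.MP.HECKE.Iface5 Fermat.Agent.MP.HECKE.FreeLift5 Fermat.Agent.MP.HECKE.Facts5
open Fermat.Agent.MP.HECKE.XiAbs5

local notation "GQ" => (AlgebraicClosure ℚ ≃ₐ[ℚ] AlgebraicClosure ℚ)
local notation "Qb" => AlgebraicClosure ℚ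

noncomputable section

/-! ### `𝒲` and the degeneracy maps -/

section CW

variable {N₁ N₂ d : ℕ} [NeZero N₁] [NeZero N₂] [NeZero d] {φ ψ : FF N₁ →ₐ[Kbar] FF N₂}

/-- **`𝒲 φ^* = ψ^* 𝒲`.** -/
theorem cWOp_pullL_alpha (h : N₁ * d = N₂) (hd : Odd d) (h4₁ : 4 ∣ N₁) (h4₂ : 4 ∣ N₂)
    (hφ : IsAlpha φ) (hψ : IsBeta d ψ) (fφ : FiniteAlong Kbar φ) (fψ : FiniteAlong Kbar ψ)
    (y : JZero N₁) : cWOp N₂ h4₂ (pullL φ fφ y) = pullL ψ fψ (cWOp N₁ h4₁ y) := by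
  simp only [cWOp_apply, S1Rel6.wOp_eq_frickeJ]
  rw [frickeJ_pullL_alpha h hφ hψ fφ fψ, s1Op_pullL_of_odd h4₁ h4₂ hd hψ fψ,
    frickeJ_pullL_beta h hφ hψ fφ fψ, s1Op_pullL_alpha h4₁ h4₂ hφ fφ,
    frickeJ_pullL_alpha h hφ hψ fφ fψ, s1Op_pullL_of_odd h4₁ h4₂ hd hψ fψ]

/-- **`𝒲 ψ^* = φ^* 𝒲`.** -/
theorem cWOp_pullL_beta (h : N₁ * d = N₂) (hd : Odd d) (h4₁ : 4 ∣ N₁) (h4₂ : 4 ∣ N₂)
    (hφ : IsAlpha φ) (hψ : IsBeta d ψ) (fφ : FiniteAlong Kbar φ) (fψ : FiniteAlong Kbar ψ)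
    (y : JZero N₁) : cWOp N₂ h4₂ (pullL ψ fψ y) = pullL φ fφ (cWOp N₁ h4₁ y) := by
  simp only [cWOp_apply, S1Rel6.wOp_eq_frickeJ]
  rw [frickeJ_pullL_beta h hφ hψ fφ fψ, s1Op_pullL_alpha h4₁ h4₂ hφ fφ,
    frickeJ_pullL_alpha h hφ hψ fφ fψ, s1Op_pullL_of_odd h4₁ h4₂ hd hψ fψ,
    frickeJ_pullL_beta h hφ hψ fφ fψ, s1Op_pullL_alpha h4₁ h4₂ hφ fφ]

end CW

/-! ### `T_ℓ` preserves the kernel of reduction -/

section TK

variable {p : ℕ} [NeZero p] {hp : p.Prime}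
  {K : ∀ (M : ℕ) [NeZero M], AddSubgroup (JZero (M * p))}
  {Kg : ∀ (M : ℕ) [NeZero M], AddSubgroup (JZero M)}

theorem hecke_mem_K (red : RedFacts p hp K Kg) (M : ℕ) [NeZero M] (h4 : 4 ∣ M) (hpM : ¬ p ∣ M)
    (ℓ : ℕ) (hℓ : ℓ.Prime) (hℓM : ¬ ℓ ∣ M * p) (x : JZero (M * p)) (hx : x ∈ K M) :
    heckeOperatorBar (M * p) ⟨ℓ, hℓ⟩ x ∈ K M := by
  haveI : NeZero ℓ := ⟨hℓ.ne_zero⟩
  have hℓp : ℓ ≠ p := fun h => hℓM (h ▸ Dvd.intro_left M rfl)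
  have hpMℓ : ¬ p ∣ M * ℓ := by
    intro h
    rcases (Nat.Prime.dvd_mul hp).mp h with h | h
    · exact hpM h
    · exact hℓp ((Nat.prime_dvd_prime_iff_eq hp hℓ).mp h).symm
  have hlev : M * p * ℓ = M * ℓ * p := by ring
  have hdvd : M * p ∣ M * ℓ * p := Dvd.intro _ hlev
  have hdvd' : M * p * ℓ ∣ M * ℓ * p := dvd_of_eq hlev
  have hφ := isAlpha_levelIncl hdvd
  have hψ := isBeta_betaIncl ℓ hdvd'
  obtain ⟨-, h2, h3, -⟩ := red.deg M (M * ℓ) ℓ h4 hpMℓ hℓ hℓM rfl _ _ hφ hψ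
    (finiteAlong_any _) (finiteAlong_any _)
  rw [← pushL_alpha_pullL_beta hℓ hℓM hlev hφ hψ (finiteAlong_any _) (finiteAlong_any _)]
  exact h3 _ (h2 x hx)

end TK

/-! ### the assembly -/

section Core

variable {p : ℕ} [hpF : Fact p.Prime] [NeZero p]
  {K : ∀ (M : ℕ) [NeZero M], AddSubgroup (JZero (M * p))}
  {Kg : ∀ (M : ℕ) [NeZero M], AddSubgroup (JZero M)}
  {M' M'' : ℕ} [NeZero M'] [NeZero M'']

/-- the good primes of `W` do not divide `M'' p`. -/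
theorem goodPrime_not_dvd {W : WeierstrassCurve ℤ} (h2 : ¬ W.IsGoodPrimeFor 2) (odd : Bool)
    (hM : M' * ratio odd = M'') (ℓ : GoodPrime W M' p) : ¬ (ℓ.1 : ℕ) ∣ M'' * p := by
  obtain ⟨⟨ℓ, hℓ⟩, hgood, hℓM, hℓp⟩ := ℓ
  show ¬ ℓ ∣ M'' * p
  have hℓ2 : ℓ ≠ 2 := fun h => h2 (h ▸ hgood)
  have hℓr : ¬ ℓ ∣ ratio odd := by
    intro h
    have h4 : ℓ ∣ 2 ^ 2 := by
      refine h.trans ?_
      cases odd
      · exact ⟨2, rfl⟩
      · exact ⟨1, rfl⟩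
    exact hℓ2 ((Nat.prime_dvd_prime_iff_eq hℓ Nat.prime_two).mp (hℓ.dvd_of_dvd_pow h4))
  rw [← hM]
  intro h
  rcases (Nat.Prime.dvd_mul hℓ).mp h with h | h
  · rcases (Nat.Prime.dvd_mul hℓ).mp h with h | h
    · exact hℓM h
    · exact hℓr h
  · exact hℓp ((Nat.prime_dvd_prime_iff_eq hℓ hpF.out).mp h)

theorem core (hp5 : 5 ≤ p) (red : RedFacts p hpF.out K Kg) (odd : Bool) (hM : M' * ratio odd = M'')
    (hpar : if odd then Odd M' else 2 ∣ M') (h4 : 4 ∣ M'') (hpM : ¬ p ∣ M'')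
    {W : WeierstrassCurve ℤ} (lat : LatFacts W M' p)
    {T : Type} [AddCommGroup T] [SMul GQ T]
    (η : ℤ) (hη : η = 1 ∨ η = -1) (V₁ : AddSubgroup (JZero (M'' * p))) (e₁ : T ≃+ V₁)
    (he₁ : ∀ (σ : GQ) (x : T),
      ((e₁ (σ • x) : V₁) : JZero (M'' * p)) = σ • ((e₁ x : V₁) : JZero (M'' * p)))
    (hV₁p : ∀ y ∈ V₁, p • y = 0)
    (hV₁T : ∀ y ∈ V₁, ∀ (ℓ : ℕ) (hℓ : ℓ.Prime), W.IsGoodPrimeFor ℓ → ¬ ℓ ∣ M'' * p →
      heckeOperatorBar (M'' * p) ⟨ℓ, hℓ⟩ y = W.apOfModel ℓ • y)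
    (hV₁e : ∀ y ∈ V₁, eSum (M'' * p) (Dvd.dvd.mul_right h4 p) odd y =
      ((if odd then 6 else 2 : ℕ) : ℤ) • y)
    (hV₁w : ∀ y ∈ V₁, cWOp (M'' * p) (Dvd.dvd.mul_right h4 p) y = η • y)
    (r : ℕ) [NeZero r] (hr : r.Prime) (hrB : ¬ r ∣ M'' * p) (hrgood : W.IsGoodPrimeFor r)
    (hrdiv : ¬ (p : ℤ) ∣ 1 + η * W.apOfModel r + r) :
    ∃ (hpM₀ : ¬ p ∣ M'' * r) (h4₀ : 4 ∣ M'' * r * p) (V : AddSubgroup (JZero (M'' * r * p)))
      (e : T ≃+ V) (Ξ : JZero (M'' * r * p) →+ JZero (M'' * r * p)) (u : ℤ),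
      (∀ (σ : GQ) (x : T),
        ((e (σ • x) : V) : JZero (M'' * r * p)) = σ • ((e x : V) : JZero (M'' * r * p))) ∧
      IsCoprime u (p : ℤ) ∧ (∀ y ∈ V, Ξ y = u • y) ∧
      (∀ a ∈ Old hpF.out hpM₀, Ξ a ∈ K (M'' * r)) ∧ (∀ c ∈ K (M'' * r), Ξ c ∈ K (M'' * r)) ∧
      (∀ y ∈ V, cWOp (M'' * r * p) h4₀ y = y) := by
  classical
  have hpp : p.Prime := hpF.out
  have hp2 : p ≠ 2 := by omega
  have hpodd : Odd p := hpp.odd_of_ne_two hp2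
  have hrp : r ≠ p := fun h => hrB (h ▸ Dvd.intro_left M'' rfl)
  have hr2 : r ≠ 2 := fun h =>
    hrB (h ▸ (Dvd.dvd.mul_right (dvd_trans (by norm_num : 2 ∣ 4) h4) p))
  have hrodd : Odd r := hr.odd_of_ne_two hr2
  have hrM : ¬ r ∣ M'' := fun h => hrB (Dvd.dvd.mul_right h p)
  have hrp' : ¬ r ∣ p := fun h => hrp ((Nat.prime_dvd_prime_iff_eq hr hpp).mp h)
  have hpM₀ : ¬ p ∣ M'' * r := by
    intro h
    rcases (Nat.Prime.dvd_mul hpp).mp h with h | h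
    · exact hpM h
    · exact hrp ((Nat.prime_dvd_prime_iff_eq hpp hr).mp h).symm
  have h4B : 4 ∣ M'' * p := Dvd.dvd.mul_right h4 p
  have h4M₀ : 4 ∣ M'' * r := Dvd.dvd.mul_right h4 r
  have h4C : 4 ∣ M'' * r * p := Dvd.dvd.mul_right h4M₀ p
  have hBC : M'' * p * r = M'' * r * p := by ring
  obtain ⟨s, hstors, hsev⟩ := lat.sep
  have hℓB := goodPrime_not_dvd (p := p) lat.two_bad odd hM
  haveI hℓne : ∀ ℓ : GoodPrime W M' p, NeZero (ℓ.1 : ℕ) := fun ℓ => ⟨ℓ.1.2.ne_zero⟩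
  have hℓM : ∀ ℓ : GoodPrime W M' p, ¬ (ℓ.1 : ℕ) ∣ M'' := fun ℓ h =>
    hℓB ℓ (Dvd.dvd.mul_right h p)
  -- the maps
  obtain ⟨a, ha⟩ : ∃ a : FF (M'' * p) →ₐ[Kbar] FF (M'' * r * p), IsAlpha a :=
    ⟨_, isAlpha_levelIncl (Dvd.intro _ hBC)⟩
  obtain ⟨b, hb⟩ : ∃ b : FF (M'' * p) →ₐ[Kbar] FF (M'' * r * p), IsBeta r b :=
    ⟨_, isBeta_betaIncl r (dvd_of_eq hBC)⟩
  obtain ⟨ag, hag⟩ : ∃ ag : FF M'' →ₐ[Kbar] FF (M'' * r), IsAlpha ag :=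
    ⟨_, isAlpha_heckeAlphaBar M'' r⟩
  obtain ⟨bg, hbg⟩ : ∃ bg : FF M'' →ₐ[Kbar] FF (M'' * r), IsBeta r bg :=
    ⟨_, isBeta_heckeBetaBar M'' r⟩
  obtain ⟨x₁, hx₁⟩ : ∃ x₁ : FF M'' →ₐ[Kbar] FF (M'' * p), IsAlpha x₁ :=
    ⟨_, isAlpha_heckeAlphaBar M'' p⟩
  obtain ⟨y₁, hy₁⟩ : ∃ y₁ : FF M'' →ₐ[Kbar] FF (M'' * p), IsBeta p y₁ :=
    ⟨_, isBeta_heckeBetaBar M'' p⟩
  obtain ⟨x₂, hx₂, hx₂eq⟩ : ∃ x₂ : FF (M'' * r) →ₐ[Kbar] FF (M'' * r * p), IsAlpha x₂ ∧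
      ∀ u, alphaPull hpp hpM₀ u = pullL x₂ (finiteAlong_any x₂) u :=
    ⟨_, isAlpha_heckeAlphaBar (M'' * r) p, fun u => alphaPull_eq hpp hpM₀ u⟩
  obtain ⟨y₂, hy₂, hy₂eq⟩ : ∃ y₂ : FF (M'' * r) →ₐ[Kbar] FF (M'' * r * p), IsBeta p y₂ ∧
      ∀ u, betaPull hpp hpM₀ u = pullL y₂ (finiteAlong_any y₂) u :=
    ⟨_, isBeta_heckeBetaBar (M'' * r) p, fun u => betaPull_eq hpp hpM₀ u⟩
  have hdvdg : M' * 2 ∣ M'' := by
    rw [← hM]
    cases odd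
    · exact ⟨1, by show M' * 2 = M' * 2 * 1; ring⟩
    · exact ⟨2, by show M' * 4 = M' * 2 * 2; ring⟩
  obtain ⟨πg, hπg⟩ : ∃ πg : FF M' →ₐ[Kbar] FF M'', IsBeta 2 πg := ⟨_, isBeta_betaIncl 2 hdvdg⟩
  have fa := finiteAlong_any a
  have fb := finiteAlong_any b
  have fag := finiteAlong_any ag
  have fbg := finiteAlong_any bg
  have fx₁ := finiteAlong_any x₁
  have fy₁ := finiteAlong_any y₁
  have fx₂ := finiteAlong_any x₂
  have fy₂ := finiteAlong_any y₂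
  have fπg := finiteAlong_any πg
  -- the scalars
  obtain ⟨n, hn⟩ : ∃ n : ℕ, n = if odd then 6 else 2 := ⟨_, rfl⟩
  rw [← hn] at hV₁e
  -- the operators
  obtain ⟨tB, htB⟩ : ∃ tB : JZero (M'' * p) →+ JZero (M'' * p),
      tB = act (TOp W M' p (M'' * p)) s := ⟨_, rfl⟩
  obtain ⟨tg, htg⟩ : ∃ tg : JZero M'' →+ JZero M'', tg = act (TOp W M' p M'') s := ⟨_, rfl⟩
  -- the fields
  have f_hV₁p : ∀ y ∈ V₁, (p : ℤ) • y = 0 := fun y hy => by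
    rw [natCast_zsmul]
    exact hV₁p y hy
  have f_haa : ∀ y ∈ V₁, pushL a fa (pullL a fa y) = ((r : ℤ) + 1) • y := fun y _ => by
    rw [pushL_alpha_pullL_alpha hr hrB hBC ha fa y, ← natCast_zsmul]
    push_cast
    rfl
  have f_hbb : ∀ y ∈ V₁, pushL b fb (pullL b fb y) = ((r : ℤ) + 1) • y := fun y _ => by
    rw [pushL_beta_pullL_beta hr hrB hBC hb fb y, ← natCast_zsmul]
    push_cast
    rfl
  have f_hab : ∀ y ∈ V₁, pushL a fa (pullL b fb y) = W.apOfModel r • y := fun y hy => by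
    rw [pushL_alpha_pullL_beta hr hrB hBC ha hb fa fb y]
    exact hV₁T y hy r hr hrgood hrB
  have f_hba : ∀ y ∈ V₁, pushL b fb (pullL a fa y) = W.apOfModel r • y := fun y hy => by
    rw [pushL_beta_pullL_alpha hr hrB hBC ha hb fa fb y,
      ← comm_hecke hr hrB hrB (frickeJ (M'' * p)) (fun σ x => wOp_smul (M'' * p) σ x) hrp'
        (hV₁p y hy), frickeJ_frickeJ]
    exact hV₁T y hy r hr hrgood hrB
  have f_ht : ∀ y ∈ V₁, tB y = evalInt (aOf W M' p) s • y := by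
    rw [htB]
    exact act_scalar _ _ V₁ (fun ℓ x hx => hV₁T x hx ℓ.1.1 ℓ.1.2 ℓ.2.1 (hℓB ℓ)) s
  have hpI : Irreducible (p : ℤ) := (Nat.prime_iff_prime_int.mp hpp).irreducible
  have f_hcop : IsCoprime (2 * ((r : ℤ) + 1 + η * W.apOfModel r) * (n : ℤ) *
      evalInt (aOf W M' p) s) (p : ℤ) := by
    have c2 : IsCoprime (2 : ℤ) (p : ℤ) := by
      have : IsCoprime ((2 : ℕ) : ℤ) (p : ℤ) := by
        rw [Nat.isCoprime_iff_coprime]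
        exact (Nat.coprime_primes Nat.prime_two hpp).mpr (Ne.symm hp2)
      simpa using this
    have c3 : IsCoprime ((3 : ℕ) : ℤ) (p : ℤ) := by
      rw [Nat.isCoprime_iff_coprime]
      exact (Nat.coprime_primes Nat.prime_three hpp).mpr (by omega)
    have cr : IsCoprime ((r : ℤ) + 1 + η * W.apOfModel r) (p : ℤ) := by
      refine (hpI.coprime_iff_not_dvd.mpr ?_).symm
      intro h
      exact hrdiv (by rw [show (1 : ℤ) + η * W.apOfModel r + r = r + 1 + η * W.apOfModel r by ring]; exact h)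
    have cn : IsCoprime (n : ℤ) (p : ℤ) := by
      rw [hn]
      cases odd
      · simpa using c2
      · have : IsCoprime ((2 : ℤ) * ((3 : ℕ) : ℤ)) (p : ℤ) := c2.mul_left c3
        simpa using this
    have cev : IsCoprime (evalInt (aOf W M' p) s) (p : ℤ) :=
      (hpI.coprime_iff_not_dvd.mpr hsev).symm
    exact ((c2.mul_left cr).mul_left cn).mul_left cev
  have f_hwa : ∀ y, cWOp (M'' * r * p) h4C (pullL a fa y) = pullL b fb (cWOp (M'' * p) h4B y) :=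
    cWOp_pullL_alpha hBC hrodd h4B h4C ha hb fa fb
  have f_hwb : ∀ y, cWOp (M'' * r * p) h4C (pullL b fb y) = pullL a fa (cWOp (M'' * p) h4B y) :=
    cWOp_pullL_beta hBC hrodd h4B h4C ha hb fa fb
  have f_hΓa : ∀ (σ : GQ) (y : JZero (M'' * p)), pullL a fa (σ • y) = σ • pullL a fa y :=
    fun σ y => pullOf_smul fa (galComm_of_isAlpha ha) σ y
  have f_hΓb : ∀ (σ : GQ) (y : JZero (M'' * p)), pullL b fb (σ • y) = σ • pullL b fb y :=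
    fun σ y => pullOf_smul fb (galComm_of_isBeta hb) σ y
  obtain ⟨f_haK, f_hbK, f_ha'K, f_hb'K⟩ :=
    red.deg M'' (M'' * r) r h4 hpM₀ hr hrB rfl a b ha hb fa fb
  have f_he'K : ∀ y ∈ K M'', eSum (M'' * p) h4B odd y ∈ K M'' :=
    eSum_mem (M'' * p) h4B odd (K M'') (red.aut M'' h4 hpM).1 (red.aut M'' h4 hpM).2
  have f_htK : ∀ y ∈ K M'', tB y ∈ K M'' := by
    rw [htB]
    exact act_mem _ (K M'')
      (fun ℓ x hx => hecke_mem_K red M'' h4 hpM ℓ.1.1 ℓ.1.2 (hℓB ℓ) x hx) s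
  -- the squares
  have f_hxa' : ∀ u, pushL a fa (pullL x₂ fx₂ u) = pullL x₁ fx₁ (pushL ag fag u) :=
    sq_alpha_alpha hr hrB rfl rfl hBC hag ha hx₁ hx₂ fag fa fx₁ fx₂
  have f_hxb' : ∀ u, pushL b fb (pullL x₂ fx₂ u) = pullL x₁ fx₁ (pushL bg fbg u) :=
    sq_beta_alpha hr hrB rfl rfl rfl hBC hbg hb hx₁ hx₂ fbg fb fx₁ fx₂
  have f_hya' : ∀ u, pushL a fa (pullL y₂ fy₂ u) = pullL y₁ fy₁ (pushL ag fag u) :=
    sq_alpha_beta hr hrB rfl rfl hBC hag ha hy₁ hy₂ fag fa fy₁ fy₂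
  have f_hyb' : ∀ u, pushL b fb (pullL y₂ fy₂ u) = pullL y₁ fy₁ (pushL bg fbg u) :=
    sq_beta_beta hr hrB rfl rfl rfl hBC hbg hb hy₁ hy₂ fbg fb fy₁ fy₂
  have f_hxe : ∀ w, eSum (M'' * p) h4B odd (pullL x₁ fx₁ w) = pullL x₁ fx₁ (eSum M'' h4 odd w) :=
    eSum_pullL_alpha rfl hpodd h4 h4B hx₁ hy₁ fx₁ fy₁ odd
  have f_hye : ∀ w, eSum (M'' * p) h4B odd (pullL y₁ fy₁ w) = pullL y₁ fy₁ (eSum M'' h4 odd w) :=
    eSum_pullL_beta rfl hpodd h4 h4B hx₁ hy₁ fx₁ fy₁ odd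
  have f_hxt : ∀ w, tB (pullL x₁ fx₁ w) = pullL x₁ fx₁ (tg w) := fun w => by
    rw [htB, htg]
    exact (act_comm (TOp W M' p M'') (TOp W M' p (M'' * p)) (pullL x₁ fx₁)
      (fun ℓ x => (hecke_pullL_alpha ℓ.1.2 (hℓB ℓ) (Dvd.intro _ rfl) hx₁ fx₁ x).symm) s w).symm
  have f_hyt : ∀ w, tB (pullL y₁ fy₁ w) = pullL y₁ fy₁ (tg w) := fun w => by
    rw [htB, htg]
    exact (act_comm (TOp W M' p M'') (TOp W M' p (M'' * p)) (pullL y₁ fy₁)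
      (fun ℓ x => (hecke_pullL_beta ℓ.1.2 (hℓB ℓ) (dvd_refl _) hy₁ fy₁ x).symm) s w).symm
  have f_hxa : ∀ w, pullL a fa (pullL x₁ fx₁ w) = pullL x₂ fx₂ (pullL ag fag w) :=
    pullL_pullL_of_comm x₁ ag a x₂ (comp_alpha_alpha hx₁ hag ha hx₂) fx₁ fag fa fx₂
  have f_hxb : ∀ w, pullL b fb (pullL x₁ fx₁ w) = pullL x₂ fx₂ (pullL bg fbg w) :=
    pullL_pullL_of_comm x₁ bg b x₂ (comp_alpha_beta hx₁ hbg hb hx₂) fx₁ fbg fb fx₂
  have f_hya : ∀ w, pullL a fa (pullL y₁ fy₁ w) = pullL y₂ fy₂ (pullL ag fag w) :=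
    pullL_pullL_of_comm y₁ ag a y₂ (comp_alpha_beta hag hy₁ hy₂ ha).symm fy₁ fag fa fy₂
  have f_hyb : ∀ w, pullL b fb (pullL y₁ fy₁ w) = pullL y₂ fy₂ (pullL bg fbg w) :=
    pullL_pullL_of_comm y₁ bg b y₂ (comp_beta_beta hy₁ hbg hb hy₂) fy₁ fbg fb fy₂
  -- the good levels
  have f_hgood : ∀ u, xi (pullL ag fag) (pullL bg fbg) (pushL ag fag) (pushL bg fbg)
      (eSum M'' h4 odd) tg η u ∈ Kg (M'' * r) := by
    refine red.x1 (M'' * r) h4M₀ hpM₀ _ ?_ ?_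
    · intro σ u
      have h1 : ∀ v : JZero (M'' * r), iota (pushL ag fag) (pushL bg fbg) η (σ • v) =
          σ • iota (pushL ag fag) (pushL bg fbg) η v := fun v => by
        rw [iota_apply, iota_apply, ← pushOf_eq_pushL, ← pushOf_eq_pushL,
          pushOf_smul fag (galComm_of_isAlpha hag), pushOf_smul fbg (galComm_of_isBeta hbg),
          gal_smul_add, gal_smul_zsmul]
      have h2 : ∀ v : JZero M'', iota (pullL ag fag) (pullL bg fbg) η (σ • v) =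
          σ • iota (pullL ag fag) (pullL bg fbg) η v := fun v => by
        rw [iota_apply, iota_apply, ← pullOf_eq_pullL, ← pullOf_eq_pullL,
          pullOf_smul fag (galComm_of_isAlpha hag), pullOf_smul fbg (galComm_of_isBeta hbg),
          gal_smul_add, gal_smul_zsmul]
      have h3 : ∀ v : JZero M'', tg (σ • v) = σ • tg v := fun v => by
        rw [htg]
        exact act_smul (Γ := GQ) _
          (fun ℓ σ x => Fermat.Agent.ES.HECKE.HeckeGalois12.heckeOperatorBar_smul M'' ℓ.1 σ x) s σ v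
      rw [xi_apply, xi_apply, h1, eSum_smul, h3, h2]
    · intro u m hm hmu
      have hw : m • iota (pushL ag fag) (pushL bg fbg) η u = 0 := by
        rw [← map_nsmul, hmu, map_zero]
      have hv : m • pushL πg fπg (iota (pushL ag fag) (pushL bg fbg) η u) = 0 := by
        rw [← map_nsmul, hw, map_zero]
      rw [xi_apply, ← pull_push_eq_eSum odd hM hpar h4 hπg fπg, htg,
        ← act_comm (TOp W M' p M') (TOp W M' p M'') (pullL πg fπg)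
          (fun ℓ x => (hecke_pullL_beta ℓ.1.2 (hℓM ℓ) hdvdg hπg fπg x).symm) s,
        hstors _ m hm hv, map_zero, map_zero]
  have f_hxK : ∀ u ∈ Kg (M'' * r), pullL x₂ fx₂ u ∈ K (M'' * r) := fun u hu => by
    rw [← hx₂eq]
    exact (red.pdeg (M'' * r) h4M₀ hpM₀ u hu).1
  have f_hyK : ∀ u ∈ Kg (M'' * r), pullL y₂ fy₂ u ∈ K (M'' * r) := fun u hu => by
    rw [← hy₂eq]
    exact (red.pdeg (M'' * r) h4M₀ hpM₀ u hu).2
  -- the assembly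
  have H : Hyp GQ T p (pullL a fa) (pullL b fb) (pushL a fa) (pushL b fb)
      (eSum (M'' * p) h4B odd) tB (cWOp (M'' * p) h4B) (cWOp (M'' * r * p) h4C)
      (pullL ag fag) (pullL bg fbg) (pushL ag fag) (pushL bg fbg) (eSum M'' h4 odd) tg
      (pullL x₁ fx₁) (pullL y₁ fy₁) (pullL x₂ fx₂) (pullL y₂ fy₂)
      (K M'') (K (M'' * r)) (Kg (M'' * r)) V₁ e₁ η (r : ℤ) (W.apOfModel r) (n : ℤ)
      (evalInt (aOf W M' p) s) :=
    { hs := hη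
      hV₁p := f_hV₁p
      he₁ := he₁
      haa := f_haa
      hbb := f_hbb
      hab := f_hab
      hba := f_hba
      he' := hV₁e
      ht := f_ht
      hcop := f_hcop
      hwa := f_hwa
      hwb := f_hwb
      hwV := hV₁w
      hΓa := f_hΓa
      hΓb := f_hΓb
      hΓadd := fun σ x y => gal_smul_add σ x y
      hΓneg := fun σ x => gal_smul_neg σ x
      haK := f_haK
      hbK := f_hbK
      ha'K := f_ha'K
      hb'K := f_hb'K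
      he'K := f_he'K
      htK := f_htK
      hxa' := f_hxa'
      hxb' := f_hxb'
      hxe := f_hxe
      hxt := f_hxt
      hxa := f_hxa
      hxb := f_hxb
      hya' := f_hya'
      hyb' := f_hyb'
      hye := f_hye
      hyt := f_hyt
      hya := f_hya
      hyb := f_hyb
      hgood := f_hgood
      hxK := f_hxK
      hyK := f_hyK }
  obtain ⟨V, e, Ξ, u, h1, h2, h3, h4', h5, h6⟩ := XiAbs5.main H
  refine ⟨hpM₀, h4C, V, e, Ξ, u, h1, h2, h3, ?_, h5, h6⟩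
  intro x hx
  obtain ⟨u', w', rfl⟩ := (mem_old_iff hpp hpM₀ x).mp hx
  rw [hx₂eq, hy₂eq]
  exact h4' u' w'

end Core

end

end Fermat.Agent.MP.HECKE.Main5
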