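/-
Programme MP (row 38 via S44), chapter HECKE (helper5), step (B1): **occurrence in `J₀(N)[p]`**.

`f` a normalised eigenform of level `N`, `𝔪 ∋ p` a maximal ideal of `ℤ̄` with `a_ℓ(f) ≡ a_ℓ(W)` mod `𝔪`
for the good primes `ℓ ∤ N p` of the integral Weierstrass model `W`.  Then there is a nonzero
`y ∈ J₀(N)(ℚ̄)` with `p • y = 0` and `T_ℓ y = a_ℓ(W) • y` for all good primes `ℓ ∤ N p`.

Route: eigenvector in `ℂ ⊗ Λ_N` (`FaithFinal26.exists_eigenvector`), reduction to a residue field `k`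
of characteristic `p` (`Occur16.exists_reduction`), descent `k → 𝔽_p` through an `𝔽_p`-linear
functional, lift to `x ∈ Λ_N ∖ p Λ_N` with `T_ℓ x ≡ a_ℓ x` mod `p Λ_N`, comparison
`ι : Λ_N → T_p J₀(N)` (`HeckeTate26.iotaJ`, a base change, Hecke equivariant), `y := proj 1 (ι x)`.
-/
import Mathlib
import Fermat.Agent.ES.LR.Occur16
import Fermat.Agent.ES.K.HeckeTate26
import Fermat.Prelude.Def_FLTPrelim_ModularRep

set_option autoImplicit false
set_option linter.unusedSectionVars false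
set_option linter.style.longLine false
set_option synthInstance.maxHeartbeats 400000

noncomputable section

namespace Fermat.Agent.MP.HECKE.Occ5

open CongruenceSubgroup CuspForm TensorProduct ModularCurve ModularCurve.Period
open Fermat.Agent.ES.HEQ.FaithFinal26 Fermat.Agent.ES.HEQ.FaithInst26
open Fermat.Agent.ES.LR.Occur16
open Fermat.Agent.ES.J.TateJZero13 Fermat.Agent.ES.J.TateModule13 Fermat.Agent.ES.K.HeckeTate26

/-- **occurrence over a field of characteristic `p`** (`Occur16.exists_occurrence` without `q`). -/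
theorem exists_occurrence' {N p : ℕ} [NeZero N] (hp : p.Prime)
    (W : WeierstrassCurve ℤ)
    (f : CuspForm (Gamma0 N) 2) (𝔪 : Ideal (integralClosure ℤ ℂ))
    (hf : f.IsNormalizedEigenform) (hmax : 𝔪.IsMaximal) (hpm : (p : integralClosure ℤ ℂ) ∈ 𝔪)
    (hcong : ∀ ℓ : ℕ, ℓ.Prime → W.IsGoodPrimeFor ℓ → ¬ ℓ ∣ N → ℓ ≠ p →
      ∃ a : integralClosure ℤ ℂ, (a : ℂ) = ModularFormClass.qCoeff f ℓ ∧
        a - ((W.apOfModel ℓ : ℤ) : integralClosure ℤ ℂ) ∈ 𝔪) :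
    ∃ (k : Type) (_ : Field k) (_ : CharP k p) (v : k ⊗[ℤ] ↥(Lam N)), v ≠ 0 ∧
      (∀ (ℓ : ℕ) (hℓ : ℓ.Prime) (hℓN : ¬ ℓ ∣ N), W.IsGoodPrimeFor ℓ → ℓ ≠ p →
          (dcZ N ℓ hℓ hℓN).baseChange k v = ((W.apOfModel ℓ : ℤ) : k) • v) := by
  classical
  set S : Set ℕ := {ℓ | ℓ.Prime ∧ ℓ ∣ N} with hSdef
  have hS : ∀ r : ℕ, r.Prime → r ∣ N → r ∈ S := fun r hr hrN => ⟨hr, hrN⟩
  obtain ⟨v, hv0, hv⟩ := exists_eigenvector S hS (K := ℂ) (Fermat.Agent.ES.J7.EigenChar1.chiC hf S)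
  let A : Subring ℂ := (integralClosure ℤ ℂ).toSubring
  let I : Ideal ↥A := 𝔪
  have hI : I ≠ ⊤ := hmax.ne_top
  obtain ⟨O, hAO, hIO⟩ := Ideal.image_subset_nonunits_valuationSubring I hI
  let j : ↥(integralClosure ℤ ℂ) →+* ↥O :=
    { toFun := fun a => ⟨(a : ℂ), hAO a.2⟩
      map_one' := rfl
      map_mul' := fun _ _ => rfl
      map_zero' := rfl
      map_add' := fun _ _ => rfl }
  let φ : ↥(integralClosure ℤ ℂ) →+* IsLocalRing.ResidueField ↥O := (IsLocalRing.residue ↥O).comp j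
  have hker : ∀ a : ↥(integralClosure ℤ ℂ), a ∈ 𝔪 → φ a = 0 := by
    intro a ha
    show IsLocalRing.residue ↥O (j a) = 0
    rw [IsLocalRing.residue_eq_zero_iff]
    have h1 : (a : ℂ) ∈ O.nonunits := hIO ⟨a, ha, rfl⟩
    obtain ⟨h2, h3⟩ := (ValuationSubring.mem_nonunits_iff_exists_mem_maximalIdeal).mp h1
    exact h3
  have hφ : ∀ (a : ↥(integralClosure ℤ ℂ)) (n : ℤ), a - (n : ↥(integralClosure ℤ ℂ)) ∈ 𝔪 →
      φ a = (n : IsLocalRing.ResidueField ↥O) := by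
    intro a n h
    have := hker _ h
    rw [map_sub, map_intCast, sub_eq_zero] at this
    exact this
  obtain ⟨w, hw0, hw⟩ := exists_reduction O (IsLocalRing.residue ↥O) v hv0
  refine ⟨IsLocalRing.ResidueField ↥O, inferInstance, ?_, w, hw0, ?_⟩
  · rw [CharP.charP_iff_prime_eq_zero hp]
    have := hker _ hpm
    rwa [map_natCast] at this
  · intro ℓ hℓ hℓN hgood hℓp
    obtain ⟨a, ha, ham⟩ := hcong ℓ hℓ hgood hℓN hℓp
    have hℓS : ℓ ∉ S := fun h => hℓN h.2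
    have h1 := hv (heckeAlgebra.T hℓ hℓN hℓS)
    rw [heckeLam_T' S hS ℓ hℓ hℓN hℓS, Fermat.Agent.ES.J7.EigenChar1.chiC_T hf hℓ hℓN hℓS, ← ha] at h1
    have h2 := hw (dcZ N ℓ hℓ hℓN) (j a) h1
    rw [h2]
    congr 1
    exact hφ a _ ham

/-! ### Descent to the lattice modulo `p` -/

section Descent

variable {M : Type*} [AddCommGroup M] {ι : Type*} [Fintype ι] [DecidableEq ι]
  (b : Module.Basis ι ℤ M)

/-- an eigen-equation in `k ⊗ M` in coordinates. -/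
theorem eigen_coord {k : Type*} [Field k] (T : Module.End ℤ M) (a : ℤ) (c : ι → k)
    (h : T.baseChange k (vec b k c) = (a : k) • vec b k c) (κ : ι) :
    ∑ i, ((mat b T κ i : ℤ) : k) * c i = (a : k) * c κ := by
  rw [baseChange_vec, vec_smul] at h
  exact congrFun (vec_injective b k h) κ

/-- the integer coordinates of `T x`. -/
theorem repr_apply_sum (T : Module.End ℤ M) (x : ι → ℤ) (κ : ι) :
    b.repr (T (∑ i, x i • b i)) κ = ∑ i, mat b T κ i * x i := by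
  rw [map_sum, map_sum, Finsupp.finset_sum_apply]
  refine Finset.sum_congr rfl fun i _ => ?_
  rw [map_zsmul, map_zsmul, Finsupp.smul_apply, smul_eq_mul, mul_comm]
  rfl

/-- coordinates of a linear combination of the basis. -/
theorem repr_sum_smul (x : ι → ℤ) (κ : ι) : b.repr (∑ i, x i • b i) κ = x κ := by
  simp [map_sum, Finsupp.single_apply]

/-- **descent**: a common eigenvector in `k ⊗ M` (`char k = p`, integer eigenvalues) gives
`x ∈ M ∖ p M` with `T x ≡ a x` modulo `p M`. -/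
theorem exists_lattice_eigen {M : Type*} [AddCommGroup M] {ι : Type*} [Fintype ι] [DecidableEq ι]
    (b : Module.Basis ι ℤ M) {p : ℕ} [hp : Fact p.Prime] {k : Type*} [Field k] [CharP k p]
    {J : Type*} (T : J → Module.End ℤ M) (a : J → ℤ) (v : k ⊗[ℤ] M) (hv : v ≠ 0)
    (heig : ∀ j, (T j).baseChange k v = (a j : k) • v) :
    ∃ x : M, (∀ z : M, x ≠ (p : ℤ) • z) ∧ ∀ j, ∃ z : M, T j x - a j • x = (p : ℤ) • z := by
  classical
  letI : Algebra (ZMod p) k := ZMod.algebra k p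
  obtain ⟨c, rfl⟩ := exists_vec b k v
  -- a nonzero coordinate
  have hex : ∃ i₀, c i₀ ≠ 0 := by
    by_contra hne
    apply hv
    have : c = fun _ => (0 : k) := funext fun i => not_not.mp fun hi => hne ⟨i, hi⟩
    rw [this, vec_zero]
  obtain ⟨i₀, hi₀⟩ := hex
  obtain ⟨φ, hφ⟩ := Module.Projective.exists_dual_ne_zero (ZMod p) hi₀
  -- integer lifts
  have hlift : ∀ i, ∃ n : ℤ, (n : ZMod p) = φ (c i) := fun i => ZMod.intCast_surjective _
  choose x hx using hlift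
  have hφint : ∀ (n : ℤ) (y : k), φ ((n : k) * y) = (n : ZMod p) * φ y := by
    intro n y
    have : (n : k) * y = (n : ZMod p) • y := by
      rw [Algebra.smul_def]
      congr 1
      exact (map_intCast (algebraMap (ZMod p) k) n).symm
    rw [this, map_smul, smul_eq_mul]
  refine ⟨∑ i, x i • b i, ?_, ?_⟩
  · intro z hz
    have h1 : b.repr (∑ i, x i • b i) i₀ = b.repr ((p : ℤ) • z) i₀ := by rw [hz]
    rw [repr_sum_smul, map_zsmul, Finsupp.smul_apply, smul_eq_mul] at h1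
    have h2 : ((x i₀ : ℤ) : ZMod p) = 0 := by
      rw [h1]
      push_cast
      rw [ZMod.natCast_self, zero_mul]
    rw [hx i₀] at h2
    exact hφ h2
  · intro j
    -- coordinates of `T x − a x` are divisible by `p`
    have hcoord : ∀ κ, ∃ n : ℤ, b.repr (T j (∑ i, x i • b i) - a j • ∑ i, x i • b i) κ = p * n := by
      intro κ
      have h1 := eigen_coord b (T j) (a j) c (heig j) κ
      have h2 := congrArg φ h1
      rw [map_sum] at h2
      simp_rw [hφint] at h2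
      simp_rw [← hx] at h2
      have h3 : (((∑ i, mat b (T j) κ i * x i) - a j * x κ : ℤ) : ZMod p) = 0 := by
        push_cast
        rw [h2, sub_self]
      rw [ZMod.intCast_zmod_eq_zero_iff_dvd] at h3
      obtain ⟨n, hn⟩ := h3
      refine ⟨n, ?_⟩
      rw [map_sub, Finsupp.sub_apply, repr_apply_sum, map_zsmul, Finsupp.smul_apply, smul_eq_mul,
        ← hn]
      rw [repr_sum_smul]
    choose n hn using hcoord
    refine ⟨∑ κ, n κ • b κ, ?_⟩
    apply b.repr.injective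
    ext κ
    rw [hn κ, map_zsmul, Finsupp.smul_apply, smul_eq_mul, repr_sum_smul]

end Descent

/-! ### From the lattice to `J₀(N)[p]` -/

local notation "Qb" => AlgebraicClosure ℚ

/-- a base change of a free `ℤ`-module along `ℤ → ℤ_p` is injective modulo `p`. -/
theorem not_mem_smul_of_isBaseChange {p : ℕ} [hp : Fact p.Prime] {M : Type*} [AddCommGroup M]
    [Module.Free ℤ M] {Tm : Type*} [AddCommGroup Tm] [Module ℤ_[p] Tm] (ι₀ : M →ₗ[ℤ] Tm)
    (h : IsBaseChange ℤ_[p] ι₀) {x : M} (hx : ∀ z : M, x ≠ (p : ℤ) • z) (w : Tm) :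
    ι₀ x ≠ (p : ℤ_[p]) • w := by
  classical
  intro hw
  let b := Module.Free.chooseBasis ℤ M
  -- a coordinate of `x` prime to `p`
  have hex : ∃ i, ¬ (p : ℤ) ∣ b.repr x i := by
    by_contra hcon
    push Not at hcon
    apply hx (b.repr.symm ((b.repr x).mapRange (fun m => m / (p : ℤ)) (Int.zero_ediv _)))
    apply b.repr.injective
    ext i
    rw [map_zsmul, LinearEquiv.apply_symm_apply, Finsupp.smul_apply, smul_eq_mul,
      Finsupp.mapRange_apply]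
    exact (Int.mul_ediv_cancel' (hcon i)).symm
  obtain ⟨i, hi⟩ := hex
  -- the coordinate functional extended to the base change
  let g : M →ₗ[ℤ] ℤ_[p] := (Algebra.linearMap ℤ ℤ_[p]).comp (b.coord i)
  have h1 := h.lift_eq g x
  rw [hw, map_smul] at h1
  have h2 : ((b.repr x i : ℤ) : ℤ_[p]) = (p : ℤ_[p]) * h.lift g w := by
    rw [← smul_eq_mul, h1]
    rfl
  apply hi
  have h3 : PadicInt.toZMod ((b.repr x i : ℤ) : ℤ_[p]) = 0 := by
    rw [h2, map_mul, map_natCast, ZMod.natCast_self, zero_mul]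
  rw [map_intCast, ZMod.intCast_zmod_eq_zero_iff_dvd] at h3
  exact h3

/-- **Occurrence in `J₀(N)[p]`.** -/
theorem exists_eigen_torsion {N p : ℕ} [NeZero N] [hp : Fact p.Prime]
    (W : WeierstrassCurve ℤ)
    (f : CuspForm (Gamma0 N) 2) (𝔪 : Ideal (integralClosure ℤ ℂ))
    (hf : f.IsNormalizedEigenform) (hmax : 𝔪.IsMaximal) (hpm : (p : integralClosure ℤ ℂ) ∈ 𝔪)
    (hcong : ∀ ℓ : ℕ, ℓ.Prime → W.IsGoodPrimeFor ℓ → ¬ ℓ ∣ N → ℓ ≠ p →
      ∃ a : integralClosure ℤ ℂ, (a : ℂ) = ModularFormClass.qCoeff f ℓ ∧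
        a - ((W.apOfModel ℓ : ℤ) : integralClosure ℤ ℂ) ∈ 𝔪) :
    ∃ y : JZero N, y ≠ 0 ∧ p • y = 0 ∧
      ∀ (ℓ : ℕ) (hℓ : ℓ.Prime), ¬ ℓ ∣ N → W.IsGoodPrimeFor ℓ → ℓ ≠ p →
        heckeOperatorBar N ⟨ℓ, hℓ⟩ y = W.apOfModel ℓ • y := by
  classical
  obtain ⟨k, _, _, v, hv0, hv⟩ := exists_occurrence' hp.out W f 𝔪 hf hmax hpm hcong
  -- the index type of the operators
  let Jt : Type := {ℓ : ℕ // ℓ.Prime ∧ ¬ ℓ ∣ N ∧ W.IsGoodPrimeFor ℓ ∧ ℓ ≠ p}
  let T : Jt → Module.End ℤ ↥(Lam N) := fun ℓ => dcZ N ℓ.1 ℓ.2.1 ℓ.2.2.1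
  let a : Jt → ℤ := fun ℓ => W.apOfModel ℓ.1
  let b := Module.Free.chooseBasis ℤ ↥(Lam N)
  obtain ⟨x, hx, hxT⟩ := exists_lattice_eigen (p := p) b T a v hv0
    (fun ℓ => hv ℓ.1 ℓ.2.1 ℓ.2.2.1 ℓ.2.2.2.1 ℓ.2.2.2.2)
  refine ⟨proj 1 (iotaJ p N x), ?_, ?_, ?_⟩
  · intro h0
    rw [proj_eq_zero_iff', pow_one] at h0
    obtain ⟨w, hw⟩ := h0
    exact not_mem_smul_of_isBaseChange (iotaJ p N) (isBaseChange_iotaJ p N) hx w hw
  · have := pow_smul_proj (p := p) 1 (iotaJ p N x)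
    rwa [pow_one] at this
  · intro ℓ hℓ hℓN hgood hℓp
    obtain ⟨z, hz⟩ := hxT ⟨ℓ, hℓ, hℓN, hgood, hℓp⟩
    have h1 : dcZ N ℓ hℓ hℓN x = W.apOfModel ℓ • x + (p : ℤ) • z := by
      rw [← hz]
      show dcZ N ℓ hℓ hℓN x = a ⟨ℓ, hℓ, hℓN, hgood, hℓp⟩ • x +
        (T ⟨ℓ, hℓ, hℓN, hgood, hℓp⟩ x - a ⟨ℓ, hℓ, hℓN, hgood, hℓp⟩ • x)
      abel
    rw [← proj_tT, tT_iotaJ p N ℓ hℓ hℓN, h1, map_add, map_zsmul, map_zsmul, map_add, map_zsmul,
      map_zsmul, natCast_zsmul]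
    have h2 : p • proj 1 (iotaJ p N z) = 0 := by
      have := pow_smul_proj (p := p) 1 (iotaJ p N z)
      rwa [pow_one] at this
    rw [h2, add_zero]

end Fermat.Agent.MP.HECKE.Occ5
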