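/-
Programme MP (row 38 via S44), chapter HECKE (helper5): **the theorem of chapter HECKE.**

`P` a Frey package, `p = P.p`, `M' p` a conductor level at which the mod `p` representation of the Frey
curve is modular, NOT modular at level `M'`.  Then, given
* the lattice side `LatStmt P.freyCurve M' p` (helper4: for every integral model `W` of the Frey curve
  which is not residually modular of level `M'`: `2` is bad and a separating Hecke polynomial exists),
* the reduction side `RedFacts p K Kg` (FUNC, TAU, FIN),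
there are `M₀` (`4 ∣ M₀`, `p ∤ M₀`) and the data of `Iface5.HeckeOut P M₀ hpM (K M₀) (𝒲)`.
-/
import Mathlib
import Fermat.Agent.MP.HECKE.Main5
import Fermat.Agent.MP.HECKE.Occ5
import Fermat.Agent.S13.FreyDelta
import Fermat.Prelude.Def_FreyPackage_IsConductorLevel

set_option autoImplicit false
set_option linter.unusedSectionVars false
set_option linter.unusedVariables false
set_option linter.style.longLine false
set_option linter.style.haveILetI false
set_option synthInstance.maxHeartbeats 400000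
set_option maxHeartbeats 1000000

open WeierstrassCurve WeierstrassCurve.Affine

namespace Fermat.Agent.MP.HECKE.HeckeMain5

open AlgebraicCurve ModularCurve
open Fermat.Agent.X0 Fermat.Agent.RED.TOP
open Fermat.Agent.MP.HECKE.Aut5 Fermat.Agent.MP.HECKE.ESum5
open Fermat.Agent.MP.HECKE.Iface5 Fermat.Agent.MP.HECKE.Facts5
open Fermat.Agent.MP.PEU.Iface4

local notation "GQ" => (AlgebraicClosure ℚ ≃ₐ[ℚ] AlgebraicClosure ℚ)
local notation "Qb" => AlgebraicClosure ℚ

noncomputable section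

/-- **the lattice side, as a statement on the curve** (helper4). -/
def LatStmt (E : WeierstrassCurve ℚ) (M p : ℕ) [NeZero M] : Prop :=
  ∀ W : WeierstrassCurve ℤ, W.IsIntegralModelOf E → ¬ W.IsResiduallyModularOfLevel p M →
    LatFacts W M p

/-- **the theorem of chapter HECKE.** -/
theorem heckeOut (P : FreyPackage) [NeZero P.p] {M' : ℕ} [NeZero M']
    (hcond : P.IsConductorLevel (M' * P.p))
    (hirr : Point.GaloisRepIsIrreducible (K := Qb) ℚ P.freyCurve P.p)
    (hmod : P.ModularRepOfLevel (M' * P.p)) (hnot : ¬ P.ModularRepOfLevel M')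
    (lat : LatStmt P.freyCurve M' P.p)
    {K : ∀ (M : ℕ) [NeZero M], AddSubgroup (JZero (M * P.p))}
    {Kg : ∀ (M : ℕ) [NeZero M], AddSubgroup (JZero M)}
    (red : RedFacts P.p P.pp K Kg) :
    ∃ (M₀ : ℕ) (_ : NeZero M₀) (h4 : 4 ∣ M₀) (hpM : ¬ P.p ∣ M₀),
      HeckeOut P M₀ hpM (K M₀) (cWOp (M₀ * P.p) (Dvd.dvd.mul_right h4 P.p)) := by
  classical
  haveI hpF : Fact P.p.Prime := ⟨P.pp⟩
  haveI : P.freyCurve.IsElliptic :=
    ⟨isUnit_iff_ne_zero.mpr (Fermat.Agent.S13.FreyDelta.freyCurve_Δ_ne_zero P)⟩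
  have hpp := P.pp
  have hp5 := P.hp5
  -- arithmetic of the levels
  have h4N : ¬ 4 ∣ M' := fun h => hcond.not_four_dvd (Dvd.dvd.mul_right h P.p)
  have hpM' : ¬ P.p ∣ M' := by
    intro h
    refine hcond.sq_not_dvd hpp ?_
    rw [pow_two]
    exact Nat.mul_dvd_mul h (dvd_refl _)
  obtain ⟨odd, hpar⟩ : ∃ odd : Bool, if odd then Odd M' else 2 ∣ M' := by
    rcases Nat.even_or_odd M' with h | h
    · exact ⟨false, even_iff_two_dvd.mp h⟩
    · exact ⟨true, h⟩
  obtain ⟨M'', hM⟩ : ∃ M'' : ℕ, M' * ratio odd = M'' := ⟨_, rfl⟩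
  have hratio0 : ratio odd ≠ 0 := by cases odd <;> simp [ratio]
  haveI : NeZero M'' := ⟨by rw [← hM]; exact Nat.mul_ne_zero (NeZero.ne M') hratio0⟩
  have h4 : 4 ∣ M'' := by
    rw [← hM]
    cases odd
    · obtain ⟨k, hk⟩ : 2 ∣ M' := hpar
      exact ⟨k, by show M' * 2 = 4 * k; rw [hk]; ring⟩
    · exact ⟨M', by show M' * 4 = 4 * M'; ring⟩
  have h8 : ¬ 8 ∣ M'' := by
    rw [← hM]
    cases odd
    · rintro ⟨k, hk⟩
      exact h4N ⟨k, by have : M' * 2 = 8 * k := hk; omega⟩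
    · rintro ⟨k, hk⟩
      have h2 : Odd M' := hpar
      have : M' * 4 = 8 * k := hk
      exact (Nat.not_even_iff_odd.mpr h2) ⟨k, by omega⟩
  have hpM : ¬ P.p ∣ M'' := by
    rw [← hM]
    intro h
    rcases (Nat.Prime.dvd_mul hpp).mp h with h | h
    · exact hpM' h
    · have : P.p ≤ 4 := Nat.le_of_dvd (by norm_num) (h.trans (by cases odd <;> simp [ratio]))
      omega
  -- the modular form
  obtain ⟨f, W, 𝔪, hf, hW, hmax, hpm, hcong⟩ := hmod
  obtain ⟨y₀, hy₀, hpy₀, heig₀⟩ :=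
    Fermat.Agent.MP.HECKE.Occ5.exists_eigen_torsion (N := M' * P.p) (p := P.p) W f 𝔪 hf hmax hpm hcong
  have hnotW : ¬ W.IsResiduallyModularOfLevel P.p M' := by
    rintro ⟨f', 𝔪', h1, h2, h3, h4'⟩
    exact hnot ⟨f', W, 𝔪', h1, hW, h2, h3, h4'⟩
  have hlat := lat W hW hnotW
  -- level `B`
  obtain ⟨η, V₁, e₁, r, hη, he₁, hV₁p, hV₁T, hV₁e, hV₁w, hr, hrB, hrgood, hrdiv⟩ :=
    Fermat.Agent.MP.HECKE.EigenV5.exists_V1 hp5 odd hM hpar h4 h8 P.freyCurve hW hirr y₀ hy₀ hpy₀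
      heig₀
  haveI : NeZero r := ⟨hr.ne_zero⟩
  -- level `C`
  obtain ⟨hpM₀, h4₀, V, e, Ξ, u, h1, h2, h3, h4', h5, h6⟩ :=
    Fermat.Agent.MP.HECKE.Main5.core hp5 red odd hM hpar h4 hpM hlat η hη V₁ e₁ he₁ hV₁p hV₁T hV₁e
      hV₁w r hr hrB hrgood hrdiv
  exact ⟨M'' * r, inferInstance, Dvd.dvd.mul_right h4 r, hpM₀, V, e, Ξ, u, h1, h2, h3, h4', h5, h6⟩

end

end Fermat.Agent.MP.HECKE.HeckeMain5
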