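/-
PROGRAMME MP, chapter HECKE, brick (Two) (helper3).  **`2` is a bad prime of every integral model of the
Frey curve** (`v₂(j) < 0` : `c₄(E)` is odd while `2¹⁰ ∣ 2⁸ Δ(E)`), so `T₂` never occurs among the good
Hecke operators.

* `freyCurve_c₄`, `freyCurve_Δ'` : the invariants of the Frey curve;
* `odd_c₄Int` : `a^{2p} + a^p b^p + b^{2p}` is odd;
* **`two_dvd_Δ`**, **`not_isGoodPrimeFor_two`**.
-/
import Mathlib
import Fermat.Prelude.Def_FLTPrelim_FreyPackage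
import Fermat.Prelude.Def_FLTPrelim_Modularity
import Fermat.Agent.S13.FreyDelta
import Fermat.Agent.S13.FreyAtTwo

set_option autoImplicit false
set_option linter.unusedSectionVars false
set_option linter.style.longLine false

namespace Fermat.Agent.MP.HECKE.Two3

open WeierstrassCurve

variable (P : FreyPackage)

/-- `c₄` of the Frey curve. -/
theorem freyCurve_c₄ :
    P.freyCurve.c₄ = ((P.a : ℚ) ^ P.p) ^ 2 + (P.a : ℚ) ^ P.p * (P.b : ℚ) ^ P.p +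
      ((P.b : ℚ) ^ P.p) ^ 2 := by
  simp only [WeierstrassCurve.c₄, WeierstrassCurve.b₂, WeierstrassCurve.b₄, FreyPackage.freyCurve]
  ring

/-- `a^{2p} + a^p b^p + b^{2p}` is odd. -/
theorem not_two_dvd_c₄Int :
    ¬ (2 : ℤ) ∣ (P.a ^ P.p) ^ 2 + P.a ^ P.p * P.b ^ P.p + (P.b ^ P.p) ^ 2 := by
  intro h
  have h1 : (2 : ℤ) ∣ P.b ^ P.p :=
    (by norm_num : (2 : ℤ) ∣ 32).trans (Fermat.Agent.S13.FreyAtTwo.thirtytwo_dvd_b_pow P)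
  have h2 : (2 : ℤ) ∣ P.a ^ P.p * P.b ^ P.p + (P.b ^ P.p) ^ 2 :=
    dvd_add (Dvd.dvd.mul_left h1 _) (Dvd.dvd.pow h1 (by norm_num))
  have h3 : (2 : ℤ) ∣ (P.a ^ P.p) ^ 2 := by
    have := dvd_sub h h2
    have e : (P.a ^ P.p) ^ 2 + P.a ^ P.p * P.b ^ P.p + (P.b ^ P.p) ^ 2 -
        (P.a ^ P.p * P.b ^ P.p + (P.b ^ P.p) ^ 2) = (P.a ^ P.p) ^ 2 := by ring
    rwa [e] at this
  exact Fermat.Agent.S13.FreyAtTwo.not_two_dvd_a P
    (Int.prime_two.dvd_of_dvd_pow (Int.prime_two.dvd_of_dvd_pow h3))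

/-- **`2` divides the discriminant of every integral model of the Frey curve.** -/
theorem two_dvd_Δ {W : WeierstrassCurve ℤ} (hW : W.IsIntegralModelOf P.freyCurve) :
    (2 : ℤ) ∣ W.Δ := by
  obtain ⟨C, hC⟩ := hW
  have hΔ : ((W.Δ : ℤ) : ℚ) = (C.u⁻¹ : ℚˣ) ^ 12 * P.freyCurve.Δ := by
    have := congrArg WeierstrassCurve.Δ hC
    rw [variableChange_Δ, map_Δ] at this
    exact this.symm
  have hc₄ : ((W.c₄ : ℤ) : ℚ) = (C.u⁻¹ : ℚˣ) ^ 4 * P.freyCurve.c₄ := by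
    have := congrArg WeierstrassCurve.c₄ hC
    rw [variableChange_c₄, map_c₄] at this
    exact this.symm
  -- the key identity `c₄(E)³ Δ(W) = c₄(W)³ Δ(E)`
  have hkey : P.freyCurve.c₄ ^ 3 * ((W.Δ : ℤ) : ℚ) = ((W.c₄ : ℤ) : ℚ) ^ 3 * P.freyCurve.Δ := by
    rw [hΔ, hc₄]
    ring
  rw [freyCurve_c₄, Fermat.Agent.S13.FreyDelta.freyCurve_Δ] at hkey
  -- in `ℤ`
  have hZ : 256 * (((P.a ^ P.p) ^ 2 + P.a ^ P.p * P.b ^ P.p + (P.b ^ P.p) ^ 2) ^ 3 * W.Δ) =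
      W.c₄ ^ 3 * ((P.a ^ P.p) ^ 2 * (P.b ^ P.p) ^ 2 * (P.c ^ P.p) ^ 2) := by
    have : ((256 * (((P.a ^ P.p) ^ 2 + P.a ^ P.p * P.b ^ P.p + (P.b ^ P.p) ^ 2) ^ 3 * W.Δ) : ℤ) : ℚ) =
        ((W.c₄ ^ 3 * ((P.a ^ P.p) ^ 2 * (P.b ^ P.p) ^ 2 * (P.c ^ P.p) ^ 2) : ℤ) : ℚ) := by
      push_cast
      linear_combination 256 * hkey
    exact_mod_cast this
  -- `2¹⁰ ∣ (b^p)²`
  have h32 := Fermat.Agent.S13.FreyAtTwo.thirtytwo_dvd_b_pow P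
  have h1024 : (1024 : ℤ) ∣ (P.b ^ P.p) ^ 2 := by
    obtain ⟨k, hk⟩ := h32
    exact ⟨k ^ 2, by rw [hk]; ring⟩
  have h1 : (1024 : ℤ) ∣ 256 * (((P.a ^ P.p) ^ 2 + P.a ^ P.p * P.b ^ P.p + (P.b ^ P.p) ^ 2) ^ 3 * W.Δ) := by
    rw [hZ]
    exact Dvd.dvd.mul_left (Dvd.dvd.mul_right (Dvd.dvd.mul_left h1024 _) _) _
  have h2 : (4 : ℤ) ∣ ((P.a ^ P.p) ^ 2 + P.a ^ P.p * P.b ^ P.p + (P.b ^ P.p) ^ 2) ^ 3 * W.Δ := by
    obtain ⟨k, hk⟩ := h1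
    exact ⟨k, by omega⟩
  have h3 : (2 : ℤ) ∣ ((P.a ^ P.p) ^ 2 + P.a ^ P.p * P.b ^ P.p + (P.b ^ P.p) ^ 2) ^ 3 * W.Δ :=
    (by norm_num : (2 : ℤ) ∣ 4).trans h2
  rcases Int.prime_two.dvd_or_dvd h3 with h4 | h4
  · exact absurd (Int.prime_two.dvd_of_dvd_pow h4) (not_two_dvd_c₄Int P)
  · exact h4

/-- **`2` is never a good prime of an integral model of the Frey curve.** -/
theorem not_isGoodPrimeFor_two {W : WeierstrassCurve ℤ} (hW : W.IsIntegralModelOf P.freyCurve) :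
    ¬ W.IsGoodPrimeFor 2 := by
  intro h
  exact h (by exact_mod_cast two_dvd_Δ P hW)

/-- a good prime of an integral model of the Frey curve is odd. -/
theorem ne_two_of_isGoodPrimeFor {W : WeierstrassCurve ℤ} (hW : W.IsIntegralModelOf P.freyCurve)
    {ℓ : ℕ} (hℓ : W.IsGoodPrimeFor ℓ) : ℓ ≠ 2 := by
  rintro rfl
  exact not_isGoodPrimeFor_two P hW hℓ

end Fermat.Agent.MP.HECKE.Two3
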