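/-
Programme MP (row 38 via S44), chapter HECKE (helper6): **the lattice side `HeckeMain5.LatStmt` of the Frey
curve**, from helper3's `SepTors3.exists_sep_torsKill` and `Two3.not_isGoodPrimeFor_two`.

* `reindex f s` : the image of `s ∈ ℤ⟨ι⟩` in `ℤ⟨ι'⟩` along `f : ι → ι'`; `act_reindex`, `evalInt_reindex`;
* `toGood` : `Sep3.Idx W p M → Facts5.GoodPrime W M p`;
* **`latStmt P M' : LatStmt P.freyCurve M' P.p`**.
-/
import Mathlib
import Fermat.Agent.MP.HECKE.HeckeMain5
import Fermat.Agent.MP.HECKE.SepTors3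
import Fermat.Agent.MP.HECKE.Two3

set_option autoImplicit false
set_option linter.unusedSectionVars false
set_option linter.style.longLine false
set_option synthInstance.maxHeartbeats 400000

namespace Fermat.Agent.MP.HECKE.LatGlue6

open ModularCurve
open Fermat.Agent.MP.HECKE.FreeLift5 Fermat.Agent.MP.HECKE.Facts5 Fermat.Agent.MP.HECKE.HeckeMain5
open Fermat.Agent.MP.HECKE.Sep3 Fermat.Agent.MP.HECKE.TorsKill3

noncomputable section

section Reindex

variable {ι ι' : Type} {J : Type} [AddCommGroup J]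

/-- the image of a non-commutative polynomial under a map of the variables. -/
def reindex (f : ι → ι') : FreeAlgebra ℤ ι →ₐ[ℤ] FreeAlgebra ℤ ι' :=
  FreeAlgebra.lift ℤ (fun i => FreeAlgebra.ι ℤ (f i))

theorem evalEnd_reindex (f : ι → ι') (T : ι' → (J →+ J)) :
    (evalEnd T).comp (reindex f) = evalEnd (fun i => T (f i)) := by
  apply FreeAlgebra.hom_ext
  funext i
  simp only [Function.comp_apply, AlgHom.comp_apply, reindex, evalEnd, FreeAlgebra.lift_ι_apply]

theorem act_reindex (f : ι → ι') (T : ι' → (J →+ J)) (s : FreeAlgebra ℤ ι) (x : J) :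
    act T (reindex f s) x = act (fun i => T (f i)) s x := by
  rw [act_apply, act_apply, ← evalEnd_reindex f T]
  rfl

theorem evalInt_reindex (f : ι → ι') (a : ι' → ℤ) (s : FreeAlgebra ℤ ι) :
    evalInt a (reindex f s) = evalInt (fun i => a (f i)) s := by
  have h : (evalInt a).comp (reindex f) = evalInt (fun i => a (f i)) := by
    apply FreeAlgebra.hom_ext
    funext i
    simp only [Function.comp_apply, AlgHom.comp_apply, reindex, evalInt, FreeAlgebra.lift_ι_apply]
  rw [← h]
  rfl

end Reindex

variable {W : WeierstrassCurve ℤ} {p M : ℕ}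

/-- helper3's index type into helper5's. -/
def toGood (i : Idx W p M) : GoodPrime W M p :=
  ⟨pr i, i.2.2.1, i.2.2.2.1, i.2.2.2.2⟩

/-- **the lattice side for the Frey curve.** -/
theorem latStmt (P : FreyPackage) (M' : ℕ) [NeZero M'] : LatStmt P.freyCurve M' P.p := by
  intro W hW hnot
  refine ⟨Two3.not_isGoodPrimeFor_two P hW, ?_⟩
  obtain ⟨s, hs, hsp⟩ := SepTors3.exists_sep_torsKill W M' P.pp hnot
  refine ⟨reindex toGood s, ?_, ?_⟩
  · intro u m hm hu
    rw [act_reindex]
    exact hs u m hm hu
  · rw [evalInt_reindex]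
    exact hsp

end

end Fermat.Agent.MP.HECKE.LatGlue6
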