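/-
Programme MP (row 38 via S44), chapter HECKE (helper5): **absolute irreducibility from an odd
involution** (Mathlib + `ES/K/Burnside26`).

`k` a field of characteristic `≠ 2`, `ρW : G →* M₂(k)` irreducible on `k²`, `c ∈ G` with
`ρW c ² = 1` and `det ρW c = −1` (complex conjugation).  Then the commutant of `ρW` is `k`
(`ρW c` has the two distinct eigenvalues `± 1` in `k`), hence the image of `ρW` spans `M₂(k)`
(Burnside): `span_eq_top`.
-/
import Mathlib
import Fermat.Agent.ES.K.Burnside26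

set_option autoImplicit false
set_option linter.unusedSectionVars false
set_option linter.style.longLine false

namespace Fermat.Agent.MP.HECKE.AbsIrr5

open Matrix

variable {k : Type*} [Field k]

theorem eq_zero_of_mulVec_eq_zero {B : Matrix (Fin 2) (Fin 2) k} (h : ∀ w : Fin 2 → k, B *ᵥ w = 0) :
    B = 0 := by
  ext i j
  have := congrFun (h (Pi.single j 1)) i
  simpa using this

/-- an involution of determinant `−1` has a nonzero fixed vector. -/
theorem exists_fixed (h2 : (2 : k) ≠ 0) {A : Matrix (Fin 2) (Fin 2) k} (hA : A * A = 1)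
    (hdet : A.det = -1) : ∃ v : Fin 2 → k, v ≠ 0 ∧ A *ᵥ v = v := by
  have hne : A + 1 ≠ 0 := by
    intro h
    have hA1 : A = -1 := eq_neg_of_add_eq_zero_left h
    rw [hA1] at hdet
    have h1 : (-1 : Matrix (Fin 2) (Fin 2) k).det = 1 := by
      simp [Matrix.det_fin_two]
    rw [h1] at hdet
    apply h2
    have : (2 : k) = 1 + 1 := by norm_num
    rw [this]
    nth_rewrite 1 [hdet]
    ring
  obtain ⟨w, hw⟩ : ∃ w : Fin 2 → k, (A + 1) *ᵥ w ≠ 0 := by
    by_contra hcon
    push Not at hcon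
    exact hne (eq_zero_of_mulVec_eq_zero hcon)
  refine ⟨(A + 1) *ᵥ w, hw, ?_⟩
  rw [Matrix.mulVec_mulVec, Matrix.mul_add, hA, mul_one, add_comm]

/-- two vectors fixed by a matrix `≠ 1` are proportional. -/
theorem proportional_of_fixed {A : Matrix (Fin 2) (Fin 2) k} (hA1 : A ≠ 1) {v u : Fin 2 → k}
    (hv : A *ᵥ v = v) (hu : A *ᵥ u = u) (hv0 : v ≠ 0) : ∃ c : k, u = c • v := by
  set M : Matrix (Fin 2) (Fin 2) k := Matrix.of ![![v 0, u 0], ![v 1, u 1]] with hM
  have hAM : A * M = M := by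
    have hv0' := congrFun hv 0
    have hv1' := congrFun hv 1
    have hu0' := congrFun hu 0
    have hu1' := congrFun hu 1
    simp only [Matrix.mulVec, dotProduct, Fin.sum_univ_two] at hv0' hv1' hu0' hu1'
    ext i j
    fin_cases i <;> fin_cases j <;>
      simp [hM, Matrix.mul_apply, Fin.sum_univ_two, hv0', hv1', hu0', hu1']
  have hdetM : M.det = 0 := by
    by_contra hd
    have hunit : IsUnit M := (Matrix.isUnit_iff_isUnit_det M).mpr (isUnit_iff_ne_zero.mpr hd)
    obtain ⟨Mu, hMu⟩ := hunit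
    apply hA1
    have : A * M * ((Mu⁻¹ : (Matrix (Fin 2) (Fin 2) k)ˣ) : Matrix (Fin 2) (Fin 2) k) =
        M * ((Mu⁻¹ : (Matrix (Fin 2) (Fin 2) k)ˣ) : Matrix (Fin 2) (Fin 2) k) := by rw [hAM]
    rw [mul_assoc, ← hMu, Units.mul_inv, mul_one] at this
    exact this
  have hdet' : v 0 * u 1 = u 0 * v 1 := by
    have : M.det = v 0 * u 1 - u 0 * v 1 := by
      simp [hM, Matrix.det_fin_two]
    rw [this] at hdetM
    exact sub_eq_zero.mp hdetM
  by_cases h0 : v 0 = 0
  · have h1 : v 1 ≠ 0 := by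
      intro h1
      apply hv0
      ext i
      fin_cases i
      · exact h0
      · exact h1
    refine ⟨u 1 / v 1, ?_⟩
    ext i
    fin_cases i
    · simp only [Fin.zero_eta, Fin.isValue, Pi.smul_apply, smul_eq_mul]
      rw [h0, zero_mul] at hdet'
      rcases mul_eq_zero.mp hdet'.symm with h | h
      · rw [h, h0, mul_zero]
      · exact absurd h h1
    · simp only [Fin.mk_one, Fin.isValue, Pi.smul_apply, smul_eq_mul]
      field_simp
  · refine ⟨u 0 / v 0, ?_⟩
    ext i
    fin_cases i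
    · simp only [Fin.zero_eta, Fin.isValue, Pi.smul_apply, smul_eq_mul]
      field_simp
    · simp only [Fin.mk_one, Fin.isValue, Pi.smul_apply, smul_eq_mul]
      field_simp
      linear_combination hdet'

variable {G : Type*} [Group G]

/-- **Schur**: the commutant of an irreducible `ρW` containing an odd involution is `k`. -/
theorem schur (h2 : (2 : k) ≠ 0) (ρW : G →* Matrix (Fin 2) (Fin 2) k)
    (hirr : ∀ U : Submodule k (Fin 2 → k), (∀ g, ∀ w ∈ U, ρW g *ᵥ w ∈ U) → U = ⊥ ∨ U = ⊤)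
    (c : G) (hc : ρW c * ρW c = 1) (hdet : (ρW c).det = -1)
    (X : Matrix (Fin 2) (Fin 2) k) (hX : ∀ g, X * ρW g = ρW g * X) :
    ∃ a : k, X = a • (1 : Matrix (Fin 2) (Fin 2) k) := by
  obtain ⟨v, hv0, hv⟩ := exists_fixed h2 hc hdet
  have hA1 : ρW c ≠ 1 := by
    intro h
    rw [h, Matrix.det_one] at hdet
    apply h2
    have : (2 : k) = 1 + 1 := by norm_num
    rw [this]
    nth_rewrite 1 [hdet]
    ring
  have hu : ρW c *ᵥ (X *ᵥ v) = X *ᵥ v := by
    rw [Matrix.mulVec_mulVec, ← hX c, ← Matrix.mulVec_mulVec, hv]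
  obtain ⟨a, ha⟩ := proportional_of_fixed hA1 hv hu hv0
  refine ⟨a, ?_⟩
  -- the kernel of `X − a` is stable and contains `v`
  set U : Submodule k (Fin 2 → k) := LinearMap.ker (Matrix.mulVecLin (X - a • 1)) with hU
  have hmem : ∀ w, w ∈ U ↔ X *ᵥ w = a • w := by
    intro w
    rw [hU, LinearMap.mem_ker, Matrix.mulVecLin_apply, Matrix.sub_mulVec, Matrix.smul_mulVec,
      Matrix.one_mulVec, sub_eq_zero]
  have hstab : ∀ g, ∀ w ∈ U, ρW g *ᵥ w ∈ U := by
    intro g w hw
    rw [hmem] at hw ⊢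
    rw [Matrix.mulVec_mulVec, hX g, ← Matrix.mulVec_mulVec, hw, Matrix.mulVec_smul]
  rcases hirr U hstab with h | h
  · exfalso
    have : v ∈ U := (hmem v).mpr ha
    rw [h, Submodule.mem_bot] at this
    exact hv0 this
  · have hall : ∀ w : Fin 2 → k, (X - a • 1) *ᵥ w = 0 := by
      intro w
      have : w ∈ U := by rw [h]; trivial
      rw [hmem] at this
      rw [Matrix.sub_mulVec, Matrix.smul_mulVec, Matrix.one_mulVec, this, sub_self]
    exact sub_eq_zero.mp (eq_zero_of_mulVec_eq_zero hall)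

/-- **the image spans `M₂(k)`**. -/
theorem span_eq_top (h2 : (2 : k) ≠ 0) (ρW : G →* Matrix (Fin 2) (Fin 2) k)
    (hirr : ∀ U : Submodule k (Fin 2 → k), (∀ g, ∀ w ∈ U, ρW g *ᵥ w ∈ U) → U = ⊥ ∨ U = ⊤)
    (c : G) (hc : ρW c * ρW c = 1) (hdet : (ρW c).det = -1) :
    Submodule.span k (Set.range ρW) = ⊤ := by
  set Φ : Matrix (Fin 2) (Fin 2) k ≃ₐ[k] Module.End k (Fin 2 → k) := Matrix.toLinAlgEquiv' with hΦ
  set ρ : G →* Module.End k (Fin 2 → k) := (Φ : Matrix (Fin 2) (Fin 2) k →* _).comp ρW with hρ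
  have hρapp : ∀ g w, ρ g w = ρW g *ᵥ w := by
    intro g w
    simp [hρ, hΦ]
  have hB : Submodule.span k (Set.range ρ) = ⊤ := by
    refine Fermat.Agent.ES.K.Burnside26.span_range_eq_top_of_schur ρ ?_ ?_
    · intro U hU
      exact hirr U fun g w hw => by rw [← hρapp]; exact hU g w hw
    · intro x hx
      obtain ⟨a, ha⟩ := schur h2 ρW hirr c hc hdet (Φ.symm x) (fun g => by
        apply Φ.injective
        rw [map_mul, map_mul, AlgEquiv.apply_symm_apply]
        exact hx g)
      refine ⟨a, ?_⟩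
      have := congrArg Φ ha
      rw [AlgEquiv.apply_symm_apply, map_smul, map_one] at this
      exact this
  have hmap : Submodule.span k (Set.range ρW) =
      (Submodule.span k (Set.range ρ)).map Φ.symm.toLinearMap := by
    rw [Submodule.map_span, ← Set.range_comp]
    congr 1
    ext B
    constructor
    · rintro ⟨g, rfl⟩
      exact ⟨g, by simp [hρ]⟩
    · rintro ⟨g, rfl⟩
      exact ⟨g, by simp [hρ]⟩
  rw [hmap, hB, Submodule.map_top, LinearMap.range_eq_top]
  exact Φ.symm.surjective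

end Fermat.Agent.MP.HECKE.AbsIrr5
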