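/-
Programme MP (row 38 via S44), chapter HECKE (helper5): **a two-dimensional Boston–Lenstra–Ribet
lemma** (Mathlib only).

`k` a field of characteristic `≠ 2`, `G` a group, `ρW : G →* M₂(k)` whose image spans `M₂(k)`
(Burnside: absolutely irreducible), `ρV` a simple representation of `G` on `V ≠ 0` such that every
`g` satisfies on `V` the characteristic polynomial of `ρW g`:
`ρV g ² − tr(ρW g) ρV g + det(ρW g) = 0`.  Then `V ≅ k²` equivariantly (`blr`).

Proof.  `A ⊂ End V × M₂(k)` the span of the pairs `(ρV g, ρW g)` (a subalgebra); the linear map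
`star (a, b) = (tr b − a, tr b − b)` is an anti-involution of `A` (on the generators it is
`det(g) · pair g⁻¹`).  For `(a, 0) ∈ A` this gives `a c = c^* a`, hence `[c, c'] a = 0` for all
first components `c, c'` of elements of `A`.  The subspace `U` of `V` on which all first components
commute is `G`-stable and contains `a V`.  If `U = V` one gets `1 = 0` from two nilpotent
matrices; if `U = 0` the projection `A → M₂(k)` is bijective and `V` is a simple `M₂(k)`-module.
-/
import Mathlib

set_option autoImplicit false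
set_option linter.unusedSectionVars false
set_option linter.style.longLine false

namespace Fermat.Agent.MP.HECKE.Blr5

open Matrix

noncomputable section

variable {k : Type*} [Field k]

/-! ### `2 × 2` matrices -/

theorem cayley_two (B : Matrix (Fin 2) (Fin 2) k) :
    B * B - B.trace • B + B.det • (1 : Matrix (Fin 2) (Fin 2) k) = 0 := by
  ext i j
  fin_cases i <;> fin_cases j <;>
    simp [Matrix.mul_apply, Fin.sum_univ_two, Matrix.trace_fin_two, Matrix.det_fin_two] <;> ring

theorem trace_trace_sub (B : Matrix (Fin 2) (Fin 2) k) :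
    (B.trace • (1 : Matrix (Fin 2) (Fin 2) k) - B).trace = B.trace := by
  simp [Matrix.trace_fin_two]
  ring

variable {G : Type*} [Group G] {V : Type*} [AddCommGroup V] [Module k V]

/-- the ambient algebra. -/
abbrev Pr (k V : Type*) [Field k] [AddCommGroup V] [Module k V] : Type _ :=
  Module.End k V × Matrix (Fin 2) (Fin 2) k

/-- the pair `(ρV g, ρW g)`. -/
def pair (ρV : G →* Module.End k V) (ρW : G →* Matrix (Fin 2) (Fin 2) k) (g : G) : Pr k V :=
  (ρV g, ρW g)

/-- the span of the pairs. -/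
def Asub (ρV : G →* Module.End k V) (ρW : G →* Matrix (Fin 2) (Fin 2) k) : Submodule k (Pr k V) :=
  Submodule.span k (Set.range (pair ρV ρW))

/-- the anti-involution. -/
def star : Pr k V →ₗ[k] Pr k V where
  toFun x := (x.2.trace • (1 : Module.End k V) - x.1,
    x.2.trace • (1 : Matrix (Fin 2) (Fin 2) k) - x.2)
  map_add' x y := by
    ext1
    · simp only [Prod.fst_add, Prod.snd_add, Matrix.trace_add, add_smul]; abel
    · simp only [Prod.fst_add, Prod.snd_add, Matrix.trace_add, add_smul]; abel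
  map_smul' c x := by
    ext1
    · simp only [Prod.smul_fst, Prod.smul_snd, Matrix.trace_smul, smul_eq_mul, RingHom.id_apply,
        smul_sub, mul_smul]
    · simp only [Prod.smul_fst, Prod.smul_snd, Matrix.trace_smul, smul_eq_mul, RingHom.id_apply,
        smul_sub, mul_smul]

theorem star_fst (x : Pr k V) : (star x).1 = x.2.trace • (1 : Module.End k V) - x.1 := rfl

theorem star_snd (x : Pr k V) :
    (star x).2 = x.2.trace • (1 : Matrix (Fin 2) (Fin 2) k) - x.2 := rfl

theorem star_star (x : Pr k V) : star (star x) = x := by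
  ext1
  · rw [star_fst, star_snd, star_fst, trace_trace_sub]; abel
  · rw [star_snd, star_snd, trace_trace_sub]; abel

variable (ρV : G →* Module.End k V) (ρW : G →* Matrix (Fin 2) (Fin 2) k)

theorem pair_mul (g h : G) : pair ρV ρW (g * h) = pair ρV ρW g * pair ρV ρW h := by
  ext1
  · show ρV (g * h) = ρV g * ρV h
    rw [map_mul]
  · show ρW (g * h) = ρW g * ρW h
    rw [map_mul]

theorem pair_one : pair ρV ρW 1 = 1 := by
  ext1
  · show ρV 1 = 1
    rw [map_one]
  · show ρW 1 = 1
    rw [map_one]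

theorem pair_mem (g : G) : pair ρV ρW g ∈ Asub ρV ρW :=
  Submodule.subset_span ⟨g, rfl⟩

theorem one_mem : (1 : Pr k V) ∈ Asub ρV ρW := by
  rw [← pair_one ρV ρW]
  exact pair_mem ρV ρW 1

theorem mul_mem {x y : Pr k V} (hx : x ∈ Asub ρV ρW) (hy : y ∈ Asub ρV ρW) :
    x * y ∈ Asub ρV ρW := by
  induction hx using Submodule.span_induction with
  | mem x hx =>
    obtain ⟨g, rfl⟩ := hx
    induction hy using Submodule.span_induction with
    | mem y hy =>
      obtain ⟨h, rfl⟩ := hy
      rw [← pair_mul]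
      exact pair_mem ρV ρW _
    | zero => rw [mul_zero]; exact Submodule.zero_mem _
    | add y z _ _ hy hz => rw [mul_add]; exact Submodule.add_mem _ hy hz
    | smul c y _ hy => rw [mul_smul_comm]; exact Submodule.smul_mem _ c hy
  | zero => rw [zero_mul]; exact Submodule.zero_mem _
  | add x z _ _ hx hz => rw [add_mul]; exact Submodule.add_mem _ hx hz
  | smul c x _ hx => rw [smul_mul_assoc]; exact Submodule.smul_mem _ c hx

variable {ρV ρW}

/-- the quadratic relation on `V`. -/
def Rel (ρV : G →* Module.End k V) (ρW : G →* Matrix (Fin 2) (Fin 2) k) : Prop :=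
  ∀ g : G, ρV g * ρV g - (ρW g).trace • ρV g + (ρW g).det • (1 : Module.End k V) = 0

theorem star_pair (hrel : Rel ρV ρW) (g : G) :
    star (pair ρV ρW g) = (ρW g).det • pair ρV ρW g⁻¹ := by
  have hV : ρV g * ρV g⁻¹ = 1 := by rw [← map_mul, mul_inv_cancel, map_one]
  have hW : ρW g * ρW g⁻¹ = 1 := by rw [← map_mul, mul_inv_cancel, map_one]
  ext1
  · show (ρW g).trace • (1 : Module.End k V) - ρV g = (ρW g).det • ρV g⁻¹
    have h := congrArg (fun x => x * ρV g⁻¹) (hrel g)
    simp only [add_mul, sub_mul, smul_mul_assoc, mul_assoc, hV, mul_one, one_mul, zero_mul] at h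
    rw [← sub_eq_zero, ← neg_eq_zero, ← h]
    abel
  · show (ρW g).trace • (1 : Matrix (Fin 2) (Fin 2) k) - ρW g = (ρW g).det • ρW g⁻¹
    have h := congrArg (fun x => x * ρW g⁻¹) (cayley_two (ρW g))
    simp only [add_mul, sub_mul, smul_mul_assoc, mul_assoc, hW, mul_one, one_mul, zero_mul] at h
    rw [← sub_eq_zero, ← neg_eq_zero, ← h]
    abel

theorem star_mem (hrel : Rel ρV ρW) {x : Pr k V} (hx : x ∈ Asub ρV ρW) :
    star x ∈ Asub ρV ρW := by
  induction hx using Submodule.span_induction with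
  | mem x hx =>
    obtain ⟨g, rfl⟩ := hx
    rw [star_pair hrel]
    exact Submodule.smul_mem _ _ (pair_mem ρV ρW _)
  | zero => rw [map_zero]; exact Submodule.zero_mem _
  | add x z _ _ hx hz => rw [map_add]; exact Submodule.add_mem _ hx hz
  | smul c x _ hx => rw [map_smul]; exact Submodule.smul_mem _ c hx

theorem star_mul (hrel : Rel ρV ρW) {x y : Pr k V} (hx : x ∈ Asub ρV ρW)
    (hy : y ∈ Asub ρV ρW) : star (x * y) = star y * star x := by
  induction hx using Submodule.span_induction with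
  | mem x hx =>
    obtain ⟨g, rfl⟩ := hx
    induction hy using Submodule.span_induction with
    | mem y hy =>
      obtain ⟨h, rfl⟩ := hy
      rw [← pair_mul, star_pair hrel, star_pair hrel, star_pair hrel, map_mul, Matrix.det_mul,
        _root_.mul_inv_rev, pair_mul, smul_mul_smul_comm, mul_comm]
    | zero => rw [mul_zero, map_zero, zero_mul]
    | add y z _ _ hy hz => rw [mul_add, map_add, map_add, add_mul, hy, hz]
    | smul c y _ hy => rw [mul_smul_comm, map_smul, map_smul, smul_mul_assoc, hy]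
  | zero => rw [zero_mul, map_zero, mul_zero]
  | add x z _ _ hx hz => rw [add_mul, map_add, map_add, mul_add, hx, hz]
  | smul c x _ hx => rw [smul_mul_assoc, map_smul, map_smul, mul_smul_comm, hx]

/-! ### the key commutation -/

/-- for `(a, 0) ∈ A` and `y ∈ A`: `a y₁ = (y^*)₁ a`. -/
theorem fst_mul_fst (hrel : Rel ρV ρW) {a : Module.End k V}
    (ha : ((a, 0) : Pr k V) ∈ Asub ρV ρW) {y : Pr k V} (hy : y ∈ Asub ρV ρW) :
    a * y.1 = (star y).1 * a := by
  have h := congrArg Prod.fst (star_mul hrel ha hy)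
  rw [star_fst, Prod.fst_mul, Prod.fst_mul, star_fst (a, 0)] at h
  simp only [Prod.snd_mul, zero_mul, Matrix.trace_zero, zero_smul, zero_sub, mul_neg] at h
  exact neg_injective h

/-- for `(a, 0) ∈ A` and `y, z ∈ A` the commutator of the first components kills `a`. -/
theorem comm_mul_eq_zero (hrel : Rel ρV ρW) {a : Module.End k V}
    (ha : ((a, 0) : Pr k V) ∈ Asub ρV ρW) {y z : Pr k V} (hy : y ∈ Asub ρV ρW)
    (hz : z ∈ Asub ρV ρW) : y.1 * z.1 * a = z.1 * y.1 * a := by
  -- apply the argument to `star y`, `star z`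
  have hy' := star_mem hrel hy
  have hz' := star_mem hrel hz
  have h1 : a * ((star z).1 * (star y).1) = y.1 * z.1 * a := by
    have h := fst_mul_fst hrel ha (mul_mem ρV ρW hz' hy')
    rw [Prod.fst_mul, star_mul hrel hz' hy', star_star, star_star, Prod.fst_mul] at h
    exact h
  have h2 : a * ((star z).1 * (star y).1) = z.1 * y.1 * a := by
    rw [← mul_assoc, fst_mul_fst hrel ha hz', star_star, mul_assoc,
      fst_mul_fst hrel ha hy', star_star, mul_assoc]
  rw [← h1, h2]

/-! ### the commuting subspace -/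

/-- the subspace of `V` on which the first components of `A` commute. -/
def Usub (ρV : G →* Module.End k V) (ρW : G →* Matrix (Fin 2) (Fin 2) k) : Submodule k V where
  carrier := {v | ∀ y ∈ Asub ρV ρW, ∀ z ∈ Asub ρV ρW, y.1 (z.1 v) = z.1 (y.1 v)}
  add_mem' := by
    intro v w hv hw y hy z hz
    rw [map_add, map_add, map_add, map_add, hv y hy z hz, hw y hy z hz]
  zero_mem' := by
    intro y _ z _
    rw [map_zero, map_zero, map_zero]
  smul_mem' := by
    intro c v hv y hy z hz
    rw [map_smul, map_smul, map_smul, map_smul, hv y hy z hz]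

theorem mem_Usub {v : V} :
    v ∈ Usub ρV ρW ↔ ∀ y ∈ Asub ρV ρW, ∀ z ∈ Asub ρV ρW, y.1 (z.1 v) = z.1 (y.1 v) := Iff.rfl

theorem Usub_stable (g : G) {v : V} (hv : v ∈ Usub ρV ρW) : ρV g v ∈ Usub ρV ρW := by
  intro y hy z hz
  have hg := pair_mem ρV ρW g
  have e1 : z.1 (ρV g v) = (z * pair ρV ρW g).1 v := rfl
  have e3 : ρV g (y.1 v) = y.1 (ρV g v) := (hv (pair ρV ρW g) hg y hy)
  rw [e1, hv y hy _ (mul_mem ρV ρW hz hg)]
  show z.1 (ρV g (y.1 v)) = _
  rw [e3]

theorem range_le_Usub (hrel : Rel ρV ρW) {a : Module.End k V}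
    (ha : ((a, 0) : Pr k V) ∈ Asub ρV ρW) (v : V) : a v ∈ Usub ρV ρW := by
  intro y hy z hz
  have h := congrArg (fun f : Module.End k V => f v) (comm_mul_eq_zero hrel ha hy hz)
  exact h

/-- every matrix is the second component of an element of `A`. -/
theorem exists_fst (hspan : Submodule.span k (Set.range ρW) = ⊤) (B : Matrix (Fin 2) (Fin 2) k) :
    ∃ a : Module.End k V, ((a, B) : Pr k V) ∈ Asub ρV ρW := by
  have hB : B ∈ Submodule.span k (Set.range ρW) := by rw [hspan]; exact Submodule.mem_top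
  induction hB using Submodule.span_induction with
  | mem B hB =>
    obtain ⟨g, rfl⟩ := hB
    exact ⟨ρV g, pair_mem ρV ρW g⟩
  | zero => exact ⟨0, Submodule.zero_mem _⟩
  | add B C _ _ hB hC =>
    obtain ⟨a, ha⟩ := hB
    obtain ⟨c, hc⟩ := hC
    exact ⟨a + c, Submodule.add_mem _ ha hc⟩
  | smul t B _ hB =>
    obtain ⟨a, ha⟩ := hB
    exact ⟨t • a, Submodule.smul_mem _ t ha⟩

/-! ### the commutative case is impossible -/

theorem sq_eq_zero (h2 : (2 : k) ≠ 0) (hrel : Rel ρV ρW) {a : Module.End k V}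
    {N : Matrix (Fin 2) (Fin 2) k} (ha : ((a, N) : Pr k V) ∈ Asub ρV ρW) (htr : N.trace = 0)
    (hsq : N * N = 0) : a * a = 0 := by
  have h := congrArg Prod.fst (star_mul hrel ha ha)
  rw [star_fst, Prod.fst_mul, Prod.fst_mul, star_fst] at h
  simp only [Prod.snd_mul, hsq, htr, Matrix.trace_zero, zero_smul, zero_sub, neg_mul_neg] at h
  have h3 : (2 : k) • (a * a) = 0 := by
    rw [two_smul]
    nth_rewrite 1 [← h]
    exact neg_add_cancel _
  exact (smul_eq_zero.mp h3).resolve_left h2

theorem eq_zero_of_sq [Nontrivial V]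
    (hsimple : ∀ U : Submodule k V, (∀ g, ∀ v ∈ U, ρV g v ∈ U) → U = ⊥ ∨ U = ⊤)
    (hU : Usub ρV ρW = ⊤) {a : Module.End k V} {N : Matrix (Fin 2) (Fin 2) k}
    (ha : ((a, N) : Pr k V) ∈ Asub ρV ρW) (hsq : a * a = 0) : a = 0 := by
  have hstab : ∀ g, ∀ v ∈ LinearMap.ker a, ρV g v ∈ LinearMap.ker a := by
    intro g v hv
    rw [LinearMap.mem_ker] at hv ⊢
    have hvU : v ∈ Usub ρV ρW := by rw [hU]; exact Submodule.mem_top
    have h := hvU _ ha _ (pair_mem ρV ρW g)
    show a (ρV g v) = 0
    have h' : a (ρV g v) = ρV g (a v) := h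
    rw [h', hv, map_zero]
  rcases hsimple _ hstab with h | h
  · exfalso
    obtain ⟨v, hv⟩ := exists_ne (0 : V)
    have h1 : a v ∈ LinearMap.ker a := by
      rw [LinearMap.mem_ker]
      have := congrArg (fun f : Module.End k V => f v) hsq
      exact this
    rw [h, Submodule.mem_bot] at h1
    have h2 : v ∈ LinearMap.ker a := LinearMap.mem_ker.mpr h1
    rw [h, Submodule.mem_bot] at h2
    exact hv h2
  · exact LinearMap.ker_eq_top.mp h

theorem false_of_Usub_eq_top (h2 : (2 : k) ≠ 0) [Nontrivial V] (hrel : Rel ρV ρW)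
    (hspan : Submodule.span k (Set.range ρW) = ⊤)
    (hsimple : ∀ U : Submodule k V, (∀ g, ∀ v ∈ U, ρV g v ∈ U) → U = ⊥ ∨ U = ⊤)
    (hU : Usub ρV ρW = ⊤) : False := by
  obtain ⟨a, ha⟩ := exists_fst (ρV := ρV) hspan !![0, 1; 0, 0]
  obtain ⟨c, hc⟩ := exists_fst (ρV := ρV) hspan !![0, 0; 1, 0]
  have htr1 : (!![0, 1; 0, 0] : Matrix (Fin 2) (Fin 2) k).trace = 0 := by
    simp [Matrix.trace_fin_two]
  have htr2 : (!![0, 0; 1, 0] : Matrix (Fin 2) (Fin 2) k).trace = 0 := by
    simp [Matrix.trace_fin_two]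
  have hsq1 : (!![0, 1; 0, 0] : Matrix (Fin 2) (Fin 2) k) * !![0, 1; 0, 0] = 0 := by
    ext i j; fin_cases i <;> fin_cases j <;> simp [Matrix.mul_apply, Fin.sum_univ_two]
  have hsq2 : (!![0, 0; 1, 0] : Matrix (Fin 2) (Fin 2) k) * !![0, 0; 1, 0] = 0 := by
    ext i j; fin_cases i <;> fin_cases j <;> simp [Matrix.mul_apply, Fin.sum_univ_two]
  have ha0 : a = 0 := eq_zero_of_sq hsimple hU ha (sq_eq_zero h2 hrel ha htr1 hsq1)
  have hc0 : c = 0 := eq_zero_of_sq hsimple hU hc (sq_eq_zero h2 hrel hc htr2 hsq2)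
  subst ha0 hc0
  have h := congrArg Prod.fst (star_mul hrel ha hc)
  rw [star_fst, Prod.fst_mul, Prod.fst_mul, star_fst, star_fst] at h
  have htr3 : ((!![0, 1; 0, 0] : Matrix (Fin 2) (Fin 2) k) * !![0, 0; 1, 0]).trace = 1 := by
    simp [Matrix.trace_fin_two, Matrix.mul_apply, Fin.sum_univ_two]
  simp only [Prod.snd_mul, htr3, htr1, htr2, mul_zero, sub_zero, zero_smul, one_smul] at h
  obtain ⟨v, hv⟩ := exists_ne (0 : V)
  have := congrArg (fun f : Module.End k V => f v) h
  exact hv this

/-! ### the case `U = 0`: `V` is a simple module over `M₂(k)` -/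

section Theta

variable (hrel : Rel ρV ρW) (hspan : Submodule.span k (Set.range ρW) = ⊤)
  (hU : Usub ρV ρW = ⊥)

include hrel hU in
theorem fst_unique {a a' : Module.End k V} {B : Matrix (Fin 2) (Fin 2) k}
    (ha : ((a, B) : Pr k V) ∈ Asub ρV ρW) (ha' : ((a', B) : Pr k V) ∈ Asub ρV ρW) : a = a' := by
  have h : ((a - a', 0) : Pr k V) ∈ Asub ρV ρW := by
    have := Submodule.sub_mem _ ha ha'
    rwa [Prod.mk_sub_mk, sub_self] at this
  rw [← sub_eq_zero]
  refine LinearMap.ext fun v => ?_
  have := range_le_Usub hrel h v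
  rwa [hU, Submodule.mem_bot] at this

/-- the action of `M₂(k)` on `V`. -/
def theta (hspan : Submodule.span k (Set.range ρW) = ⊤) (ρV : G →* Module.End k V)
    (B : Matrix (Fin 2) (Fin 2) k) : Module.End k V :=
  Classical.choose (exists_fst (ρV := ρV) hspan B)

theorem theta_mem (B : Matrix (Fin 2) (Fin 2) k) :
    ((theta hspan ρV B, B) : Pr k V) ∈ Asub ρV ρW :=
  Classical.choose_spec (exists_fst (ρV := ρV) hspan B)

include hrel hU in
theorem theta_eq {a : Module.End k V} {B : Matrix (Fin 2) (Fin 2) k}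
    (ha : ((a, B) : Pr k V) ∈ Asub ρV ρW) : theta hspan ρV B = a :=
  fst_unique hrel hU (theta_mem hspan B) ha

include hrel hU in
theorem theta_add (B C : Matrix (Fin 2) (Fin 2) k) :
    theta hspan ρV (B + C) = theta hspan ρV B + theta hspan ρV C :=
  theta_eq hrel hspan hU (by
    have := Submodule.add_mem _ (theta_mem (ρV := ρV) hspan B) (theta_mem (ρV := ρV) hspan C)
    rwa [Prod.mk_add_mk] at this)

include hrel hU in
theorem theta_smul (t : k) (B : Matrix (Fin 2) (Fin 2) k) :
    theta hspan ρV (t • B) = t • theta hspan ρV B :=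
  theta_eq hrel hspan hU (by
    have := Submodule.smul_mem _ t (theta_mem (ρV := ρV) hspan B)
    rwa [Prod.smul_mk] at this)

include hrel hU in
theorem theta_mul (B C : Matrix (Fin 2) (Fin 2) k) :
    theta hspan ρV (B * C) = theta hspan ρV B * theta hspan ρV C :=
  theta_eq hrel hspan hU (by
    have := mul_mem ρV ρW (theta_mem (ρV := ρV) hspan B) (theta_mem (ρV := ρV) hspan C)
    rwa [Prod.mk_mul_mk] at this)

include hrel hU in
theorem theta_one : theta hspan ρV (1 : Matrix (Fin 2) (Fin 2) k) = 1 :=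
  theta_eq hrel hspan hU (one_mem ρV ρW)

include hrel hU in
theorem theta_rho (g : G) : theta hspan ρV (ρW g) = ρV g :=
  theta_eq hrel hspan hU (pair_mem ρV ρW g)

end Theta

/-! ### the main statement -/

/-- a nonzero vector of `k²` can be moved to any vector by a matrix. -/
theorem exists_mulVec_eq {w : Fin 2 → k} (hw : w ≠ 0) (w' : Fin 2 → k) :
    ∃ B : Matrix (Fin 2) (Fin 2) k, B *ᵥ w = w' := by
  obtain ⟨j, hj⟩ : ∃ j, w j ≠ 0 := by
    by_contra h
    push Not at h
    exact hw (funext h)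
  refine ⟨vecMulVec w' (Pi.single j (w j)⁻¹), ?_⟩
  rw [vecMulVec_mulVec]
  have : (Pi.single j (w j)⁻¹ : Fin 2 → k) ⬝ᵥ w = 1 := by
    rw [single_dotProduct, inv_mul_cancel₀ hj]
  rw [this]
  ext i
  simp

/-- **BLR, two-dimensional case.** -/
theorem blr (h2 : (2 : k) ≠ 0) [Nontrivial V] (ρV : G →* Module.End k V)
    (ρW : G →* Matrix (Fin 2) (Fin 2) k)
    (hspan : Submodule.span k (Set.range ρW) = ⊤)
    (hsimple : ∀ U : Submodule k V, (∀ g, ∀ v ∈ U, ρV g v ∈ U) → U = ⊥ ∨ U = ⊤)
    (hrel : Rel ρV ρW) :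
    ∃ f : (Fin 2 → k) ≃ₗ[k] V, ∀ (g : G) (w : Fin 2 → k), f (ρW g *ᵥ w) = ρV g (f w) := by
  classical
  have hU : Usub ρV ρW = ⊥ := by
    rcases hsimple (Usub ρV ρW) (fun g v hv => Usub_stable g hv) with h | h
    · exact h
    · exact (false_of_Usub_eq_top h2 hrel hspan hsimple h).elim
  set θ := theta hspan ρV with hθ
  have θadd : ∀ B C, θ (B + C) = θ B + θ C := theta_add hrel hspan hU
  have θsmul : ∀ (t : k) B, θ (t • B) = t • θ B := theta_smul hrel hspan hU
  have θmul : ∀ B C, θ (B * C) = θ B * θ C := theta_mul hrel hspan hU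
  have θone : θ 1 = 1 := theta_one hrel hspan hU
  have θrho : ∀ g, θ (ρW g) = ρV g := theta_rho hrel hspan hU
  -- a rank one idempotent acting nontrivially
  obtain ⟨v₀, hv₀⟩ := exists_ne (0 : V)
  let e : Fin 2 → Matrix (Fin 2) (Fin 2) k := fun i => vecMulVec (Pi.single i 1) (Pi.single i 1)
  have hsum : e 0 + e 1 = 1 := by
    ext i j
    fin_cases i <;> fin_cases j <;> simp [e, vecMulVec_apply, Pi.single_apply]
  obtain ⟨i, hi⟩ : ∃ i, θ (e i) v₀ ≠ 0 := by
    by_contra h
    push Not at h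
    have h1 : θ (e 0 + e 1) v₀ = 0 := by
      rw [θadd, LinearMap.add_apply, h 0, h 1, add_zero]
    rw [hsum, θone] at h1
    exact hv₀ h1
  set u : Fin 2 → k := Pi.single i 1 with hu
  set v' : V := θ (e i) v₀ with hv'
  have hee : e i * e i = e i := by
    show vecMulVec u u * vecMulVec u u = vecMulVec u u
    rw [vecMulVec_mul_vecMulVec]
    have : u ⬝ᵥ u = 1 := by rw [hu, single_dotProduct, one_mul, Pi.single_eq_same]
    rw [this, one_smul]
  -- the map
  let f : (Fin 2 → k) →ₗ[k] V :=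
    { toFun := fun w => θ (vecMulVec w u) v'
      map_add' := fun w w' => by
        rw [add_vecMulVec, θadd, LinearMap.add_apply]
      map_smul' := fun t w => by
        rw [smul_vecMulVec, θsmul, LinearMap.smul_apply, RingHom.id_apply] }
  have hf : ∀ (B : Matrix (Fin 2) (Fin 2) k) (w : Fin 2 → k), f (B *ᵥ w) = θ B (f w) := by
    intro B w
    show θ (vecMulVec (B *ᵥ w) u) v' = θ B (θ (vecMulVec w u) v')
    rw [← mul_vecMulVec, θmul]
    rfl
  have hfu : f u = v' := by
    show θ (vecMulVec u u) v' = v'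
    rw [hv']
    show θ (e i) (θ (e i) v₀) = θ (e i) v₀
    have := congrArg (fun F : Module.End k V => F v₀) (θmul (e i) (e i))
    rw [hee] at this
    exact this.symm
  have hinj : Function.Injective f := by
    rw [← LinearMap.ker_eq_bot, Submodule.eq_bot_iff]
    intro w hw
    by_contra hw0
    obtain ⟨B, hB⟩ := exists_mulVec_eq hw0 u
    have h1 : f u = 0 := by
      rw [← hB, hf, LinearMap.mem_ker.mp hw, map_zero]
    rw [hfu] at h1
    exact hi h1
  have hsurj : Function.Surjective f := by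
    rw [← LinearMap.range_eq_top]
    rcases hsimple (LinearMap.range f) (by
      rintro g _ ⟨w, rfl⟩
      exact ⟨ρW g *ᵥ w, by rw [hf, θrho]⟩) with h | h
    · exfalso
      have h1 : f u ∈ LinearMap.range f := ⟨u, rfl⟩
      rw [h, Submodule.mem_bot, hfu] at h1
      exact hi h1
    · exact h
  refine ⟨LinearEquiv.ofBijective f ⟨hinj, hsurj⟩, fun g w => ?_⟩
  show f (ρW g *ᵥ w) = ρV g (f w)
  rw [hf, θrho]

end

end Fermat.Agent.MP.HECKE.Blr5
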