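/-
Programme MP (row 38 via S44), chapter HECKE (helper5): **transfer of the Eichler–Shimura relation
from Frobenius elements to the whole group** (abstract; Mathlib + `Blr5` + two Mathlib-only bricks).

`k` a field of characteristic `≠ 2`, `G` a group, `ρW : G →* M₂(k)` with image spanning `M₂(k)`,
`ρV : G →* End V`, `ε : G →* k` ("cyclotomic character"), and a set `Frob` of Frobenius data
`(φ, a, ℓ)` with
* `ρW φ ² − a ρW φ + ℓ = 0`, `ρV φ ² − a ρV φ + ℓ = 0`, `ε φ = ℓ`;
* (Chebotarev, generator form) every `g` has a Frobenius datum `(φ, a, ℓ)` and `i j` with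
  `ρW φ ^ j = ρW g`, `ρW g ^ i = ρW φ`, `ρV φ ^ j = ρV g`, `ε φ ^ j = ε g`.

Then `det ρW = ε` (`det_eq`), `tr ρW φ = a`, `det ρW φ = ℓ` for every Frobenius datum
(`frob_trace_det`), every `g` satisfies on `V` the characteristic polynomial of `ρW g`
(`rel_of_frob`), hence (`Blr5.blr`) a simple `V ≠ 0` is equivariantly `k²` (`equiv_of_frob`);
and for `s = ± 1` there is a Frobenius datum with `1 + s a + ℓ ≠ 0` (`exists_aux_frob`).
-/
import Mathlib
import Fermat.Agent.MP.HECKE.Blr5
import Fermat.Agent.ES.Q58.CyclicVec18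
import Fermat.Agent.ES.ALG31.Lucas15

set_option autoImplicit false
set_option linter.unusedSectionVars false
set_option linter.style.longLine false

namespace Fermat.Agent.MP.HECKE.RelTransfer5

open Matrix
open Fermat.Agent.ES.ALG31.Lucas15 (lucasV lucasV_zero lucasV_one lucasV_add_two trace_pow)

noncomputable section

/-! ### Lucas identities in an algebra -/

section Lucas

variable {k : Type*} [CommRing k] {A : Type*} [Ring A] [Algebra k A]

theorem pow_add_two_of_rel {t d : k} {B : A} (hB : B * B - t • B + d • (1 : A) = 0) (j : ℕ) :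
    B ^ (j + 2) = t • B ^ (j + 1) - d • B ^ j := by
  have h2 : B * B = t • B - d • (1 : A) := by
    have : B * B = (B * B - t • B + d • (1 : A)) + (t • B - d • (1 : A)) := by abel
    rw [this, hB, zero_add]
  rw [pow_add, pow_two, h2, mul_sub, mul_smul_comm, mul_smul_comm, mul_one, pow_succ]

/-- the conjugate root `t − B` satisfies the same quadratic. -/
theorem conj_rel {t d : k} {B : A} (hB : B * B - t • B + d • (1 : A) = 0) :
    (t • (1 : A) - B) * (t • (1 : A) - B) - t • (t • (1 : A) - B) + d • (1 : A) = 0 := by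
  rw [← hB]
  simp only [sub_mul, mul_sub, smul_mul_assoc, mul_smul_comm, one_mul, mul_one, smul_sub]
  abel

theorem mul_conj {t d : k} {B : A} (hB : B * B - t • B + d • (1 : A) = 0) :
    B * (t • (1 : A) - B) = d • (1 : A) := by
  have h2 : B * B = t • B - d • (1 : A) := by
    have : B * B = (B * B - t • B + d • (1 : A)) + (t • B - d • (1 : A)) := by abel
    rw [this, hB, zero_add]
  rw [mul_sub, mul_smul_comm, mul_one, h2]
  abel

theorem conj_mul {t d : k} {B : A} (hB : B * B - t • B + d • (1 : A) = 0) :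
    (t • (1 : A) - B) * B = d • (1 : A) := by
  have h2 : B * B = t • B - d • (1 : A) := by
    have : B * B = (B * B - t • B + d • (1 : A)) + (t • B - d • (1 : A)) := by abel
    rw [this, hB, zero_add]
  rw [sub_mul, smul_mul_assoc, one_mul, h2]
  abel

/-- `B ^ j + (t − B) ^ j = V_j(t, d)`. -/
theorem pow_add_conj_pow {t d : k} {B : A} (hB : B * B - t • B + d • (1 : A) = 0) (j : ℕ) :
    B ^ j + (t • (1 : A) - B) ^ j = lucasV t d j • (1 : A) := by
  induction j using Nat.twoStepInduction with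
  | zero => rw [pow_zero, pow_zero, lucasV_zero, two_smul]
  | one => rw [pow_one, pow_one, lucasV_one]; abel
  | more j h0 h1 =>
    rw [pow_add_two_of_rel hB, pow_add_two_of_rel (conj_rel hB), lucasV_add_two, sub_smul,
      mul_smul, mul_smul, ← h0, ← h1, smul_add, smul_add]
    abel

theorem pow_mul_conj_pow {t d : k} {B : A} (hB : B * B - t • B + d • (1 : A) = 0) (j : ℕ) :
    B ^ j * (t • (1 : A) - B) ^ j = d ^ j • (1 : A) := by
  have hc : Commute B (t • (1 : A) - B) := by
    unfold Commute SemiconjBy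
    rw [mul_conj hB, conj_mul hB]
  rw [← hc.mul_pow, mul_conj hB, smul_pow, one_pow]

/-- **powers satisfy the Lucas quadratic**. -/
theorem pow_rel {t d : k} {B : A} (hB : B * B - t • B + d • (1 : A) = 0) (j : ℕ) :
    B ^ j * B ^ j - lucasV t d j • B ^ j + d ^ j • (1 : A) = 0 := by
  have h1 := pow_add_conj_pow hB j
  have h2 := pow_mul_conj_pow hB j
  have : lucasV t d j • B ^ j = (lucasV t d j • (1 : A)) * B ^ j := by
    rw [smul_mul_assoc, one_mul]
  rw [this, ← h1, add_mul, ← h2]
  have hc : Commute B (t • (1 : A) - B) := by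
    unfold Commute SemiconjBy
    rw [mul_conj hB, conj_mul hB]
  rw [(hc.pow_pow j j).eq]
  abel

end Lucas

/-! ### `2 × 2` matrices over a field -/

section Mat

variable {k : Type*} [Field k]

/-- scalar matrices. -/
def IsScalar (B : Matrix (Fin 2) (Fin 2) k) : Prop := ∃ c : k, B = c • (1 : Matrix (Fin 2) (Fin 2) k)

theorem isUnit_of_not_isScalar {B : Matrix (Fin 2) (Fin 2) k} (h : ¬ IsScalar B) :
    IsUnit (B 0 1) ∨ IsUnit (B 1 0) ∨ IsUnit (B 0 0 - B 1 1) := by
  by_contra hcon
  push Not at hcon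
  obtain ⟨h1, h2, h3⟩ := hcon
  rw [isUnit_iff_ne_zero, not_not] at h1 h2 h3
  apply h
  refine ⟨B 0 0, ?_⟩
  ext i j
  fin_cases i <;> fin_cases j
  · simp
  · simpa using h1
  · simpa using h2
  · have h4 : B 1 1 = B 0 0 := (sub_eq_zero.mp h3).symm
    simpa using h4

theorem trace_det_of_rel_of_not_isScalar {B : Matrix (Fin 2) (Fin 2) k} {a ℓ : k}
    (hrel : B * B - a • B + ℓ • (1 : Matrix (Fin 2) (Fin 2) k) = 0) (h : ¬ IsScalar B) :
    B.trace = a ∧ B.det = ℓ :=
  Fermat.Agent.ES.Q58.CyclicVec18.trace_det_of_rel_of_isUnit hrel (isUnit_of_not_isScalar h)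

theorem isScalar_pow {B : Matrix (Fin 2) (Fin 2) k} (h : IsScalar B) (j : ℕ) : IsScalar (B ^ j) := by
  obtain ⟨c, rfl⟩ := h
  exact ⟨c ^ j, by rw [smul_pow, one_pow]⟩

theorem det_pow_eq (B : Matrix (Fin 2) (Fin 2) k) (j : ℕ) : (B ^ j).det = B.det ^ j :=
  Matrix.det_pow B j

end Mat

/-! ### The transfer -/

section Transfer

variable {k : Type*} [Field k] {G : Type*} [Group G] {V : Type*} [AddCommGroup V] [Module k V]

/-- the hypotheses on the Frobenius data. -/
structure FrobData (ρV : G →* Module.End k V) (ρW : G →* Matrix (Fin 2) (Fin 2) k) (ε : G →* k)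
    (Frob : G → k → k → Prop) : Prop where
  relW : ∀ φ a ℓ, Frob φ a ℓ →
    ρW φ * ρW φ - a • ρW φ + ℓ • (1 : Matrix (Fin 2) (Fin 2) k) = 0
  relV : ∀ φ a ℓ, Frob φ a ℓ → ρV φ * ρV φ - a • ρV φ + ℓ • (1 : Module.End k V) = 0
  eps : ∀ φ a ℓ, Frob φ a ℓ → ε φ = ℓ
  cheb : ∀ g : G, ∃ φ a ℓ, ∃ i j : ℕ, Frob φ a ℓ ∧ ρW φ ^ j = ρW g ∧ ρW g ^ i = ρW φ ∧
    ρV φ ^ j = ρV g ∧ ε φ ^ j = ε g

variable {ρV : G →* Module.End k V} {ρW : G →* Matrix (Fin 2) (Fin 2) k} {ε : G →* k}
  {Frob : G → k → k → Prop}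

theorem eps_ne_zero (ε : G →* k) (g : G) : ε g ≠ 0 := by
  intro h
  have : ε g * ε g⁻¹ = 1 := by rw [← map_mul, mul_inv_cancel, map_one]
  rw [h, zero_mul] at this
  exact zero_ne_one this

theorem rhoW_mul_inv (ρW : G →* Matrix (Fin 2) (Fin 2) k) (g : G) : ρW g * ρW g⁻¹ = 1 := by
  rw [← map_mul, mul_inv_cancel, map_one]

/-- `det ρW g = ε g` for non-scalar `g`. -/
theorem det_eq_of_not_isScalar (H : FrobData ρV ρW ε Frob) (g : G) (hg : ¬ IsScalar (ρW g)) :
    (ρW g).det = ε g := by
  obtain ⟨φ, a, ℓ, i, j, hF, hj, -, -, hε⟩ := H.cheb g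
  have hφ : ¬ IsScalar (ρW φ) := by
    intro h
    apply hg
    rw [← hj]
    exact isScalar_pow h j
  have hd := (trace_det_of_rel_of_not_isScalar (H.relW φ a ℓ hF) hφ).2
  rw [← hj, Matrix.det_pow, hd, ← hε, H.eps φ a ℓ hF]

theorem exists_not_isScalar (hspan : Submodule.span k (Set.range ρW) = ⊤) :
    ∃ h : G, ¬ IsScalar (ρW h) := by
  by_contra hcon
  push Not at hcon
  have hle : Submodule.span k (Set.range ρW) ≤
      Submodule.span k {(1 : Matrix (Fin 2) (Fin 2) k)} := by
    rw [Submodule.span_le]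
    rintro _ ⟨g, rfl⟩
    obtain ⟨c, hc⟩ := hcon g
    rw [hc]
    exact Submodule.smul_mem _ _ (Submodule.subset_span rfl)
  rw [hspan, top_le_iff] at hle
  have hmem : (Matrix.of ![![0, 1], ![0, 0]] : Matrix (Fin 2) (Fin 2) k) ∈
      Submodule.span k {(1 : Matrix (Fin 2) (Fin 2) k)} := by rw [hle]; trivial
  obtain ⟨c, hc⟩ := Submodule.mem_span_singleton.mp hmem
  have h01 := congrFun (congrFun hc 0) 1
  simp at h01

/-- **`det ρW = ε`**. -/
theorem det_eq (H : FrobData ρV ρW ε Frob) (hspan : Submodule.span k (Set.range ρW) = ⊤)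
    (g : G) : (ρW g).det = ε g := by
  by_cases hg : IsScalar (ρW g)
  · obtain ⟨h, hh⟩ := exists_not_isScalar hspan
    obtain ⟨c, hc⟩ := hg
    have hc0 : c ≠ 0 := by
      intro h0
      have := rhoW_mul_inv ρW g
      rw [hc, h0, zero_smul, zero_mul] at this
      exact zero_ne_one this
    have hgh : ¬ IsScalar (ρW (g * h)) := by
      rintro ⟨c', hc'⟩
      apply hh
      refine ⟨c⁻¹ * c', ?_⟩
      rw [map_mul, hc, smul_mul_assoc, one_mul] at hc'
      rw [mul_smul, ← hc', smul_smul, inv_mul_cancel₀ hc0, one_smul]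
    have h1 := det_eq_of_not_isScalar H (g * h) hgh
    have h2 := det_eq_of_not_isScalar H h hh
    rw [map_mul, Matrix.det_mul, map_mul, h2] at h1
    exact mul_right_cancel₀ (eps_ne_zero ε h) h1
  · exact det_eq_of_not_isScalar H g hg

/-- **trace and determinant at Frobenius data**. -/
theorem frob_trace_det (h2 : (2 : k) ≠ 0) (H : FrobData ρV ρW ε Frob)
    (hspan : Submodule.span k (Set.range ρW) = ⊤) {φ : G} {a ℓ : k} (hF : Frob φ a ℓ) :
    (ρW φ).trace = a ∧ (ρW φ).det = ℓ := by
  by_cases hφ : IsScalar (ρW φ)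
  · have hdet : (ρW φ).det = ℓ := by rw [det_eq H hspan, H.eps φ a ℓ hF]
    refine ⟨?_, hdet⟩
    obtain ⟨c, hc⟩ := hφ
    have hrel := H.relW φ a ℓ hF
    rw [hc] at hdet hrel
    have hdet' : c * c = ℓ := by
      rw [← hdet]
      simp [Matrix.det_fin_two, pow_two]
    have h00 := congrFun (congrFun hrel 0) 0
    simp only [Matrix.add_apply, Matrix.sub_apply, Matrix.mul_apply, Fin.sum_univ_two,
      Matrix.smul_apply, Matrix.one_apply_eq, Matrix.one_apply_ne, ne_eq, Fin.zero_eq_one_iff,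
      Fin.one_eq_zero_iff, OfNat.ofNat_ne_one, not_false_eq_true, smul_eq_mul, mul_one, mul_zero,
      add_zero, Matrix.zero_apply] at h00
    have hc0 : c ≠ 0 := by
      intro h0
      have := rhoW_mul_inv ρW φ
      rw [hc, h0, zero_smul, zero_mul] at this
      exact zero_ne_one this
    rw [hc]
    have : c * (2 * c - a) = 0 := by
      rw [← hdet'] at h00
      linear_combination h00
    have h3 : 2 * c - a = 0 := by
      rcases mul_eq_zero.mp this with h | h
      · exact absurd h hc0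
      · exact h
    simp only [Matrix.trace_fin_two, Matrix.smul_apply, Matrix.one_apply_eq, smul_eq_mul, mul_one]
    linear_combination h3
  · exact trace_det_of_rel_of_not_isScalar (H.relW φ a ℓ hF) hφ

/-- **the relation for every `g`**. -/
theorem rel_of_frob (h2 : (2 : k) ≠ 0) (H : FrobData ρV ρW ε Frob)
    (hspan : Submodule.span k (Set.range ρW) = ⊤) : Blr5.Rel ρV ρW := by
  intro g
  obtain ⟨φ, a, ℓ, i, j, hF, hj, -, hjV, -⟩ := H.cheb g
  obtain ⟨ht, hd⟩ := frob_trace_det h2 H hspan hF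
  have hV := H.relV φ a ℓ hF
  have := pow_rel hV j
  rw [hjV] at this
  rw [← hj, trace_pow, Matrix.det_pow, ht, hd]
  exact this

/-- **BLR for Frobenius data**. -/
theorem equiv_of_frob (h2 : (2 : k) ≠ 0) [Nontrivial V] (H : FrobData ρV ρW ε Frob)
    (hspan : Submodule.span k (Set.range ρW) = ⊤)
    (hsimple : ∀ U : Submodule k V, (∀ g, ∀ v ∈ U, ρV g v ∈ U) → U = ⊥ ∨ U = ⊤) :
    ∃ f : (Fin 2 → k) ≃ₗ[k] V, ∀ g w, f (ρW g *ᵥ w) = ρV g (f w) :=
  Blr5.blr h2 ρV ρW hspan hsimple (rel_of_frob h2 H hspan)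

/-- the trivial one-dimensional representation. -/
def trivRep (k G : Type*) [Field k] [Group G] : G →* Module.End k k := 1

/-- **an auxiliary Frobenius datum** with `1 + s a + ℓ ≠ 0`, `s = ± 1`. -/
theorem exists_aux_frob (h2 : (2 : k) ≠ 0) (H : FrobData ρV ρW ε Frob)
    (hspan : Submodule.span k (Set.range ρW) = ⊤) (s : k) (hs : s = 1 ∨ s = -1) :
    ∃ φ a ℓ, Frob φ a ℓ ∧ 1 + s * a + ℓ ≠ 0 := by
  rcases hs with rfl | rfl
  · -- `s = 1`: the Frobenius datum attached to `g = 1`
    obtain ⟨φ, a, ℓ, i, j, hF, -, hi, -, -⟩ := H.cheb 1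
    refine ⟨φ, a, ℓ, hF, ?_⟩
    obtain ⟨ht, hd⟩ := frob_trace_det h2 H hspan hF
    rw [map_one, one_pow] at hi
    rw [← hi] at ht hd
    rw [← ht, ← hd]
    simp only [Matrix.trace_fin_two, Matrix.one_apply_eq, Matrix.det_one, one_mul]
    intro h
    have h4 : (2 : k) * 2 = 0 := by linear_combination h
    rcases mul_eq_zero.mp h4 with h | h <;> exact h2 h
  · -- `s = -1`: otherwise the trivial representation satisfies the relation
    by_contra hcon
    push Not at hcon
    have hall : ∀ g : G, 1 - (ρW g).trace + (ρW g).det = 0 := by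
      intro g
      obtain ⟨φ, a, ℓ, i, j, hF, hj, -, -, -⟩ := H.cheb g
      obtain ⟨ht, hd⟩ := frob_trace_det h2 H hspan hF
      have h1 := hcon φ a ℓ hF
      -- `1` is a root of `X² − a X + ℓ`
      have hroot : (1 : k) * 1 - a • (1 : k) + ℓ • (1 : k) = 0 := by
        rw [smul_eq_mul, smul_eq_mul]
        linear_combination h1
      have := pow_rel hroot j
      rw [← hj, trace_pow, Matrix.det_pow, ht, hd]
      rw [one_pow, smul_eq_mul, smul_eq_mul] at this
      linear_combination this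
    have hrel : Blr5.Rel (trivRep k G) ρW := by
      intro g
      have : (trivRep k G) g = 1 := rfl
      rw [this, one_mul]
      have h := hall g
      have : (1 : Module.End k k) - (ρW g).trace • (1 : Module.End k k) +
          (ρW g).det • (1 : Module.End k k) =
          (1 - (ρW g).trace + (ρW g).det) • (1 : Module.End k k) := by
        rw [add_smul, sub_smul, one_smul]
      rw [this, h, zero_smul]
    obtain ⟨f, -⟩ := Blr5.blr h2 (trivRep k G) ρW hspan
      (fun U _ => eq_bot_or_eq_top U) hrel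
    have := f.finrank_eq
    rw [Module.finrank_self, Module.finrank_fin_fun] at this
    omega

end Transfer

end

end Fermat.Agent.MP.HECKE.RelTransfer5
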