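/-
Programme MP (row 38 via S44), chapter HECKE (helper5): **the Boston–Lenstra–Ribet step for group
actions** (abstract; Mathlib + `Blr5`, `RelTransfer5`, `AbsIrr5`).

`Γ` a group acting additively on `T` (a two-dimensional `𝔽_p`-space, irreducible: for us `E[p]`) and
on `J` (for us `J₀(N)(ℚ̄)`); `V₀ ≤ J` a finite nonzero `Γ`-stable subgroup killed by `p`;
`ε : Γ →* 𝔽_p`; Frobenius data `(φ, a, ℓ)` (`a ℓ : ℤ`) satisfying `φ² − a φ + ℓ = 0` on `T` and on
`V₀` and `ε φ = ℓ`; the generator form of Chebotarev; an element `c` with `c² = 1` on `T` and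
`ε c = −1`.  Then (`exists_equiv`) some `Γ`-stable `V ≤ V₀` is `Γ`-equivariantly isomorphic to `T`,
and for `s = ± 1` there is a Frobenius datum with `p ∤ 1 + s a + ℓ`.
-/
import Mathlib
import Fermat.Agent.MP.HECKE.RelTransfer5
import Fermat.Agent.MP.HECKE.AbsIrr5

set_option autoImplicit false
set_option linter.unusedSectionVars false
set_option linter.style.longLine false
set_option linter.style.haveILetI false

namespace Fermat.Agent.MP.HECKE.BlrAct5

open Matrix
open Fermat.Agent.MP.HECKE.RelTransfer5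

noncomputable section

variable {Γ : Type*} [Group Γ] (p : ℕ) [hp : Fact p.Prime]

/-! ### The side of `T` -/

section TSide

variable (T : Type*) [AddCommGroup T] [Module (ZMod p) T] [DistribMulAction Γ T]

/-- the action through linear maps. -/
def rhoT : Γ →* Module.End (ZMod p) T where
  toFun g := (DistribSMul.toAddMonoidHom T g).toZModLinearMap p
  map_one' := LinearMap.ext fun x => one_smul Γ x
  map_mul' g h := LinearMap.ext fun x => mul_smul g h x

variable {T}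

theorem rhoT_apply (g : Γ) (x : T) : rhoT p T g x = g • x := rfl

/-- the matrix representation in a basis. -/
def rhoW (b : Module.Basis (Fin 2) (ZMod p) T) : Γ →* Matrix (Fin 2) (Fin 2) (ZMod p) :=
  ((LinearMap.toMatrixAlgEquiv b : Module.End (ZMod p) T ≃ₐ[ZMod p] _) :
    Module.End (ZMod p) T →* _).comp (rhoT p T)

theorem rhoW_eq (b : Module.Basis (Fin 2) (ZMod p) T) (g : Γ) :
    rhoW p b g = LinearMap.toMatrixAlgEquiv b (rhoT p T g) := rfl

theorem rhoW_mulVec (b : Module.Basis (Fin 2) (ZMod p) T) (g : Γ) (x : T) :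
    rhoW p b g *ᵥ b.equivFun x = b.equivFun (g • x) := by
  have := LinearMap.toMatrix_mulVec_repr b b (rhoT p T g) x
  exact this

theorem rhoW_eq_of_forall (b : Module.Basis (Fin 2) (ZMod p) T) {g h : Γ}
    (hgh : ∀ x : T, g • x = h • x) : rhoW p b g = rhoW p b h := by
  rw [rhoW_eq, rhoW_eq]
  congr 1
  exact LinearMap.ext hgh

/-- the quadratic relation in matrix form. -/
theorem relW_of_relT (b : Module.Basis (Fin 2) (ZMod p) T) {φ : Γ} {a ℓ : ℤ}
    (h : ∀ x : T, φ • φ • x - a • (φ • x) + ℓ • x = 0) :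
    rhoW p b φ * rhoW p b φ - (a : ZMod p) • rhoW p b φ +
      (ℓ : ZMod p) • (1 : Matrix (Fin 2) (Fin 2) (ZMod p)) = 0 := by
  have h1 : rhoT p T φ * rhoT p T φ - (a : ZMod p) • rhoT p T φ +
      (ℓ : ZMod p) • (1 : Module.End (ZMod p) T) = 0 := by
    refine LinearMap.ext fun x => ?_
    simp only [LinearMap.add_apply, LinearMap.sub_apply, Module.End.mul_apply,
      LinearMap.smul_apply, Module.End.one_apply, rhoT_apply, LinearMap.zero_apply,
      Int.cast_smul_eq_zsmul]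
    exact h x
  have h2 := congrArg (LinearMap.toMatrixAlgEquiv b) h1
  rw [map_add, map_sub, map_mul, map_smul, map_smul, map_one, map_zero] at h2
  exact h2

end TSide

/-! ### The side of `J` -/

section VSide

variable {J : Type*} [AddCommGroup J] [DistribMulAction Γ J]

/-- the action on a stable subgroup. -/
def subAct (V : AddSubgroup J) (hVΓ : ∀ g : Γ, ∀ x ∈ V, g • x ∈ V) (g : Γ) : V →+ V where
  toFun x := ⟨g • (x : J), hVΓ g x x.2⟩
  map_zero' := Subtype.ext (smul_zero g)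
  map_add' x y := Subtype.ext (smul_add g (x : J) y)

/-- the action on a stable subgroup through linear maps. -/
def rhoV (V : AddSubgroup J) [Module (ZMod p) V] (hVΓ : ∀ g : Γ, ∀ x ∈ V, g • x ∈ V) :
    Γ →* Module.End (ZMod p) V where
  toFun g := (subAct V hVΓ g).toZModLinearMap p
  map_one' := LinearMap.ext fun x => Subtype.ext (one_smul Γ (x : J))
  map_mul' g h := LinearMap.ext fun x => Subtype.ext (mul_smul g h (x : J))

theorem rhoV_apply (V : AddSubgroup J) [Module (ZMod p) V]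
    (hVΓ : ∀ g : Γ, ∀ x ∈ V, g • x ∈ V) (g : Γ) (x : V) :
    ((rhoV p V hVΓ g x : V) : J) = g • (x : J) := rfl

theorem relV_of_rel (V : AddSubgroup J) [Module (ZMod p) V]
    (hVΓ : ∀ g : Γ, ∀ x ∈ V, g • x ∈ V) {φ : Γ} {a ℓ : ℤ}
    (h : ∀ x ∈ V, φ • φ • x - a • (φ • x) + ℓ • x = 0) :
    rhoV p V hVΓ φ * rhoV p V hVΓ φ - (a : ZMod p) • rhoV p V hVΓ φ +
      (ℓ : ZMod p) • (1 : Module.End (ZMod p) V) = 0 := by
  refine LinearMap.ext fun x => Subtype.ext ?_
  simp only [LinearMap.add_apply, LinearMap.sub_apply, Module.End.mul_apply,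
    LinearMap.smul_apply, Module.End.one_apply, LinearMap.zero_apply,
    Int.cast_smul_eq_zsmul, AddSubgroup.coe_add, AddSubgroup.coe_sub, AddSubgroup.coe_zsmul,
    rhoV_apply, AddSubgroup.coe_zero]
  exact h x x.2

/-- a minimal nonzero stable subgroup. -/
theorem exists_minimal (V₀ : AddSubgroup J) (hfin : (V₀ : Set J).Finite)
    (hΓ : ∀ g : Γ, ∀ x ∈ V₀, g • x ∈ V₀) (hne : V₀ ≠ ⊥) :
    ∃ V : AddSubgroup J, V ≤ V₀ ∧ V ≠ ⊥ ∧ (∀ g : Γ, ∀ x ∈ V, g • x ∈ V) ∧
      ∀ U : AddSubgroup J, U ≤ V → (∀ g : Γ, ∀ x ∈ U, g • x ∈ U) → U = ⊥ ∨ U = V := by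
  classical
  let S : ℕ → Prop := fun n => ∃ V : AddSubgroup J, V ≤ V₀ ∧ V ≠ ⊥ ∧
    (∀ g : Γ, ∀ x ∈ V, g • x ∈ V) ∧ (V : Set J).ncard = n
  have hS : ∃ n, S n := ⟨_, V₀, le_refl _, hne, hΓ, rfl⟩
  obtain ⟨V, hV₀, hVne, hVΓ, hcard⟩ := Nat.find_spec hS
  refine ⟨V, hV₀, hVne, hVΓ, ?_⟩
  intro U hUV hUΓ
  by_cases hU : U = ⊥
  · exact Or.inl hU
  · right
    have hmin : Nat.find hS ≤ (U : Set J).ncard :=
      Nat.find_min' hS ⟨U, hUV.trans hV₀, hU, hUΓ, rfl⟩
    rw [← hcard] at hmin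
    have hVfin : (V : Set J).Finite := hfin.subset hV₀
    have := Set.eq_of_subset_of_ncard_le (s := (U : Set J)) (t := (V : Set J)) hUV hmin hVfin
    exact SetLike.coe_injective this

end VSide

/-! ### The main statement -/

theorem two_ne_zero_zmod (hp2 : p ≠ 2) : (2 : ZMod p) ≠ 0 := by
  intro h
  have h1 : ((2 : ℕ) : ZMod p) = 0 := by exact_mod_cast h
  rw [ZMod.natCast_eq_zero_iff] at h1
  have := Nat.le_of_dvd (by norm_num) h1
  have h2 := hp.out.two_le
  omega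

/-- `det ρW = ε`, from a non-scalar element. -/
theorem det_eq' {k : Type*} [Field k] {G : Type*} [Group G] {V : Type*} [AddCommGroup V]
    [Module k V] {ρV : G →* Module.End k V} {ρW : G →* Matrix (Fin 2) (Fin 2) k} {ε : G →* k}
    {Frob : G → k → k → Prop} (H : FrobData ρV ρW ε Frob) (hns : ∃ h : G, ¬ IsScalar (ρW h))
    (g : G) : (ρW g).det = ε g := by
  by_cases hg : IsScalar (ρW g)
  · obtain ⟨h, hh⟩ := hns
    obtain ⟨c, hc⟩ := hg
    have hc0 : c ≠ 0 := by
      intro h0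
      have := rhoW_mul_inv ρW g
      rw [hc, h0, zero_smul, zero_mul] at this
      exact zero_ne_one this
    have hgh : ¬ IsScalar (ρW (g * h)) := by
      rintro ⟨c', hc'⟩
      apply hh
      refine ⟨c⁻¹ * c', ?_⟩
      rw [map_mul, hc, smul_mul_assoc, one_mul] at hc'
      rw [mul_smul, ← hc', smul_smul, inv_mul_cancel₀ hc0, one_smul]
    have h1 := det_eq_of_not_isScalar H (g * h) hgh
    have h2 := det_eq_of_not_isScalar H h hh
    rw [map_mul, Matrix.det_mul, map_mul, h2] at h1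
    exact mul_right_cancel₀ (eps_ne_zero ε h) h1
  · exact det_eq_of_not_isScalar H g hg

/-- an irreducible `ρW` has a non-scalar element. -/
theorem exists_not_isScalar_of_irr {k : Type*} [Field k] {G : Type*} [Group G]
    (ρW : G →* Matrix (Fin 2) (Fin 2) k)
    (hirr : ∀ U : Submodule k (Fin 2 → k), (∀ g, ∀ w ∈ U, ρW g *ᵥ w ∈ U) → U = ⊥ ∨ U = ⊤) :
    ∃ h : G, ¬ IsScalar (ρW h) := by
  by_contra hcon
  push Not at hcon
  set U : Submodule k (Fin 2 → k) := Submodule.span k {(Pi.single 0 1 : Fin 2 → k)} with hU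
  have hstab : ∀ g, ∀ w ∈ U, ρW g *ᵥ w ∈ U := by
    intro g w hw
    obtain ⟨c, hc⟩ := hcon g
    rw [hc, Matrix.smul_mulVec, Matrix.one_mulVec]
    exact U.smul_mem c hw
  rcases hirr U hstab with h | h
  · have : (Pi.single 0 1 : Fin 2 → k) ∈ U := Submodule.subset_span rfl
    rw [h, Submodule.mem_bot] at this
    have := congrFun this 0
    simp at this
  · have : (Pi.single 1 1 : Fin 2 → k) ∈ U := by rw [h]; trivial
    obtain ⟨c, hc⟩ := Submodule.mem_span_singleton.mp this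
    have := congrFun hc 1
    simp at this

theorem exists_equiv
    {T : Type*} [AddCommGroup T] [Module (ZMod p) T] [DistribMulAction Γ T]
    {J : Type*} [AddCommGroup J] [DistribMulAction Γ J]
    (hp2 : p ≠ 2) (hT2 : Module.finrank (ZMod p) T = 2)
    (hTirr : ∀ U : AddSubgroup T, (∀ g : Γ, ∀ x ∈ U, g • x ∈ U) → U = ⊥ ∨ U = ⊤)
    (V₀ : AddSubgroup J) (hfin : (V₀ : Set J).Finite) (hV₀p : ∀ x ∈ V₀, p • x = 0)
    (hV₀Γ : ∀ g : Γ, ∀ x ∈ V₀, g • x ∈ V₀) (hne : V₀ ≠ ⊥)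
    (ε : Γ →* ZMod p) (Frob : Γ → ℤ → ℤ → Prop)
    (relT : ∀ φ a ℓ, Frob φ a ℓ → ∀ x : T, φ • φ • x - a • (φ • x) + ℓ • x = 0)
    (relV : ∀ φ a ℓ, Frob φ a ℓ → ∀ x ∈ V₀, φ • φ • x - a • (φ • x) + ℓ • x = 0)
    (eps : ∀ φ a ℓ, Frob φ a ℓ → ε φ = (ℓ : ZMod p))
    (cheb : ∀ g : Γ, ∃ φ a ℓ, ∃ i j : ℕ, Frob φ a ℓ ∧ (∀ x : T, φ ^ j • x = g • x) ∧
      (∀ x : T, g ^ i • x = φ • x) ∧ (∀ x ∈ V₀, φ ^ j • x = g • x) ∧ ε φ ^ j = ε g)
    (c : Γ) (hcT : ∀ x : T, c • c • x = x) (hcε : ε c = -1) :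
    (∃ V : AddSubgroup J, V ≤ V₀ ∧ (∀ g : Γ, ∀ x ∈ V, g • x ∈ V) ∧
      ∃ e : T ≃+ V, ∀ (g : Γ) (x : T), ((e (g • x) : V) : J) = g • ((e x : V) : J)) ∧
    (∀ s : ℤ, s = 1 ∨ s = -1 → ∃ φ a ℓ, Frob φ a ℓ ∧ ¬ (p : ℤ) ∣ 1 + s * a + ℓ) := by
  classical
  have h2 : (2 : ZMod p) ≠ 0 := two_ne_zero_zmod p hp2
  -- a basis of `T`
  haveI : Module.Finite (ZMod p) T := Module.finite_of_finrank_pos (by rw [hT2]; norm_num)
  let b : Module.Basis (Fin 2) (ZMod p) T := Module.finBasisOfFinrankEq (ZMod p) T hT2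
  set ρW := rhoW (Γ := Γ) p b with hρW
  -- irreducibility in matrix form
  have hirrW : ∀ U : Submodule (ZMod p) (Fin 2 → ZMod p),
      (∀ g, ∀ w ∈ U, ρW g *ᵥ w ∈ U) → U = ⊥ ∨ U = ⊤ := by
    intro U hU
    set U' : AddSubgroup T := (U.comap b.equivFun.toLinearMap).toAddSubgroup with hU'
    have hmem : ∀ x : T, x ∈ U' ↔ b.equivFun x ∈ U := fun x => Iff.rfl
    have hstab : ∀ g : Γ, ∀ x ∈ U', g • x ∈ U' := by
      intro g x hx
      rw [hmem] at hx ⊢
      rw [← rhoW_mulVec]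
      exact hU g _ hx
    rcases hTirr U' hstab with h | h
    · left
      rw [Submodule.eq_bot_iff]
      intro u hu
      have : b.equivFun.symm u ∈ U' := by
        rw [hmem, LinearEquiv.apply_symm_apply]; exact hu
      rw [h, AddSubgroup.mem_bot] at this
      have h3 := congrArg b.equivFun this
      rw [LinearEquiv.apply_symm_apply, map_zero] at h3
      exact h3
    · right
      rw [Submodule.eq_top_iff']
      intro u
      have : b.equivFun.symm u ∈ U' := by rw [h]; trivial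
      rw [hmem, LinearEquiv.apply_symm_apply] at this
      exact this
  -- the minimal subgroup
  obtain ⟨V, hVV₀, hVne, hVΓ, hVmin⟩ := exists_minimal V₀ hfin hV₀Γ hne
  haveI : Module (ZMod p) V := AddCommGroup.zmodModule (n := p) fun x => by
    apply Subtype.ext
    rw [AddSubgroup.coe_nsmul, AddSubgroup.coe_zero]
    exact hV₀p _ (hVV₀ x.2)
  -- Frobenius data
  let Frob' : Γ → ZMod p → ZMod p → Prop := fun φ a' ℓ' =>
    ∃ a ℓ : ℤ, Frob φ a ℓ ∧ a' = (a : ZMod p) ∧ ℓ' = (ℓ : ZMod p)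
  have H : FrobData (rhoV p V hVΓ) ρW ε Frob' := by
    refine ⟨?_, ?_, ?_, ?_⟩
    · rintro φ _ _ ⟨a, ℓ, hF, rfl, rfl⟩
      exact relW_of_relT p b (relT φ a ℓ hF)
    · rintro φ _ _ ⟨a, ℓ, hF, rfl, rfl⟩
      exact relV_of_rel p V hVΓ fun x hx => relV φ a ℓ hF x (hVV₀ hx)
    · rintro φ _ _ ⟨a, ℓ, hF, rfl, rfl⟩
      exact eps φ a ℓ hF
    · intro g
      obtain ⟨φ, a, ℓ, i, j, hF, h1, h2', h3, h4⟩ := cheb g
      refine ⟨φ, (a : ZMod p), (ℓ : ZMod p), i, j, ⟨a, ℓ, hF, rfl, rfl⟩, ?_, ?_, ?_, h4⟩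
      · rw [← map_pow]
        exact rhoW_eq_of_forall p b h1
      · rw [← map_pow]
        exact rhoW_eq_of_forall p b h2'
      · rw [← map_pow (rhoV p V hVΓ)]
        refine LinearMap.ext fun x => Subtype.ext ?_
        rw [rhoV_apply, rhoV_apply]
        exact h3 x (hVV₀ x.2)
  -- absolute irreducibility
  have hns := exists_not_isScalar_of_irr ρW hirrW
  have hdetc : (ρW c).det = -1 := by rw [det_eq' H hns, hcε]
  have hcc : ρW c * ρW c = 1 := by
    rw [← map_mul, ← map_one ρW]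
    exact rhoW_eq_of_forall p b fun x => by rw [mul_smul, hcT, one_smul]
  have hspan := AbsIrr5.span_eq_top h2 ρW hirrW c hcc hdetc
  refine ⟨?_, ?_⟩
  · -- the equivalence
    haveI : Nontrivial V := by
      rw [← AddSubgroup.nontrivial_iff_ne_bot] at hVne
      exact hVne
    have hsimple : ∀ U : Submodule (ZMod p) V, (∀ g, ∀ v ∈ U, rhoV p V hVΓ g v ∈ U) → U = ⊥ ∨ U = ⊤ := by
      intro U hU
      set U' : AddSubgroup J := U.toAddSubgroup.map V.subtype with hU'
      have hmem : ∀ x : J, x ∈ U' ↔ ∃ hx : x ∈ V, (⟨x, hx⟩ : V) ∈ U := by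
        intro x
        rw [hU', AddSubgroup.mem_map]
        constructor
        · rintro ⟨y, hy, rfl⟩
          exact ⟨y.2, hy⟩
        · rintro ⟨hx, hy⟩
          exact ⟨⟨x, hx⟩, hy, rfl⟩
      have hle : U' ≤ V := by
        intro x hx
        obtain ⟨hxV, -⟩ := (hmem x).mp hx
        exact hxV
      have hstab : ∀ g : Γ, ∀ x ∈ U', g • x ∈ U' := by
        intro g x hx
        obtain ⟨hxV, hxU⟩ := (hmem x).mp hx
        exact (hmem _).mpr ⟨hVΓ g x hxV, hU g _ hxU⟩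
      rcases hVmin U' hle hstab with h | h
      · left
        rw [Submodule.eq_bot_iff]
        intro u hu
        have : (u : J) ∈ U' := (hmem _).mpr ⟨u.2, hu⟩
        rw [h, AddSubgroup.mem_bot] at this
        exact Subtype.ext this
      · right
        rw [Submodule.eq_top_iff']
        intro u
        have : (u : J) ∈ U' := by rw [h]; exact u.2
        obtain ⟨_, hu⟩ := (hmem _).mp this
        exact hu
    obtain ⟨f, hf⟩ := equiv_of_frob h2 H hspan hsimple
    refine ⟨V, hVV₀, hVΓ, (b.equivFun.trans f).toAddEquiv, ?_⟩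
    intro g x
    change ((f (b.equivFun (g • x)) : V) : J) = g • ((f (b.equivFun x) : V) : J)
    rw [← rhoW_mulVec, hf]
    rfl
  · -- the auxiliary Frobenius datum
    intro s hs
    have hs' : (s : ZMod p) = 1 ∨ (s : ZMod p) = -1 := by
      rcases hs with rfl | rfl
      · left; simp
      · right; simp
    obtain ⟨φ, _, _, ⟨a, ℓ, hF, rfl, rfl⟩, hne0⟩ := exists_aux_frob h2 H hspan (s : ZMod p) hs'
    refine ⟨φ, a, ℓ, hF, ?_⟩
    intro hdvd
    apply hne0
    have := (ZMod.intCast_zmod_eq_zero_iff_dvd (1 + s * a + ℓ) p).mpr hdvd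
    push_cast at this
    exact this

end

end Fermat.Agent.MP.HECKE.BlrAct5
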