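/-
PROGRAMME MP, chapter HECKE, brick (Sep) (helper3).  **The separating Hecke polynomial.**  If the
residual representation of `W` is NOT modular of level `M` (no normalised eigenform of level `M`
congruent to `a_ℓ(W)` modulo a maximal ideal over `p`), there is a non-commutative polynomial `ŝ` in the
`T_ℓ` (`ℓ` good for `W`, `ℓ ∤ M`, `ℓ ≠ p`) which vanishes on the lattice `Λ = Par(Γ₀(M), ℤ)` and whose
value at `a_ℓ(W)` is prime to `p`.

* `toMv : FreeAlgebra ℤ ι →ₐ[ℤ] MvPolynomial ι ℤ`, `toMv_surjective`, `aevalComm_toMv`, `eval_toMv`;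
* `exists_eigenform_of_hom_eigenvector` : `Final12.exists_newform_of_hom_eigenvector` without `U`;
* `Idx W p M`, `pr`, `not_dvd`;
* **`sep`**.
-/
import Mathlib
import Fermat.Prelude.Def_FLTPrelim_ModularRep
import Fermat.Agent.ES.LR.Final12
import Fermat.Agent.ES.LR.DSNewB8
import Fermat.Agent.ES.LR.Assemble12

set_option autoImplicit false
set_option linter.unusedSectionVars false
set_option linter.style.longLine false
set_option synthInstance.maxHeartbeats 400000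

noncomputable section

namespace Fermat.Agent.MP.HECKE.Sep3

open ModularCurve ModularCurve.Period CongruenceSubgroup CuspForm TensorProduct
open Fermat.Agent.ES.HEQ.FaithInst26 Fermat.Agent.ES.HEQ.FaithFinal26
open Fermat.Agent.ES.LR.Final12 Fermat.Agent.ES.LR.AevalComm4
open Fermat.Agent.ES.LR.Assemble12 (dcZ_commute)

/-! ### free algebra versus polynomial ring -/

section FreeMv

variable {ι : Type*}

/-- the abelianisation `ℤ⟨ι⟩ → ℤ[ι]`. -/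
def toMv : FreeAlgebra ℤ ι →ₐ[ℤ] MvPolynomial ι ℤ :=
  FreeAlgebra.lift ℤ (fun i => (MvPolynomial.X i : MvPolynomial ι ℤ))

@[simp] theorem toMv_ι (i : ι) : toMv (FreeAlgebra.ι ℤ i) = (MvPolynomial.X i : MvPolynomial ι ℤ) := by
  rw [toMv, FreeAlgebra.lift_ι_apply]

theorem toMv_surjective : Function.Surjective (toMv : FreeAlgebra ℤ ι → MvPolynomial ι ℤ) := by
  intro s
  induction s using MvPolynomial.induction_on with
  | C n => exact ⟨algebraMap ℤ _ n, by rw [AlgHom.commutes]; rfl⟩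
  | add s t hs ht =>
    obtain ⟨a, rfl⟩ := hs
    obtain ⟨b, rfl⟩ := ht
    exact ⟨a + b, map_add _ _ _⟩
  | mul_X s i hs =>
    obtain ⟨a, rfl⟩ := hs
    exact ⟨a * FreeAlgebra.ι ℤ i, by rw [map_mul, toMv_ι]⟩

/-- evaluation at a commuting family factors through the abelianisation. -/
theorem aevalComm_toMv {E : Type*} [Ring E] [Algebra ℤ E] (T : ι → E)
    (hT : ∀ i j, Commute (T i) (T j)) (s : FreeAlgebra ℤ ι) :
    aevalComm (O := ℤ) T hT (toMv s) = FreeAlgebra.lift ℤ T s := by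
  have h : (aevalComm (O := ℤ) T hT).comp toMv = FreeAlgebra.lift ℤ T := by
    apply FreeAlgebra.hom_ext
    funext i
    simp only [Function.comp_apply, AlgHom.comp_apply, toMv_ι, aevalComm_X, FreeAlgebra.lift_ι_apply]
  exact DFunLike.congr_fun h s

/-- the scalar evaluation factors through the abelianisation. -/
theorem eval_toMv (a : ι → ℤ) (s : FreeAlgebra ℤ ι) :
    MvPolynomial.eval a (toMv s) = FreeAlgebra.lift ℤ a s := by
  have h : (MvPolynomial.aeval a : MvPolynomial ι ℤ →ₐ[ℤ] ℤ).comp toMv = FreeAlgebra.lift ℤ a := by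
    apply FreeAlgebra.hom_ext
    funext i
    simp only [Function.comp_apply, AlgHom.comp_apply, toMv_ι, MvPolynomial.aeval_X,
      FreeAlgebra.lift_ι_apply]
  have h2 := DFunLike.congr_fun h s
  rw [AlgHom.comp_apply] at h2
  rw [← h2]
  rfl

end FreeMv

/-! ### from a Hecke eigenvector in the parabolic homs to a normalised eigenform -/

section Eigenform

variable {M : ℕ} [NeZero M]

/-- a nonzero complex parabolic hom of `Γ₀(M)` which is an eigenvector of the double coset operators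
`T_ℓ` (`ℓ ∤ M`, `P ℓ`) with eigenvalues `lam ℓ` produces a normalised eigenform of level `M` with
`a_ℓ = lam ℓ` (`ℓ ∤ M`, `P ℓ`). -/
theorem exists_eigenform_of_hom_eigenvector (P : ℕ → Prop) (lam : ℕ → ℂ)
    (φ : Additive (Gamma0 M) →+ ℂ) (hφpar : φ ∈ ParC M) (hφ : φ ≠ 0)
    (heig : ∀ ℓ (hℓ : ℓ.Prime) (hℓM : ¬ ℓ ∣ M), P ℓ → dcC M ℓ hℓ hℓM φ = lam ℓ • φ) :
    ∃ g : CuspForm (Gamma0 M) 2, g.IsNormalizedEigenform ∧
      ∀ ℓ, ℓ.Prime → ¬ ℓ ∣ M → P ℓ → ModularFormClass.qCoeff g ℓ = lam ℓ := by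
  classical
  have : FiniteDimensional ℂ (CuspForm (Gamma0 M) 2) := Fermat.Agent.S21.Assembly.finite_cusp M
  have hinj := (eichlerShimura M).1
  -- the pair of cusp forms
  obtain ⟨⟨g1, g2⟩, hg⟩ : ∃ pr : CuspForm (Gamma0 M) 2 × CuspForm (Gamma0 M) 2,
      periodHomPair M pr = φ := by
    refine ⟨(periodEquiv M).symm ⟨φ, hφpar⟩, ?_⟩
    have := congrArg Subtype.val ((periodEquiv M).apply_symm_apply ⟨φ, hφpar⟩)
    exact this
  have hne : (g1, g2) ≠ (0 : CuspForm (Gamma0 M) 2 × CuspForm (Gamma0 M) 2) := by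
    intro h0
    apply hφ
    rw [← hg, h0, map_zero]
  -- eigen-equations
  have hT : ∀ ℓ (hℓ : ℓ.Prime) (hℓM : ¬ ℓ ∣ M), P ℓ →
      heckeTLin 2 hℓ hℓM g1 = lam ℓ • g1 ∧ heckeTLin 2 hℓ hℓM g2 = lam ℓ • g2 := by
    intro ℓ hℓ hℓM hP
    have h1 : periodHomPair M (heckeTLin 2 hℓ hℓM g1, heckeTLin 2 hℓ hℓM g2) =
        periodHomPair M (lam ℓ • (g1, g2)) := by
      rw [periodHomPair_hecke (dcData M) ℓ hℓ hℓM g1 g2, hg, map_smul, hg]
      exact heig ℓ hℓ hℓM hP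
    have h2 := hinj h1
    rw [Prod.smul_mk] at h2
    exact ⟨congrArg Prod.fst h2, congrArg Prod.snd h2⟩
  -- the subspace
  let V : Submodule ℂ (CuspForm (Gamma0 M) 2) :=
    ⨅ ℓ : {ℓ : ℕ // ℓ.Prime ∧ ¬ ℓ ∣ M ∧ P ℓ},
      LinearMap.ker (heckeTLin 2 ℓ.2.1 ℓ.2.2.1 - lam ℓ • (1 : Module.End ℂ _))
  have hmemV : ∀ x : CuspForm (Gamma0 M) 2, x ∈ V ↔
      (∀ ℓ (hℓ : ℓ.Prime) (hℓM : ¬ ℓ ∣ M), P ℓ → heckeTLin 2 hℓ hℓM x = lam ℓ • x) := by
    intro x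
    simp only [V, Submodule.mem_iInf, LinearMap.mem_ker, LinearMap.sub_apply,
      LinearMap.smul_apply, Module.End.one_apply, sub_eq_zero, Subtype.forall]
    constructor
    · intro h1 ℓ hℓ hℓM hP
      exact h1 ℓ ⟨hℓ, hℓM, hP⟩
    · intro h1 ℓ h
      exact h1 ℓ h.1 h.2.1 h.2.2
  have hg1V : g1 ∈ V := (hmemV g1).2 fun ℓ hℓ hℓM hP => (hT ℓ hℓ hℓM hP).1
  have hg2V : g2 ∈ V := (hmemV g2).2 fun ℓ hℓ hℓM hP => (hT ℓ hℓ hℓM hP).2
  have hVbot : V ≠ ⊥ := by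
    intro hb
    apply hne
    rw [hb] at hg1V hg2V
    rw [Submodule.mem_bot] at hg1V hg2V
    rw [hg1V, hg2V]
    rfl
  -- stability
  have hstab : ∀ i, ∀ x ∈ V, heckeFam M i x ∈ V := by
    intro i x hx
    rw [hmemV] at hx ⊢
    intro ℓ hℓ hℓM hP
    have hc := (heckeFam_commute_heckeTLin i hℓ hℓM).eq
    have := congrArg (fun A : Module.End ℂ (CuspForm (Gamma0 M) 2) => A x) hc
    simp only [Module.End.mul_apply] at this
    rw [← this, hx ℓ hℓ hℓM hP, map_smul]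
  obtain ⟨w, hwV, hw0, hweig⟩ := Fermat.Agent.S49.commFamily_exists_eigenvector_mem
    (heckeFam M) heckeFam_commute V hVbot hstab
  choose μ hμ using hweig
  let lam' : ℕ → ℂ := fun ℓ => if h : ℓ.Prime then μ ⟨ℓ, h⟩ else 0
  have hlam' : ∀ ℓ (hℓ : ℓ.Prime), lam' ℓ = μ ⟨ℓ, hℓ⟩ := fun ℓ hℓ => by simp [lam', hℓ]
  have hwT : ∀ (ℓ : ℕ) (hℓ : ℓ.Prime) (hℓM : ¬ ℓ ∣ M), heckeTLin 2 hℓ hℓM w = lam' ℓ • w := by
    intro ℓ hℓ hℓM
    rw [hlam' ℓ hℓ, ← hμ ⟨ℓ, hℓ⟩, heckeFam_of_not_dvd hℓ hℓM]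
  have hwU : ∀ (r : ℕ) (_ : r.Prime) (hrM : r ∣ M), heckeULin 2 hrM w = lam' r • w := by
    intro r hr hrM
    rw [hlam' r hr, ← hμ ⟨r, hr⟩, heckeFam_of_dvd hr hrM]
  obtain ⟨g, hgn, hgl⟩ := Fermat.Agent.S49.exists_normalizedEigenform_of_eigenvector w hw0 lam'
    hwT hwU
  rw [hmemV] at hwV
  refine ⟨g, hgn, fun ℓ hℓ hℓM hP => ?_⟩
  rw [hgl ℓ hℓ]
  have h1 := hwV ℓ hℓ hℓM hP
  rw [hwT ℓ hℓ hℓM] at h1
  have h2 : (lam' ℓ - lam ℓ) • w = 0 := by rw [sub_smul, h1, sub_self]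
  rcases smul_eq_zero.mp h2 with h3 | h3
  · exact sub_eq_zero.mp h3
  · exact absurd h3 hw0

end Eigenform

/-! ### the separating polynomial -/

section Sep

variable (W : WeierstrassCurve ℤ) (p M : ℕ)

/-- the index type : primes `ℓ` good for `W`, `ℓ ∤ M`, `ℓ ≠ p`. -/
abbrev Idx : Type := {ℓ : ℕ // ℓ.Prime ∧ W.IsGoodPrimeFor ℓ ∧ ¬ ℓ ∣ M ∧ ℓ ≠ p}

variable {W p M}

/-- the prime of an index. -/
def pr (i : Idx W p M) : Nat.Primes := ⟨i.1, i.2.1⟩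

theorem not_dvd (i : Idx W p M) : ¬ ((pr i : ℕ) ∣ M) := i.2.2.2.1

theorem coe_pr (i : Idx W p M) : (pr i : ℕ) = i.1 := rfl

variable (W) (M) [NeZero M]

/-- **(Sep).**  If `W` is not residually modular of level `M` at `p`, some Hecke polynomial vanishes on
the lattice `Λ` and is a unit modulo `p` at the eigen-system of `W`. -/
theorem sep {p : ℕ} (hp : p.Prime) (hnot : ¬ W.IsResiduallyModularOfLevel p M) :
    ∃ s : FreeAlgebra ℤ (Idx W p M),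
      FreeAlgebra.lift ℤ (fun i : Idx W p M => dcZ M (pr i) (pr i).2 (not_dvd i)) s = 0 ∧
      ¬ (p : ℤ) ∣ FreeAlgebra.lift ℤ (fun i : Idx W p M => (W.apOfModel i.1 : ℤ)) s := by
  classical
  by_contra hcon
  push Not at hcon
  apply hnot
  -- the commuting family
  set TX : Idx W p M → Module.End ℤ ↥(Lam M) := fun i => dcZ M (pr i) (pr i).2 (not_dvd i) with hTXdef
  have hTX : ∀ i j, Commute (TX i) (TX j) := fun i j => dcZ_commute _ _ _ _ _ _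
  set a : Idx W p M → ℤ := fun i => (W.apOfModel i.1 : ℤ) with hadef
  have hann : ∀ s : MvPolynomial (Idx W p M) ℤ,
      (∀ x ∈ (⊤ : Submodule ℤ ↥(Lam M)), aevalComm (O := ℤ) TX hTX s x = 0) →
        (p : ℤ) ∣ MvPolynomial.eval a s := by
    intro s hs
    obtain ⟨ŝ, rfl⟩ := toMv_surjective s
    rw [eval_toMv]
    apply hcon
    rw [← aevalComm_toMv TX hTX]
    exact LinearMap.ext fun x => hs x Submodule.mem_top
  obtain ⟨lam, 𝔪', w, hmax, hp𝔪, hw, -, heig, hcong⟩ :=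
    Fermat.Agent.ES.LR.DSNewB8.exists_eigensystem_of_ann hp TX hTX a ⊤ (fun _ _ _ => Submodule.mem_top)
      hann
  -- the complex parabolic hom
  have hφ0 : bcPar M w ≠ 0 := bcPar_ne_zero M hw
  let P : ℕ → Prop := fun ℓ => W.IsGoodPrimeFor ℓ ∧ ℓ ≠ p
  let lamC : ℕ → ℂ := fun ℓ =>
    if h : ℓ.Prime ∧ W.IsGoodPrimeFor ℓ ∧ ¬ ℓ ∣ M ∧ ℓ ≠ p then
      ((lam ⟨ℓ, h⟩ : integralClosure ℤ ℂ) : ℂ)
    else 0
  have hlamC : ∀ i : Idx W p M, lamC i.1 = ((lam i : integralClosure ℤ ℂ) : ℂ) := by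
    intro i
    simp only [lamC]
    rw [dif_pos i.2]
  obtain ⟨g, hgn, hgl⟩ := exists_eigenform_of_hom_eigenvector (M := M) P lamC (bcPar M w)
    (bcPar_mem M w) hφ0
    (by
      intro ℓ hℓ hℓM hP
      have h1 := heig ⟨ℓ, hℓ, hP.1, hℓM, hP.2⟩
      have h2 := hlamC ⟨ℓ, hℓ, hP.1, hℓM, hP.2⟩
      rw [← bcPar_dcZ]
      show bcPar M (LinearMap.baseChange ℂ (dcZ M ℓ hℓ hℓM) w) = lamC ℓ • bcPar M w
      rw [show lamC ℓ = ((lam ⟨ℓ, hℓ, hP.1, hℓM, hP.2⟩ : integralClosure ℤ ℂ) : ℂ) from h2,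
        ← map_smul]
      exact congrArg (bcPar M) h1)
  refine ⟨g, 𝔪', hgn, hmax, hp𝔪, ?_⟩
  intro ℓ hℓ hgood hℓM hℓp
  refine ⟨lam ⟨ℓ, hℓ, hgood, hℓM, hℓp⟩, ?_, hcong ⟨ℓ, hℓ, hgood, hℓM, hℓp⟩⟩
  rw [hgl ℓ hℓ hℓM ⟨hgood, hℓp⟩, hlamC ⟨ℓ, hℓ, hgood, hℓM, hℓp⟩]

end Sep

end Fermat.Agent.MP.HECKE.Sep3
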