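/-
PROGRAMME MP, chapter HECKE, brick (TorsKill) (helper3).  **A non-commutative Hecke polynomial `ŝ` that
vanishes on the lattice `Λ = Par(Γ₀(N), ℤ)` kills every torsion point of `J₀(N)(ℚ̄)`.**

* `exists_tate_of_torsion` : in a `p`-divisible group every `p^k`-torsion point is `proj k` of an element
  of the Tate module;
* `kills_torsion_of_prime_pow` : an additive map that kills all prime-power torsion kills all torsion;
* `act_tT_iotaJ` : `ŝ(t_ℓ) ∘ ι = ι ∘ ŝ(dcZ ℓ)` for the comparison `ι : Λ → T_p J₀(N)`;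
* **`torsKill_act`, `torsKill`** : `ŝ(dcZ) = 0 ⟹ ŝ(T_ℓ) u = 0` for every torsion point `u`.
-/
import Mathlib
import Fermat.Agent.ES.K.HeckeTate26
import Fermat.Agent.MW.A.NSGlue2
import Fermat.Agent.MP.HECKE.FreeLift5

set_option autoImplicit false
set_option linter.unusedSectionVars false
set_option linter.style.longLine false
set_option synthInstance.maxHeartbeats 400000

namespace Fermat.Agent.MP.HECKE.TorsKill3

open ModularCurve
open Fermat.Agent.ES.J.TateModule13 Fermat.Agent.ES.J.TateJZero13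
open Fermat.Agent.ES.K.HeckeTate26 Fermat.Agent.ES.HEQ.FaithInst26 Fermat.Agent.ES.HEQ.FaithFinal26
open Fermat.Agent.MP.HECKE.FreeLift5

noncomputable section

/-! ### abstract group theory -/

section Abstract

variable {J : Type*} [AddCommGroup J]

/-- in a `p`-divisible group every `p^k`-torsion point is a component of a Tate vector. -/
theorem exists_tate_of_torsion (p : ℕ) [Fact p.Prime] (hdiv : ∀ x : J, ∃ y : J, p • y = x) (k : ℕ)
    (u : J) (hu : p ^ k • u = 0) : ∃ x : TateModule p J, proj k x = u := by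
  choose g hg using hdiv
  let f : ℕ → J := fun n => Nat.rec u (fun _ y => g y) n
  have hf0 : f 0 = u := rfl
  have hf : ∀ n, p • f (n + 1) = f n := fun n => hg (f n)
  refine ⟨⟨fun j => if j ≤ k then p ^ (k - j) • u else f (j - k), ?_, ?_⟩, ?_⟩
  · show (if 0 ≤ k then p ^ (k - 0) • u else f (0 - k)) = 0
    rw [if_pos (Nat.zero_le k), Nat.sub_zero, hu]
  · intro j
    show p • (if j + 1 ≤ k then p ^ (k - (j + 1)) • u else f (j + 1 - k)) =
      if j ≤ k then p ^ (k - j) • u else f (j - k)
    by_cases h1 : j + 1 ≤ k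
    · rw [if_pos h1, if_pos (by omega), ← mul_smul, ← pow_succ']
      congr 2
      omega
    · rw [if_neg h1]
      by_cases h2 : j ≤ k
      · have hjk : j = k := by omega
        rw [if_pos h2, hjk, Nat.sub_self, pow_zero, one_smul,
          show k + 1 - k = 0 + 1 by omega, hf, hf0]
      · rw [if_neg h2, show j + 1 - k = (j - k) + 1 by omega, hf]
  · show (if k ≤ k then p ^ (k - k) • u else f (k - k)) = u
    rw [if_pos le_rfl, Nat.sub_self, pow_zero, one_smul]

/-- an additive map killing all prime-power torsion kills all torsion. -/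
theorem kills_torsion_of_prime_pow (t : J →+ J)
    (h : ∀ p : ℕ, p.Prime → ∀ (k : ℕ) (u : J), p ^ k • u = 0 → t u = 0) :
    ∀ m : ℕ, 0 < m → ∀ u : J, m • u = 0 → t u = 0 := by
  intro m
  induction m using Nat.recOnPrimeCoprime with
  | zero => intro h0; exact absurd h0 (lt_irrefl 0)
  | prime_pow p n hp => intro _ u hu; exact h p hp n u hu
  | coprime a b ha hb hab iha ihb =>
    intro _ u hu
    have ha0 : 0 < a := by omega
    have hb0 : 0 < b := by omega
    have hcop : IsCoprime (a : ℤ) (b : ℤ) := Nat.isCoprime_iff_coprime.mpr hab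
    obtain ⟨x, y, hxy⟩ := hcop
    have h1 : t (a • u) = 0 := ihb hb0 (a • u) (by rw [← mul_smul, mul_comm]; exact hu)
    have h2 : t (b • u) = 0 := iha ha0 (b • u) (by rw [← mul_smul]; exact hu)
    have hu' : u = x • (a • u) + y • (b • u) := by
      rw [← natCast_zsmul u a, ← natCast_zsmul u b, smul_smul, smul_smul, ← add_smul, hxy, one_smul]
    rw [hu', map_add, map_zsmul, map_zsmul, h1, h2, smul_zero, smul_zero, add_zero]

end Abstract

/-! ### the Hecke polynomials on the Tate module -/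

section Hecke

variable (p : ℕ) [hp : Fact p.Prime] (N : ℕ) [NeZero N] {ι : Type} (pr : ι → Nat.Primes)
  (hpr : ∀ i, ¬ ((pr i : ℕ) ∣ N))

/-- the family `T_ℓ` on `J₀(N)(ℚ̄)` as additive maps. -/
def heckeFam : ι → (JZero N →+ JZero N) := fun i => (heckeOperatorBar N (pr i)).toAddMonoidHom

/-- the family `t_ℓ` on the Tate module as additive maps. -/
def tateFam : ι → (TJ p N →+ TJ p N) := fun i => (tT p N (pr i)).toAddMonoidHom

/-- the family of double coset operators on the lattice as additive maps. -/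
def lamFam : ι → (↥(Lam N) →+ ↥(Lam N)) :=
  fun i => (dcZ N (pr i) (pr i).2 (hpr i)).toAddMonoidHom

theorem heckeFam_apply (i : ι) (x : JZero N) : heckeFam N pr i x = heckeOperatorBar N (pr i) x := rfl

/-- `ŝ(t_ℓ)` projects to `ŝ(T_ℓ)`. -/
theorem proj_act (s : FreeAlgebra ℤ ι) (k : ℕ) (x : TJ p N) :
    proj k (act (tateFam p N pr) s x) = act (heckeFam N pr) s (proj k x) :=
  act_comm (tateFam p N pr) (heckeFam N pr) (proj k) (fun _ _ => rfl) s x

/-- `ŝ(t_ℓ)` is `ℤ_p`-linear. -/
theorem act_tate_smul (s : FreeAlgebra ℤ ι) (a : ℤ_[p]) (x : TJ p N) :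
    act (tateFam p N pr) s (a • x) = a • act (tateFam p N pr) s x :=
  (act_comm (tateFam p N pr) (tateFam p N pr) (DistribSMul.toAddMonoidHom (TJ p N) a)
    (fun i x => ((tT p N (pr i)).map_smul a x).symm) s x).symm

/-- `ŝ(t_ℓ) ∘ ι = ι ∘ ŝ(dcZ ℓ)`. -/
theorem act_tT_iotaJ (s : FreeAlgebra ℤ ι) (l : ↥(Lam N)) :
    act (tateFam p N pr) s (iotaJ p N l) = iotaJ p N (act (lamFam N pr hpr) s l) :=
  (act_comm (lamFam N pr hpr) (tateFam p N pr) (iotaJ p N).toAddMonoidHom
    (fun i x => (tT_iotaJ p N (pr i) (pr i).2 (hpr i) x).symm) s l).symm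

/-- `act` of the lattice family is the `FreeAlgebra.lift` of the `dcZ`. -/
theorem act_lamFam (s : FreeAlgebra ℤ ι) (l : ↥(Lam N)) :
    act (lamFam N pr hpr) s l =
      FreeAlgebra.lift ℤ (fun i => dcZ N (pr i) (pr i).2 (hpr i)) s l := by
  have h : (fun i => ((lamFam N pr hpr i).toIntLinearMap : Module.End ℤ ↥(Lam N))) =
      fun i => dcZ N (pr i) (pr i).2 (hpr i) := by
    funext i
    exact LinearMap.ext fun _ => rfl
  rw [act_apply, evalEnd, h]

/-- `act` of the Hecke family is the `FreeAlgebra.lift` of the `heckeOperatorBar`. -/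
theorem act_heckeFam (s : FreeAlgebra ℤ ι) (x : JZero N) :
    act (heckeFam N pr) s x = FreeAlgebra.lift ℤ (fun i => heckeOperatorBar N (pr i)) s x := by
  have h : (fun i => ((heckeFam N pr i).toIntLinearMap : Module.End ℤ (JZero N))) =
      fun i => heckeOperatorBar N (pr i) := by
    funext i
    exact LinearMap.ext fun _ => rfl
  rw [act_apply, evalEnd, h]

variable {N pr hpr}

/-- if `ŝ(dcZ) = 0` then `ŝ(t_ℓ) = 0` on the Tate module. -/
theorem act_tate_eq_zero {s : FreeAlgebra ℤ ι}
    (hs : FreeAlgebra.lift ℤ (fun i => dcZ N (pr i) (pr i).2 (hpr i)) s = 0) (x : TJ p N) :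
    act (tateFam p N pr) s x = 0 := by
  induction x using (isBaseChange_iotaJ p N).inductionOn with
  | zero => rw [map_zero]
  | tmul l => rw [act_tT_iotaJ p N pr hpr, act_lamFam, hs, LinearMap.zero_apply, map_zero]
  | smul a x ih =>
    rw [act_tate_smul, ih]
    exact smul_zero (A := TJ p N) a
  | add x y ihx ihy => rw [map_add, ihx, ihy, add_zero]

/-- **(TorsKill), `act` form.** -/
theorem torsKill_act {s : FreeAlgebra ℤ ι}
    (hs : FreeAlgebra.lift ℤ (fun i => dcZ N (pr i) (pr i).2 (hpr i)) s = 0) :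
    ∀ (u : JZero N) (m : ℕ), 0 < m → m • u = 0 → act (heckeFam N pr) s u = 0 := by
  intro u m hm hu
  refine kills_torsion_of_prime_pow (act (heckeFam N pr) s) ?_ m hm u hu
  intro q hq k v hv
  haveI : Fact q.Prime := ⟨hq⟩
  obtain ⟨x, rfl⟩ := exists_tate_of_torsion q
    (fun y => Fermat.Agent.MW.A.NSGlue2.jzero_divisible N q hq.pos y) k v hv
  rw [← proj_act, act_tate_eq_zero q hs, map_zero]

/-- **(TorsKill)** : a Hecke polynomial vanishing on the lattice `Λ` kills the torsion of
`J₀(N)(ℚ̄)`. -/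
theorem torsKill {s : FreeAlgebra ℤ ι}
    (hs : FreeAlgebra.lift ℤ (fun i => dcZ N (pr i) (pr i).2 (hpr i)) s = 0) :
    ∀ (u : JZero N) (m : ℕ), 0 < m → m • u = 0 →
      FreeAlgebra.lift ℤ (fun i => heckeOperatorBar N (pr i)) s u = 0 := by
  intro u m hm hu
  rw [← act_heckeFam]
  exact torsKill_act hs u m hm hu

end Hecke

end

end Fermat.Agent.MP.HECKE.TorsKill3
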