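/-
PROGRAMME MP, chapter HECKE (helper3).  `SepTors3` = **(Sep) + (TorsKill) combined** : if `W` is not
residually modular of level `M` at `p`, there is a Hecke polynomial `ŝ ∈ ℤ⟨T_ℓ⟩` (`ℓ` good for `W`,
`ℓ ∤ M`, `ℓ ≠ p`) which kills every torsion point of `J₀(M)(ℚ̄)` and whose value at the eigen-system
`a_ℓ(W)` is prime to `p`.
-/
import Mathlib
import Fermat.Agent.MP.HECKE.Sep3
import Fermat.Agent.MP.HECKE.TorsKill3

set_option autoImplicit false
set_option linter.unusedSectionVars false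
set_option linter.style.longLine false
set_option synthInstance.maxHeartbeats 400000

noncomputable section

namespace Fermat.Agent.MP.HECKE.SepTors3

open ModularCurve
open Fermat.Agent.MP.HECKE.Sep3 Fermat.Agent.MP.HECKE.TorsKill3 Fermat.Agent.MP.HECKE.FreeLift5

variable (W : WeierstrassCurve ℤ) (M : ℕ) [NeZero M]

/-- **(Sep) + (TorsKill).** -/
theorem exists_sep_torsKill {p : ℕ} (hp : p.Prime) (hnot : ¬ W.IsResiduallyModularOfLevel p M) :
    ∃ s : FreeAlgebra ℤ (Idx W p M),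
      (∀ (u : JZero M) (m : ℕ), 0 < m → m • u = 0 →
        act (heckeFam M (pr (W := W) (p := p) (M := M))) s u = 0) ∧
      ¬ (p : ℤ) ∣ evalInt (fun i : Idx W p M => (W.apOfModel i.1 : ℤ)) s := by
  obtain ⟨s, hs0, hsp⟩ := sep W M hp hnot
  exact ⟨s, torsKill_act (pr := pr) (hpr := not_dvd) hs0, hsp⟩

/-- the same with `FreeAlgebra.lift`. -/
theorem exists_sep_torsKill' {p : ℕ} (hp : p.Prime) (hnot : ¬ W.IsResiduallyModularOfLevel p M) :
    ∃ s : FreeAlgebra ℤ (Idx W p M),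
      (∀ (u : JZero M) (m : ℕ), 0 < m → m • u = 0 →
        FreeAlgebra.lift ℤ (fun i : Idx W p M => heckeOperatorBar M (pr i)) s u = 0) ∧
      ¬ (p : ℤ) ∣ FreeAlgebra.lift ℤ (fun i : Idx W p M => (W.apOfModel i.1 : ℤ)) s := by
  obtain ⟨s, hs0, hsp⟩ := sep W M hp hnot
  exact ⟨s, torsKill (pr := pr) (hpr := not_dvd) hs0, hsp⟩

end Fermat.Agent.MP.HECKE.SepTors3
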