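/-
Programme MP (row 38 via S44), chapter HECKE (helper5): **the lattice side `LatStmt`** from helper3's
`SepTors3.exists_sep_torsKill` (Sep + TorsKill) and `Two3.not_isGoodPrimeFor_two` (re-indexing of
the free algebra from `Sep3.Idx` to `Facts5.GoodPrime`).
-/
import Mathlib
import Fermat.Agent.MP.HECKE.HeckeMain5
import Fermat.Agent.MP.HECKE.SepTors3
import Fermat.Agent.MP.HECKE.Two3

set_option autoImplicit false
set_option linter.unusedSectionVars false
set_option linter.unusedVariables false
set_option linter.style.longLine false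
set_option synthInstance.maxHeartbeats 400000

namespace Fermat.Agent.MP.HECKE.Lat5

open AlgebraicCurve ModularCurve
open Fermat.Agent.MP.HECKE.FreeLift5 Fermat.Agent.MP.HECKE.Facts5
open Fermat.Agent.MP.HECKE.HeckeMain5 Fermat.Agent.MP.HECKE.Sep3 Fermat.Agent.MP.HECKE.TorsKill3

noncomputable section

section Reidx

variable {ι κ J : Type} [AddCommGroup J]

/-- re-indexing of the free algebra. -/
def reidx (f : ι → κ) : FreeAlgebra ℤ ι →ₐ[ℤ] FreeAlgebra ℤ κ :=
  FreeAlgebra.lift ℤ (fun i => FreeAlgebra.ι ℤ (f i))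

theorem evalEnd_reidx (T : κ → (J →+ J)) (f : ι → κ) :
    (evalEnd T).comp (reidx f) = evalEnd (fun i => T (f i)) := by
  apply FreeAlgebra.hom_ext
  funext i
  simp only [Function.comp_apply, AlgHom.comp_apply, reidx, evalEnd, FreeAlgebra.lift_ι_apply]

theorem act_reidx (T : κ → (J →+ J)) (f : ι → κ) (s : FreeAlgebra ℤ ι) (x : J) :
    act T (reidx f s) x = act (fun i => T (f i)) s x := by
  rw [act_apply, act_apply, ← evalEnd_reidx T f]
  rfl

theorem evalInt_reidx (a : κ → ℤ) (f : ι → κ) (s : FreeAlgebra ℤ ι) :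
    evalInt a (reidx f s) = evalInt (fun i => a (f i)) s := by
  have h : (evalInt a).comp (reidx f) = evalInt (fun i => a (f i)) := by
    apply FreeAlgebra.hom_ext
    funext i
    simp only [Function.comp_apply, AlgHom.comp_apply, reidx, evalInt, FreeAlgebra.lift_ι_apply]
  rw [← h]
  rfl

end Reidx

/-- from helper3's index type to `GoodPrime`. -/
def toGood {W : WeierstrassCurve ℤ} {p M : ℕ} (i : Idx W p M) : GoodPrime W M p :=
  ⟨⟨i.1, i.2.1⟩, i.2.2.1, i.2.2.2.1, i.2.2.2.2⟩

/-- **the lattice side holds for the Frey curve.** -/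
theorem latStmt (P : FreyPackage) (M : ℕ) [NeZero M] : LatStmt P.freyCurve M P.p := by
  intro W hW hnot
  obtain ⟨s, hs, hp⟩ := Fermat.Agent.MP.HECKE.SepTors3.exists_sep_torsKill W M P.pp hnot
  refine ⟨Fermat.Agent.MP.HECKE.Two3.not_isGoodPrimeFor_two P hW, reidx toGood s, ?_, ?_⟩
  · intro u m hm hmu
    rw [act_reidx]
    exact hs u m hm hmu
  · rw [evalInt_reidx]
    exact hp

end

end Fermat.Agent.MP.HECKE.Lat5
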