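/-
Programme MP (row 38 via S44), chapter HECKE (helper5): **`hHecke` of `MP/FINAL/S44Main6` from the
concrete functoriality of `kerRed`.**

* `Kfam p hp2 M` := `kerRed (MainDatum6.datum hpM h4 hp2)` if `4 ∣ M`, `p ∤ M` (else `⊥`),
  `Kgfam p M` := `ker (redPic (GoodDatum9.goodDatum hpM h4))`;
* `FuncFacts p hp2` : the two statements of chapter FUNC still needed (degeneracy maps at a prime
  `r ∤ M p` between the bad levels `M p`, `M r p`; the automorphisms `s₁`, `W`);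
* `redFacts : FuncFacts p hp2 → RedFacts p _ (Kfam p hp2) (Kgfam p)` ((X1) = `X1Good3`, `α_p^*`, `β_p^*` =
  `PullKerInst9`);
* `Wfam p M` := `𝒲 = cWOp (M p)` if `4 ∣ M` (else the identity);
* **`hHecke`** : the hypothesis `hHecke` of `S44Main6.s44_of_chapters` with `Wf := Wfam P.p`.
-/
import Mathlib
import Fermat.Agent.MP.HECKE.Lat5
import Fermat.Agent.MP.FIN.X1Good3
import Fermat.Agent.MP.TAU.PullKerInst9
import Fermat.Agent.MP.FINAL.MainDatum6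

set_option autoImplicit false
set_option linter.unusedSectionVars false
set_option linter.unusedVariables false
set_option linter.style.longLine false
set_option linter.style.haveILetI false
set_option synthInstance.maxHeartbeats 400000
set_option maxHeartbeats 1000000

open WeierstrassCurve WeierstrassCurve.Affine

namespace Fermat.Agent.MP.HECKE.HeckeFinal5

open AlgebraicCurve ModularCurve
open Fermat.Agent.X0 Fermat.Agent.RED.TOP
open Fermat.Agent.MP.FUNC.FrickeDeg1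
open Fermat.Agent.MP.HECKE.LvlMap6 Fermat.Agent.MP.HECKE.CorrId6 Fermat.Agent.MP.HECKE.Aut5
open Fermat.Agent.MP.HECKE.Iface5 Fermat.Agent.MP.HECKE.Facts5 Fermat.Agent.MP.HECKE.HeckeMain5
open Fermat.Agent.ORD.KERN.KerN9 Fermat.Agent.FF.KER.Ker0
open Fermat.Agent.MP.FINAL.MainDatum6 Fermat.Agent.MP.TAU.GoodDatum9

local notation "GQ" => (AlgebraicClosure ℚ ≃ₐ[ℚ] AlgebraicClosure ℚ)
local notation "Qb" => AlgebraicClosure ℚ

noncomputable section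

section Fam

variable (p : ℕ) [hpF : Fact p.Prime] (hp2 : p ≠ 2)

open Classical in
/-- the kernels of reduction at the bad levels `M p`. -/
def Kfam (M : ℕ) [NeZero M] : AddSubgroup (JZero (M * p)) :=
  if h : 4 ∣ M ∧ ¬ p ∣ M then kerRed (datum h.2 h.1 hp2) else ⊥

open Classical in
/-- the kernels of reduction at the good levels `M`. -/
def Kgfam (M : ℕ) [NeZero M] : AddSubgroup (JZero M) :=
  if h : 4 ∣ M ∧ ¬ p ∣ M then (redPic (goodDatum h.2 h.1)).ker else ⊥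

open Classical in
/-- the operator `𝒲` at the level `M p`. -/
def Wfam (M : ℕ) [NeZero M] : JZero (M * p) → JZero (M * p) :=
  if h : 4 ∣ M then cWOp (M * p) (Dvd.dvd.mul_right h p) else id

variable {p}

theorem Kfam_eq {M : ℕ} [NeZero M] (h4 : 4 ∣ M) (hpM : ¬ p ∣ M) :
    Kfam p hp2 M = kerRed (datum hpM h4 hp2) := dif_pos ⟨h4, hpM⟩

theorem Kgfam_eq {M : ℕ} [NeZero M] (h4 : 4 ∣ M) (hpM : ¬ p ∣ M) :
    Kgfam p M = (redPic (goodDatum hpM h4)).ker := dif_pos ⟨h4, hpM⟩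

theorem Wfam_eq {M : ℕ} [NeZero M] (h4 : 4 ∣ M) :
    Wfam p M = cWOp (M * p) (Dvd.dvd.mul_right h4 p) := dif_pos h4

variable (p)

/-- **the statements of chapter FUNC still needed** (on the concrete data). -/
structure FuncFacts : Prop where
  deg : ∀ (M₁ M₂ r : ℕ) [NeZero M₁] [NeZero M₂] [NeZero r] (h4₁ : 4 ∣ M₁) (hp₁ : ¬ p ∣ M₁)
    (h4₂ : 4 ∣ M₂) (hp₂ : ¬ p ∣ M₂), r.Prime → ¬ r ∣ M₁ * p → M₁ * r = M₂ →
    ∀ (φ ψ : FF (M₁ * p) →ₐ[Kbar] FF (M₂ * p)), IsAlpha φ → IsBeta r ψ →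
    ∀ (fφ : FiniteAlong Kbar φ) (fψ : FiniteAlong Kbar ψ),
      (∀ y ∈ kerRed (datum hp₁ h4₁ hp2), pullL φ fφ y ∈ kerRed (datum hp₂ h4₂ hp2)) ∧
      (∀ y ∈ kerRed (datum hp₁ h4₁ hp2), pullL ψ fψ y ∈ kerRed (datum hp₂ h4₂ hp2)) ∧
      (∀ x ∈ kerRed (datum hp₂ h4₂ hp2), pushL φ fφ x ∈ kerRed (datum hp₁ h4₁ hp2)) ∧
      (∀ x ∈ kerRed (datum hp₂ h4₂ hp2), pushL ψ fψ x ∈ kerRed (datum hp₁ h4₁ hp2))
  aut : ∀ (M : ℕ) [NeZero M] (h4 : 4 ∣ M) (hpM : ¬ p ∣ M),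
    (∀ x ∈ kerRed (datum hpM h4 hp2), s1Op (M * p) (Dvd.dvd.mul_right h4 p) x ∈
      kerRed (datum hpM h4 hp2)) ∧
    (∀ x ∈ kerRed (datum hpM h4 hp2), frickeJ (M * p) x ∈ kerRed (datum hpM h4 hp2))

variable {p}

/-- **the reduction side.** -/
theorem redFacts [NeZero p] (ff : FuncFacts p hp2) :
    RedFacts p hpF.out (Kfam p hp2) (Kgfam p) where
  deg := by
    intro M₁ M₂ r _ _ _ h4₁ hp₂ hr hrM h φ ψ hφ hψ fφ fψ
    have h4₂ : 4 ∣ M₂ := h ▸ Dvd.dvd.mul_right h4₁ r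
    have hp₁ : ¬ p ∣ M₁ := fun h' => hp₂ (h ▸ Dvd.dvd.mul_right h' r)
    rw [Kfam_eq hp2 h4₁ hp₁, Kfam_eq hp2 h4₂ hp₂]
    exact ff.deg M₁ M₂ r h4₁ hp₁ h4₂ hp₂ hr hrM h φ ψ hφ hψ fφ fψ
  aut := by
    intro M _ h4 hpM
    rw [Kfam_eq hp2 h4 hpM]
    exact ff.aut M h4 hpM
  x1 := by
    intro M _ h4 hpM t ht htors u
    rw [Kgfam_eq h4 hpM]
    exact Fermat.Agent.MP.FIN.X1Good3.mem_ker_redPic_goodDatum hpM h4 t ht htors u
  pdeg := by
    intro M _ h4 hpM u hu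
    rw [Kgfam_eq h4 hpM] at hu
    rw [Kfam_eq hp2 h4 hpM]
    exact ⟨Fermat.Agent.MP.TAU.PullKerInst9.alphaPull_mem_kerRed hpM h4 hp2 u hu,
      Fermat.Agent.MP.TAU.PullKerInst9.betaPull_mem_kerRed hpM h4 hp2 u hu⟩

end Fam

/-- **`hHecke` of `S44Main6.s44_of_chapters`** (with `Wf := Wfam P.p`). -/
theorem hHecke (P : FreyPackage) {N : ℕ} (hcond : P.IsConductorLevel N) (hpN : P.p ∣ N)
    (hirr : Point.GaloisRepIsIrreducible (K := Qb) ℚ P.freyCurve P.p)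
    (hmod : P.ModularRepOfLevel N)
    (ff : haveI : Fact P.p.Prime := ⟨P.pp⟩
      ∀ hp2 : P.p ≠ 2, FuncFacts P.p hp2) :
    haveI : Fact P.p.Prime := ⟨P.pp⟩
    haveI : NeZero P.p := ⟨P.hp0⟩
    ¬ P.ModularRepOfLevel (N / P.p) →
      ∃ (M₀ : ℕ) (_ : NeZero M₀) (h4 : 4 ∣ M₀) (hpM : ¬ P.p ∣ M₀) (hp2 : P.p ≠ 2),
        HeckeOut P M₀ hpM (kerRed (datum hpM h4 hp2)) (Wfam P.p M₀) := by
  haveI : Fact P.p.Prime := ⟨P.pp⟩
  haveI : NeZero P.p := ⟨P.hp0⟩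
  intro hnot
  have hp2 : P.p ≠ 2 := by have := P.hp5; omega
  obtain ⟨M', hN⟩ : ∃ M' : ℕ, N = M' * P.p := ⟨N / P.p, (Nat.div_mul_cancel hpN).symm⟩
  subst hN
  rw [Nat.mul_div_cancel _ P.hppos] at hnot
  haveI : NeZero M' := ⟨by
    rintro rfl
    have := hcond.pos
    simp at this⟩
  obtain ⟨M₀, hM₀, h4, hpM, hH⟩ := heckeOut P hcond hirr hmod hnot
    (Fermat.Agent.MP.HECKE.Lat5.latStmt P M') (redFacts hp2 (ff hp2))
  refine ⟨M₀, hM₀, h4, hpM, hp2, ?_⟩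
  rw [Kfam_eq hp2 h4 hpM] at hH
  rw [Wfam_eq h4]
  exact hH

end

end Fermat.Agent.MP.HECKE.HeckeFinal5
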