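/-
Programme MP (row 38 via S44), chapter HECKE (helper6, brick PicId (ii) for helper5):
**push ∘ pull = degree.**

* `sum_ram_mul_inertia` : `Σ_{w | v} e(w) f(w) = [F' : F]` from the degree form of the fundamental
  identity (`v.deg ≠ 0`);
* `pushforward_pullback` : `π_* π^* D = [F' : F] • D` on divisors;
* `pushforwardAlong_pullbackAlong`, `pic0PushAlong_pullbackAlong` : the `Along` and `Pic⁰` forms
  (`PushO12.pic0PushAlong`, `LevelPullback12.pic0PullbackAlong`);
* **`alphaPush_alphaPull`, `betaPush_betaPull`** : `α_{q*} α_q^* = q + 1 = β_{q*} β_q^*` on `J₀(M₀)(ℚ̄)`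
  (`PushO12.alphaPush/betaPush`, `Iface5.alphaPull/betaPull`).
-/
import Mathlib
import Fermat.Agent.MP.HECKE.Iface5

set_option autoImplicit false
set_option linter.unusedSectionVars false
set_option linter.style.longLine false
set_option linter.style.haveILetI false

namespace Fermat.Agent.MP.HECKE.PushPull6

open AlgebraicCurve ModularCurve
open Fermat.Agent.ES.HECKE Fermat.Agent.ES.HECKE.LevelPullback12 Fermat.Agent.ES.N35.PushO12
open Fermat.Agent.MP.HECKE.Iface5 Fermat.Agent.TW.FLAT.FlatModule6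

noncomputable section

section Abstract

variable {K F F' : Type*} [Field K] [Field F] [Field F'] [Algebra K F] [Algebra K F']
  [Algebra F F'] [IsScalarTower K F F'] [Algebra.IsIntegral F F'] [HasPrincipalDivisors K F']

/-- `Σ_{w | v} e(w) f(w) = [F' : F]` from the degree form of the fundamental identity. -/
theorem sum_ram_mul_inertia [FundamentalIdentity K F F'] (v : Place K F) (hv : v.deg ≠ 0) :
    ∑ w ∈ v.fiber F', (w.ramificationIndex F : ℤ) * (w.inertiaDeg F : ℤ) =
      (Module.finrank F F' : ℤ) := by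
  have h := FundamentalIdentity.sum_ramificationIndex_mul_deg (K := K) (F := F) (F' := F') v
  have h2 : ∑ w ∈ v.fiber F', (w.ramificationIndex F : ℤ) * (w.deg : ℤ) =
      (∑ w ∈ v.fiber F', (w.ramificationIndex F : ℤ) * (w.inertiaDeg F : ℤ)) * (v.deg : ℤ) := by
    rw [Finset.sum_mul]
    refine Finset.sum_congr rfl fun w hw => ?_
    have h3 := w.deg_restrict_mul_inertiaDeg (F := F)
    rw [Place.mem_fiber.mp hw] at h3
    rw [← h3]
    push_cast
    ring
  rw [h2] at h
  have hv' : (v.deg : ℤ) ≠ 0 := by exact_mod_cast hv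
  exact mul_right_cancel₀ hv' h

/-- **`π_* π^* = [F' : F]`** on divisors. -/
theorem pushforward_pullback [FundamentalIdentity K F F'] (hdeg : ∀ v : Place K F, v.deg ≠ 0)
    (D : Divisor K F) :
    Divisor.pushforward F (Divisor.pullback F' D) = (Module.finrank F F' : ℤ) • D := by
  classical
  induction D using Finsupp.induction with
  | zero => simp
  | single_add v n D _ _ ih =>
    rw [map_add, map_add, ih, smul_add]
    congr 1
    rw [Divisor.pullback_single, map_sum]
    have h1 : ∀ w ∈ v.fiber F',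
        Divisor.pushforward F (Finsupp.single w (n * (w.ramificationIndex F : ℤ))) =
        Finsupp.single v (n * ((w.ramificationIndex F : ℤ) * (w.inertiaDeg F : ℤ))) := by
      intro w hw
      rw [Divisor.pushforward_single, Place.mem_fiber.mp hw, mul_assoc]
    rw [Finset.sum_congr rfl h1, ← Finsupp.single_finsetSum, ← Finset.mul_sum,
      sum_ram_mul_inertia v (hdeg v), Finsupp.smul_single, smul_eq_mul, mul_comm]

end Abstract

section Along

variable {K F F' : Type*} [Field K] [Field F] [Field F'] [Algebra K F] [Algebra K F']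
  [HasPrincipalDivisors K F']

/-- **`φ_* φ^* = deg φ`** on divisors, `Along` form. -/
theorem pushforwardAlong_pullbackAlong (φ : F →ₐ[K] F') (hφ : φ.toRingHom.IsIntegral)
    (hFI : FundamentalIdentityAlong K φ hφ) (hdeg : ∀ v : Place K F, v.deg ≠ 0)
    (D : Divisor K F) :
    Divisor.pushforwardAlong φ hφ (Divisor.pullbackAlong φ hφ D) = (finrankAlong K φ : ℤ) • D := by
  letI := algebraAlong φ
  haveI := isScalarTower_along φ
  haveI := isIntegral_along φ hφ
  haveI : FundamentalIdentity K F F' := hFI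
  exact pushforward_pullback hdeg D

/-- **`φ_* φ^* = deg φ`** on `Pic⁰`. -/
theorem pic0PushAlong_pullbackAlong (φ : F →ₐ[K] F') (hφ : φ.toRingHom.IsIntegral)
    (hfin : FiniteAlong K φ) (hN : NormFormulaAlong K φ hfin)
    (hFI : FundamentalIdentityAlong K φ hφ) (hdeg : ∀ v : Place K F, v.deg ≠ 0)
    (y : Pic0 K F) :
    pic0PushAlong φ hφ hfin hN (pic0PullbackAlong φ hφ hFI y) = finrankAlong K φ • y := by
  obtain ⟨D, rfl⟩ := Pic0.mk_surjective y
  rw [pic0PullbackAlong_mk, pic0PushAlong_mk]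
  have h : finrankAlong K φ • Pic0.mk D = Pic0.mk (finrankAlong K φ • D) := rfl
  rw [h]
  congr 1
  apply Subtype.ext
  rw [coe_degZeroPushAlong]
  show Divisor.pushforwardAlong φ hφ (Divisor.pullbackAlong φ hφ (D : Divisor K F)) = _
  rw [pushforwardAlong_pullbackAlong φ hφ hFI hdeg, AddSubgroup.coe_nsmul, natCast_zsmul]

end Along

section Level

variable {M₀ q : ℕ} [NeZero M₀] [NeZero q]

theorem deg_ne_zero_bar (v : Place Qb (modularFunctionFieldBar M₀)) : v.deg ≠ 0 := by
  rw [Fermat.Agent.RED.TOP.FbarFacts20.deg_eq_one_bar M₀ v]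
  exact one_ne_zero

/-- **`α_{q*} α_q^* = q + 1`** on `J₀(M₀)(ℚ̄)`. -/
theorem alphaPush_alphaPull (hq : q.Prime) (hqM : ¬ q ∣ M₀) (y : JZero M₀) :
    alphaPush hq hqM (alphaPull hq hqM y) = (q + 1) • y := by
  haveI := InputsMain19.hasPrincipalDivisors_level M₀ q
  have h := pic0PushAlong_pullbackAlong (heckeAlphaBar Qb M₀ q)
    (AlongDegree25.heckeAlphaBarIntegral Qb M₀ q hq hqM)
    (AlongDegree25.finiteAlong_alpha Qb M₀ q hq hqM)
    (InputsFinal15.normFormulaAlong_alpha M₀ q hq hqM)
    (InputsMain19.fundamentalIdentityAlong_alpha M₀ q hq hqM) deg_ne_zero_bar y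
  rw [AlongDegree25.finrankAlong_alpha Qb M₀ q hq hqM] at h
  exact h

/-- **`β_{q*} β_q^* = q + 1`** on `J₀(M₀)(ℚ̄)`. -/
theorem betaPush_betaPull (hq : q.Prime) (hqM : ¬ q ∣ M₀) (y : JZero M₀) :
    betaPush hq hqM (betaPull hq hqM y) = (q + 1) • y := by
  haveI := InputsMain19.hasPrincipalDivisors_level M₀ q
  have h := pic0PushAlong_pullbackAlong (heckeBetaBar Qb M₀ q)
    (AlongDegree25.heckeBetaBarIntegral Qb M₀ q hq hqM)
    (AlongDegree25.finiteAlong_beta Qb M₀ q hq hqM)
    (InputsFinal15.normFormulaAlong_beta M₀ q hq hqM)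
    (InputsMain19.fundamentalIdentityAlong_beta M₀ q hq hqM) deg_ne_zero_bar y
  rw [AlongDegree25.finrankAlong_beta Qb M₀ q hq hqM] at h
  exact h

end Level

end

end Fermat.Agent.MP.HECKE.PushPull6
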