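/-
Programme MP (row 38 via S44), chapter HECKE (helper6, brick PicId for helper5): **functoriality of
pull-back and push-forward on divisors and `Pic⁰`** (Prelude vocabulary `Divisor.pullbackAlong`,
`Divisor.pushforwardAlong`, `LevelPullback12.pic0PullbackAlong`, `PushO12.pic0PushAlong`).

* towers : `inertiaDeg_tower`, `pushforward_pushforward` (instance form), `pushforwardAlong_comp`,
  `pullbackAlong_comp'` (= `BaseChange19.pullbackAlong_comp`);
* congruence : `pullbackAlong_congr`, `pushforwardAlong_congr`, `pic0PullbackAlong_congr`,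
  `pic0PushAlong_congr`;
* `Pic⁰` : **`pic0PullbackAlong_comp`**, **`pic0PushAlong_comp`**;
* squares : **`pic0Pull_pull_of_comm`** (`ψ' ∘ φ = φ' ∘ ψ ⟹ ψ'^* φ^* = φ'^* ψ^*`),
  **`pic0Push_push_of_comm`**, **`pic0Pull_push_of_square`** (base change, from
  `BaseChange19.pullbackAlong_pushforwardAlong`);
* the identity and automorphisms : `pullbackAlong_id`, `pic0PullbackAlong_id`,
  `finrankAlong_algEquiv`, `pic0Pull_pull_of_comp_eq_id`, `pic0Push_eq_pull_of_inverse`
  (`g_* = (g⁻¹)^*`).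
-/
import Mathlib
import Fermat.Agent.MP.HECKE.PushPull6

set_option autoImplicit false
set_option linter.unusedSectionVars false
set_option linter.style.longLine false
set_option linter.style.haveILetI false

namespace Fermat.Agent.MP.HECKE.PicFun6

open AlgebraicCurve ModularCurve
open Fermat.Agent.ES.HECKE Fermat.Agent.ES.HECKE.LevelPullback12 Fermat.Agent.ES.N35.PushO12
open Fermat.Agent.ES.HECKE.BaseChange19 Fermat.Agent.MP.HECKE.PushPull6

noncomputable section

/-! ### towers, instance form -/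

section Tower

variable {K F F₁ G₁ : Type*} [Field K] [Field F] [Field F₁] [Field G₁]
  [Algebra K F] [Algebra K F₁] [Algebra K G₁]
  [Algebra F F₁] [Algebra F₁ G₁] [Algebra F G₁]
  [IsScalarTower K F F₁] [IsScalarTower K F₁ G₁] [IsScalarTower K F G₁]
  [IsScalarTower F F₁ G₁]
  [Algebra.IsIntegral F F₁] [Algebra.IsIntegral F₁ G₁] [Algebra.IsIntegral F G₁]

/-- multiplicativity of the inertia degree in towers (places of the base of nonzero degree). -/
theorem inertiaDeg_tower (w : Place K G₁) (hdeg : (w.restrict F).deg ≠ 0) :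
    w.inertiaDeg F = w.inertiaDeg F₁ * (w.restrict F₁).inertiaDeg F := by
  have h0 := w.deg_restrict_mul_inertiaDeg (F := F)
  have h1 := w.deg_restrict_mul_inertiaDeg (F := F₁)
  have h01 := (w.restrict F₁).deg_restrict_mul_inertiaDeg (F := F)
  rw [restrict_restrict (F := F) (F₁ := F₁) w] at h01
  have h2 : (w.restrict F).deg * w.inertiaDeg F =
      (w.restrict F).deg * (w.inertiaDeg F₁ * (w.restrict F₁).inertiaDeg F) := by
    rw [h0, ← h1, ← h01]
    ring
  exact Nat.eq_of_mul_eq_mul_left (Nat.pos_of_ne_zero hdeg) h2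

/-- `push-forward` is functorial in towers. -/
theorem pushforward_pushforward (hdeg : ∀ v : Place K F, v.deg ≠ 0) (D : Divisor K G₁) :
    Divisor.pushforward F (Divisor.pushforward F₁ D) = Divisor.pushforward F D := by
  induction D using Finsupp.induction with
  | zero => simp
  | single_add w n D _ _ ih =>
    rw [map_add, map_add, map_add, ih]
    congr 1
    rw [Divisor.pushforward_single, Divisor.pushforward_single, Divisor.pushforward_single,
      restrict_restrict (F := F) (F₁ := F₁) w, inertiaDeg_tower (F := F) (F₁ := F₁) w (hdeg _)]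
    push_cast
    rw [mul_assoc]

end Tower

/-! ### `Along` forms -/

section Along

variable {K F F₁ G₁ : Type*} [Field K] [Field F] [Field F₁] [Field G₁]
  [Algebra K F] [Algebra K F₁] [Algebra K G₁]

theorem pullbackAlong_congr [HasPrincipalDivisors K F₁] {φ φ' : F →ₐ[K] F₁} (h : φ = φ')
    (hφ : φ.toRingHom.IsIntegral) (hφ' : φ'.toRingHom.IsIntegral) (D : Divisor K F) :
    Divisor.pullbackAlong φ hφ D = Divisor.pullbackAlong φ' hφ' D := by
  subst h
  rfl

theorem pushforwardAlong_congr {φ φ' : F →ₐ[K] F₁} (h : φ = φ')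
    (hφ : φ.toRingHom.IsIntegral) (hφ' : φ'.toRingHom.IsIntegral) (D : Divisor K F₁) :
    Divisor.pushforwardAlong φ hφ D = Divisor.pushforwardAlong φ' hφ' D := by
  subst h
  rfl

/-- Functoriality of `pushforwardAlong`. -/
theorem pushforwardAlong_comp (φ : F →ₐ[K] F₁) (ψ : F₁ →ₐ[K] G₁) (hφ : φ.toRingHom.IsIntegral)
    (hψ : ψ.toRingHom.IsIntegral) (hψφ : (ψ.comp φ).toRingHom.IsIntegral)
    (hdeg : ∀ v : Place K F, v.deg ≠ 0) (D : Divisor K G₁) :
    Divisor.pushforwardAlong (ψ.comp φ) hψφ D =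
      Divisor.pushforwardAlong φ hφ (Divisor.pushforwardAlong ψ hψ D) := by
  letI := algebraAlong φ
  letI := algebraAlong ψ
  letI := algebraAlong (ψ.comp φ)
  haveI := isScalarTower_along φ
  haveI := isScalarTower_along ψ
  haveI := isScalarTower_along (ψ.comp φ)
  haveI := isIntegral_along φ hφ
  haveI := isIntegral_along ψ hψ
  haveI := isIntegral_along (ψ.comp φ) hψφ
  haveI : IsScalarTower F F₁ G₁ := IsScalarTower.of_algebraMap_eq (fun _ => rfl)
  exact (pushforward_pushforward (F := F) (F₁ := F₁) (G₁ := G₁) hdeg D).symm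

end Along

/-! ### `Pic⁰` -/

section Pic

variable {K F F₁ G₁ : Type*} [Field K] [Field F] [Field F₁] [Field G₁]
  [Algebra K F] [Algebra K F₁] [Algebra K G₁]

theorem pic0PullbackAlong_congr [HasPrincipalDivisors K F₁] {φ φ' : F →ₐ[K] F₁} (h : φ = φ')
    (hφ : φ.toRingHom.IsIntegral) (hφ' : φ'.toRingHom.IsIntegral)
    (hFI : FundamentalIdentityAlong K φ hφ) (hFI' : FundamentalIdentityAlong K φ' hφ')
    (y : Pic0 K F) : pic0PullbackAlong φ hφ hFI y = pic0PullbackAlong φ' hφ' hFI' y := by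
  subst h
  rfl

theorem pic0PushAlong_congr {φ φ' : F →ₐ[K] F₁} (h : φ = φ')
    (hφ : φ.toRingHom.IsIntegral) (hφ' : φ'.toRingHom.IsIntegral)
    (hfin : FiniteAlong K φ) (hfin' : FiniteAlong K φ')
    (hN : NormFormulaAlong K φ hfin) (hN' : NormFormulaAlong K φ' hfin')
    (y : Pic0 K F₁) : pic0PushAlong φ hφ hfin hN y = pic0PushAlong φ' hφ' hfin' hN' y := by
  subst h
  rfl

/-- **`(ψ ∘ φ)^* = ψ^* ∘ φ^*`** on `Pic⁰`. -/
theorem pic0PullbackAlong_comp [HasPrincipalDivisors K F₁] [HasPrincipalDivisors K G₁]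
    (φ : F →ₐ[K] F₁) (ψ : F₁ →ₐ[K] G₁) (hφ : φ.toRingHom.IsIntegral)
    (hψ : ψ.toRingHom.IsIntegral) (hψφ : (ψ.comp φ).toRingHom.IsIntegral)
    (hFIφ : FundamentalIdentityAlong K φ hφ) (hFIψ : FundamentalIdentityAlong K ψ hψ)
    (hFIψφ : FundamentalIdentityAlong K (ψ.comp φ) hψφ) (y : Pic0 K F) :
    pic0PullbackAlong (ψ.comp φ) hψφ hFIψφ y =
      pic0PullbackAlong ψ hψ hFIψ (pic0PullbackAlong φ hφ hFIφ y) := by
  obtain ⟨D, rfl⟩ := Pic0.mk_surjective y
  rw [pic0PullbackAlong_mk, pic0PullbackAlong_mk, pic0PullbackAlong_mk]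
  congr 1
  apply Subtype.ext
  exact pullbackAlong_comp φ ψ hφ hψ hψφ (D : Divisor K F)

/-- **`(ψ ∘ φ)_* = φ_* ∘ ψ_*`** on `Pic⁰`. -/
theorem pic0PushAlong_comp (φ : F →ₐ[K] F₁) (ψ : F₁ →ₐ[K] G₁) (hφ : φ.toRingHom.IsIntegral)
    (hψ : ψ.toRingHom.IsIntegral) (hψφ : (ψ.comp φ).toRingHom.IsIntegral)
    (hfinφ : FiniteAlong K φ) (hfinψ : FiniteAlong K ψ) (hfinψφ : FiniteAlong K (ψ.comp φ))
    (hNφ : NormFormulaAlong K φ hfinφ) (hNψ : NormFormulaAlong K ψ hfinψ)
    (hNψφ : NormFormulaAlong K (ψ.comp φ) hfinψφ)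
    (hdeg : ∀ v : Place K F, v.deg ≠ 0) (y : Pic0 K G₁) :
    pic0PushAlong (ψ.comp φ) hψφ hfinψφ hNψφ y =
      pic0PushAlong φ hφ hfinφ hNφ (pic0PushAlong ψ hψ hfinψ hNψ y) := by
  obtain ⟨D, rfl⟩ := Pic0.mk_surjective y
  rw [pic0PushAlong_mk, pic0PushAlong_mk, pic0PushAlong_mk]
  congr 1
  apply Subtype.ext
  exact pushforwardAlong_comp φ ψ hφ hψ hψφ hdeg (D : Divisor K G₁)

end Pic

/-! ### squares -/

section Squares

variable {K F F₁ G G₁ : Type*} [Field K] [Field F] [Field F₁] [Field G] [Field G₁]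
  [Algebra K F] [Algebra K F₁] [Algebra K G] [Algebra K G₁]

/-- **pull–pull**: a commutative square `ψ' ∘ φ = φ' ∘ ψ` gives `ψ'^* φ^* = φ'^* ψ^*`. -/
theorem pic0Pull_pull_of_comm [HasPrincipalDivisors K F₁] [HasPrincipalDivisors K G]
    [HasPrincipalDivisors K G₁]
    (φ : F →ₐ[K] F₁) (ψ : F →ₐ[K] G) (ψ' : F₁ →ₐ[K] G₁) (φ' : G →ₐ[K] G₁)
    (hcomm : ψ'.comp φ = φ'.comp ψ)
    (hφ : φ.toRingHom.IsIntegral) (hψ : ψ.toRingHom.IsIntegral)
    (hψ' : ψ'.toRingHom.IsIntegral) (hφ' : φ'.toRingHom.IsIntegral)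
    (hFIφ : FundamentalIdentityAlong K φ hφ) (hFIψ : FundamentalIdentityAlong K ψ hψ)
    (hFIψ' : FundamentalIdentityAlong K ψ' hψ') (hFIφ' : FundamentalIdentityAlong K φ' hφ')
    (y : Pic0 K F) :
    pic0PullbackAlong ψ' hψ' hFIψ' (pic0PullbackAlong φ hφ hFIφ y) =
      pic0PullbackAlong φ' hφ' hFIφ' (pic0PullbackAlong ψ hψ hFIψ y) := by
  obtain ⟨D, rfl⟩ := Pic0.mk_surjective y
  rw [pic0PullbackAlong_mk, pic0PullbackAlong_mk, pic0PullbackAlong_mk, pic0PullbackAlong_mk]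
  congr 1
  apply Subtype.ext
  show Divisor.pullbackAlong ψ' hψ' (Divisor.pullbackAlong φ hφ (D : Divisor K F)) =
    Divisor.pullbackAlong φ' hφ' (Divisor.pullbackAlong ψ hψ (D : Divisor K F))
  rw [← pullbackAlong_comp φ ψ' hφ hψ' (isIntegral_comp φ ψ' hφ hψ'),
    ← pullbackAlong_comp ψ φ' hψ hφ' (isIntegral_comp ψ φ' hψ hφ')]
  exact pullbackAlong_congr hcomm _ _ _

/-- **push–push**: a commutative square `ψ' ∘ φ = φ' ∘ ψ` gives `φ_* ψ'_* = ψ_* φ'_*`. -/
theorem pic0Push_push_of_comm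
    (φ : F →ₐ[K] F₁) (ψ : F →ₐ[K] G) (ψ' : F₁ →ₐ[K] G₁) (φ' : G →ₐ[K] G₁)
    (hcomm : ψ'.comp φ = φ'.comp ψ)
    (hφ : φ.toRingHom.IsIntegral) (hψ : ψ.toRingHom.IsIntegral)
    (hψ' : ψ'.toRingHom.IsIntegral) (hφ' : φ'.toRingHom.IsIntegral)
    (hfinφ : FiniteAlong K φ) (hfinψ : FiniteAlong K ψ)
    (hfinψ' : FiniteAlong K ψ') (hfinφ' : FiniteAlong K φ')
    (hNφ : NormFormulaAlong K φ hfinφ) (hNψ : NormFormulaAlong K ψ hfinψ)
    (hNψ' : NormFormulaAlong K ψ' hfinψ') (hNφ' : NormFormulaAlong K φ' hfinφ')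
    (hdeg : ∀ v : Place K F, v.deg ≠ 0) (y : Pic0 K G₁) :
    pic0PushAlong φ hφ hfinφ hNφ (pic0PushAlong ψ' hψ' hfinψ' hNψ' y) =
      pic0PushAlong ψ hψ hfinψ hNψ (pic0PushAlong φ' hφ' hfinφ' hNφ' y) := by
  obtain ⟨D, rfl⟩ := Pic0.mk_surjective y
  rw [pic0PushAlong_mk, pic0PushAlong_mk, pic0PushAlong_mk, pic0PushAlong_mk]
  congr 1
  apply Subtype.ext
  show Divisor.pushforwardAlong φ hφ (Divisor.pushforwardAlong ψ' hψ' (D : Divisor K G₁)) =
    Divisor.pushforwardAlong ψ hψ (Divisor.pushforwardAlong φ' hφ' (D : Divisor K G₁))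
  rw [← pushforwardAlong_comp φ ψ' hφ hψ' (isIntegral_comp φ ψ' hφ hψ') hdeg,
    ← pushforwardAlong_comp ψ φ' hψ hφ' (isIntegral_comp ψ φ' hψ hφ') hdeg]
  exact pushforwardAlong_congr hcomm _ _ _

/-- **pull–push (base change)** on `Pic⁰`: for a commutative square `a' ∘ p = p' ∘ a` with compatible
norms, `p^* a_* = a'_* p'^*`. -/
theorem pic0Pull_push_of_square
    [HasPrincipalDivisors K F₁] [HasPrincipalDivisors K G] [HasPrincipalDivisors K G₁]
    (a : F →ₐ[K] F₁) (p : F →ₐ[K] G) (a' : G →ₐ[K] G₁) (p' : F₁ →ₐ[K] G₁)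
    (hcomm : a'.comp p = p'.comp a)
    (ha : a.toRingHom.IsIntegral) (hp : p.toRingHom.IsIntegral)
    (ha' : a'.toRingHom.IsIntegral) (hp' : p'.toRingHom.IsIntegral)
    (hfin : FiniteAlong K a) (hfin' : FiniteAlong K a')
    (hN : NormFormulaAlong K a hfin) (hN' : NormFormulaAlong K a' hfin')
    (hFIp : FundamentalIdentityAlong K p hp) (hFIp' : FundamentalIdentityAlong K p' hp')
    (hnorm : ∀ f : F₁, normAlong a' (p' f) = p (normAlong a f)) (y : Pic0 K F₁) :
    pic0PullbackAlong p hp hFIp (pic0PushAlong a ha hfin hN y) =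
      pic0PushAlong a' ha' hfin' hN' (pic0PullbackAlong p' hp' hFIp' y) := by
  obtain ⟨D, rfl⟩ := Pic0.mk_surjective y
  rw [pic0PushAlong_mk, pic0PullbackAlong_mk, pic0PullbackAlong_mk, pic0PushAlong_mk]
  congr 1
  apply Subtype.ext
  exact pullbackAlong_pushforwardAlong a p a' p' hcomm ha hp ha' hp' hfin hfin' hN hN' hnorm
    (D : Divisor K F₁)

end Squares

/-! ### the identity and automorphisms -/

section Identity

variable {K F : Type*} [Field K] [Field F] [Algebra K F]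

theorem isIntegral_id : (AlgHom.id K F).toRingHom.IsIntegral := fun x =>
  ⟨Polynomial.X - Polynomial.C x, Polynomial.monic_X_sub_C x, by simp⟩

theorem restrictAlong_id (h : (AlgHom.id K F).toRingHom.IsIntegral) (w : Place K F) :
    w.restrictAlong (AlgHom.id K F) h = w :=
  Place.ext (by ext f; rfl)

theorem ramificationIndexAlong_id (w : Place K F) :
    Place.ramificationIndexAlong (AlgHom.id K F) w = 1 := by
  obtain ⟨π, hπ⟩ := IsDiscreteValuationRing.exists_irreducible w.toValuationSubring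
  have h := Place.ord_restrictAlong (AlgHom.id K F) isIntegral_id w (π : F)
  rw [restrictAlong_id, AlgHom.id_apply, w.ord_coe_irreducible hπ, mul_one] at h
  exact_mod_cast h.symm

theorem pullbackAlong_id [HasPrincipalDivisors K F] (h : (AlgHom.id K F).toRingHom.IsIntegral)
    (D : Divisor K F) : Divisor.pullbackAlong (AlgHom.id K F) h D = D := by
  ext w
  rw [Divisor.pullbackAlong_apply, restrictAlong_id, ramificationIndexAlong_id]
  simp

theorem pic0PullbackAlong_id [HasPrincipalDivisors K F]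
    (h : (AlgHom.id K F).toRingHom.IsIntegral)
    (hFI : FundamentalIdentityAlong K (AlgHom.id K F) h) (y : Pic0 K F) :
    pic0PullbackAlong (AlgHom.id K F) h hFI y = y := by
  obtain ⟨D, rfl⟩ := Pic0.mk_surjective y
  rw [pic0PullbackAlong_mk]
  congr 1
  apply Subtype.ext
  exact pullbackAlong_id h (D : Divisor K F)

end Identity

section Auto

variable {K F F₁ : Type*} [Field K] [Field F] [Field F₁] [Algebra K F] [Algebra K F₁]

/-- an isomorphism has degree one. -/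
theorem finrankAlong_of_bijective (φ : F →ₐ[K] F₁) (hφ : Function.Bijective φ) :
    finrankAlong K φ = 1 := by
  unfold finrankAlong
  letI := algebraAlong φ
  have h := Algebra.finrank_eq_of_equiv_equiv (RingEquiv.ofBijective φ hφ) (RingEquiv.refl F₁)
    (by ext x; rfl)
  rw [h]
  exact Module.finrank_self F₁

/-- **mutually inverse maps have mutually inverse pull-backs.** -/
theorem pic0Pull_pull_of_comp_eq_id [HasPrincipalDivisors K F] [HasPrincipalDivisors K F₁]
    (φ : F →ₐ[K] F₁) (ψ : F₁ →ₐ[K] F) (hcomp : ψ.comp φ = AlgHom.id K F)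
    (hφ : φ.toRingHom.IsIntegral) (hψ : ψ.toRingHom.IsIntegral)
    (hFIφ : FundamentalIdentityAlong K φ hφ) (hFIψ : FundamentalIdentityAlong K ψ hψ)
    (y : Pic0 K F) :
    pic0PullbackAlong ψ hψ hFIψ (pic0PullbackAlong φ hφ hFIφ y) = y := by
  obtain ⟨D, rfl⟩ := Pic0.mk_surjective y
  rw [pic0PullbackAlong_mk, pic0PullbackAlong_mk]
  congr 1
  apply Subtype.ext
  show Divisor.pullbackAlong ψ hψ (Divisor.pullbackAlong φ hφ (D : Divisor K F)) = _
  rw [← pullbackAlong_comp φ ψ hφ hψ (isIntegral_comp φ ψ hφ hψ),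
    pullbackAlong_congr hcomp _ isIntegral_id, pullbackAlong_id]

/-- **`g_* = (g⁻¹)^*`** : the push-forward along an isomorphism is the pull-back along its inverse. -/
theorem pic0Push_eq_pull_of_inverse [HasPrincipalDivisors K F] [HasPrincipalDivisors K F₁]
    (φ : F →ₐ[K] F₁) (ψ : F₁ →ₐ[K] F) (hcomp : φ.comp ψ = AlgHom.id K F₁)
    (hbij : Function.Bijective φ)
    (hφ : φ.toRingHom.IsIntegral) (hψ : ψ.toRingHom.IsIntegral)
    (hfin : FiniteAlong K φ) (hN : NormFormulaAlong K φ hfin)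
    (hFIφ : FundamentalIdentityAlong K φ hφ) (hFIψ : FundamentalIdentityAlong K ψ hψ)
    (hdeg : ∀ v : Place K F, v.deg ≠ 0) (y : Pic0 K F₁) :
    pic0PushAlong φ hφ hfin hN y = pic0PullbackAlong ψ hψ hFIψ y := by
  have h1 := pic0PushAlong_pullbackAlong φ hφ hfin hN hFIφ hdeg (pic0PullbackAlong ψ hψ hFIψ y)
  rw [finrankAlong_of_bijective φ hbij, one_smul,
    pic0Pull_pull_of_comp_eq_id ψ φ hcomp hψ hφ hFIψ hFIφ y] at h1
  exact h1

end Auto

end

end Fermat.Agent.MP.HECKE.PicFun6
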