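/-
Programme MP (row 38 via S44), chapter HECKE, lattice side (H4-3) (helper4):
**`2` is a bad prime of every integral model of the Frey curve.**

`j(E) = 2 ^ 8 (a ^ (2p) + a ^ p b ^ p + b ^ (2p)) ^ 3 / (a b c) ^ (2p)` has negative `2`-adic
valuation (`a` odd, `b` even, `p ≥ 5`), and `j = c₄ ^ 3 / Δ` for every Weierstrass model.
-/
import Mathlib
import Fermat.Prelude.Def_FLTPrelim_ModularRep
import Fermat.Agent.S13.FreyDelta

set_option autoImplicit false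
set_option linter.unusedSectionVars false
set_option linter.style.longLine false

namespace Fermat.Agent.MP.HECKE.Two4

open WeierstrassCurve

variable (P : FreyPackage)

/-- `c₄` of the Frey curve. -/
theorem freyCurve_c₄ :
    P.freyCurve.c₄ = ((P.a : ℚ) ^ P.p) ^ 2 + (P.a : ℚ) ^ P.p * (P.b : ℚ) ^ P.p +
      ((P.b : ℚ) ^ P.p) ^ 2 := by
  simp only [WeierstrassCurve.c₄, WeierstrassCurve.b₂, WeierstrassCurve.b₄, FreyPackage.freyCurve]
  ring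

theorem two_dvd_b : (2 : ℤ) ∣ P.b := (ZMod.intCast_zmod_eq_zero_iff_dvd P.b 2).1 P.hb2

theorem not_two_dvd_a : ¬ (2 : ℤ) ∣ P.a := by
  intro h
  have h4 : ((P.a : ℤ) : ZMod 4) = 3 := P.ha4
  obtain ⟨k, hk⟩ := h
  rw [hk] at h4
  push_cast at h4
  have : ∀ x : ZMod 4, (2 : ZMod 4) * x ≠ 3 := by decide
  exact this _ h4

/-- the integer `c₄` of the Frey curve is odd. -/
theorem not_two_dvd_c4 :
    ¬ (2 : ℤ) ∣ (P.a ^ P.p) ^ 2 + P.a ^ P.p * P.b ^ P.p + (P.b ^ P.p) ^ 2 := by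
  intro h
  have hb : (2 : ℤ) ∣ P.b ^ P.p := dvd_pow (two_dvd_b P) P.hp0
  have h1 : (2 : ℤ) ∣ (P.a ^ P.p) ^ 2 := by
    have h2 : (2 : ℤ) ∣ P.a ^ P.p * P.b ^ P.p + (P.b ^ P.p) ^ 2 :=
      dvd_add (dvd_mul_of_dvd_right hb _) (dvd_pow hb two_ne_zero)
    have := dvd_sub h h2
    rwa [add_assoc, add_sub_cancel_right] at this
  exact not_two_dvd_a P (Int.prime_two.dvd_of_dvd_pow (Int.prime_two.dvd_of_dvd_pow h1))

/-- **`2` divides the discriminant of every integral model of the Frey curve.** -/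
theorem two_dvd_Δ {W : WeierstrassCurve ℤ} (hW : W.IsIntegralModelOf P.freyCurve) :
    (2 : ℤ) ∣ W.Δ := by
  obtain ⟨C, hC⟩ := hW
  have hΔ : ((W.Δ : ℤ) : ℚ) = (C.u⁻¹ : ℚˣ) ^ 12 * P.freyCurve.Δ := by
    have := congrArg WeierstrassCurve.Δ hC
    rw [variableChange_Δ, map_Δ] at this
    rw [this]
    rfl
  have hc : ((W.c₄ : ℤ) : ℚ) = (C.u⁻¹ : ℚˣ) ^ 4 * P.freyCurve.c₄ := by
    have := congrArg WeierstrassCurve.c₄ hC
    rw [variableChange_c₄, map_c₄] at this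
    rw [this]
    rfl
  set C4 : ℤ := (P.a ^ P.p) ^ 2 + P.a ^ P.p * P.b ^ P.p + (P.b ^ P.p) ^ 2 with hC4
  have hC4q : P.freyCurve.c₄ = (C4 : ℚ) := by
    rw [freyCurve_c₄, hC4]
    push_cast
    ring
  -- the key identity in `ℤ`
  have key : W.c₄ ^ 3 * ((P.a ^ P.p) ^ 2 * (P.b ^ P.p) ^ 2 * (P.c ^ P.p) ^ 2) =
      256 * C4 ^ 3 * W.Δ := by
    have : ((W.c₄ ^ 3 * ((P.a ^ P.p) ^ 2 * (P.b ^ P.p) ^ 2 * (P.c ^ P.p) ^ 2) : ℤ) : ℚ) =
        ((256 * C4 ^ 3 * W.Δ : ℤ) : ℚ) := by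
      push_cast
      rw [hc, hΔ, Fermat.Agent.S13.FreyDelta.freyCurve_Δ, hC4q]
      ring
    exact_mod_cast this
  by_contra h2
  -- `2 ^ 9` divides the left side
  have hb : (2 : ℤ) ^ 10 ∣ (P.b ^ P.p) ^ 2 := by
    have h1 : (2 : ℤ) ^ 5 ∣ P.b ^ P.p :=
      (pow_dvd_pow_of_dvd (two_dvd_b P) 5).trans (pow_dvd_pow P.b P.hp5)
    have := pow_dvd_pow_of_dvd h1 2
    rwa [← pow_mul] at this
  have h9 : (2 : ℤ) ^ 9 ∣ 256 * C4 ^ 3 * W.Δ := by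
    rw [← key]
    refine Dvd.dvd.mul_left ?_ _
    refine Dvd.dvd.mul_right (Dvd.dvd.mul_left ?_ _) _
    exact (pow_dvd_pow 2 (by norm_num)).trans hb
  have h1 : (2 : ℤ) ∣ C4 ^ 3 * W.Δ := by
    have h256 : (256 : ℤ) * C4 ^ 3 * W.Δ = 2 ^ 8 * (C4 ^ 3 * W.Δ) := by ring
    rw [h256, show (2 : ℤ) ^ 9 = 2 ^ 8 * 2 by norm_num] at h9
    exact (mul_dvd_mul_iff_left (by norm_num)).mp h9
  rcases Int.prime_two.dvd_or_dvd h1 with h3 | h3
  · exact not_two_dvd_c4 P (Int.prime_two.dvd_of_dvd_pow h3)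
  · exact h2 h3

/-- **(Two)**: `2` is not a good prime of any integral model of the Frey curve. -/
theorem not_isGoodPrimeFor_two {W : WeierstrassCurve ℤ} (hW : W.IsIntegralModelOf P.freyCurve) :
    ¬ W.IsGoodPrimeFor 2 := by
  intro h
  exact h (by exact_mod_cast two_dvd_Δ P hW)

end Fermat.Agent.MP.HECKE.Two4
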